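import Mathlib
import Fermat.Prelude.Def_AlgebraicCurve_DivisorClassGroup

/-!
# P-S44 (C2, DIAG = G3), abstract core: Eisenstein subtraction at the level of functions

`κ / k` a function field (Prelude `Place` vocabulary), `p` a prime, `NC` a predicate on places (the
non-cuspidal places), `Nn : κ →* κ` a multiplicative operator (in the application the reduced Hecke
operator `g ↦ Norm_{β̄}(ᾱ g)` at a prime `l`).  Hypotheses:

* `hkey` **(KEY')** : if `p ∣ ord_P g` at every non-cuspidal `P` then `p ∣ ord_P (Nn g)` at every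
  non-cuspidal `P`;
* `hf` : `Nn fb = c₁ * fb ^ a * h ^ p` (the class of `fb` is a `T_l`-eigenclass with eigenvalue `a`);
* `hU` : `Nn Ub = c₂ * Ub ^ (l + 1) * h' ^ p` (the reference function is Eisenstein);
* `hslope`, `hslope'`, `href`, `href'` : modulo `p` the orders of `fb` (resp. `Ub`) at the
  non-cuspidal places are `c` (resp. `e₀ ≠ 0`) on a set `S` of places and `0` outside `S`;
* `hNE` : `a ≠ l + 1` modulo `p`; `S` contains a non-cuspidal place.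

Conclusion `diag_zero` : `c = 0`.  (`g := fb ^ e * Ub ^ m` with `e ≡ e₀`, `m ≡ -c` has all orders
divisible by `p` off the cusps; compare `ord_P (Nn g)` computed in two ways at a place of `S`.)

Mathlib + Prelude `Place` only.
-/

set_option autoImplicit false

namespace Fermat.Agent.S40x.Diag.Abs

open AlgebraicCurve

variable {k κ : Type*} [Field k] [Field κ] [Algebra k κ]

theorem ord_pow' (P : Place k κ) (f : κ) (n : ℕ) : P.ord (f ^ n) = (n : ℤ) * P.ord f := by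
  rw [← zpow_natCast, P.ord_zpow]

/-- the order modulo `p` -/
noncomputable def ordMod (p : ℕ) (P : Place k κ) (f : κ) : ZMod p := ((P.ord f : ℤ) : ZMod p)

theorem ordMod_mul (p : ℕ) (P : Place k κ) {f g : κ} (hf : f ≠ 0) (hg : g ≠ 0) :
    ordMod p P (f * g) = ordMod p P f + ordMod p P g := by
  rw [ordMod, P.ord_mul hf hg, Int.cast_add]
  rfl

theorem ordMod_pow (p : ℕ) (P : Place k κ) (f : κ) (n : ℕ) :
    ordMod p P (f ^ n) = (n : ZMod p) * ordMod p P f := by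
  rw [ordMod, ord_pow', Int.cast_mul, Int.cast_natCast]
  rfl

theorem ordMod_pow_self (p : ℕ) (P : Place k κ) (f : κ) : ordMod p P (f ^ p) = 0 := by
  rw [ordMod_pow, ZMod.natCast_self, zero_mul]

theorem ordMod_eq_zero_iff (p : ℕ) (P : Place k κ) (f : κ) :
    ordMod p P f = 0 ↔ (p : ℤ) ∣ P.ord f := by
  rw [ordMod, ZMod.intCast_zmod_eq_zero_iff_dvd]

/-- **DIAG, abstract core.** -/
theorem diag_zero (p : ℕ) [Fact p.Prime] (NC : Place k κ → Prop) (Nn : κ →* κ)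
    (hkey : ∀ g : κ, g ≠ 0 → (∀ P, NC P → (p : ℤ) ∣ P.ord g) →
      ∀ P, NC P → (p : ℤ) ∣ P.ord (Nn g))
    {fb Ub : κ} (hfb : fb ≠ 0) (hUb : Ub ≠ 0) (a l : ℕ)
    (hf : ∃ c₁ h : κ, c₁ ≠ 0 ∧ h ≠ 0 ∧ (∀ P : Place k κ, P.ord c₁ = 0) ∧
      Nn fb = c₁ * fb ^ a * h ^ p)
    (hU : ∃ c₂ h' : κ, c₂ ≠ 0 ∧ h' ≠ 0 ∧ (∀ P : Place k κ, P.ord c₂ = 0) ∧
      Nn Ub = c₂ * Ub ^ (l + 1) * h' ^ p)
    (S : Set (Place k κ)) (c e₀ : ZMod p)
    (hslope : ∀ P, NC P → P ∈ S → ordMod p P fb = c)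
    (hslope' : ∀ P, NC P → P ∉ S → ordMod p P fb = 0)
    (href : ∀ P, NC P → P ∈ S → ordMod p P Ub = e₀)
    (href' : ∀ P, NC P → P ∉ S → ordMod p P Ub = 0)
    (he₀ : e₀ ≠ 0) (hS : ∃ P, P ∈ S ∧ NC P)
    (hNE : (a : ZMod p) ≠ (l : ZMod p) + 1) : c = 0 := by
  classical
  haveI : NeZero p := ⟨(Fact.out : p.Prime).ne_zero⟩
  obtain ⟨c₁, h, hc₁, hh, hc₁ord, hNf⟩ := hf
  obtain ⟨c₂, h', hc₂, hh', hc₂ord, hNU⟩ := hU
  -- natural representatives `e ≡ e₀`, `m ≡ -c`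
  obtain ⟨e, he⟩ : ∃ e : ℕ, (e : ZMod p) = e₀ := ⟨e₀.val, ZMod.natCast_zmod_val e₀⟩
  obtain ⟨m, hm⟩ : ∃ m : ℕ, (m : ZMod p) = -c := ⟨(-c).val, ZMod.natCast_zmod_val (-c)⟩
  set g : κ := fb ^ e * Ub ^ m with hg
  have hfe : fb ^ e ≠ 0 := pow_ne_zero _ hfb
  have hUm : Ub ^ m ≠ 0 := pow_ne_zero _ hUb
  have hg0 : g ≠ 0 := mul_ne_zero hfe hUm
  -- the orders of `g` off the cusps are divisible by `p`
  have hgord : ∀ P, NC P → ordMod p P g = 0 := by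
    intro P hP
    rw [hg, ordMod_mul p P hfe hUm, ordMod_pow, ordMod_pow, he, hm]
    by_cases hPS : P ∈ S
    · rw [hslope P hP hPS, href P hP hPS]
      ring
    · rw [hslope' P hP hPS, href' P hP hPS]
      ring
  have hgdvd : ∀ P, NC P → (p : ℤ) ∣ P.ord g := fun P hP =>
    (ordMod_eq_zero_iff p P g).1 (hgord P hP)
  -- hence the same for `Nn g`
  have hNg : ∀ P, NC P → ordMod p P (Nn g) = 0 := fun P hP =>
    (ordMod_eq_zero_iff p P _).2 (hkey g hg0 hgdvd P hP)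
  -- compute `Nn g`
  have hNg' : Nn g = (c₁ * fb ^ a * h ^ p) ^ e * (c₂ * Ub ^ (l + 1) * h' ^ p) ^ m := by
    rw [hg, map_mul, map_pow, map_pow, hNf, hNU]
  obtain ⟨P, hPS, hPNC⟩ := hS
  have h0 := hNg P hPNC
  have hfa : fb ^ a ≠ 0 := pow_ne_zero _ hfb
  have hUl : Ub ^ (l + 1) ≠ 0 := pow_ne_zero _ hUb
  have hhp : h ^ p ≠ 0 := pow_ne_zero _ hh
  have hhp' : h' ^ p ≠ 0 := pow_ne_zero _ hh'
  have h1 : ordMod p P (c₁ * fb ^ a * h ^ p) = (a : ZMod p) * c := by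
    rw [ordMod_mul p P (mul_ne_zero hc₁ hfa) hhp, ordMod_mul p P hc₁ hfa, ordMod_pow_self,
      ordMod_pow, hslope P hPNC hPS, ordMod, hc₁ord P]
    simp
  have h2 : ordMod p P (c₂ * Ub ^ (l + 1) * h' ^ p) = ((l : ZMod p) + 1) * e₀ := by
    rw [ordMod_mul p P (mul_ne_zero hc₂ hUl) hhp', ordMod_mul p P hc₂ hUl, ordMod_pow_self,
      ordMod_pow, href P hPNC hPS, ordMod, hc₂ord P]
    simp
  have hA : c₁ * fb ^ a * h ^ p ≠ 0 := mul_ne_zero (mul_ne_zero hc₁ hfa) hhp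
  have hB : c₂ * Ub ^ (l + 1) * h' ^ p ≠ 0 := mul_ne_zero (mul_ne_zero hc₂ hUl) hhp'
  rw [hNg', ordMod_mul p P (pow_ne_zero _ hA) (pow_ne_zero _ hB), ordMod_pow, ordMod_pow, h1, h2,
    he, hm] at h0
  -- `e₀ * (a * c) - c * ((l + 1) * e₀) = 0`
  have h3 : e₀ * c * ((a : ZMod p) - ((l : ZMod p) + 1)) = 0 := by
    rw [← h0]; ring
  have hne : (a : ZMod p) - ((l : ZMod p) + 1) ≠ 0 := sub_ne_zero.2 hNE
  rcases mul_eq_zero.1 h3 with h4 | h4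
  · rcases mul_eq_zero.1 h4 with h5 | h5
    · exact absurd h5 he₀
    · exact h5
  · exact absurd h4 hne

/-- **DIAG, consumer form**: all orders of `fb` off the cusps are divisible by `p`. -/
theorem diag_dvd (p : ℕ) [Fact p.Prime] (NC : Place k κ → Prop) (Nn : κ →* κ)
    (hkey : ∀ g : κ, g ≠ 0 → (∀ P, NC P → (p : ℤ) ∣ P.ord g) →
      ∀ P, NC P → (p : ℤ) ∣ P.ord (Nn g))
    {fb Ub : κ} (hfb : fb ≠ 0) (hUb : Ub ≠ 0) (a l : ℕ)
    (hf : ∃ c₁ h : κ, c₁ ≠ 0 ∧ h ≠ 0 ∧ (∀ P : Place k κ, P.ord c₁ = 0) ∧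
      Nn fb = c₁ * fb ^ a * h ^ p)
    (hU : ∃ c₂ h' : κ, c₂ ≠ 0 ∧ h' ≠ 0 ∧ (∀ P : Place k κ, P.ord c₂ = 0) ∧
      Nn Ub = c₂ * Ub ^ (l + 1) * h' ^ p)
    (S : Set (Place k κ)) (c e₀ : ZMod p)
    (hslope : ∀ P, NC P → P ∈ S → ordMod p P fb = c)
    (hslope' : ∀ P, NC P → P ∉ S → ordMod p P fb = 0)
    (href : ∀ P, NC P → P ∈ S → ordMod p P Ub = e₀)
    (href' : ∀ P, NC P → P ∉ S → ordMod p P Ub = 0)
    (he₀ : e₀ ≠ 0)
    (hNE : (a : ZMod p) ≠ (l : ZMod p) + 1) : ∀ P, NC P → (p : ℤ) ∣ P.ord fb := by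
  classical
  intro P hP
  rw [← ordMod_eq_zero_iff]
  by_cases hPS : P ∈ S
  · rw [hslope P hP hPS]
    exact diag_zero p NC Nn hkey hfb hUb a l hf hU S c e₀ hslope hslope' href href' he₀
      ⟨P, hPS, hP⟩ hNE
  · exact hslope' P hP hPS

end Fermat.Agent.S40x.Diag.Abs
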