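import Mathlib
import Fermat.Prelude.Def_AlgebraicCurve_DivisorClassGroup
import Fermat.Agent.S40x.C2.DerivKernel

/-!
# P-S44, DIAG (G3), route DIAG-N: the abstract core

Setting of `C2/AsmAbs`: a function field `E / k` (`k` perfect of characteristic `p`), a
`k`-derivation `Dq : E → M` into an `E`-module (`E = Fk k M̂`, `M = k((q))`, `Dq = θ_q ∘ coe`), a
logarithmic derivative `dl` (`f • dl f = Dq f`) and an additive operator `H` on `M` (the formal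
Hecke operator `T_ℓ`).  `NC` is the set of non-cuspidal places of `E`, `Nd ⊆ NC` the node places.

Inputs:

* `fb` (the reduction of a Kummer function) has `ord_P fb ≡ c` at the node places and
  `p ∣ ord_P fb` at the other non-cuspidal places (output of C3);
* `φE` (the reduction of the Eisenstein unit `Δ(q^p)/Δ(q)`) has `ord_P φE ≡ e₀` at the node places,
  `p ∤ e₀`, and `p ∣ ord_P φE` at the other non-cuspidal places;
* `H (dl fb) = a • dl fb` (leaf KH), `H (dl φE) = (ℓ + 1) • dl φE` (`E₂` is Eisenstein);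
* `hAB`: the lattice `Λ = {φ | p ∣ ord_P φ at every non-cuspidal P}` is stable under the
  multiplicative Hecke operator: for `φ ∈ Λ` there is `φ' ∈ Λ` with `dl φ' = H (dl φ)`
  (`φ' = N_α (β φ)`; `DiagNStable.dvd_ord_normAlong_comp` + the reduced norm formula);
* `a ≢ ℓ + 1 mod p` (non-Eisenstein).

Conclusion (`diag_core`): `p ∣ c`.  Proof: choose `m` with `c + m e₀ ≡ 0`; `φ := fb * φE ^ m ∈ Λ`;
then `dl φ' = dl (fb ^ a * φE ^ (m (ℓ + 1)))`, so `φ' = fb ^ a * φE ^ (m (ℓ + 1)) * g ^ p`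
(kernel of a derivation, `DerivKernel`); the order at a node place gives `(a - ℓ - 1) c ≡ 0`.
-/

set_option autoImplicit false

noncomputable section

namespace Fermat.Agent.S40x.Diag.DiagNCore

open AlgebraicCurve IntermediateField

section Dlog

variable {k E M : Type*} [Field k] [Field E] [Algebra k E] [AddCommGroup M] [Module E M]
  [Module k M] (Dq : Derivation k E M) (dl : E → M)
  (hdl : ∀ f : E, f ≠ 0 → f • dl f = Dq f)

include hdl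

theorem dl_one : dl 1 = 0 := by
  have h := hdl 1 one_ne_zero
  rwa [one_smul, Derivation.map_one_eq_zero] at h

theorem dl_mul {f g : E} (hf : f ≠ 0) (hg : g ≠ 0) : dl (f * g) = dl f + dl g := by
  have hfg : f * g ≠ 0 := mul_ne_zero hf hg
  have h1 : (f * g) • dl (f * g) = (f * g) • (dl f + dl g) := by
    rw [hdl _ hfg, Derivation.leibniz, ← hdl f hf, ← hdl g hg, smul_add, smul_smul, smul_smul,
      mul_comm g f, add_comm]
  exact smul_right_injective M hfg h1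

theorem dl_inv {f : E} (hf : f ≠ 0) : dl f⁻¹ = -dl f := by
  have h := dl_mul Dq dl hdl hf (inv_ne_zero hf)
  rw [mul_inv_cancel₀ hf, dl_one Dq dl hdl] at h
  exact (neg_eq_of_add_eq_zero_right h.symm).symm

theorem dl_pow {f : E} (hf : f ≠ 0) (n : ℕ) : dl (f ^ n) = n • dl f := by
  induction n with
  | zero => rw [pow_zero, zero_smul, dl_one Dq dl hdl]
  | succ n ih =>
    rw [pow_succ, dl_mul Dq dl hdl (pow_ne_zero n hf) hf, ih, succ_nsmul]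

theorem dl_zpow {f : E} (hf : f ≠ 0) (n : ℤ) : dl (f ^ n) = n • dl f := by
  cases n with
  | ofNat n => rw [Int.ofNat_eq_natCast, zpow_natCast, natCast_zsmul, dl_pow Dq dl hdl hf]
  | negSucc n =>
    rw [zpow_negSucc, dl_inv Dq dl hdl (pow_ne_zero _ hf), dl_pow Dq dl hdl hf, negSucc_zsmul]

theorem Dq_eq_zero_of_dl_eq_zero {f : E} (hf : f ≠ 0) (h : dl f = 0) : Dq f = 0 := by
  rw [← hdl f hf, h, smul_zero]

end Dlog

section Core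

variable {k E M : Type*} [Field k] [Field E] [Algebra k E] [AddCommGroup M] [Module E M]
  [Module k M]

/-- **DIAG-N, abstract core**, with the kernel of the derivation as a hypothesis `hPTH`. -/
theorem diag_core_of_kernel (p : ℕ) [hp : Fact p.Prime]
    (Dq : Derivation k E M) (dl : E → M) (hdl : ∀ f : E, f ≠ 0 → f • dl f = Dq f)
    (hPTH : ∀ f : E, f ≠ 0 → Dq f = 0 → ∀ P : Place k E, (p : ℤ) ∣ P.ord f)
    (NC Nd : Set (Place k E)) (hNd : Nd ⊆ NC) (hne : Nd.Nonempty)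
    (H : M →+ M) {fb φE : E} (hfb : fb ≠ 0) (hφE : φE ≠ 0) (c e₀ a : ℤ) (ℓ : ℕ)
    (hfbN : ∀ P ∈ Nd, (p : ℤ) ∣ P.ord fb - c)
    (hfbS : ∀ P ∈ NC, P ∉ Nd → (p : ℤ) ∣ P.ord fb)
    (hEN : ∀ P ∈ Nd, (p : ℤ) ∣ P.ord φE - e₀)
    (hES : ∀ P ∈ NC, P ∉ Nd → (p : ℤ) ∣ P.ord φE)
    (he₀ : ¬ (p : ℤ) ∣ e₀)
    (hKH : H (dl fb) = a • dl fb)
    (hEis : H (dl φE) = ((ℓ : ℤ) + 1) • dl φE)
    (hAB : ∀ φ : E, φ ≠ 0 → (∀ P ∈ NC, (p : ℤ) ∣ P.ord φ) →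
      ∃ φ' : E, φ' ≠ 0 ∧ (∀ P ∈ NC, (p : ℤ) ∣ P.ord φ') ∧ dl φ' = H (dl φ))
    (hNE : ¬ (p : ℤ) ∣ a - ((ℓ : ℤ) + 1)) :
    (p : ℤ) ∣ c := by
  have hpZ : Prime (p : ℤ) := Nat.prime_iff_prime_int.mp hp.out
  -- choose `m` with `c + m * e₀ ≡ 0`
  obtain ⟨m, r, hm⟩ : ∃ m r : ℤ, c + m * e₀ = p * r := by
    have hcop : IsCoprime (p : ℤ) e₀ := hpZ.irreducible.coprime_iff_not_dvd.mpr he₀
    obtain ⟨u, v, huv⟩ := hcop
    exact ⟨-c * v, c * u, by linear_combination (-c) * huv⟩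
  set φ : E := fb * φE ^ m with hφdef
  have hφEm : φE ^ m ≠ 0 := zpow_ne_zero m hφE
  have hφ : φ ≠ 0 := mul_ne_zero hfb hφEm
  have hordφ : ∀ P : Place k E, P.ord φ = P.ord fb + m * P.ord φE := fun P => by
    rw [hφdef, P.ord_mul hfb hφEm, P.ord_zpow]
  have hφΛ : ∀ P ∈ NC, (p : ℤ) ∣ P.ord φ := by
    intro P hP
    rw [hordφ P]
    by_cases hPn : P ∈ Nd
    · obtain ⟨s, hs⟩ := hfbN P hPn
      obtain ⟨t, ht⟩ := hEN P hPn
      exact ⟨s + m * t + r, by linear_combination hs + m * ht + hm⟩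
    · exact dvd_add (hfbS P hP hPn) (dvd_mul_of_dvd_right (hES P hP hPn) m)
  obtain ⟨φ', hφ', hφ'Λ, hdlφ'⟩ := hAB φ hφ hφΛ
  -- the logarithmic derivative of `φ'`
  have hdlφ : dl φ = dl fb + m • dl φE := by
    rw [hφdef, dl_mul Dq dl hdl hfb hφEm, dl_zpow Dq dl hdl hφE]
  have hdl' : dl φ' = a • dl fb + (m * ((ℓ : ℤ) + 1)) • dl φE := by
    rw [hdlφ', hdlφ, map_add, map_zsmul, hKH, hEis, smul_smul]
  -- `ψ := φ' * fb ^ (-a) * φE ^ (-(m (ℓ+1)))` has `dl ψ = 0`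
  obtain ⟨n, hn⟩ : ∃ n : ℤ, n = m * ((ℓ : ℤ) + 1) := ⟨_, rfl⟩
  rw [← hn] at hdl'
  set ψ : E := φ' * fb ^ (-a) * φE ^ (-n) with hψdef
  have h1 : fb ^ (-a) ≠ 0 := zpow_ne_zero _ hfb
  have h2 : φE ^ (-n) ≠ 0 := zpow_ne_zero _ hφE
  have hψ : ψ ≠ 0 := mul_ne_zero (mul_ne_zero hφ' h1) h2
  have hdlψ : dl ψ = 0 := by
    rw [hψdef, dl_mul Dq dl hdl (mul_ne_zero hφ' h1) h2, dl_mul Dq dl hdl hφ' h1,
      dl_zpow Dq dl hdl hfb, dl_zpow Dq dl hdl hφE, hdl', neg_smul, neg_smul]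
    abel
  have hDψ : Dq ψ = 0 := Dq_eq_zero_of_dl_eq_zero Dq dl hdl hψ hdlψ
  -- orders at a node place
  obtain ⟨P, hPn⟩ := hne
  have hP : P ∈ NC := hNd hPn
  have hordψ : P.ord ψ = P.ord φ' + (-a) * P.ord fb + (-n) * P.ord φE := by
    rw [hψdef, P.ord_mul (mul_ne_zero hφ' h1) h2, P.ord_mul hφ' h1, P.ord_zpow, P.ord_zpow]
  obtain ⟨w, hw⟩ := hPTH ψ hψ hDψ P
  obtain ⟨w', hw'⟩ := hφ'Λ P hP
  obtain ⟨s, hs⟩ := hfbN P hPn
  obtain ⟨t, ht⟩ := hEN P hPn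
  have hkey : (p : ℤ) ∣ (a - ((ℓ : ℤ) + 1)) * c :=
    ⟨w' - w - a * s - n * t - ((ℓ : ℤ) + 1) * r, by
      subst hn
      linear_combination hordψ - hw + hw' - a * hs - m * ((ℓ : ℤ) + 1) * ht
        - ((ℓ : ℤ) + 1) * hm⟩
  exact (hpZ.dvd_or_dvd hkey).resolve_left hNE

/-- **DIAG-N, abstract core.**  `k` perfect of characteristic `p`, `E / k(t)` separable,
`Dq t ≠ 0`: the kernel hypothesis is supplied by `DerivKernel`. -/
theorem diag_core (p : ℕ) [hp : Fact p.Prime] [CharP k p] [PerfectField k]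
    (t : E) [Algebra.IsSeparable k⟮t⟯ E]
    (Dq : Derivation k E M) (hDt : Dq t ≠ 0) (dl : E → M)
    (hdl : ∀ f : E, f ≠ 0 → f • dl f = Dq f)
    (NC Nd : Set (Place k E)) (hNd : Nd ⊆ NC) (hne : Nd.Nonempty)
    (H : M →+ M) {fb φE : E} (hfb : fb ≠ 0) (hφE : φE ≠ 0) (c e₀ a : ℤ) (ℓ : ℕ)
    (hfbN : ∀ P ∈ Nd, (p : ℤ) ∣ P.ord fb - c)
    (hfbS : ∀ P ∈ NC, P ∉ Nd → (p : ℤ) ∣ P.ord fb)
    (hEN : ∀ P ∈ Nd, (p : ℤ) ∣ P.ord φE - e₀)
    (hES : ∀ P ∈ NC, P ∉ Nd → (p : ℤ) ∣ P.ord φE)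
    (he₀ : ¬ (p : ℤ) ∣ e₀)
    (hKH : H (dl fb) = a • dl fb)
    (hEis : H (dl φE) = ((ℓ : ℤ) + 1) • dl φE)
    (hAB : ∀ φ : E, φ ≠ 0 → (∀ P ∈ NC, (p : ℤ) ∣ P.ord φ) →
      ∃ φ' : E, φ' ≠ 0 ∧ (∀ P ∈ NC, (p : ℤ) ∣ P.ord φ') ∧ dl φ' = H (dl φ))
    (hNE : ¬ (p : ℤ) ∣ a - ((ℓ : ℤ) + 1)) :
    (p : ℤ) ∣ c := by
  refine diag_core_of_kernel p Dq dl hdl ?_ NC Nd hNd hne H hfb hφE c e₀ a ℓ hfbN hfbS hEN hES he₀
    hKH hEis hAB hNE
  intro f hf hDf P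
  obtain ⟨g, rfl⟩ := C2.DerivKernel.exists_pow_eq_of_derivation_eq_zero p t Dq hDt f hDf
  rw [← zpow_natCast, P.ord_zpow]
  exact dvd_mul_right _ _

end Core

end Fermat.Agent.S40x.Diag.DiagNCore

end
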