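import Fermat.Agent.S40x.Slope.InstMq
import Fermat.Agent.S40x.C2.KH.Main
import Fermat.Agent.S40x.C2.DelInst
import Fermat.Agent.S40x.Diag.DiagNCore
import Fermat.Agent.Gateway.GoodRed.TLineHurwitz

/-!
# P-S44, block DIAG (G3), leaf D-ASM (helper71): `diag_core` at the level `M q`

The abstract core `Diag/DiagNCore.diag_core` (helper54) instantiated at `E = Fk k M` (function field
of the component `C_∞` of the special fibre at a good level `M q`, `4 ∣ M`), `M = k((q))`,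
`Dq = θ_q ∘ coe` (`C2/DelInst.thetaDer`), `dl = dlog ∘ coe`, `H = heckeT ℓ` (formal weight 2 Hecke
operator), in the slope vocabulary of `Slope/InstMq` (helper47):

* `heckeTHom ℓ` : `heckeT ℓ` as an additive homomorphism;
* `exists_unit_rep` : a `q`-torsion class `x` has a Kummer function `w`, a unit at both Gauss
  valuations, with `fb := resInfty w ≠ 0`, `slopeInf x P = ord_P fb mod q` for every place `P`, and
  (Kummer–Hecke, landed `C2/KH`) `heckeT ℓ (dlog fb) = a * dlog fb` whenever `T_ℓ x = a • x`;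
* **`diag_Mq`** : if the slope vector of `x` on `C_∞` is `c` on a non-empty set `Nd` of places and
  `0` on `NC \ Nd`, `T_ℓ x = a • x` with `a ≢ ℓ + 1 mod q`, then `c = 0`.  Hypotheses (the other
  leaves of DIAG): the reference unit `φE` (`ord ≡ e₀ ≢ 0` on `Nd`, `≡ 0` on `NC \ Nd`, `dlog φE`
  Eisenstein) and the Hecke stability `hAB` of the lattice `Λ = {φ | q ∣ ord_P φ on NC}`.
-/

set_option autoImplicit false
set_option linter.style.haveILetI false
set_option linter.unusedSectionVars false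

noncomputable section

namespace Fermat.Agent.S40x.Diag.Asm

open ModularCurve AlgebraicCurve IntermediateField IsLocalRing
open Fermat.Agent.Gateway.Hecke Fermat.Agent.Gateway.ESC Fermat.Agent.Gateway.Kummer
open Fermat.Agent.Gateway.Red Fermat.Agent.Gateway.GoodRed
open Fermat.Agent.Gateway.GoodRed.ConjFamily
open Fermat.Agent.S34x.TwoVal Fermat.Agent.S34x.C0two
open Fermat.Agent.S34x.Inst.RedSetupInst Fermat.Agent.S34x.Inst
open Fermat.Agent.S40x.Slope.UnitTwo Fermat.Agent.S40x.Slope.SlopeInv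
open Fermat.Agent.S40x.Slope.InstMq
open Fermat.Agent.S40x.C2.DlogHecke

/-! ### `heckeT` as an additive homomorphism -/

/-- the formal Hecke operator of weight 2 as an additive homomorphism -/
def heckeTHom {R : Type*} [CommRing R] (ℓ : ℕ) [NeZero ℓ] : LaurentSeries R →+ LaurentSeries R :=
  AddMonoidHom.mk' (heckeT ℓ) (heckeT_add ℓ)

@[simp] theorem heckeTHom_apply {R : Type*} [CommRing R] (ℓ : ℕ) [NeZero ℓ] (φ : LaurentSeries R) :
    heckeTHom ℓ φ = heckeT ℓ φ := rfl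

/-! ### The Kummer function of a class and its reduction -/

section Rep

variable {L : Type} [Field L] [Algebra ℚ L] [IsAlgClosed L] [Algebra.IsAlgebraic ℚ L]
  {A : ValuationSubring L}
  {k : Type} [Field k] {π : A →+* k} [IsAlgClosed k]
variable {M q : ℕ} [NeZero M] [NeZero q] [Fact q.Prime] [CharP k q]
variable {hdeg : finrankAlong L (heckeAlphaBar L M q) = q + 1} {hq : q.Prime} {hqM : ¬ q ∣ M}
variable {hrk : ∀ x ∈ maximalIdeal A, ∀ c : A, c ≠ 0 → ∃ j : ℕ, c ∣ x ^ j}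
  {hπ : Function.Surjective π}
variable (H : ResidueFacts A π M q hdeg hq hqM hrk hπ) (hA : A.LiesOverPrime q)

/-- **The reduced Kummer function of a `q`-torsion class**: nonzero, computes the slopes on `C_∞`,
and is a `T_ℓ`-eigenvector at the level of logarithmic derivatives. -/
theorem exists_unit_rep {x : Pic0 L (FL L (M * q))} (hx : (q : ℤ) • x = 0) :
    ∃ fb : Fk k M, fb ≠ 0 ∧
      (∀ P : Place k (Fk k M), slopeInf H hA q x P = ((P.ord fb : ℤ) : ZMod q)) ∧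
      ∀ {ℓ : ℕ} [NeZero ℓ], ℓ.Prime → (ℓ : k) ≠ 0 →
        (∃ ζ : Lˣ, IsPrimitiveRoot ζ ℓ ∧ NormQExpFormula L (M * q) ℓ ζ) →
        ∀ a : ℤ, heckeOperatorAlong L (M * q) ℓ x = a • x →
          heckeT ℓ (dlog (fb : LaurentSeries k)) =
            (a : LaurentSeries k) * dlog (fb : LaurentSeries k) := by
  have hq0 : 0 < q := (Fact.out : q.Prime).pos
  obtain ⟨w, hw, hU⟩ := exists_unitTwo_rep (H := H) (hA := hA) hq0 hx
  have hwO : w ∈ valInfty A π M q hrk hπ hqM := hU.mem₁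
  refine ⟨resInfty H ⟨w, hwO⟩, ?_, fun P => ?_, ?_⟩
  · -- nonzero: `w` is a unit of the valuation ring
    intro h0
    have hwinv : w⁻¹ ∈ valInfty A π M q hrk hπ hqM := hU.inv.mem₁
    have h1 : resInfty H (⟨w, hwO⟩ * ⟨w⁻¹, hwinv⟩) = 1 := by
      have : (⟨w, hwO⟩ * ⟨w⁻¹, hwinv⟩ : valInfty A π M q hrk hπ hqM) = 1 :=
        Subtype.ext (mul_inv_cancel₀ hU.ne_zero)
      rw [this, map_one]
    rw [map_mul, h0, zero_mul] at h1
    exact zero_ne_one h1
  · rw [slopeInf_eq hq0 hw hU P, red_of_mem hwO]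
    rfl
  · intro ℓ _ hℓ hℓk hC1 a hxa
    obtain ⟨hfO, key⟩ := Fermat.Agent.S40x.C2.KH.heckeT_dlog_resInfty H hℓ hℓk hC1 hxa hw hU.1
    exact key

end Rep

/-! ### DIAG at the level `M q` -/

section Diag

variable {L : Type} [Field L] [Algebra ℚ L] [IsAlgClosed L] [Algebra.IsAlgebraic ℚ L]
  {A : ValuationSubring L}
  {k : Type} [Field k] {π : A →+* k} [IsAlgClosed k]
variable {M q : ℕ} [NeZero M] [NeZero q] [Fact q.Prime] [CharP k q]
variable {hdeg : finrankAlong L (heckeAlphaBar L M q) = q + 1} {hq : q.Prime} {hqM : ¬ q ∣ M}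
variable {hrk : ∀ x ∈ maximalIdeal A, ∀ c : A, c ≠ 0 → ∃ j : ℕ, c ∣ x ^ j}
  {hπ : Function.Surjective π}
variable (H : ResidueFacts A π M q hdeg hq hqM hrk hπ) (hA : A.LiesOverPrime q)

/-- **DIAG (G3) at the level `M q`.**  `NC` = the non-cuspidal places of `κ_∞ = Fk k M`, `Nd ⊆ NC`
the node places (non-empty).  If the slopes of the `q`-torsion class `x` on `C_∞` are `c` on `Nd`
and `0` on `NC \ Nd`, and `T_ℓ x = a • x` with `a ≢ ℓ + 1 mod q`, then `c = 0`. -/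
theorem diag_Mq (t : Fk k M) (ht : (t : LaurentSeries k) = TLine4.x4k k)
    {ℓ : ℕ} [NeZero ℓ] (hℓ : ℓ.Prime) (hℓk : (ℓ : k) ≠ 0)
    (hC1 : ∃ ζ : Lˣ, IsPrimitiveRoot ζ ℓ ∧ NormQExpFormula L (M * q) ℓ ζ)
    (NC Nd : Set (Place k (Fk k M))) (hNd : Nd ⊆ NC) (hne : Nd.Nonempty)
    -- the reference unit (leaves D-REFQ, D-REFORD)
    {φE : Fk k M} (hφE : φE ≠ 0) (e₀ : ℤ) (he₀ : ¬ (q : ℤ) ∣ e₀)
    (hEN : ∀ P ∈ Nd, (q : ℤ) ∣ P.ord φE - e₀)
    (hES : ∀ P ∈ NC, P ∉ Nd → (q : ℤ) ∣ P.ord φE)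
    (hEis : heckeT ℓ (dlog (φE : LaurentSeries k)) =
      ((ℓ + 1 : ℕ) : LaurentSeries k) * dlog (φE : LaurentSeries k))
    -- Hecke stability of the lattice `Λ` (leaves D-DEG, D-KEY, D-HECKE)
    (hAB : ∀ φ : Fk k M, φ ≠ 0 → (∀ P ∈ NC, (q : ℤ) ∣ P.ord φ) →
      ∃ φ' : Fk k M, φ' ≠ 0 ∧ (∀ P ∈ NC, (q : ℤ) ∣ P.ord φ') ∧
        dlog (φ' : LaurentSeries k) = heckeT ℓ (dlog (φ : LaurentSeries k)))
    -- the class
    {x : Pic0 L (FL L (M * q))} (hx : (q : ℤ) • x = 0) {a : ℕ}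
    (hxa : heckeOperatorAlong L (M * q) ℓ x = a • x)
    (hNE : ((a : ℕ) : ZMod q) ≠ (ℓ : ZMod q) + 1)
    (c : ZMod q) (hnode : ∀ P ∈ Nd, slopeInf H hA q x P = c)
    (hoff : ∀ P ∈ NC, P ∉ Nd → slopeInf H hA q x P = 0) :
    c = 0 := by
  have hqp : q.Prime := Fact.out
  have hMk : ((M : ℕ) : k) ≠ 0 := natCast_M_ne_zero hqM
  haveI : Algebra.IsSeparable k⟮t⟯ (Fk k M) := TLineHurwitz.isSeparable_t4 M hMk t ht
  obtain ⟨fb, hfb, hslope, hKH⟩ := exists_unit_rep H hA hx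
  have hxa' : heckeOperatorAlong L (M * q) ℓ x = ((a : ℕ) : ℤ) • x := by
    rw [hxa, natCast_zsmul]
  have hKH' := hKH hℓ hℓk hC1 ((a : ℕ) : ℤ) hxa'
  -- the integer lift of `c`
  have hcast : ∀ z : ℤ, ((z : ℤ) : ZMod q) = 0 ↔ (q : ℤ) ∣ z := fun z =>
    ZMod.intCast_zmod_eq_zero_iff_dvd z q
  have hdvd : (q : ℤ) ∣ ((c.val : ℕ) : ℤ) := by
    refine Fermat.Agent.S40x.Diag.DiagNCore.diag_core (k := k) (E := Fk k M)
      (M := LaurentSeries k) q t
      (Fermat.Agent.S40x.C2.DelInst.thetaDer k M)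
      (Fermat.Agent.S40x.C2.DelInst.thetaDer_t_ne_zero k M t ht)
      (Fermat.Agent.S40x.C2.DelInst.dl k M)
      (fun f hf => Fermat.Agent.S40x.C2.DelInst.smul_dl k M f hf)
      NC Nd hNd hne (heckeTHom ℓ) hfb hφE ((c.val : ℕ) : ℤ) e₀ ((a : ℕ) : ℤ) ℓ
      ?_ ?_ hEN hES he₀ ?_ ?_ ?_ ?_
    · intro P hP
      rw [← hcast, Int.cast_sub, ← hslope P, hnode P hP, Int.cast_natCast, ZMod.natCast_zmod_val,
        sub_self]
    · intro P hP hPn
      rw [← hcast, ← hslope P, hoff P hP hPn]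
    · show heckeT ℓ (dlog (fb : LaurentSeries k)) = ((a : ℕ) : ℤ) • dlog (fb : LaurentSeries k)
      rw [hKH', zsmul_eq_mul]
    · show heckeT ℓ (dlog (φE : LaurentSeries k)) =
        ((ℓ : ℤ) + 1) • dlog (φE : LaurentSeries k)
      rw [hEis, zsmul_eq_mul]
      push_cast
      rfl
    · intro φ hφ hφΛ
      exact hAB φ hφ hφΛ
    · rw [← hcast]
      push_cast
      exact sub_ne_zero.mpr hNE
  have h0 : ((c.val : ℕ) : ZMod q) = 0 := by
    have := (hcast ((c.val : ℕ) : ℤ)).mpr hdvd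
    simpa using this
  rwa [ZMod.natCast_zmod_val] at h0

end Diag

end Fermat.Agent.S40x.Diag.Asm
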