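import Fermat.Agent.Gateway.GoodRed.ConjFamily.Places
import Fermat.Agent.Gateway.ESC.DegreeS24
import Fermat.Agent.Gateway.Hecke.Along
import Fermat.Agent.Gateway.FkBasics.Modular

/-!
# P-S44 (DIAG, leaf D-DEG, helper1): the degeneracy maps at `l` on the residue function fields

`k` a field with `(M * l : k) ≠ 0` (any characteristic; in the application `k` is the residue
field of `ℚ̄` at a place over `p`, `p ∤ M l`), `l` a prime not dividing `M`.
`Fk k M = k(j(q^d) : d ∣ M) ⊆ k((q))`.

* `alphaK : Fk k M →ₐ[k] Fk k (M * l)` the inclusion, `betaK` the substitution `q ↦ q^l`;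
* `finrankAlong_alphaK` : `[Fk k (M l) : αK (Fk k M)] = l + 1`;
* `finiteAlong_alphaK`, `isSeparable_alphaK` : finite separable;
* `rel_betaK_alphaK`, `rel_alphaK_betaK` : the modular equation `Φ_l(j(q^l), j) = 0 = Φ_l(j, j(q^l))`
  (both monic) inside `Fk k (M l)`;
* `isIntegral_betaK_jFk` : `βK j̄ = j(q^l)` is integral over `k[αK j̄] = k[j]`, and
  `isIntegral_alphaK_jFk` : `j` is integral over `k[j(q^l)]`;
* `finiteAlong_betaK`, `isIntegral_alphaK`, `isIntegral_betaK` : both maps are finite, hence integral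
  ring homomorphisms (`βK` is used as an embedding only: nothing about its degree is claimed);
* `keyInputs` : all the inputs `hφ hψ hfin hsep hdeg hint` of `Diag/KeyWrap.diag_zero_hecke`
  for `φ = βK`, `ψ = αK`, `y = j̄` in one statement.
-/

set_option autoImplicit false
set_option linter.unusedSectionVars false
set_option linter.style.haveILetI false

noncomputable section

namespace Fermat.Agent.S40x.Diag.DegMaps

open AlgebraicCurve IntermediateField ModularCurve Module
open Fermat.Agent.Gateway.GoodRed.ConjFamily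
open Fermat.Agent.Gateway.GoodRed (gΦ)

variable (k : Type) [Field k] (M l : ℕ) [NeZero M] [NeZero l]

/-- `αK`: the inclusion `Fk k M ⊆ Fk k (M l)`. -/
def alphaK : Fk k M →ₐ[k] Fk k (M * l) :=
  IntermediateField.inclusion (full_degeneracyC_le k (dvd_mul_right M l))

@[simp] theorem coe_alphaK (x : Fk k M) :
    ((alphaK k M l x : Fk k (M * l)) : LaurentSeries k) = (x : LaurentSeries k) :=
  IntermediateField.coe_inclusion _ x

theorem qExpand_mem (x : Fk k M) : qExpand k l (x : LaurentSeries k) ∈ Fk k (M * l) :=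
  full_degeneracyC_map_le k M l ⟨(x : LaurentSeries k), x.2, rfl⟩

/-- `βK` as a ring homomorphism. -/
def betaKRingHom : Fk k M →+* Fk k (M * l) where
  toFun x := ⟨qExpand k l (x : LaurentSeries k), qExpand_mem k M l x⟩
  map_one' := Subtype.ext (map_one (qExpand k l))
  map_mul' _ _ := Subtype.ext (map_mul (qExpand k l) _ _)
  map_zero' := Subtype.ext (map_zero (qExpand k l))
  map_add' _ _ := Subtype.ext (map_add (qExpand k l) _ _)

/-- `βK`: the substitution `q ↦ q^l`, `Fk k M → Fk k (M l)`. -/
def betaK : Fk k M →ₐ[k] Fk k (M * l) :=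
  { betaKRingHom k M l with
    commutes' := fun a => Subtype.ext <| by
      show qExpand k l (algebraMap k (LaurentSeries k) a) = algebraMap k (LaurentSeries k) a
      rw [algebraMap_laurentSeries_eq_single, qExpand_single, mul_zero] }

@[simp] theorem coe_betaK (x : Fk k M) :
    ((betaK k M l x : Fk k (M * l)) : LaurentSeries k) = qExpand k l (x : LaurentSeries k) := rfl

theorem alphaK_jFk : alphaK k M l (jFk k M) = jFk k (M * l) :=
  Subtype.ext (coe_alphaK k M l (jFk k M))

theorem alphaK_injective : Function.Injective (alphaK k M l) := (alphaK k M l).injective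

theorem betaK_injective : Function.Injective (betaK k M l) := (betaK k M l).injective

/-- **Degree of `αK`**: `[Fk k (M l) : Fk k M] = l + 1` for a prime `l ∤ M` with `M l ≠ 0` in `k`. -/
theorem finrankAlong_alphaK [IsAlgClosed k] (hl : l.Prime) (hlM : ¬ l ∣ M) (hk : ((M * l : ℕ) : k) ≠ 0) :
    finrankAlong k (alphaK k M l) = l + 1 := by
  have hkM : ((M : ℕ) : k) ≠ 0 := by
    intro h
    apply hk
    rw [Nat.cast_mul, h, zero_mul]
  have h2 := Fermat.Agent.Gateway.ESC.finrank_mul_finrank_along (alphaK k M l) k⟮jFk k M⟯ k⟮jFk k (M * l)⟯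
    (by rw [IntermediateField.adjoin_map, Set.image_singleton, alphaK_jFk])
  rw [finrank_Fk_eq_dedekindPsi hkM, finrank_Fk_eq_dedekindPsi hk,
    Fermat.Agent.S24.Comb.dedekindPsi_mul_prime_of_not_dvd (NeZero.ne M) hl hlM, mul_comm] at h2
  have hpos : 0 < dedekindPsi M := by
    rw [← finrank_Fk_eq_dedekindPsi hkM]
    haveI := finiteDimensional_Fk hkM
    exact Module.finrank_pos
  exact Nat.eq_of_mul_eq_mul_right hpos h2

/-- `Fk k (M l)` is finite over `Fk k M`. -/
theorem finiteAlong_alphaK [IsAlgClosed k] (hl : l.Prime) (hlM : ¬ l ∣ M)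
    (hk : ((M * l : ℕ) : k) ≠ 0) : FiniteAlong k (alphaK k M l) := by
  letI := algebraAlong (alphaK k M l)
  have h : Module.finrank (Fk k M) (Fk k (M * l)) = l + 1 := finrankAlong_alphaK k M l hl hlM hk
  exact Module.finite_of_finrank_pos (by rw [h]; exact Nat.succ_pos l)

section Abstract

variable {K F F' : Type*} [Field K] [Field F] [Field F'] [Algebra K F] [Algebra K F']

/-- Separability along an algebra homomorphism `α : F → F'` carrying the intermediate field `A`
onto `A'`: if `F' / A'` is separable then `F' / α F` is separable. -/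
theorem isSeparable_along_of_map (α : F →ₐ[K] F') (A : IntermediateField K F)
    (A' : IntermediateField K F') (h : A.map α = A') [hs : Algebra.IsSeparable A' F'] :
    letI := algebraAlong α
    Algebra.IsSeparable F F' := by
  letI := algebraAlong α
  subst h
  refine ⟨fun y => ?_⟩
  have hy : (minpoly (A.map α) y).Separable := Algebra.IsSeparable.isSeparable (A.map α) y
  -- transport the minimal polynomial to `F[X]`
  let e : A ≃+* A.map α := (IntermediateField.equivMap A α).toRingEquiv
  let q : Polynomial F :=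
    ((minpoly (A.map α) y).map (e.symm : A.map α →+* A)).map (algebraMap A F)
  have hq : q.Separable := (hy.map).map
  have hmap : q.map (algebraMap F F') =
      (minpoly (A.map α) y).map (algebraMap (A.map α) F') := by
    rw [Polynomial.map_map, Polynomial.map_map]
    congr 1
    refine RingHom.ext fun x => ?_
    obtain ⟨z, rfl⟩ := e.surjective x
    simp only [RingHom.coe_comp, Function.comp_apply, RingEquiv.coe_toRingHom,
      RingEquiv.symm_apply_apply]
    rfl
  have hroot : Polynomial.aeval y q = 0 := by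
    rw [Polynomial.aeval_def, ← Polynomial.eval_map, hmap, Polynomial.eval_map,
      ← Polynomial.aeval_def, minpoly.aeval]
  exact hq.of_dvd (minpoly.dvd F y hroot)

end Abstract

/-- `Fk k (M l)` is separable over `Fk k M`. -/
theorem isSeparable_alphaK [IsAlgClosed k] (hk : ((M * l : ℕ) : k) ≠ 0) :
    letI := algebraAlong (alphaK k M l)
    Algebra.IsSeparable (Fk k M) (Fk k (M * l)) := by
  haveI := isSeparable_Fk hk
  exact isSeparable_along_of_map (alphaK k M l) k⟮jFk k M⟯ k⟮jFk k (M * l)⟯
    (by rw [IntermediateField.adjoin_map, Set.image_singleton, alphaK_jFk])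

/-! ### The modular equation at `l` inside `Fk k (M l)` -/

section Abstract2

open Fermat.Agent.S28.Tower in
/-- a root `a` of the monic polynomial `Φ(X, b)` is integral over `K[b]`. -/
theorem isIntegral_adjoin_of_rel {K A : Type*} [Field K] [CommRing A] [Algebra K A]
    {Φ : Polynomial (Polynomial ℤ)} (hΦ : Φ.Monic) {a b : A} (h : Rel Φ a b) :
    IsIntegral (Algebra.adjoin K {b}) a := by
  let b' : Algebra.adjoin K {b} := ⟨b, Algebra.subset_adjoin (Set.mem_singleton b)⟩
  refine ⟨polyAt Φ b', polyAt_monic hΦ b', ?_⟩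
  have h1 : (polyAt Φ b').map (algebraMap (Algebra.adjoin K {b}) A) = polyAt Φ b :=
    polyAt_map Φ (algebraMap (Algebra.adjoin K {b}) A) b'
  rw [← Polynomial.eval_map, h1]
  exact h

end Abstract2

open Fermat.Agent.S28.Tower in
/-- `Φ_l(j(q^l), j) = 0` in `Fk k (M l)`. -/
theorem rel_betaK_alphaK [IsAlgClosed k] (hl : l.Prime) (hk : ((M * l : ℕ) : k) ≠ 0) :
    Rel (gΦ l) (betaK k M l (jFk k M)) (alphaK k M l (jFk k M)) := by
  obtain ⟨ζ, hζ⟩ := exists_roots hk l hl (dvd_mul_left l M)
  have hA : IsModEq (gΦ l) l k := (hΦ_general hk l hl (dvd_mul_left l M)).2.2.1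
  apply Rel.of_map_injective (algebraMap (Fk k (M * l)) (LaurentSeries k))
    (algebraMap (Fk k (M * l)) (LaurentSeries k)).injective
  show Rel (gΦ l) ((betaK k M l (jFk k M) : Fk k (M * l)) : LaurentSeries k)
    ((alphaK k M l (jFk k M) : Fk k (M * l)) : LaurentSeries k)
  rw [coe_betaK, coe_alphaK]
  have h := rel_fwd_K hA hl.ne_zero hζ (n := 1) one_ne_zero
  rw [one_mul, jS_one_one, jS_eq_qExpand] at h
  exact h

open Fermat.Agent.S28.Tower in
/-- `Φ_l(j, j(q^l)) = 0` in `Fk k (M l)`. -/
theorem rel_alphaK_betaK [IsAlgClosed k] (hl : l.Prime) (hk : ((M * l : ℕ) : k) ≠ 0) :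
    Rel (gΦ l) (alphaK k M l (jFk k M)) (betaK k M l (jFk k M)) := by
  obtain ⟨ζ, hζ⟩ := exists_roots hk l hl (dvd_mul_left l M)
  have hA : IsModEq (gΦ l) l k := (hΦ_general hk l hl (dvd_mul_left l M)).2.2.1
  apply Rel.of_map_injective (algebraMap (Fk k (M * l)) (LaurentSeries k))
    (algebraMap (Fk k (M * l)) (LaurentSeries k)).injective
  show Rel (gΦ l) ((alphaK k M l (jFk k M) : Fk k (M * l)) : LaurentSeries k)
    ((betaK k M l (jFk k M) : Fk k (M * l)) : LaurentSeries k)
  rw [coe_betaK, coe_alphaK]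
  have h := rel_bwd_K hA hl.ne_zero hζ (n := 1) one_ne_zero
  rw [one_mul, jS_one_one, jS_eq_qExpand] at h
  exact h

/-- **`j(q^l)` is integral over `k[j]`** in `Fk k (M l)` (the modular equation). -/
theorem isIntegral_betaK_jFk [IsAlgClosed k] (hl : l.Prime) (hk : ((M * l : ℕ) : k) ≠ 0) :
    IsIntegral (Algebra.adjoin k {alphaK k M l (jFk k M)}) (betaK k M l (jFk k M)) :=
  isIntegral_adjoin_of_rel (hΦ_general hk l hl (dvd_mul_left l M)).1
    (rel_betaK_alphaK k M l hl hk)

/-- **`j` is integral over `k[j(q^l)]`** in `Fk k (M l)` (the modular equation). -/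
theorem isIntegral_alphaK_jFk [IsAlgClosed k] (hl : l.Prime) (hk : ((M * l : ℕ) : k) ≠ 0) :
    IsIntegral (Algebra.adjoin k {betaK k M l (jFk k M)}) (alphaK k M l (jFk k M)) :=
  isIntegral_adjoin_of_rel (hΦ_general hk l hl (dvd_mul_left l M)).1
    (rel_alphaK_betaK k M l hl hk)

/-! ### Both maps are finite, hence integral -/

/-- `βK j̄ = j(q^l)` is transcendental over `k`. -/
theorem transcendental_betaK_jFk : Transcendental k (betaK k M l (jFk k M)) := fun h =>
  (transcendental_jFk (k := k) (N := M))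
    ((isAlgebraic_algHom_iff (betaK k M l) (betaK k M l).injective).mp h)

/-- **`βK` is finite** (no statement about its degree). -/
theorem finiteAlong_betaK [IsAlgClosed k] (hk : ((M * l : ℕ) : k) ≠ 0) :
    FiniteAlong k (betaK k M l) := by
  haveI := finiteDimensional_Fk hk
  exact Fermat.Agent.Gateway.Hecke.finiteAlong_of_transcendental (betaK k M l) (jFk k M)
    (transcendental_betaK_jFk k M l) (jFk k (M * l)) transcendental_jFk

/-- `αK` is an integral ring homomorphism. -/
theorem isIntegral_alphaK [IsAlgClosed k] (hl : l.Prime) (hlM : ¬ l ∣ M)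
    (hk : ((M * l : ℕ) : k) ≠ 0) : (alphaK k M l).toRingHom.IsIntegral :=
  Fermat.Agent.Gateway.Hecke.isIntegral_of_finiteAlong _ (finiteAlong_alphaK k M l hl hlM hk)

/-- `βK` is an integral ring homomorphism. -/
theorem isIntegral_betaK [IsAlgClosed k] (hk : ((M * l : ℕ) : k) ≠ 0) :
    (betaK k M l).toRingHom.IsIntegral :=
  Fermat.Agent.Gateway.Hecke.isIntegral_of_finiteAlong _ (finiteAlong_betaK k M l hk)

/-! ### The `RingHom.toAlgebra` forms consumed by `Diag/RedDegInst` -/

/-- the degree of `αK` in the form `hdeg`/`hfinK` of `RedDegInst.red_normAlong_alpha`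
(`aK := (alphaK k M l).toRingHom`, `haK := coe_alphaK k M l`). -/
theorem finrank_alphaK_toAlgebra [IsAlgClosed k] (hl : l.Prime) (hlM : ¬ l ∣ M)
    (hk : ((M * l : ℕ) : k) ≠ 0) :
    letI := (alphaK k M l).toRingHom.toAlgebra
    Module.finrank (Fk k M) (Fk k (M * l)) = l + 1 :=
  finrankAlong_alphaK k M l hl hlM hk

theorem finiteDimensional_alphaK_toAlgebra [IsAlgClosed k] (hl : l.Prime) (hlM : ¬ l ∣ M)
    (hk : ((M * l : ℕ) : k) ≠ 0) :
    letI := (alphaK k M l).toRingHom.toAlgebra
    FiniteDimensional (Fk k M) (Fk k (M * l)) :=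
  finiteAlong_alphaK k M l hl hlM hk

theorem coe_alphaK_toRingHom (x : Fk k M) :
    (((alphaK k M l).toRingHom x : Fk k (M * l)) : LaurentSeries k) = (x : LaurentSeries k) :=
  coe_alphaK k M l x

theorem coe_betaK_toRingHom (x : Fk k M) :
    (((betaK k M l).toRingHom x : Fk k (M * l)) : LaurentSeries k) =
      qExpand k l (x : LaurentSeries k) :=
  coe_betaK k M l x

/-! ### The inputs of `Diag/KeyWrap.diag_zero_hecke` in one statement -/

/-- principal divisors on `Fk k (M l)`. -/
theorem hasPrincipalDivisors_Fk_mul [IsAlgClosed k] (hk : ((M * l : ℕ) : k) ≠ 0) :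
    HasPrincipalDivisors k (Fk k (M * l)) :=
  Fermat.Agent.Gateway.FkBasics.hasPrincipalDivisors_Fk k (M * l) hk

/-- **All inputs of (KEY') / `KeyWrap.diag_zero_hecke`** for `φ = βK`, `ψ = αK`, `y = j̄`:
`hφ`, `hψ`, `hfin`, `hsep`, `hdeg`, `hint`. -/
theorem keyInputs [IsAlgClosed k] (hl : l.Prime) (hlM : ¬ l ∣ M) (hk : ((M * l : ℕ) : k) ≠ 0) :
    (betaK k M l).toRingHom.IsIntegral ∧ (alphaK k M l).toRingHom.IsIntegral ∧
    FiniteAlong k (alphaK k M l) ∧
    (letI := algebraAlong (alphaK k M l); Algebra.IsSeparable (Fk k M) (Fk k (M * l))) ∧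
    (∀ w : Place k (Fk k (M * l)), w.deg = 1) ∧
    IsIntegral (Algebra.adjoin k {alphaK k M l (jFk k M)}) (betaK k M l (jFk k M)) :=
  ⟨isIntegral_betaK k M l hk, isIntegral_alphaK k M l hl hlM hk, finiteAlong_alphaK k M l hl hlM hk,
    isSeparable_alphaK k M l hk,
    fun w => Fermat.Agent.Gateway.FkBasics.deg_eq_one_Fk k (M * l) hk w,
    isIntegral_betaK_jFk k M l hl hk⟩

end Fermat.Agent.S40x.Diag.DegMaps
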