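import Fermat.Agent.S40x.Diag.ChainFk
import Fermat.Agent.S40x.Diag.DegMaps

/-!
# P-S44, block C2 / DIAG: the chain with the degeneracy maps plugged in (helper56)

`ChainFk.diag_dvd_Fk` with `φ := βK`, `ψ := αK`, `y := j̄` of the landed `Diag/DegMaps` (helper1):
all place-theoretic inputs (`hφ hψ hfin hdegK hsep hdeg hint`, principal divisors on `Fk k (N l)`)
are discharged by `DegMaps.keyInputs`, `DegMaps.finrankAlong_alphaK`,
`DegMaps.hasPrincipalDivisors_Fk_mul`.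

`diag_dvd_deg` : **DIAG at a good level `N`** (`4 ∣ N`, `p ∤ N l`, `l ∤ N` prime).  Inputs left:

* `heigf` : `heckeT l (dlog fb) = a * dlog fb` (`a : ℤ`; Kummer–Hecke, shape of
  `Diag/Asm.exists_unit_rep`);
* `heigU` : `heckeT l (dlog Ub) = (l + 1) * dlog Ub` (shape of `RefQB.heckeT_dlog_ref`);
* the orders modulo `p` of `fb` (C3) and of `Ub` (D-REFORD) at the places with `0 ≤ ord j̄`:
  `c` resp. `e₀ ≠ 0` on `S`, `0` off `S`;
* `hNE` : `a ≢ l + 1` modulo `p`.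

Conclusion: `p ∣ ord_P fb` at every place `P` with `0 ≤ ord_P j̄`; `diag_zero_deg` : `c = 0` if `S`
contains such a place.  Nothing new is proved here.
-/

set_option autoImplicit false
set_option linter.unusedSectionVars false
set_option linter.style.haveILetI false

noncomputable section

namespace Fermat.Agent.S40x.Diag.ChainDeg

open ModularCurve AlgebraicCurve IntermediateField
open Fermat.Agent.Gateway.GoodRed.ConjFamily
open Fermat.Agent.S40x.C2.DlogHecke Fermat.Agent.S40x.Diag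

variable {L : Type} [Field L] [Algebra ℚ L] [IsAlgClosed L] (A : ValuationSubring L)
  {k : Type} [Field k] (π : A →+* k) [IsAlgClosed k] (p : ℕ) [Fact p.Prime] [CharP k p]
  (N l : ℕ) [NeZero N] [NeZero l] (hπ : Function.Surjective π) (hpN : ¬ p ∣ N)
  (hpNl : ¬ p ∣ N * l)

include hπ hpN hpNl in
/-- **DIAG at a good level, degeneracy maps plugged in**: `p ∣ ord_P fb` off the cusps. -/
theorem diag_dvd_deg (hl : l.Prime) (hlN : ¬ l ∣ N) (h4 : 4 ∣ N)
    {fb Ub : Fk k N} (hfb : fb ≠ 0) (hUb : Ub ≠ 0) (a : ℤ)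
    (heigf : heckeT l (dlog (fb : LaurentSeries k)) =
      (a : LaurentSeries k) * dlog (fb : LaurentSeries k))
    (heigU : heckeT l (dlog (Ub : LaurentSeries k)) =
      ((l + 1 : ℕ) : LaurentSeries k) * dlog (Ub : LaurentSeries k))
    (S : Set (Place k (Fk k N))) (c e₀ : ZMod p)
    (hslope : ∀ P : Place k (Fk k N), 0 ≤ P.ord (jFk k N) → P ∈ S → Abs.ordMod p P fb = c)
    (hslope' : ∀ P : Place k (Fk k N), 0 ≤ P.ord (jFk k N) → P ∉ S → Abs.ordMod p P fb = 0)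
    (href : ∀ P : Place k (Fk k N), 0 ≤ P.ord (jFk k N) → P ∈ S → Abs.ordMod p P Ub = e₀)
    (href' : ∀ P : Place k (Fk k N), 0 ≤ P.ord (jFk k N) → P ∉ S → Abs.ordMod p P Ub = 0)
    (he₀ : e₀ ≠ 0)
    (hNE : (a : ZMod p) ≠ (l : ZMod p) + 1) :
    ∀ P : Place k (Fk k N), 0 ≤ P.ord (jFk k N) → (p : ℤ) ∣ P.ord fb := by
  have hk : ((N * l : ℕ) : k) ≠ 0 := fun h => hpNl ((CharP.cast_eq_zero_iff k p (N * l)).mp h)
  haveI := DegMaps.hasPrincipalDivisors_Fk_mul k N l hk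
  obtain ⟨hφ, hψ, hfin, hsep, hdeg, hint⟩ := DegMaps.keyInputs k N l hl hlN hk
  exact ChainFk.diag_dvd_Fk A π p N l hπ hpN hpNl hl hlN h4 (DegMaps.betaK k N l)
    (DegMaps.alphaK k N l) (DegMaps.coe_alphaK k N l) (DegMaps.coe_betaK k N l) hφ hψ hfin
    (DegMaps.finrankAlong_alphaK k N l hl hlN hk).ge hsep hdeg (jFk k N) hint hfb hUb a heigf
    heigU S c e₀ hslope hslope' href href' he₀ hNE

include hπ hpN hpNl in
/-- **DIAG at a good level**: the diagonal value `c` vanishes. -/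
theorem diag_zero_deg (hl : l.Prime) (hlN : ¬ l ∣ N) (h4 : 4 ∣ N)
    {fb Ub : Fk k N} (hfb : fb ≠ 0) (hUb : Ub ≠ 0) (a : ℤ)
    (heigf : heckeT l (dlog (fb : LaurentSeries k)) =
      (a : LaurentSeries k) * dlog (fb : LaurentSeries k))
    (heigU : heckeT l (dlog (Ub : LaurentSeries k)) =
      ((l + 1 : ℕ) : LaurentSeries k) * dlog (Ub : LaurentSeries k))
    (S : Set (Place k (Fk k N))) (c e₀ : ZMod p)
    (hslope : ∀ P : Place k (Fk k N), 0 ≤ P.ord (jFk k N) → P ∈ S → Abs.ordMod p P fb = c)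
    (hslope' : ∀ P : Place k (Fk k N), 0 ≤ P.ord (jFk k N) → P ∉ S → Abs.ordMod p P fb = 0)
    (href : ∀ P : Place k (Fk k N), 0 ≤ P.ord (jFk k N) → P ∈ S → Abs.ordMod p P Ub = e₀)
    (href' : ∀ P : Place k (Fk k N), 0 ≤ P.ord (jFk k N) → P ∉ S → Abs.ordMod p P Ub = 0)
    (he₀ : e₀ ≠ 0) (hS : ∃ P : Place k (Fk k N), P ∈ S ∧ 0 ≤ P.ord (jFk k N))
    (hNE : (a : ZMod p) ≠ (l : ZMod p) + 1) : c = 0 := by
  obtain ⟨P, hPS, hP⟩ := hS
  rw [← hslope P hP hPS, Abs.ordMod_eq_zero_iff]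
  exact diag_dvd_deg A π p N l hπ hpN hpNl hl hlN h4 hfb hUb a heigf heigU S c e₀ hslope hslope'
    href href' he₀ hNE P hP

end Fermat.Agent.S40x.Diag.ChainDeg
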