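/-
P-S44/S40, block C2/DIAG, leaf D-REFQ (q-series half, independent second, helper63).

* `sigma_hecke` : `σ₁(l n) + l σ₁(n / l) = (l + 1) σ₁(n)` (`l` prime, `n > 0`);
* `E2L R` : the Eisenstein series `E₂ = 1 - 24 ∑ σ₁(n) q^n` as a Laurent series over `R`;
  `heckeT_E2L` : `T_l E₂ = (l + 1) E₂` for the formal weight two Hecke operator of
  `S40x/C2/DlogHecke`;
* `dlog_DeltaL` : `dlog Δ = E₂` over any field; `dlog_inv_pow_DeltaL` : in characteristic `p`,
  `dlog (Δ^(p-1))⁻¹ = E₂` (the reference function `Ub = Δ^(1-p)` of DIAG).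
-/
import Mathlib
import Fermat.Agent.S40x.C2.DlogHecke
import Fermat.Agent.S16.Two.QSeries

set_option autoImplicit false

noncomputable section

namespace Fermat.Agent.S40x.Diag.RefQB

open ModularCurve HahnSeries ArithmeticFunction PowerSeries
open scoped ArithmeticFunction.sigma
open Fermat.Agent.S16.Two Fermat.Agent.S16.Two.QS Fermat.Agent.S16.SD Fermat.Agent.S23.IntSeries
open Fermat.Agent.S40x.C2.DlogHecke

/-! ### The divisor sum identity -/

/-- `∑_{j ≤ k} l^j` -/
def geomS (l k : ℕ) : ℕ := ∑ j ∈ Finset.range (k + 1), l ^ j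

theorem geomS_zero (l : ℕ) : geomS l 0 = 1 := by simp [geomS]

theorem geomS_succ (l k : ℕ) : geomS l (k + 1) = l * geomS l k + 1 := by
  rw [geomS, geomS, geom_sum_succ]

theorem sigma_prime_pow_mul {l : ℕ} (hl : l.Prime) (a : ℕ) {m : ℕ} (hm : ¬ l ∣ m) :
    σ 1 (l ^ a * m) = geomS l a * σ 1 m := by
  have hcop : Nat.Coprime (l ^ a) m := Nat.Coprime.pow_left a ((hl.coprime_iff_not_dvd).2 hm)
  rw [isMultiplicative_sigma.map_mul_of_coprime hcop, sigma_one_apply_prime_pow hl, geomS]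

/-- `σ₁(l n) + l σ₁(n / l) = (l + 1) σ₁(n)` (second term only if `l ∣ n`). -/
theorem sigma_hecke {l : ℕ} (hl : l.Prime) {n : ℕ} (hn : 0 < n) :
    σ 1 (l * n) + (if l ∣ n then l * σ 1 (n / l) else 0) = (l + 1) * σ 1 n := by
  obtain ⟨a, m, hm, rfl⟩ := Nat.exists_eq_pow_mul_and_not_dvd hn.ne' l hl.ne_one
  rcases a with _ | a
  · have hnd : ¬ l ∣ l ^ 0 * m := by simpa using hm
    rw [if_neg hnd, add_zero, pow_zero, one_mul]
    have := sigma_prime_pow_mul hl 1 hm
    rw [pow_one] at this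
    rw [this, geomS_succ, geomS_zero, mul_one]
  · have hd : l ∣ l ^ (a + 1) * m := Dvd.dvd.mul_right (dvd_pow_self l (Nat.succ_ne_zero a)) m
    rw [if_pos hd]
    have h1 : l * (l ^ (a + 1) * m) = l ^ (a + 2) * m := by ring
    have h2 : l ^ (a + 1) * m / l = l ^ a * m := by
      rw [pow_succ, mul_assoc, mul_comm l m, ← mul_assoc]
      exact Nat.mul_div_cancel _ hl.pos
    rw [h1, h2, sigma_prime_pow_mul hl _ hm, sigma_prime_pow_mul hl _ hm,
      sigma_prime_pow_mul hl _ hm, geomS_succ l (a + 1), geomS_succ l a]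
    ring

/-! ### The Eisenstein series `E₂` as a Laurent series -/

section Series

variable (R : Type*) [CommRing R]

/-- `E₂ = 1 - 24 ∑ σ₁(n) q^n` over `R`. -/
def E2L : LaurentSeries R :=
  HahnSeries.ofPowerSeries ℤ R (PowerSeries.map (Int.castRingHom R) E2Z)

/-- `Δ` over `R`. -/
def DeltaL : LaurentSeries R :=
  HahnSeries.ofPowerSeries ℤ R (PowerSeries.map (Int.castRingHom R) DeltaZ)

theorem coeff_E2Z (n : ℕ) : PowerSeries.coeff n E2Z = if n = 0 then 1 else -24 * (σ 1 n : ℤ) := by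
  rw [E2Z, map_sub, PowerSeries.coeff_one]
  have h24 : (24 : PowerSeries ℤ) = PowerSeries.C (24 : ℤ) := by
    rw [map_ofNat]
  rw [h24, PowerSeries.coeff_C_mul, coeff_sigmaSeries]
  split_ifs with h
  · subst h; simp
  · ring

theorem coeff_E2L_natCast (n : ℕ) :
    (E2L R).coeff (n : ℤ) = if n = 0 then 1 else -24 * ((σ 1 n : ℕ) : R) := by
  rw [E2L, HahnSeries.ofPowerSeries_apply_coeff, PowerSeries.coeff_map, coeff_E2Z]
  split_ifs <;> simp

theorem coeff_E2L_of_neg {n : ℤ} (hn : n < 0) : (E2L R).coeff n = 0 := by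
  rw [E2L]
  exact ModularCurve.ofPowerSeries_coeff_of_neg _ hn

/-- **`T_l E₂ = (l + 1) E₂`.** -/
theorem heckeT_E2L {l : ℕ} [NeZero l] (hl : l.Prime) :
    heckeT l (E2L R) = ((l + 1 : ℕ) : LaurentSeries R) * E2L R := by
  have hlpos : (0 : ℤ) < (l : ℤ) := by exact_mod_cast hl.pos
  ext n
  rw [natCast_mul_coeff]
  by_cases hdvd : (l : ℤ) ∣ n
  · obtain ⟨m, rfl⟩ := hdvd
    rw [heckeT_coeff_mul]
    rcases lt_trichotomy m 0 with hm | hm | hm
    · have h1 : (l : ℤ) * m < 0 := mul_neg_of_pos_of_neg hlpos hm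
      have h2 : (l : ℤ) * ((l : ℤ) * m) < 0 := mul_neg_of_pos_of_neg hlpos h1
      rw [coeff_E2L_of_neg R h2, coeff_E2L_of_neg R hm, coeff_E2L_of_neg R h1]
      ring
    · subst hm
      have h0 : (l : ℤ) * ((l : ℤ) * 0) = ((0 : ℕ) : ℤ) := by simp
      have h0' : (l : ℤ) * 0 = ((0 : ℕ) : ℤ) := by simp
      have h0'' : (0 : ℤ) = ((0 : ℕ) : ℤ) := by simp
      rw [h0, h0', coeff_E2L_natCast]
      conv_lhs => rw [h0'', coeff_E2L_natCast]
      simp only [if_true]
      push_cast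
      ring
    · lift m to ℕ using hm.le
      have hm' : 0 < m := by exact_mod_cast hm
      have e1 : (l : ℤ) * ((l : ℤ) * (m : ℤ)) = ((l * (l * m) : ℕ) : ℤ) := by push_cast; ring
      have e2 : (l : ℤ) * (m : ℤ) = ((l * m : ℕ) : ℤ) := by push_cast; ring
      rw [e1, e2, coeff_E2L_natCast, coeff_E2L_natCast, coeff_E2L_natCast,
        if_neg (Nat.mul_ne_zero hl.ne_zero (Nat.mul_ne_zero hl.ne_zero hm'.ne')),
        if_neg hm'.ne', if_neg (Nat.mul_ne_zero hl.ne_zero hm'.ne')]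
      have key := sigma_hecke hl (Nat.mul_pos hl.pos hm')
      rw [if_pos (Dvd.intro m rfl), Nat.mul_div_cancel_left m hl.pos] at key
      have key' := congrArg (fun x : ℕ => (x : R)) key
      simp only [Nat.cast_add, Nat.cast_mul, Nat.cast_one] at key'
      push_cast
      linear_combination (-24 : R) * key'
  · rw [heckeT_coeff_of_not_dvd l _ hdvd]
    rcases lt_or_ge n 0 with hn | hn
    · have h1 : (l : ℤ) * n < 0 := mul_neg_of_pos_of_neg hlpos hn
      rw [coeff_E2L_of_neg R h1, coeff_E2L_of_neg R hn, mul_zero]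
    · lift n to ℕ using hn
      have hn0 : n ≠ 0 := by
        rintro rfl
        exact hdvd (by simp)
      have hnd : ¬ l ∣ n := fun h => hdvd (by exact_mod_cast h)
      have e2 : (l : ℤ) * (n : ℤ) = ((l * n : ℕ) : ℤ) := by push_cast; ring
      rw [e2, coeff_E2L_natCast, coeff_E2L_natCast, if_neg (Nat.mul_ne_zero hl.ne_zero hn0),
        if_neg hn0]
      have key := sigma_hecke hl (Nat.pos_of_ne_zero hn0)
      rw [if_neg hnd, add_zero] at key
      have key' := congrArg (fun x : ℕ => (x : R)) key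
      simp only [Nat.cast_add, Nat.cast_mul, Nat.cast_one] at key'
      push_cast
      linear_combination (-24 : R) * key'

/-- `θ Δ = E₂ Δ` over `R`. -/
theorem thetaL_DeltaL : thetaL (DeltaL R) = E2L R * DeltaL R := by
  rw [DeltaL, E2L, thetaL_ofPowerSeries, ← map_theta, theta_DeltaZ, map_mul, map_mul]

end Series

section Field

variable (K : Type*) [Field K]

theorem DeltaL_ne_zero : DeltaL K ≠ 0 := by
  intro h
  have h1 := congrArg (fun s : LaurentSeries K => s.coeff ((1 : ℕ) : ℤ)) h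
  simp only [DeltaL, HahnSeries.ofPowerSeries_apply_coeff, PowerSeries.coeff_map,
    HahnSeries.coeff_zero] at h1
  have h2 : PowerSeries.coeff 1 DeltaZ = 1 := by
    have := Fermat.Agent.S23.IntSeries.coeff_one_DeltaZ
    exact this
  rw [h2] at h1
  simp at h1

/-- `dlog Δ = E₂`. -/
theorem dlog_DeltaL : dlog (DeltaL K) = E2L K := by
  rw [dlog, thetaL_DeltaL, mul_div_assoc, div_self (DeltaL_ne_zero K), mul_one]

theorem dlog_inv {f : LaurentSeries K} (hf : f ≠ 0) : dlog f⁻¹ = -dlog f := by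
  have h := dlog_mul hf (inv_ne_zero hf)
  rw [mul_inv_cancel₀ hf, dlog_one] at h
  exact eq_neg_of_add_eq_zero_right h.symm

theorem dlog_pow (f : LaurentSeries K) (hf : f ≠ 0) (n : ℕ) : dlog (f ^ n) = n • dlog f := by
  induction n with
  | zero => simp [dlog_one]
  | succ n ih => rw [pow_succ, dlog_mul (pow_ne_zero n hf) hf, ih, succ_nsmul]

/-- In characteristic `p`, the reference function `Ub = (Δ^(p-1))⁻¹` has `dlog Ub = E₂`. -/
theorem dlog_inv_pow_DeltaL (p : ℕ) [hp : Fact p.Prime] [CharP K p] :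
    dlog ((DeltaL K) ^ (p - 1))⁻¹ = E2L K := by
  have hΔ := DeltaL_ne_zero K
  rw [dlog_inv K (pow_ne_zero _ hΔ), dlog_pow K _ hΔ, dlog_DeltaL, nsmul_eq_mul]
  have h1 : ((p - 1 : ℕ) : LaurentSeries K) = -1 := by
    rw [Nat.cast_sub hp.out.one_le, Nat.cast_one]
    have h2 : ((p : ℕ) : LaurentSeries K) = HahnSeries.C ((p : ℕ) : K) :=
      (map_natCast (HahnSeries.C : K →+* LaurentSeries K) p).symm
    rw [h2, CharP.cast_eq_zero K p, _root_.map_zero, zero_sub]
  rw [h1]
  ring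

/-- `T_l (dlog Ub) = (l + 1) dlog Ub` for the reference function. -/
theorem heckeT_dlog_ref (p : ℕ) [Fact p.Prime] [CharP K p] {l : ℕ} [NeZero l] (hl : l.Prime) :
    heckeT l (dlog ((DeltaL K) ^ (p - 1))⁻¹) =
      ((l + 1 : ℕ) : LaurentSeries K) * dlog ((DeltaL K) ^ (p - 1))⁻¹ := by
  rw [dlog_inv_pow_DeltaL, heckeT_E2L K hl]

end Field

end Fermat.Agent.S40x.Diag.RefQB
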