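import Mathlib
import Fermat.Agent.S40x.Diag.RefQB
import Fermat.Agent.S40x.Thick.ModM

/-!
# P-S44 / block C2-DIAG, leaf D-REFQ (helper55): the reference function `Ū = Δ̄^(1-p)` is a
rational function of `j̄`

The `q`-series half of D-REFQ (`σ₁(ℓ n) + ℓ σ₁(n / ℓ) = (ℓ + 1) σ₁(n)`, `T_ℓ E₂ = (ℓ + 1) E₂`,
`dlog Δ̄^(1-p) = Ē₂`) is helper63's `Diag/RefQB` (imported here, with the bridges `DeltaL_eq`,
`E2L_eq` to the `iK K (Dq K)` vocabulary of `Thick/ModM`, `Diag/RefId`).  This file adds the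
function-field half:

* `Ubar k p = (Δ̄^(p-1))⁻¹` in `k((q))`; `dlog_Ubar`, `heckeT_dlog_Ubar` (from `RefQB`);
* `Qq_pow_eq_of_hasse`, `jq_pow_eq_of_hasse` : for the Hasse polynomial `H` of
  `Thick/ModM.exists_hasse_poly` (`m = (p-1)/2`): `Ē₄^(p-1) = H(j̄) Δ̄^m` and
  `j̄^(p-1) = H(j̄)³ Δ̄^m` in `𝔽_p((q))`;
* `Ubar_mul_jq_pow_zmod` / `exists_Ubar_eq` : `Ū · j̄^(2(p-1)) = H(j̄)^6`, over `𝔽_p` and over any
  field `k` of characteristic `p` (base change along `coeffMap`);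
* `Ubar_mem` : `Ū ∈ k(j̄) ≤ modularFunctionFieldFullC k N` for every level `N`; `UbarF k p N` is
  the corresponding element of the function field.
-/

set_option autoImplicit false

noncomputable section

namespace Fermat.Agent.S40x.Diag.RefQ

open ModularCurve
open Fermat.Agent.S23.IntSeries Fermat.Agent.S16.SD Fermat.Agent.S16.Two
open Fermat.Agent.S40x.C2.DlogHecke Fermat.Agent.S40x.Thick.ModM
open Fermat.Agent.S40x.Diag

/-! ### Bridges to `Diag/RefQB` -/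

theorem DeltaL_eq (K : Type*) [CommRing K] : RefQB.DeltaL K = iK K (Dq K) := rfl

theorem E2L_eq (K : Type*) [CommRing K] : RefQB.E2L K = iK K (Pq K) := rfl

/-! ### `Ū = (Δ̄^(p-1))⁻¹` -/

section Ubar

variable (k : Type*) [Field k]

theorem iK_Dq_ne_zero' : iK k (Dq k) ≠ 0 := RefQB.DeltaL_ne_zero k

/-- the reference function `Ū = (Δ̄^(p-1))⁻¹ = Δ̄^(1-p)` -/
def Ubar (p : ℕ) : LaurentSeries k := ((iK k (Dq k)) ^ (p - 1))⁻¹

theorem Ubar_eq (p : ℕ) : Ubar k p = ((RefQB.DeltaL k) ^ (p - 1))⁻¹ := rfl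

theorem Ubar_ne_zero (p : ℕ) : Ubar k p ≠ 0 :=
  inv_ne_zero (pow_ne_zero _ (iK_Dq_ne_zero' k))

theorem Ubar_mul_Dq_pow (p : ℕ) : Ubar k p * (iK k (Dq k)) ^ (p - 1) = 1 :=
  inv_mul_cancel₀ (pow_ne_zero _ (iK_Dq_ne_zero' k))

/-- **`dlog Ū = Ē₂`** in characteristic `p`. -/
theorem dlog_Ubar (p : ℕ) [Fact p.Prime] [CharP k p] : dlog (Ubar k p) = iK k (Pq k) :=
  RefQB.dlog_inv_pow_DeltaL k p

/-- **`T_ℓ (dlog Ū) = (ℓ + 1) dlog Ū`**. -/
theorem heckeT_dlog_Ubar (p : ℕ) [Fact p.Prime] [CharP k p] {l : ℕ} [NeZero l] (hl : l.Prime) :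
    heckeT l (dlog (Ubar k p)) = ((l + 1 : ℕ) : LaurentSeries k) * dlog (Ubar k p) :=
  RefQB.heckeT_dlog_ref k p hl

/-- `T_ℓ (dlog Ū) = dlog (Ū^(ℓ+1))`: the form consumed with the norm formula of D-HECKE
(`dlog (Nn Ū) = T_ℓ (dlog Ū)`), giving `dlog (Nn Ū / Ū^(ℓ+1)) = 0`. -/
theorem heckeT_dlog_Ubar_eq_dlog_pow (p : ℕ) [Fact p.Prime] [CharP k p] {l : ℕ} [NeZero l]
    (hl : l.Prime) : heckeT l (dlog (Ubar k p)) = dlog (Ubar k p ^ (l + 1)) := by
  rw [heckeT_dlog_Ubar k p hl, RefQB.dlog_pow k _ (Ubar_ne_zero k p), nsmul_eq_mul]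

end Ubar

/-! ### `Ū` as a rational function of `j̄`, over `𝔽_p` -/

section Hasse

theorem coeff_ofNat_neg_one (K : Type*) [CommRing K] (n : ℕ) [n.AtLeastTwo] :
    ((OfNat.ofNat n : LaurentSeries K)).coeff (-1 : ℤ) = 0 := by
  have h : (OfNat.ofNat n : LaurentSeries K) = HahnSeries.C (OfNat.ofNat n : K) :=
    (map_ofNat (HahnSeries.C : K →+* LaurentSeries K) n).symm
  rw [h, HahnSeries.C_apply, HahnSeries.coeff_single_of_ne (by norm_num)]

theorem jq_sub_ne_zero (K : Type*) [CommRing K] [Nontrivial K] : jqModC K - 1728 ≠ 0 := by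
  intro h
  have h1 : (jqModC K - 1728).coeff (-1 : ℤ) = 1 := by
    rw [HahnSeries.coeff_sub, coeff_jqModC_neg_one, coeff_ofNat_neg_one, sub_zero]
  rw [h] at h1
  simp at h1

variable (p : ℕ) [Fact p.Prime]

/-- `Ē₄^(p-1) = H(j̄) Δ̄^m`, `m = (p-1)/2`, for any `H` with the Hasse property of
`ModM.exists_hasse_poly`. -/
theorem Qq_pow_eq_of_hasse (hp2 : p ≠ 2) {H : Polynomial (ZMod p)}
    (hH : evJ (ZMod p) H * thetaL (jqModC (ZMod p)) ^ (p - 1) =
      (jqModC (ZMod p) - 1728) ^ ((p - 1) / 2) * jqModC (ZMod p) ^ (p - 1)) :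
    iK (ZMod p) (Qq (ZMod p)) ^ (p - 1) =
      evJ (ZMod p) H * iK (ZMod p) (Dq (ZMod p)) ^ ((p - 1) / 2) := by
  have hodd : Odd p := (Fact.out : p.Prime).odd_of_ne_two hp2
  obtain ⟨i, hi⟩ := hodd
  have hm : (p - 1) / 2 = i := by omega
  have hp1 : p - 1 = 2 * i := by omega
  rw [hm, hp1] at hH
  rw [hm, hp1]
  have hθ := thetaL_jqK (ZMod p)
  have hR := Rq_sqK (ZMod p)
  set j := jqModC (ZMod p) with hj
  set Q := iK (ZMod p) (Qq (ZMod p)) with hQ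
  set R := iK (ZMod p) (Rq (ZMod p)) with hRdef
  set D := iK (ZMod p) (Dq (ZMod p)) with hD
  set t := thetaL j with ht
  set Hj := evJ (ZMod p) H with hHj
  have h1 : (Q * t) ^ (2 * i) = (R ^ 2) ^ i * j ^ (2 * i) := by
    rw [hθ, pow_mul, neg_sq, ← pow_mul, mul_pow, pow_mul]
  rw [hR, mul_pow, mul_pow] at h1
  have hc : (j - 1728) ^ i * j ^ (2 * i) ≠ 0 :=
    mul_ne_zero (pow_ne_zero _ (jq_sub_ne_zero (ZMod p)))
      (pow_ne_zero _ (jqModC_ne_zero_of_nontrivial (ZMod p)))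
  apply mul_right_cancel₀ hc
  linear_combination Hj * h1 - Q ^ (2 * i) * hH

/-- `j̄^(p-1) = H(j̄)³ Δ̄^m`. -/
theorem jq_pow_eq_of_hasse (hp2 : p ≠ 2) {H : Polynomial (ZMod p)}
    (hH : evJ (ZMod p) H * thetaL (jqModC (ZMod p)) ^ (p - 1) =
      (jqModC (ZMod p) - 1728) ^ ((p - 1) / 2) * jqModC (ZMod p) ^ (p - 1)) :
    jqModC (ZMod p) ^ (p - 1) =
      evJ (ZMod p) H ^ 3 * iK (ZMod p) (Dq (ZMod p)) ^ ((p - 1) / 2) := by
  have hQ := Qq_pow_eq_of_hasse p hp2 hH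
  have hodd : Odd p := (Fact.out : p.Prime).odd_of_ne_two hp2
  obtain ⟨i, hi⟩ := hodd
  have hm : (p - 1) / 2 = i := by omega
  have hp1 : p - 1 = 2 * i := by omega
  rw [hm, hp1] at hQ
  rw [hm, hp1]
  have hDj := Dq_mul_jqK (ZMod p)
  set j := jqModC (ZMod p) with hj
  set Q := iK (ZMod p) (Qq (ZMod p)) with hQdef
  set D := iK (ZMod p) (Dq (ZMod p)) with hD
  set Hj := evJ (ZMod p) H with hHj
  have h1 : (Q ^ 3) ^ (2 * i) = (Q ^ (2 * i)) ^ 3 := by
    rw [← pow_mul, ← pow_mul, mul_comm]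
  rw [← hDj, hQ, mul_pow, mul_pow] at h1
  have hc : D ^ (2 * i) ≠ 0 := pow_ne_zero _ (iK_Dq_ne_zero p)
  apply mul_left_cancel₀ hc
  have e : (D ^ i) ^ 3 = D ^ (2 * i) * D ^ i := by
    rw [← pow_mul, ← pow_add]
    congr 1
    omega
  rw [e] at h1
  linear_combination h1

/-- **`Ū · j̄^(2(p-1)) = H(j̄)^6`** over `𝔽_p`. -/
theorem Ubar_mul_jq_pow_zmod (hp2 : p ≠ 2) {H : Polynomial (ZMod p)}
    (hH : evJ (ZMod p) H * thetaL (jqModC (ZMod p)) ^ (p - 1) =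
      (jqModC (ZMod p) - 1728) ^ ((p - 1) / 2) * jqModC (ZMod p) ^ (p - 1)) :
    Ubar (ZMod p) p * jqModC (ZMod p) ^ (2 * (p - 1)) = evJ (ZMod p) H ^ 6 := by
  have hj := jq_pow_eq_of_hasse p hp2 hH
  have hU := Ubar_mul_Dq_pow (ZMod p) p
  have hodd : Odd p := (Fact.out : p.Prime).odd_of_ne_two hp2
  obtain ⟨i, hi⟩ := hodd
  have hm : (p - 1) / 2 = i := by omega
  have hp1 : p - 1 = 2 * i := by omega
  rw [hm] at hj
  have e1 : jqModC (ZMod p) ^ (2 * (p - 1)) = (jqModC (ZMod p) ^ (p - 1)) ^ 2 := by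
    rw [← pow_mul, mul_comm]
  have e2 : (iK (ZMod p) (Dq (ZMod p)) ^ i) ^ 2 = iK (ZMod p) (Dq (ZMod p)) ^ (p - 1) := by
    rw [← pow_mul, hp1, mul_comm]
  rw [e1, hj, mul_pow, e2, ← pow_mul]
  linear_combination (evJ (ZMod p) H ^ (3 * 2)) * hU

end Hasse

/-! ### Base change along `coeffMap` -/

section BaseChange

variable {R S : Type*} [CommRing R] [CommRing S] (f : R →+* S)

theorem coeffMap_C (r : R) :
    coeffMap f (HahnSeries.C r : LaurentSeries R) = HahnSeries.C (f r) := by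
  rw [HahnSeries.C_apply, coeffMap_single, HahnSeries.C_apply]

theorem coeffMap_iK_Dq : coeffMap f (iK R (Dq R)) = iK S (Dq S) := by
  rw [coeffMap_ofPowerSeries, Dq, Dq,
    ← RingHom.comp_apply (PowerSeries.map f) (PowerSeries.map (Int.castRingHom R)),
    ← PowerSeries.map_comp, RingHom.ext_int (f.comp (Int.castRingHom R)) (Int.castRingHom S)]

theorem coeffMap_evJ (H : Polynomial R) : coeffMap f (evJ R H) = evJ S (H.map f) := by
  rw [evJ_apply, evJ_apply, Polynomial.hom_eval₂, Polynomial.eval₂_map, coeffMap_jqModC]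
  congr 1
  ext r
  simp only [RingHom.comp_apply, coeffMap_C]

end BaseChange

theorem coeffMap_Ubar {k k' : Type*} [Field k] [Field k'] (f : k →+* k') (p : ℕ) :
    coeffMap f (Ubar k p) = Ubar k' p := by
  rw [Ubar, Ubar, map_inv₀, map_pow, coeffMap_iK_Dq]

/-! ### `Ū` as a rational function of `j̄`, over any field of characteristic `p` -/

section Field

variable (k : Type*) [Field k] (p : ℕ) [Fact p.Prime] [CharP k p]

/-- **`Ū · j̄^(2(p-1)) = H(j̄)^6`** with `H ∈ 𝔽_p[X]` the Hasse polynomial (`H ≠ 0`,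
`deg H ≤ (p-1)/2`), over any field of characteristic `p ≠ 2`. -/
theorem exists_Ubar_eq (hp2 : p ≠ 2) :
    ∃ H : Polynomial (ZMod p), H ≠ 0 ∧ H.natDegree ≤ (p - 1) / 2 ∧
      Ubar k p * jqModC k ^ (2 * (p - 1)) =
        evJ k (H.map (ZMod.castHom (dvd_refl p) k)) ^ 6 := by
  obtain ⟨H, hH0, hdeg, hH⟩ := exists_hasse_poly p hp2
  refine ⟨H, hH0, hdeg, ?_⟩
  have h := congrArg (coeffMap (ZMod.castHom (dvd_refl p) k)) (Ubar_mul_jq_pow_zmod p hp2 hH)
  rw [map_mul, map_pow, map_pow, coeffMap_Ubar, coeffMap_jqModC, coeffMap_evJ] at h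
  exact h

/-- Polynomials in `j̄` lie in every intermediate field containing `j̄`. -/
theorem evJ_mem {F : IntermediateField k (LaurentSeries k)} (hj : jqModC k ∈ F)
    (G : Polynomial k) : evJ k G ∈ F := by
  induction G using Polynomial.induction_on' with
  | add a b ha hb =>
    rw [map_add]
    exact F.add_mem ha hb
  | monomial n a =>
    rw [← Polynomial.C_mul_X_pow_eq_monomial, map_mul, map_pow, evJ_C, evJ_X]
    refine F.mul_mem ?_ (pow_mem hj n)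
    rw [HahnSeries.C_apply, ← algebraMap_laurentSeries_eq_single]
    exact F.algebraMap_mem a

/-- `Ū ∈ k(j̄)`: the reference function lies in every intermediate field containing `j̄`. -/
theorem Ubar_mem_of_jq_mem (hp2 : p ≠ 2) {F : IntermediateField k (LaurentSeries k)}
    (hj : jqModC k ∈ F) : Ubar k p ∈ F := by
  obtain ⟨H, -, -, hH⟩ := exists_Ubar_eq k p hp2
  have hj0 : jqModC k ^ (2 * (p - 1)) ≠ 0 := pow_ne_zero _ (jqModC_ne_zero_of_nontrivial k)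
  have e : Ubar k p = evJ k (H.map (ZMod.castHom (dvd_refl p) k)) ^ 6 /
      jqModC k ^ (2 * (p - 1)) := by
    rw [eq_div_iff hj0, hH]
  rw [e]
  exact F.div_mem (pow_mem (evJ_mem k hj _) 6) (pow_mem hj (2 * (p - 1)))

/-- **`Ū` is a modular function of every level.** -/
theorem Ubar_mem (hp2 : p ≠ 2) (N : ℕ) : Ubar k p ∈ modularFunctionFieldFullC k N :=
  Ubar_mem_of_jq_mem k p hp2 (jqModC_mem_full k N)

/-- the reference function as an element of the function field of level `N` -/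
def UbarF (hp2 : p ≠ 2) (N : ℕ) : modularFunctionFieldFullC k N :=
  ⟨Ubar k p, Ubar_mem k p hp2 N⟩

theorem UbarF_val (hp2 : p ≠ 2) (N : ℕ) : (UbarF k p hp2 N : LaurentSeries k) = Ubar k p := rfl

theorem UbarF_ne_zero (hp2 : p ≠ 2) (N : ℕ) : UbarF k p hp2 N ≠ 0 := by
  intro h
  exact Ubar_ne_zero k p (by rw [← UbarF_val k p hp2 N, h]; rfl)

end Field

end Fermat.Agent.S40x.Diag.RefQ
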