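import Fermat.Agent.S40x.Diag.Asm
import Fermat.Agent.S40x.Diag.ChainDeg
import Fermat.Agent.S40x.Diag.RefQ

/-!
# P-S44, block DIAG (G3): `diag_Mq` by the `Abs` route, Hecke stability discharged (helper56)

Independent second of `Diag/Asm.diag_Mq` (helper71; route `DiagNCore` with the hypothesis `hAB`):
here the abstract core is `Diag/Abs` and everything about the Hecke operator is discharged by the
landed chain `ChainDeg.diag_zero_deg` (`Key` + `KeyWrap` + `HeckeKerQ` + `HeckeWrap` + `NormQK` +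
`DqInst` + `DegMaps`); the reference function is the landed `RefQ.UbarF` (`Ū = Δ̄^(1-q)` as an
element of `Fk k M`, `dlog Ū` Eisenstein by `RefQ.heckeT_dlog_Ubar`); the reduced Kummer function,
its slopes and its Kummer–Hecke eigen-relation are `Asm.exists_unit_rep`; the characteristic zero
norm formula at the level `M q` is `ESC.normQExpFormula_of_finrank` + `HDeg.finrankAlong_alpha`.

`diag_Mq_ref` : at the level `M q` (`4 ∣ M`, `q ∤ M`, `q ≠ 2`), `ℓ ∤ M q` a prime, `x` a `q`-torsion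
class with `T_ℓ x = a • x`, `a ≢ ℓ + 1 mod q`.  If the slopes of `x` on `C_∞` are `c` on `Nd` and `0`
off `Nd` (among the places with `0 ≤ ord j̄`), and the orders of `Ū` are `≡ e₀ ≢ 0` on `Nd` and `≡ 0`
off `Nd` (D-REFORD), and `Nd` contains a non-cuspidal place, then `c = 0`.
-/

set_option autoImplicit false
set_option linter.style.haveILetI false
set_option linter.unusedSectionVars false

noncomputable section

namespace Fermat.Agent.S40x.Diag.AsmB

open ModularCurve AlgebraicCurve IntermediateField IsLocalRing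
open Fermat.Agent.Gateway.Hecke Fermat.Agent.Gateway.ESC Fermat.Agent.Gateway.Kummer
open Fermat.Agent.Gateway.Red Fermat.Agent.Gateway.GoodRed
open Fermat.Agent.Gateway.GoodRed.ConjFamily
open Fermat.Agent.S34x.TwoVal Fermat.Agent.S34x.C0two
open Fermat.Agent.S34x.Inst.RedSetupInst Fermat.Agent.S34x.Inst
open Fermat.Agent.S40x.Slope.UnitTwo Fermat.Agent.S40x.Slope.SlopeInv
open Fermat.Agent.S40x.Slope.InstMq
open Fermat.Agent.S40x.C2.DlogHecke

variable {L : Type} [Field L] [Algebra ℚ L] [IsAlgClosed L] [Algebra.IsAlgebraic ℚ L]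
  {A : ValuationSubring L}
  {k : Type} [Field k] {π : A →+* k} [IsAlgClosed k]
variable {M q : ℕ} [NeZero M] [NeZero q] [Fact q.Prime] [CharP k q]
variable {hdeg : finrankAlong L (heckeAlphaBar L M q) = q + 1} {hq : q.Prime} {hqM : ¬ q ∣ M}
variable {hrk : ∀ x ∈ maximalIdeal A, ∀ c : A, c ≠ 0 → ∃ j : ℕ, c ∣ x ^ j}
  {hπ : Function.Surjective π}
variable (H : ResidueFacts A π M q hdeg hq hqM hrk hπ) (hA : A.LiesOverPrime q)

/-- **DIAG (G3) at the level `M q`, `Abs` route, Hecke side discharged.** -/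
theorem diag_Mq_ref (h4 : 4 ∣ M) (hq2 : q ≠ 2)
    {ℓ : ℕ} [NeZero ℓ] (hℓ : ℓ.Prime) (hℓM : ¬ ℓ ∣ M) (hℓq : ℓ ≠ q)
    (Nd : Set (Place k (Fk k M))) (hne : ∃ P : Place k (Fk k M), P ∈ Nd ∧ 0 ≤ P.ord (jFk k M))
    -- the orders of the reference function (leaf D-REFORD)
    (e₀ : ZMod q) (he₀ : e₀ ≠ 0)
    (href : ∀ P : Place k (Fk k M), 0 ≤ P.ord (jFk k M) → P ∈ Nd →
      ((P.ord (RefQ.UbarF k q hq2 M) : ℤ) : ZMod q) = e₀)
    (href' : ∀ P : Place k (Fk k M), 0 ≤ P.ord (jFk k M) → P ∉ Nd →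
      ((P.ord (RefQ.UbarF k q hq2 M) : ℤ) : ZMod q) = 0)
    -- the class
    {x : Pic0 L (FL L (M * q))} (hx : (q : ℤ) • x = 0) {a : ℤ}
    (hxa : heckeOperatorAlong L (M * q) ℓ x = a • x)
    (hNE : (a : ZMod q) ≠ (ℓ : ZMod q) + 1)
    (c : ZMod q)
    (hnode : ∀ P : Place k (Fk k M), 0 ≤ P.ord (jFk k M) → P ∈ Nd → slopeInf H hA q x P = c)
    (hoff : ∀ P : Place k (Fk k M), 0 ≤ P.ord (jFk k M) → P ∉ Nd → slopeInf H hA q x P = 0) :
    c = 0 := by
  have hqp : q.Prime := Fact.out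
  haveI : CharZero L := charZero_of_ratAlgebra L
  have hℓk : (ℓ : k) ≠ 0 := by
    intro h0
    have h1 : q ∣ ℓ := (CharP.cast_eq_zero_iff k q ℓ).mp h0
    exact hℓq ((Nat.prime_dvd_prime_iff_eq hqp hℓ).mp h1).symm
  have hqMℓ : ¬ q ∣ M * ℓ := by
    intro h
    rcases hqp.dvd_mul.mp h with h1 | h1
    · exact hqM h1
    · exact hℓq ((Nat.prime_dvd_prime_iff_eq hqp hℓ).mp h1).symm
  have hℓMq : ¬ ℓ ∣ M * q := by
    intro h
    rcases hℓ.dvd_mul.mp h with h1 | h1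
    · exact hℓM h1
    · exact hℓq ((Nat.prime_dvd_prime_iff_eq hℓ hqp).mp h1)
  -- the characteristic zero norm formula at the level `M q`
  have hC1 : ∃ ζ : Lˣ, IsPrimitiveRoot ζ ℓ ∧ NormQExpFormula L (M * q) ℓ ζ := by
    obtain ⟨ζ, hζ⟩ := Fermat.Agent.Gateway.ESC.exists_prim_unit L ℓ (NeZero.ne ℓ)
    exact ⟨ζ, hζ, Fermat.Agent.Gateway.ESC.normQExpFormula_of_finrank L (M * q) ℓ hℓ hℓMq _ hζ
      (Fermat.Agent.S34x.Inst.HDeg.finrankAlong_alpha L (M * q) ℓ hℓ hℓMq)⟩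
  obtain ⟨fb, hfb, hslope, hKH⟩ := Asm.exists_unit_rep H hA hx
  have heigf := hKH hℓ hℓk hC1 a hxa
  have heigU : heckeT ℓ (dlog ((RefQ.UbarF k q hq2 M : Fk k M) : LaurentSeries k)) =
      ((ℓ + 1 : ℕ) : LaurentSeries k) *
        dlog ((RefQ.UbarF k q hq2 M : Fk k M) : LaurentSeries k) := by
    rw [RefQ.UbarF_val]
    exact RefQ.heckeT_dlog_Ubar k q hℓ
  exact ChainDeg.diag_zero_deg A π q M ℓ hπ hqM hqMℓ hℓ hℓM h4 hfb
    (RefQ.UbarF_ne_zero k q hq2 M) a heigf heigU Nd c e₀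
    (fun P hP hPN => (hslope P).symm.trans (hnode P hP hPN))
    (fun P hP hPN => (hslope P).symm.trans (hoff P hP hPN))
    href href' he₀ hne hNE

end Fermat.Agent.S40x.Diag.AsmB
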