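import Fermat.Agent.S40x.Diag.Asm
import Fermat.Agent.S40x.Geo.Final
import Fermat.Agent.Gateway.GoodRed.Instantiate.HauptRed
import Fermat.Agent.Gateway.ESC.NormQExp

/-!
# P-S44, block DIAG (G3), leaf D-ASM, layer 2 (helper71): `Geo.Final.BlockDIAG` from three facts

`Diag/Asm.diag_Mq` at the `ℚ̄`-instance of `Geo/Vocab` (`L = ℚ̄`, `A = B`, `k = ResidueField B`,
`M = M₀`, `q = p`), in the literal `Geo.Final.BlockDIAG nodeInf nodeZero` consumed by
`Geo/Final.leafGEO'_of_blocks` (and `Geo/FinalV2` through `blockDIAG'_of_blockDIAG`).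

What remains of DIAG is isolated in three closed propositions about a good level `M₀ p`
(`p ≥ 5` prime, `p ∤ M₀`, `4 ∣ M₀`, `B` a place of `ℚ̄` over `p`, `k = ResidueField B`,
`NC = NCset k M₀` the places of `Fk k M₀` which are not poles of `j̄`):

* `NodeFacts nodeInf`  (block R1): the node places of `κ_∞` are non-cuspidal and there is one;
* `RefFacts nodeInf`   (leaves D-REFQ, D-REFORD): a reference unit `φE ∈ Fk k M₀` with
  `ord_P φE ≡ e₀ ≢ 0 mod p` at the node places, `≡ 0` at the other non-cuspidal places, and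
  `heckeT ℓ (dlog φE) = (ℓ + 1) dlog φE`;
* `StableFacts`        (leaves D-DEG, D-KEY, D-HECKE): for every prime `ℓ ∤ M₀ p` the lattice
  `Λ = {φ | p ∣ ord_P φ on NC}` is stable under the multiplicative Hecke operator (literal `hAB` of
  `DiagNCore.diag_core`).

`blockDIAG_of_facts : NodeFacts nodeInf → RefFacts nodeInf → StableFacts → BlockDIAG nodeInf nodeZero`.
-/

set_option autoImplicit false
set_option linter.style.haveILetI false
set_option linter.unusedSectionVars false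
set_option linter.unusedVariables false

noncomputable section

namespace Fermat.Agent.S40x.Diag.Block

open ModularCurve AlgebraicCurve IntermediateField IsLocalRing CuspForm
open Fermat.Agent.Gateway.Hecke Fermat.Agent.Gateway.ESC Fermat.Agent.Gateway.Kummer
open Fermat.Agent.Gateway.Red Fermat.Agent.Gateway.GoodRed
open Fermat.Agent.Gateway.GoodRed.ConjFamily
open Fermat.Agent.S34x.TwoVal Fermat.Agent.S34x.C0two
open Fermat.Agent.S34x.Inst.RedSetupInst Fermat.Agent.S34x.Inst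
open Fermat.Agent.Gateway.S31Red
open Fermat.Agent.S33x.KummerPn
open Fermat.Agent.S40x.Slope.InstMq
open Fermat.Agent.S40x.C2.DlogHecke
open Fermat.Agent.S40x.Geo.Vocab Fermat.Agent.S40x.Geo.Final
open Fermat.Agent.S40x.Level.G0

local notation "Qb" => AlgebraicClosure ℚ

/-- the non-cuspidal places of `Fk k M`: the places which are not poles of `j̄` -/
def NCset (k : Type) [Field k] (M : ℕ) [NeZero M] : Set (Place k (Fk k M)) :=
  {P | 0 ≤ P.ord (jFk k M)}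

theorem mem_NCset {k : Type} [Field k] {M : ℕ} [NeZero M] {P : Place k (Fk k M)} :
    P ∈ NCset k M ↔ 0 ≤ P.ord (jFk k M) := Iff.rfl

/-- **(R1)** the node places of `κ_∞` are non-cuspidal, and there is at least one. -/
def NodeFacts (nodeInf : NodeFamily) : Prop :=
  ∀ (p M₀ : ℕ) [NeZero p] [NeZero M₀], p.Prime → 5 ≤ p → ¬ p ∣ M₀ → 4 ∣ M₀ →
    ∀ (B : ValuationSubring Qb), B.LiesOverPrime p →
      nodeInf M₀ p B ⊆ NCset (kB B) M₀ ∧ (nodeInf M₀ p B).Nonempty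

/-- **(D-REFQ, D-REFORD)** the reference unit. -/
def RefFacts (nodeInf : NodeFamily) : Prop :=
  ∀ (p M₀ : ℕ) [NeZero p] [NeZero M₀], p.Prime → 5 ≤ p → ¬ p ∣ M₀ → 4 ∣ M₀ →
    ∀ (B : ValuationSubring Qb), B.LiesOverPrime p →
      ∃ (φE : Fk (kB B) M₀) (e₀ : ℤ), φE ≠ 0 ∧ ¬ (p : ℤ) ∣ e₀ ∧
        (∀ P ∈ nodeInf M₀ p B, (p : ℤ) ∣ P.ord φE - e₀) ∧
        (∀ P ∈ NCset (kB B) M₀, P ∉ nodeInf M₀ p B → (p : ℤ) ∣ P.ord φE) ∧
        ∀ (ℓ : ℕ) [NeZero ℓ], ℓ.Prime →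
          heckeT ℓ (dlog (φE : LaurentSeries (kB B))) =
            ((ℓ + 1 : ℕ) : LaurentSeries (kB B)) * dlog (φE : LaurentSeries (kB B))

/-- **(D-DEG, D-KEY, D-HECKE)** Hecke stability of the lattice `Λ`. -/
def StableFacts : Prop :=
  ∀ (p M₀ : ℕ) [NeZero p] [NeZero M₀], p.Prime → 5 ≤ p → ¬ p ∣ M₀ → 4 ∣ M₀ →
    ∀ (B : ValuationSubring Qb), B.LiesOverPrime p →
      ∀ (ℓ : ℕ) [NeZero ℓ], ℓ.Prime → ¬ ℓ ∣ M₀ * p →
        ∀ φ : Fk (kB B) M₀, φ ≠ 0 → (∀ P ∈ NCset (kB B) M₀, (p : ℤ) ∣ P.ord φ) →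
          ∃ φ' : Fk (kB B) M₀, φ' ≠ 0 ∧ (∀ P ∈ NCset (kB B) M₀, (p : ℤ) ∣ P.ord φ') ∧
            dlog (φ' : LaurentSeries (kB B)) = heckeT ℓ (dlog (φ : LaurentSeries (kB B)))

/-- **Block DIAG from the three facts.** -/
theorem blockDIAG_of_facts {nodeInf nodeZero : NodeFamily} (hNode : NodeFacts nodeInf)
    (hRef : RefFacts nodeInf) (hStab : StableFacts) : BlockDIAG nodeInf nodeZero := by
  intro p M' M₀ _ _ _ hp hpM S θ B hB V L ctx x hxV c hdiag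
  haveI : Algebra.IsAlgebraic ℚ Qb := AlgebraicClosure.isAlgebraic ℚ
  haveI : Fact p.Prime := ⟨hp⟩
  haveI : IsAlgClosed (ResidueField B) := FinalBase.isAlgClosed_residueField B
  haveI : CharP (ResidueField B) p := FinalBase.charP_residueField B hB
  have hp5 := ctx.five_le
  have h4 := ctx.four_dvd
  -- the non-Eisenstein prime
  obtain ⟨ℓ, hℓ, hℓN', hℓS, hne⟩ := ctx.nonEis
  haveI : NeZero ℓ := ⟨hℓ.ne_zero⟩
  have hℓS' : ℓ ∉ S := fun h => hℓS (Finset.mem_coe.mpr h)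
  have hℓN : ¬ ℓ ∣ M₀ * p := ctx.not_dvd_of_notMem ℓ hℓ hℓS'
  have hℓk : ((ℓ : ℕ) : kB B) ≠ 0 := by
    intro h0
    have h1 : p ∣ ℓ := (CharP.cast_eq_zero_iff (kB B) p ℓ).mp h0
    have h2 : p = ℓ := (Nat.prime_dvd_prime_iff_eq hp hℓ).mp h1
    exact hℓN (h2 ▸ dvd_mul_left p M₀)
  -- the eigen-relation
  have hxa : heckeOperatorAlong Qb (M₀ * p) ℓ ((x : JTors (M₀ * p) (p ^ 1)) : JZero (M₀ * p)) =
      thetaVal θ ℓ • ((x : JTors (M₀ * p) (p ^ 1)) : JZero (M₀ * p)) :=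
    ctx.eigen ℓ hℓ hℓN hℓS' x hxV
  have hNE : ((thetaVal θ ℓ : ℕ) : ZMod p) ≠ (ℓ : ZMod p) + 1 := by
    rw [thetaVal_cast θ hℓ hℓN' hℓS]
    exact hne
  -- the three facts
  obtain ⟨hNd, hnonempty⟩ := hNode p M₀ hp hp5 hpM h4 B hB
  obtain ⟨φE, e₀, hφE, he₀, hEN, hES, hEis⟩ := hRef p M₀ hp hp5 hpM h4 B hB
  have hAB := hStab p M₀ hp hp5 hpM h4 B hB ℓ hℓ hℓN
  -- the separating element
  have hπ : Function.Surjective (residue B) := FinalBase.residue_surjective B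
  obtain ⟨ζ, hζ⟩ := Fermat.Agent.Gateway.ESC.exists_prim_unit Qb ℓ (NeZero.ne ℓ)
  exact Fermat.Agent.S40x.Diag.Asm.diag_Mq
    (ResidueInst.residueFacts B (residue B) M₀ p (hdegQb M₀ p hp hpM) hp hpM
      (FinalBase.rank_one B hp hB) (FinalBase.residue_surjective B)) hB
    (HauptRed.t4 B (residue B) M₀ p hπ hpM h4) (HauptRed.coe_t4 B (residue B) M₀ p hπ hpM h4)
    hℓ hℓk
    ⟨ζ, hζ, Fermat.Agent.Gateway.ESC.normQExpFormula_algebraicClosure (M₀ * p) ℓ hℓ hℓN ζ hζ⟩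
    (NCset (kB B) M₀) (nodeInf M₀ p B) hNd hnonempty hφE e₀ he₀ hEN hES (hEis ℓ hℓ)
    hAB (zsmul_coe_eq_zero x) hxa hNE c hdiag.inf_node (fun P _ hP => hdiag.inf_off P hP)

end Fermat.Agent.S40x.Diag.Block
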