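import Fermat.Agent.S40x.Diag.DiagMqNC
import Fermat.Agent.S40x.Geo.Vocab
import Fermat.Agent.S40x.Level.G0

/-!
# P-S44, block DIAG (G3), leaf D-ASM (helper71): DIAG at ONE good level, `ℚ̄`-instance

`Diag/DiagMqNC.diag_Mq_NC` (= `Diag/Asm.diag_Mq` with the Hecke stability `hAB`, the separating
element and (C1) discharged; helper38 on helper1's `HABDeg`) at the `ℚ̄`-instance of `Geo/Vocab`
(`L = ℚ̄`, `A = B`, `k = ResidueField B`, `M = M₀`, `q = p`), for an ARBITRARY set `Nd` of places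
of `κ_∞ = Fk k M₀` (so that the statement does not depend on the type in which block R1 packages
its node sets).

* `RefData p M₀ B Nd` : the two remaining inputs about the set `Nd` of node places:
  `Nd ⊆ NC` (node places are non-cuspidal) and the reference unit `φE` (leaves D-REFQ, D-REFORD);
* `diag_goodLevel` : `Nd` non-empty, `RefData`, `x` a `p`-torsion class with `T_ℓ x = a • x`,
  `a ≢ ℓ + 1 mod p`, slopes on `C_∞` equal to `c` on `Nd` and `0` off `Nd` ⟹ `c = 0`;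
* `diag_goodLevel_eigenAt` : the same for `x ∈ V`, `V` with `Level/G0.EigenAt` and a non-Eisenstein
  prime `ℓ ∉ S`, with the slope hypotheses in the form `IsDiagonal.inf_node / inf_off`.
-/

set_option autoImplicit false
set_option linter.style.haveILetI false
set_option linter.unusedSectionVars false
set_option linter.unusedVariables false

noncomputable section

namespace Fermat.Agent.S40x.Diag.BlockLevel

open ModularCurve AlgebraicCurve IntermediateField IsLocalRing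
open Fermat.Agent.Gateway.Hecke Fermat.Agent.Gateway.ESC Fermat.Agent.Gateway.Kummer
open Fermat.Agent.Gateway.Red Fermat.Agent.Gateway.GoodRed
open Fermat.Agent.Gateway.GoodRed.ConjFamily
open Fermat.Agent.S34x.TwoVal Fermat.Agent.S34x.C0two
open Fermat.Agent.S34x.Inst.RedSetupInst Fermat.Agent.S34x.Inst
open Fermat.Agent.Gateway.S31Red
open Fermat.Agent.S33x.KummerPn
open Fermat.Agent.S40x.Slope.InstMq
open Fermat.Agent.S40x.C2.DlogHecke
open Fermat.Agent.S40x.Geo.Vocab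
open Fermat.Agent.S40x.Level.G0

local notation "Qb" => AlgebraicClosure ℚ

/-- **The two remaining inputs of DIAG about the set `Nd` of node places of `κ_∞`** at the good
level `M₀ p` and the place `B`: the node places are non-cuspidal, and there is a reference unit
`φE` with `ord_P φE ≡ e₀ ≢ 0 mod p` on `Nd`, `≡ 0` at the other non-cuspidal places, whose
logarithmic derivative is an Eisenstein eigenvector. -/
def RefData (p M₀ : ℕ) [NeZero M₀] (B : ValuationSubring Qb)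
    (Nd : Set (Place (kB B) (FkB B M₀))) : Prop :=
  Nd ⊆ CuspFun.NC (kB B) M₀ ∧
    ∃ (φE : Fk (kB B) M₀) (e₀ : ℤ), φE ≠ 0 ∧ ¬ (p : ℤ) ∣ e₀ ∧
      (∀ P ∈ Nd, (p : ℤ) ∣ P.ord φE - e₀) ∧
      (∀ P ∈ CuspFun.NC (kB B) M₀, P ∉ Nd → (p : ℤ) ∣ P.ord φE) ∧
      ∀ (ℓ : ℕ) [NeZero ℓ], ℓ.Prime →
        heckeT ℓ (dlog (φE : LaurentSeries (kB B))) =
          ((ℓ + 1 : ℕ) : LaurentSeries (kB B)) * dlog (φE : LaurentSeries (kB B))

variable {M₀ p : ℕ} [NeZero M₀] [NeZero p]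

/-- **DIAG at one good level.** -/
theorem diag_goodLevel (hp : p.Prime) (hpM : ¬ p ∣ M₀) (h4 : 4 ∣ M₀)
    (B : ValuationSubring Qb) (hB : B.LiesOverPrime p)
    (Nd : Set (Place (kB B) (FkB B M₀))) (hne : Nd.Nonempty) (hRef : RefData p M₀ B Nd)
    {ℓ : ℕ} (hℓ : ℓ.Prime) (hℓN : ¬ ℓ ∣ M₀ * p)
    {x : JZero (M₀ * p)} (hx : (p : ℤ) • x = 0) {a : ℕ}
    (hxa : haveI : NeZero ℓ := ⟨hℓ.ne_zero⟩; heckeOperatorAlong Qb (M₀ * p) ℓ x = a • x)
    (hNE : ((a : ℕ) : ZMod p) ≠ (ℓ : ZMod p) + 1)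
    (c : ZMod p) (hnode : ∀ P ∈ Nd, slopeInfQb M₀ p hp hpM B hB x P = c)
    (hoff : ∀ P ∉ Nd, slopeInfQb M₀ p hp hpM B hB x P = 0) :
    c = 0 := by
  haveI : Algebra.IsAlgebraic ℚ Qb := AlgebraicClosure.isAlgebraic ℚ
  haveI : Fact p.Prime := ⟨hp⟩
  haveI : IsAlgClosed (ResidueField B) := FinalBase.isAlgClosed_residueField B
  haveI : CharP (ResidueField B) p := FinalBase.charP_residueField B hB
  haveI : NeZero ℓ := ⟨hℓ.ne_zero⟩
  obtain ⟨hNd, φE, e₀, hφE, he₀, hEN, hES, hEis⟩ := hRef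
  exact Fermat.Agent.S40x.Diag.DiagMqNC.diag_Mq_NC
    (ResidueInst.residueFacts B (residue B) M₀ p (hdegQb M₀ p hp hpM) hp hpM
      (FinalBase.rank_one B hp hB) (FinalBase.residue_surjective B)) hB h4 hℓ hℓN
    Nd hNd hne hφE e₀ he₀ hEN hES (hEis ℓ hℓ) hx hxa hNE c hnode (fun P _ hP => hoff P hP)

/-- **DIAG at one good level, for the classes of an eigenspace.**  `V ≤ J₀(M₀ p)[p]` with the
elementwise eigen-relations `EigenAt` for an eigenvalue function `a`, `ℓ ∉ S` a non-Eisenstein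
prime not dividing the level. -/
theorem diag_goodLevel_eigenAt (hp : p.Prime) (hpM : ¬ p ∣ M₀) (h4 : 4 ∣ M₀)
    (B : ValuationSubring Qb) (hB : B.LiesOverPrime p)
    (Nd : Set (Place (kB B) (FkB B M₀))) (hne : Nd.Nonempty) (hRef : RefData p M₀ B Nd)
    (S : Finset ℕ) (a : ℕ → ℕ) {V : AddSubgroup (JTors (M₀ * p) (p ^ 1))}
    (hV : EigenAt (M₀ * p) (p ^ 1) S a V)
    {ℓ : ℕ} (hℓ : ℓ.Prime) (hℓN : ¬ ℓ ∣ M₀ * p) (hℓS : ℓ ∉ S)
    (hNE : ((a ℓ : ℕ) : ZMod p) ≠ (ℓ : ZMod p) + 1)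
    {x : JTors (M₀ * p) (p ^ 1)} (hxV : x ∈ V)
    (c : ZMod p) (hnode : ∀ P ∈ Nd, slopeInfQb M₀ p hp hpM B hB (x : JZero (M₀ * p)) P = c)
    (hoff : ∀ P ∉ Nd, slopeInfQb M₀ p hp hpM B hB (x : JZero (M₀ * p)) P = 0) :
    c = 0 :=
  diag_goodLevel hp hpM h4 B hB Nd hne hRef hℓ hℓN (zsmul_coe_eq_zero x)
    (hV ℓ hℓ hℓN hℓS x hxV) hNE c hnode hoff

end Fermat.Agent.S40x.Diag.BlockLevel
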