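/-
helper43 (P-S44, block C2/DIAG, leaf (D2)): **the norm commutes with reduction**.

`F'/F` a finite extension of fields, `O' ⊆ F'` a valuation subring lying over the valuation subring
`O ⊆ F`, residue maps `r : O → κ`, `r' : O' → κ'` (the `Setup` of helper71's `C2/TraceRed.lean`),
and `[F' : F] ≤ [κ' : κ]` (the valuation is inert: `e = 1`, `f = [F' : F]`, no defect).  Then for
`y ∈ O'`:  `N_{F'/F}(y) ∈ O` and `r (N_{F'/F} y) = N_{κ'/κ} (r' y)`.

Used in DIAG (G3): `red_∞ (N_β (α^* f)) = N_{β̄} (ᾱ^* (red_∞ f))` for the degeneracy maps at `l`.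
-/
import Fermat.Agent.S40x.C2.TraceRed

set_option autoImplicit false

namespace Fermat.Agent.S40x.Diag.NormRedVal

open Module Fermat.Agent.S40x.C2.TraceRed

variable {F F' : Type*} [Field F] [Field F'] [Algebra F F']
  {O : ValuationSubring F} {O' : ValuationSubring F'}
  {κ κ' : Type*} [Field κ] [Field κ'] [Algebra κ κ']
  {r : O →+* κ} {r' : O' →+* κ'}

/-- **The norm of an integral element is integral, and the norm commutes with reduction.** -/
theorem norm_mem_and_red (S : Setup O O' r r') [FiniteDimensional F F'] [FiniteDimensional κ κ']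
    (hdeg : finrank F F' ≤ finrank κ κ') (y : O') :
    ∃ h : Algebra.norm F (y : F') ∈ O,
      r ⟨Algebra.norm F (y : F'), h⟩ = Algebra.norm κ (r' y) := by
  classical
  obtain ⟨b, x, bk, hb, hbk, hrepr⟩ := S.exists_basis hdeg
  -- the matrix of multiplication by `y`, with entries in `O`
  let A : Matrix (Fin (finrank κ κ')) (Fin (finrank κ κ')) O := fun i j =>
    ⟨b.repr ((y * x j : O') : F') i, hrepr _ i⟩
  have hA : Algebra.leftMulMatrix b (y : F') = A.map O.subtype := by
    ext i j
    rw [Algebra.leftMulMatrix_eq_repr_mul, hb j]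
    rfl
  have hnorm : Algebra.norm F (y : F') = O.subtype A.det := by
    rw [Algebra.norm_eq_matrix_det b, hA, RingHom.map_det]
    rfl
  have hmem : Algebra.norm F (y : F') ∈ O := by
    rw [hnorm]
    exact A.det.2
  refine ⟨hmem, ?_⟩
  have h1 : (⟨Algebra.norm F (y : F'), hmem⟩ : O) = A.det := Subtype.ext hnorm
  rw [h1, RingHom.map_det]
  -- the reduced matrix is the matrix of multiplication by `r' y`
  have hmul : ∀ j, r' y * bk j = ∑ i, r (A i j) • bk i := by
    intro j
    have hyx : (y * x j : O') = ∑ i, S.incl (A i j) * x i := by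
      apply Subtype.ext
      rw [show ((∑ i, S.incl (A i j) * x i : O') : F') =
        ∑ i, ((S.incl (A i j) * x i : O') : F') from map_sum O'.subtype _ _]
      conv_lhs => rw [← b.sum_repr ((y * x j : O') : F')]
      refine Finset.sum_congr rfl fun i _ => ?_
      rw [hb i, Algebra.smul_def]
      rfl
    rw [hbk j, ← map_mul, hyx, map_sum]
    refine Finset.sum_congr rfl fun i _ => ?_
    rw [map_mul, S.r'_incl, hbk i, Algebra.smul_def]
  rw [Algebra.norm_eq_matrix_det bk]
  congr 1
  ext i j
  rw [Algebra.leftMulMatrix_eq_repr_mul, hmul j]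
  simp only [map_sum, map_smul, Basis.repr_self, Finsupp.coe_finsetSum, Finsupp.coe_smul,
    Finset.sum_apply, Pi.smul_apply, smul_eq_mul, RingHom.mapMatrix_apply, Matrix.map_apply]
  rw [Finset.sum_eq_single i]
  · simp
  · intro j' _ hji
    simp [hji]
  · intro h
    exact absurd (Finset.mem_univ i) h

theorem norm_mem (S : Setup O O' r r') [FiniteDimensional F F'] [FiniteDimensional κ κ']
    (hdeg : finrank F F' ≤ finrank κ κ') (y : O') : Algebra.norm F (y : F') ∈ O :=
  (norm_mem_and_red S hdeg y).1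

theorem red_norm (S : Setup O O' r r') [FiniteDimensional F F'] [FiniteDimensional κ κ']
    (hdeg : finrank F F' ≤ finrank κ κ') (y : O') :
    r ⟨Algebra.norm F (y : F'), norm_mem S hdeg y⟩ = Algebra.norm κ (r' y) :=
  (norm_mem_and_red S hdeg y).2

/-- the norm of a unit of `O'` is a unit of `O` -/
theorem norm_inv_mem (S : Setup O O' r r') [FiniteDimensional F F'] [FiniteDimensional κ κ']
    (hdeg : finrank F F' ≤ finrank κ κ') {y : F'} (hy : y ∈ O') (hy' : y⁻¹ ∈ O') :
    Algebra.norm F y ∈ O ∧ (Algebra.norm F y)⁻¹ ∈ O := by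
  refine ⟨norm_mem S hdeg ⟨y, hy⟩, ?_⟩
  have h1 := norm_mem S hdeg ⟨y⁻¹, hy'⟩
  rcases eq_or_ne y 0 with rfl | hy0
  · rw [Algebra.norm_zero, inv_zero]
    exact O.zero_mem
  · have h2 : Algebra.norm F y * Algebra.norm F y⁻¹ = 1 := by
      rw [← map_mul, mul_inv_cancel₀ hy0, map_one]
    rw [← eq_inv_of_mul_eq_one_right h2]
    exact h1

/-- if the residue of `y` comes from `κ`, the residue of the norm is its `[F' : F]`-th power -/
theorem red_norm_of_mem (S : Setup O O' r r') [FiniteDimensional F F'] [FiniteDimensional κ κ']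
    (hdeg : finrank F F' ≤ finrank κ κ') (y : O') (c : κ) (hc : r' y = algebraMap κ κ' c) :
    r ⟨Algebra.norm F (y : F'), norm_mem S hdeg y⟩ = c ^ finrank F F' := by
  rw [red_norm S hdeg y, hc, Algebra.norm_algebraMap, le_antisymm S.finrank_residue_le hdeg]

end Fermat.Agent.S40x.Diag.NormRedVal
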