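import Fermat.Agent.S34x.TwoVal.Gauss0
import Fermat.Agent.S40x.Diag.NormRedVal
import Fermat.Agent.S40x.C2.DlogHeckeRed
import Fermat.Agent.S40x.C2.DlogHecke
import Fermat.Agent.S40x.C2.KH.GaussUnit
import Fermat.Agent.Gateway.Kummer.HeckeRed
import Fermat.Agent.Gateway.ESC.NormQExp
import Fermat.Agent.S34x.Inst.HDeg

/-!
# P-S44, block C2, DIAG claim (B): the `q`-expansion norm formula in characteristic `p`

`L` of characteristic zero, `A ⊆ L` a valuation subring, `π : A → k` onto an algebraically closed
field of characteristic `p`; `N`, `l` with `p ∤ N l`.  `O N = OvVal` is the Gauss valuation ring of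
`F_N = FBar L N`, with residue map `r N = resFk` onto `Fk k N = modularFunctionFieldFullC k N`.

The characteristic `p` degeneracy maps `aK bK : Fk k N → Fk k (N l)` are inputs given through their
`q`-series (`aK u = u`, `bK u = u(q^l)`).  Under the degree hypothesis
`[F_{N l} : α F_N] ≤ [Fk k (N l) : aK (Fk k N)]` (the valuation is inert) the norm commutes with
reduction (`Diag/NormRedVal`), hence the characteristic zero norm formula
`(N_α (β u))(q^l) = u(q^{l²}) ∏_{b<l} u(ζ^b q)` (`Kummer.NormQExpFormula`) descends: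

* `normQExp_red` : for EVERY `φ ∈ Fk k N`:
  `(N_{aK} (bK φ))(q^l) = φ(q^{l²}) ∏_{b<l} φ(ζ̄^b q)`;
* `dlog_norm_eq_heckeT` : hence `dlog (N_{aK} (bK φ)) = T_l (dlog φ)` for `φ ≠ 0` (claim (B)).
-/

set_option autoImplicit false
set_option linter.style.haveILetI false
set_option linter.unusedSectionVars false

noncomputable section

namespace Fermat.Agent.S40x.Diag.NormQK

open ModularCurve AlgebraicCurve
open Fermat.Agent.Gateway.Hecke Fermat.Agent.Gateway.Red Fermat.Agent.Gateway.GoodRed
open Fermat.Agent.Gateway.Kummer Fermat.Agent.S34x.TwoVal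
open Fermat.Agent.S40x.C2.TraceRed Fermat.Agent.S40x.C2.DlogHecke

variable {L : Type} [Field L] [Algebra ℚ L] (A : ValuationSubring L)
  {k : Type} [Field k] (π : A →+* k) [IsAlgClosed k] (p : ℕ) [Fact p.Prime] [CharP k p]
  (N l : ℕ) [NeZero N] [NeZero l] (hπ : Function.Surjective π) (hpN : ¬ p ∣ N)
  (hpNl : ¬ p ∣ N * l)

/-! ### The degeneracy maps and the Gauss valuation rings -/

theorem alpha_mem_OvVal_iff (x : FL L N) :
    heckeAlphaBar L N l x ∈ OvVal A π (N * l) p hπ hpNl ↔ x ∈ OvVal A π N p hπ hpN :=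
  alpha_mem_Ov_iff A π N l x

theorem beta_mem_OvVal (x : OvVal A π N p hπ hpN) :
    heckeBetaBar L N l (x : FL L N) ∈ OvVal A π (N * l) p hπ hpNl :=
  beta_mem_Ov A π N l (x : FL L N) x.2

theorem coe_resFk_alpha (x : OvVal A π N p hπ hpN) :
    ((resFk A π (N * l) p hπ hpNl
        ⟨heckeAlphaBar L N l (x : FL L N), (alpha_mem_OvVal_iff A π p N l hπ hpN hpNl _).2 x.2⟩ :
      modularFunctionFieldFullC k (N * l)) : LaurentSeries k) =
      ((resFk A π N p hπ hpN x : modularFunctionFieldFullC k N) : LaurentSeries k) := by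
  rw [coe_resFk, coe_resFk]
  exact redV_alpha A π N l (x : FL L N) x.2

theorem coe_resFk_beta (x : OvVal A π N p hπ hpN) :
    ((resFk A π (N * l) p hπ hpNl
        ⟨heckeBetaBar L N l (x : FL L N), beta_mem_OvVal A π p N l hπ hpN hpNl x⟩ :
      modularFunctionFieldFullC k (N * l)) : LaurentSeries k) =
      qExpand k l ((resFk A π N p hπ hpN x : modularFunctionFieldFullC k N) : LaurentSeries k) := by
  rw [coe_resFk, coe_resFk]
  exact redV_beta A π N l (x : FL L N) x.2

/-- The `TraceRed.Setup` of the inclusion `α : F_N → F_{N l}` at the Gauss valuations. -/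
theorem setup_alpha (aK : modularFunctionFieldFullC k N →+* modularFunctionFieldFullC k (N * l))
    (haK : ∀ u, ((aK u : modularFunctionFieldFullC k (N * l)) : LaurentSeries k) =
      (u : LaurentSeries k)) :
    letI := algebraAlong (heckeAlphaBar L N l)
    letI := aK.toAlgebra
    Setup (OvVal A π N p hπ hpN) (OvVal A π (N * l) p hπ hpNl) (resFk A π N p hπ hpN)
      (resFk A π (N * l) p hπ hpNl) := by
  letI := algebraAlong (heckeAlphaBar L N l)
  letI := aK.toAlgebra
  refine ⟨fun x => alpha_mem_OvVal_iff A π p N l hπ hpN hpNl x, resFk_surjective A π N p hπ hpN,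
    resFk_surjective A π (N * l) p hπ hpNl, resFk_eq_zero_iff A π N p hπ hpN,
    resFk_eq_zero_iff A π (N * l) p hπ hpNl, ?_⟩
  intro x hx
  apply Subtype.ext
  refine (coe_resFk_alpha A π p N l hπ hpN hpNl x).trans ?_
  exact (haK _).symm

/-! ### The reduced norm formula -/

include hπ hpN hpNl in
/-- **The norm commutes with reduction** (instance of `Diag/NormRedVal` for `α`):
`heckeFun x = N_α (β x)` is integral for integral `x`, and reduces to `N_{aK} (bK x̄)`. -/
theorem heckeFun_mem_and_red
    (aK bK : modularFunctionFieldFullC k N →+* modularFunctionFieldFullC k (N * l))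
    (haK : ∀ u, ((aK u : modularFunctionFieldFullC k (N * l)) : LaurentSeries k) =
      (u : LaurentSeries k))
    (hbK : ∀ u, ((bK u : modularFunctionFieldFullC k (N * l)) : LaurentSeries k) =
      qExpand k l (u : LaurentSeries k))
    (hfin : FiniteAlong L (heckeAlphaBar L N l))
    (hfinK : letI := aK.toAlgebra
      FiniteDimensional (modularFunctionFieldFullC k N) (modularFunctionFieldFullC k (N * l)))
    (hdeg : finrankAlong L (heckeAlphaBar L N l) ≤
      (letI := aK.toAlgebra
       Module.finrank (modularFunctionFieldFullC k N) (modularFunctionFieldFullC k (N * l))))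
    (x : OvVal A π N p hπ hpN) :
    ∃ h : heckeFun L N l (x : FL L N) ∈ OvVal A π N p hπ hpN,
      resFk A π N p hπ hpN ⟨heckeFun L N l (x : FL L N), h⟩ =
        (letI := aK.toAlgebra
         Algebra.norm (modularFunctionFieldFullC k N) (bK (resFk A π N p hπ hpN x))) := by
  letI := algebraAlong (heckeAlphaBar L N l)
  letI := aK.toAlgebra
  haveI : FiniteDimensional (FL L N) (FL L (N * l)) := hfin
  haveI : FiniteDimensional (modularFunctionFieldFullC k N)
    (modularFunctionFieldFullC k (N * l)) := hfinK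
  have hy : resFk A π (N * l) p hπ hpNl
      ⟨heckeBetaBar L N l (x : FL L N), beta_mem_OvVal A π p N l hπ hpN hpNl x⟩ =
      bK (resFk A π N p hπ hpN x) := by
    apply Subtype.ext
    rw [coe_resFk_beta, hbK]
  obtain ⟨hmem, hred⟩ := Fermat.Agent.S40x.Diag.NormRedVal.norm_mem_and_red
    (setup_alpha A π p N l hπ hpN hpNl aK haK) hdeg
    ⟨heckeBetaBar L N l (x : FL L N), beta_mem_OvVal A π p N l hπ hpN hpNl x⟩
  refine ⟨hmem, ?_⟩
  rw [← hy]
  exact hred

include hπ hpN hpNl in
/-- **Claim (B), `q`-expansion form**: the norm formula in characteristic `p` for every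
`φ ∈ Fk k N`. -/
theorem normQExp_red (ζ : Aˣ)
    (hC1 : NormQExpFormula L N l (Units.map (A.subtype : A →* L) ζ))
    (aK bK : modularFunctionFieldFullC k N →+* modularFunctionFieldFullC k (N * l))
    (haK : ∀ u, ((aK u : modularFunctionFieldFullC k (N * l)) : LaurentSeries k) =
      (u : LaurentSeries k))
    (hbK : ∀ u, ((bK u : modularFunctionFieldFullC k (N * l)) : LaurentSeries k) =
      qExpand k l (u : LaurentSeries k))
    (hfin : FiniteAlong L (heckeAlphaBar L N l))
    (hfinK : letI := aK.toAlgebra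
      FiniteDimensional (modularFunctionFieldFullC k N) (modularFunctionFieldFullC k (N * l)))
    (hdeg : finrankAlong L (heckeAlphaBar L N l) ≤
      (letI := aK.toAlgebra
       Module.finrank (modularFunctionFieldFullC k N) (modularFunctionFieldFullC k (N * l))))
    (φ : modularFunctionFieldFullC k N) :
    qExpand k l (((letI := aK.toAlgebra
        Algebra.norm (modularFunctionFieldFullC k N) (bK φ)) :
          modularFunctionFieldFullC k N) : LaurentSeries k) =
      qExpand k l (qExpand k l (φ : LaurentSeries k)) *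
        ∏ b ∈ Finset.range l, twist ((Units.map (π : A →* k) ζ) ^ b) (φ : LaurentSeries k) := by
  obtain ⟨x, rfl⟩ := resFk_surjective A π N p hπ hpN φ
  obtain ⟨hmem, hred⟩ := heckeFun_mem_and_red A π p N l hπ hpN hpNl aK bK haK hbK hfin hfinK
    hdeg x
  rw [← hred, coe_resFk, redV_apply, coe_resFk, redV_apply]
  -- the characteristic zero formula
  have hform := hC1 (x : FL L N)
  have hx : ((x : FL L N) : LaurentSeries L) ∈ gaussRing A π := x.2
  have hq : qExpand L l ((x : FL L N) : LaurentSeries L) ∈ gaussRing A π :=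
    GaussRing.qExpand_mem_gaussRing A π l hx
  have h1 := Fermat.Agent.S40x.C2.DlogHeckeRed.norm_identity_red A π l ζ
    (F := ((heckeFun L N l (x : FL L N) : FL L N) : LaurentSeries L)) hmem hx hq
    (by rw [hform, qExpand_qExpand])
  rw [GaussRing.gaussRed_qExpand A π l hx] at h1
  exact h1

include hπ hpN hpNl in
/-- **Claim (B)**: `dlog (N_{aK} (bK φ)) = T_l (dlog φ)` for every `φ ≠ 0` of `Fk k N`. -/
theorem dlog_norm_eq_heckeT (hl : l.Prime) (hlk : (l : k) ≠ 0) (ζ : Aˣ)
    (hζ : IsPrimitiveRoot (Units.map (A.subtype : A →* L) ζ) l)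
    (hC1 : NormQExpFormula L N l (Units.map (A.subtype : A →* L) ζ))
    (aK bK : modularFunctionFieldFullC k N →+* modularFunctionFieldFullC k (N * l))
    (haK : ∀ u, ((aK u : modularFunctionFieldFullC k (N * l)) : LaurentSeries k) =
      (u : LaurentSeries k))
    (hbK : ∀ u, ((bK u : modularFunctionFieldFullC k (N * l)) : LaurentSeries k) =
      qExpand k l (u : LaurentSeries k))
    (hfin : FiniteAlong L (heckeAlphaBar L N l))
    (hfinK : letI := aK.toAlgebra
      FiniteDimensional (modularFunctionFieldFullC k N) (modularFunctionFieldFullC k (N * l)))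
    (hdeg : finrankAlong L (heckeAlphaBar L N l) ≤
      (letI := aK.toAlgebra
       Module.finrank (modularFunctionFieldFullC k N) (modularFunctionFieldFullC k (N * l))))
    {φ : modularFunctionFieldFullC k N} (hφ : φ ≠ 0) :
    dlog (((letI := aK.toAlgebra
        Algebra.norm (modularFunctionFieldFullC k N) (bK φ)) :
          modularFunctionFieldFullC k N) : LaurentSeries k) =
      heckeT l (dlog (φ : LaurentSeries k)) := by
  have hζk : IsPrimitiveRoot (Units.map (π : A →* k) ζ) l :=
    Fermat.Agent.S40x.C2.KH.isPrimitiveRoot_map_pi hl hlk hζ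
  have hφ' : (φ : LaurentSeries k) ≠ 0 := fun h => hφ (Subtype.ext h)
  exact dlog_of_norm_formula hlk hζk hφ'
    (normQExp_red A π p N l hπ hpN hpNl ζ hC1 aK bK haK hbK hfin hfinK hdeg φ)

/-! ### `L` algebraically closed: `(C1)` and the degree upstairs are landed -/

section Closed

variable [IsAlgClosed L]

include hπ hpN hpNl in
/-- **Claim (B) over an algebraically closed `L`** (e.g. `ℚ̄`), `q`-expansion form: the only
inputs left are the characteristic `p` maps `aK`, `bK` and the lower bound
`l + 1 ≤ [Fk k (N l) : aK (Fk k N)]`. -/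
theorem exists_normQExp_red (hl : l.Prime) (hlN : ¬ l ∣ N) (hlk : (l : k) ≠ 0)
    (aK bK : modularFunctionFieldFullC k N →+* modularFunctionFieldFullC k (N * l))
    (haK : ∀ u, ((aK u : modularFunctionFieldFullC k (N * l)) : LaurentSeries k) =
      (u : LaurentSeries k))
    (hbK : ∀ u, ((bK u : modularFunctionFieldFullC k (N * l)) : LaurentSeries k) =
      qExpand k l (u : LaurentSeries k))
    (hfinK : letI := aK.toAlgebra
      FiniteDimensional (modularFunctionFieldFullC k N) (modularFunctionFieldFullC k (N * l)))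
    (hdegK : l + 1 ≤
      (letI := aK.toAlgebra
       Module.finrank (modularFunctionFieldFullC k N) (modularFunctionFieldFullC k (N * l)))) :
    ∃ ζ : kˣ, IsPrimitiveRoot ζ l ∧ ∀ φ : modularFunctionFieldFullC k N,
      qExpand k l (((letI := aK.toAlgebra
          Algebra.norm (modularFunctionFieldFullC k N) (bK φ)) :
            modularFunctionFieldFullC k N) : LaurentSeries k) =
        qExpand k l (qExpand k l (φ : LaurentSeries k)) *
          ∏ b ∈ Finset.range l, twist (ζ ^ b) (φ : LaurentSeries k) := by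
  haveI : CharZero L := charZero_of_ratAlgebra L
  obtain ⟨ζL, hζL⟩ := Fermat.Agent.Gateway.ESC.exists_prim_unit L l (NeZero.ne l)
  obtain ⟨ζ, rfl⟩ := Fermat.Agent.S40x.C2.KH.exists_unit_of_pow_eq_one (A := A) (NeZero.ne l) ζL
    hζL.pow_eq_one
  have hup : finrankAlong L (heckeAlphaBar L N l) = l + 1 :=
    Fermat.Agent.S34x.Inst.HDeg.finrankAlong_alpha L N l hl hlN
  have hC1 := Fermat.Agent.Gateway.ESC.normQExpFormula_of_finrank L N l hl hlN _ hζL hup
  refine ⟨Units.map (π : A →* k) ζ,
    Fermat.Agent.S40x.C2.KH.isPrimitiveRoot_map_pi hl hlk hζL, fun φ => ?_⟩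
  exact normQExp_red A π p N l hπ hpN hpNl ζ hC1 aK bK haK hbK
    (Fermat.Agent.Gateway.HK1.finiteAlong_alpha L N l) hfinK (hup.le.trans hdegK) φ

include hπ hpN hpNl in
/-- **Claim (B) over an algebraically closed `L`**: `dlog (N_{aK} (bK φ)) = T_l (dlog φ)`. -/
theorem dlog_norm_eq_heckeT_of_isAlgClosed (hl : l.Prime) (hlN : ¬ l ∣ N) (hlk : (l : k) ≠ 0)
    (aK bK : modularFunctionFieldFullC k N →+* modularFunctionFieldFullC k (N * l))
    (haK : ∀ u, ((aK u : modularFunctionFieldFullC k (N * l)) : LaurentSeries k) =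
      (u : LaurentSeries k))
    (hbK : ∀ u, ((bK u : modularFunctionFieldFullC k (N * l)) : LaurentSeries k) =
      qExpand k l (u : LaurentSeries k))
    (hfinK : letI := aK.toAlgebra
      FiniteDimensional (modularFunctionFieldFullC k N) (modularFunctionFieldFullC k (N * l)))
    (hdegK : l + 1 ≤
      (letI := aK.toAlgebra
       Module.finrank (modularFunctionFieldFullC k N) (modularFunctionFieldFullC k (N * l))))
    {φ : modularFunctionFieldFullC k N} (hφ : φ ≠ 0) :
    dlog (((letI := aK.toAlgebra
        Algebra.norm (modularFunctionFieldFullC k N) (bK φ)) :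
          modularFunctionFieldFullC k N) : LaurentSeries k) =
      heckeT l (dlog (φ : LaurentSeries k)) := by
  obtain ⟨ζ, hζ, h⟩ := exists_normQExp_red A π p N l hπ hpN hpNl hl hlN hlk aK bK haK hbK hfinK
    hdegK
  have hφ' : (φ : LaurentSeries k) ≠ 0 := fun h0 => hφ (Subtype.ext h0)
  exact dlog_of_norm_formula hlk hζ hφ' (h φ)

end Closed

end Fermat.Agent.S40x.Diag.NormQK
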