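import Fermat.Agent.S40x.Diag.HeckeWrap
import Fermat.Agent.S40x.Diag.NormQK
import Fermat.Agent.S40x.C2.DqInst

/-!
# P-S44, block C2 / DIAG: the chain at the instance `Fk k N` (helper56)

Compiler-checked seam: `HeckeWrap.diag_dvd_of_norm_formula` (= `Key` + `Abs` + `HeckeKerQ`) at
`F = Fk k N`, `F' = Fk k (N l)` (`4 ∣ N`, `p ∤ N l`, `l ∤ N` prime), with

* the analytic arguments `(t, Dq, hDt, ι, hdl)` discharged by the landed `C2/DqInst`
  (`t = x₄`, `Dq = thetaDer`, `ι` = the coercion to `k((q))`);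
* claim (B) (the `q`-expansion norm formula for `fb` and for `Ub`) discharged by the landed
  `Diag/NormQK.exists_normQExp_red`.

The degeneracy maps enter as `k`-algebra homomorphisms `φ ψ : Fk k N →ₐ[k] Fk k (N l)` given by
their `q`-series: `ψ u = u` (`= ᾱ`, the inclusion), `φ u = u(q^l)` (`= β̄`).  What is left are
the place-theoretic facts on `ψ`, `φ` (D-DEG / CUSPFUN), the two eigen-equations (KH, REFQ), the
orders modulo `p` of `fb` (C3) and `Ub` (D-REFORD), and `hNE`.  Nothing new is proved here.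
-/

set_option autoImplicit false
set_option linter.unusedSectionVars false
set_option linter.style.haveILetI false

noncomputable section

namespace Fermat.Agent.S40x.Diag.ChainFk

open ModularCurve AlgebraicCurve IntermediateField
open Fermat.Agent.Gateway.Kummer Fermat.Agent.S40x.C2.DlogHecke Fermat.Agent.S40x.Diag
open Fermat.Agent.S40x.C2

variable {L : Type} [Field L] [Algebra ℚ L] [IsAlgClosed L] (A : ValuationSubring L)
  {k : Type} [Field k] (π : A →+* k) [IsAlgClosed k] (p : ℕ) [Fact p.Prime] [CharP k p]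
  (N l : ℕ) [NeZero N] [NeZero l] (hπ : Function.Surjective π) (hpN : ¬ p ∣ N)
  (hpNl : ¬ p ∣ N * l)

/-- the norm of `NormQK` (ring homomorphism vocabulary) is the `normAlong` of `Key`. -/
theorem norm_eq_normAlong
    (φ ψ : modularFunctionFieldFullC k N →ₐ[k] modularFunctionFieldFullC k (N * l))
    (f : modularFunctionFieldFullC k N) :
    (letI := (ψ : modularFunctionFieldFullC k N →+* modularFunctionFieldFullC k (N * l)).toAlgebra
     Algebra.norm (modularFunctionFieldFullC k N)
      ((φ : modularFunctionFieldFullC k N →+* modularFunctionFieldFullC k (N * l)) f)) =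
      normAlong ψ (φ f) := rfl

include hπ hpN hpNl in
/-- **DIAG at the instance `Fk k N`**: all orders of `fb` at the places with `0 ≤ ord y` are
divisible by `p`. -/
theorem diag_dvd_Fk (hl : l.Prime) (hlN : ¬ l ∣ N) (h4 : 4 ∣ N)
    [HasPrincipalDivisors k (modularFunctionFieldFullC k (N * l))]
    (φ ψ : modularFunctionFieldFullC k N →ₐ[k] modularFunctionFieldFullC k (N * l))
    (hψq : ∀ u : modularFunctionFieldFullC k N,
      ((ψ u : modularFunctionFieldFullC k (N * l)) : LaurentSeries k) = (u : LaurentSeries k))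
    (hφq : ∀ u : modularFunctionFieldFullC k N,
      ((φ u : modularFunctionFieldFullC k (N * l)) : LaurentSeries k) =
        qExpand k l (u : LaurentSeries k))
    (hφ : φ.toRingHom.IsIntegral) (hψ : ψ.toRingHom.IsIntegral) (hfin : FiniteAlong k ψ)
    (hdegK : l + 1 ≤ finrankAlong k ψ)
    (hsep : letI := algebraAlong ψ
      Algebra.IsSeparable (modularFunctionFieldFullC k N) (modularFunctionFieldFullC k (N * l)))
    (hdeg : ∀ w : Place k (modularFunctionFieldFullC k (N * l)), w.deg = 1)
    (y : modularFunctionFieldFullC k N)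
    (hint : IsIntegral (Algebra.adjoin k {ψ y}) (φ y))
    {fb Ub : modularFunctionFieldFullC k N} (hfb : fb ≠ 0) (hUb : Ub ≠ 0) (a : ℤ)
    (heigf : heckeT l (dlog (fb : LaurentSeries k)) =
      (a : LaurentSeries k) * dlog (fb : LaurentSeries k))
    (heigU : heckeT l (dlog (Ub : LaurentSeries k)) =
      ((l + 1 : ℕ) : LaurentSeries k) * dlog (Ub : LaurentSeries k))
    (S : Set (Place k (modularFunctionFieldFullC k N))) (c e₀ : ZMod p)
    (hslope : ∀ P : Place k (modularFunctionFieldFullC k N), 0 ≤ P.ord y → P ∈ S →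
      Abs.ordMod p P fb = c)
    (hslope' : ∀ P : Place k (modularFunctionFieldFullC k N), 0 ≤ P.ord y → P ∉ S →
      Abs.ordMod p P fb = 0)
    (href : ∀ P : Place k (modularFunctionFieldFullC k N), 0 ≤ P.ord y → P ∈ S →
      Abs.ordMod p P Ub = e₀)
    (href' : ∀ P : Place k (modularFunctionFieldFullC k N), 0 ≤ P.ord y → P ∉ S →
      Abs.ordMod p P Ub = 0)
    (he₀ : e₀ ≠ 0)
    (hNE : (a : ZMod p) ≠ (l : ZMod p) + 1) :
    ∀ P : Place k (modularFunctionFieldFullC k N), 0 ≤ P.ord y → (p : ℤ) ∣ P.ord fb := by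
  have hNk : ((N : ℕ) : k) ≠ 0 := fun h => hpN ((CharP.cast_eq_zero_iff k p N).mp h)
  have hlk : (l : k) ≠ 0 := fun h =>
    hpNl (Dvd.dvd.mul_left ((CharP.cast_eq_zero_iff k p l).mp h) N)
  haveI := DqInst.isSeparable_tFk (k := k) (N := N) h4 hNk
  obtain ⟨ζ, hζ, hB⟩ := NormQK.exists_normQExp_red A π p N l hπ hpN hpNl hl hlN hlk
    (ψ : modularFunctionFieldFullC k N →+* modularFunctionFieldFullC k (N * l))
    (φ : modularFunctionFieldFullC k N →+* modularFunctionFieldFullC k (N * l))
    hψq hφq hfin hdegK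
  exact HeckeWrap.diag_dvd_of_norm_formula p (Fermat.Agent.Gateway.AuxLevel.L4.tFk h4 hNk)
    (DqInst.thetaDer k N) (DqInst.thetaDer_tFk_ne_zero h4 hNk)
    (fun f => (f : LaurentSeries k)) (fun f hf => DqInst.smul_dl f hf)
    φ ψ hφ hψ hfin hsep hdeg y hint hlk hζ hfb hUb (DqInst.coe_ne_zero hfb)
    (DqInst.coe_ne_zero hUb) (hB fb) (hB Ub) a heigf heigU S c e₀ hslope hslope' href href'
    he₀ hNE

end Fermat.Agent.S40x.Diag.ChainFk
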