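import Mathlib
import Fermat.Agent.S40x.Thick.ThetaX4
import Fermat.Agent.S40x.C2.DlogHecke

set_option autoImplicit false

/-!
# S40x / Diag / CoeffNinetySix : `E₂` is not a combination of `dlog x₄` and `dlog (x₄ - 16)` mod `p ≥ 5`

(helper67; DIAG of P-S44, item (E4)(ii) of helper54's note 2781, asked by helper71 msg 24313.)

`x = x₄ = q⁻¹ u`, `u = 1 + 8 q + 20 q² + ⋯` (`L4.u4`), `E₂ = 1 - 24 q - 72 q² - ⋯`.
If `E₂ = a₀ · dlog x + a₁ · dlog (x - 16)` in `k((q))` then, multiplying by `x (x - 16)`,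
`E₂ · u (u - 16 q) = (θu - u) ((a₀ + a₁) u - 16 a₀ q)`; the coefficient of `q²` on the left is
`-96`, on the right it is `0` whatever `a₀, a₁` are.  Hence `96 = 0` in `k` (`ninetysix_eq_zero`),
impossible in characteristic `p ≥ 5` (`E2_ne_combination`).

* `coeff_u4_one`, `coeff_u4_two` : `u₄ = 1 + 8 q + 20 q² + ⋯`;
* `coeff_E2Z_zero/one/two` : `E₂ = 1 - 24 q - 72 q² - ⋯`;
* `ninetysix_core` : the abstract power series statement;
* `ninetysix_eq_zero`, `ninetysix_eq_zero'` (sign variants), `E2_ne_combination`.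
-/

namespace Fermat.Agent.S40x.Diag.CoeffNinetySix

open PowerSeries ModularCurve
open Fermat.Agent.S23.IntSeries Fermat.Agent.S16.SD Fermat.Agent.S16.Two
open Fermat.Agent.Gateway.AuxLevel Fermat.Agent.S40x.Thick.ModM Fermat.Agent.S40x.Thick.ThetaX4
open Fermat.Agent.S40x.C2.DlogHecke

noncomputable section

/-! ### Low coefficients of products -/

section Coeff

variable {R : Type*} [CommRing R]

theorem coeff_zero_mul' (f g : R⟦X⟧) : coeff 0 (f * g) = coeff 0 f * coeff 0 g := by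
  rw [PowerSeries.coeff_mul, Finset.Nat.sum_antidiagonal_eq_sum_range_succ_mk]
  simp

theorem coeff_one_mul' (f g : R⟦X⟧) :
    coeff 1 (f * g) = coeff 0 f * coeff 1 g + coeff 1 f * coeff 0 g := by
  rw [PowerSeries.coeff_mul, Finset.Nat.sum_antidiagonal_eq_sum_range_succ_mk]
  simp [Finset.sum_range_succ]

theorem coeff_two_mul' (f g : R⟦X⟧) :
    coeff 2 (f * g) = coeff 0 f * coeff 2 g + coeff 1 f * coeff 1 g + coeff 2 f * coeff 0 g := by
  rw [PowerSeries.coeff_mul, Finset.Nat.sum_antidiagonal_eq_sum_range_succ_mk]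
  simp [Finset.sum_range_succ]

/-- **The abstract statement**: the coefficient of `q²`. -/
theorem ninetysix_core {u E : R⟦X⟧}
    (hu0 : coeff 0 u = 1) (hu1 : coeff 1 u = 8) (hu2 : coeff 2 u = 20)
    (hE0 : coeff 0 E = 1) (hE1 : coeff 1 E = -24) (hE2 : coeff 2 E = -72) (s r : R)
    (h : E * (u * (u - C 16 * X)) = (theta u - u) * (C s * u - C r * X)) : (96 : R) = 0 := by
  have hX0 : coeff 0 (X : R⟦X⟧) = 0 := by simp
  have hX1 : coeff 1 (X : R⟦X⟧) = 1 := by simp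
  have hX2 : coeff 2 (X : R⟦X⟧) = 0 := by
    rw [PowerSeries.coeff_X]; simp
  have hC0 : coeff 0 (C (16 : R) : R⟦X⟧) = 16 := by simp
  have hC1 : coeff 1 (C (16 : R) : R⟦X⟧) = 0 := by rw [PowerSeries.coeff_C]; simp
  have hC2 : coeff 2 (C (16 : R) : R⟦X⟧) = 0 := by rw [PowerSeries.coeff_C]; simp
  -- the factor `u - 16 X`
  have hv0 : coeff 0 (u - C 16 * X) = 1 := by
    rw [map_sub, hu0, coeff_zero_mul', hX0, mul_zero, sub_zero]
  have hv1 : coeff 1 (u - C 16 * X) = -8 := by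
    rw [map_sub, hu1, coeff_one_mul', hX0, hX1, hC0, hC1]; norm_num
  have hv2 : coeff 2 (u - C 16 * X) = 20 := by
    rw [map_sub, hu2, coeff_two_mul', hX0, hX1, hX2, hC0, hC1, hC2]; norm_num
  -- `u (u - 16 X) = 1 + 0 q - 24 q²`
  have hw0 : coeff 0 (u * (u - C 16 * X)) = 1 := by
    rw [coeff_zero_mul', hu0, hv0, mul_one]
  have hw1 : coeff 1 (u * (u - C 16 * X)) = 0 := by
    rw [coeff_one_mul', hu0, hu1, hv0, hv1]; norm_num
  have hw2 : coeff 2 (u * (u - C 16 * X)) = -24 := by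
    rw [coeff_two_mul', hu0, hu1, hu2, hv0, hv1, hv2]; norm_num
  -- left hand side: coefficient `-96`
  have hL : coeff 2 (E * (u * (u - C 16 * X))) = -96 := by
    rw [coeff_two_mul', hE0, hE1, hE2, hw0, hw1, hw2]; norm_num
  -- `θu - u = -1 + 0 q + 20 q²`
  have ht0 : coeff 0 (theta u - u) = -1 := by
    rw [map_sub, coeff_theta, hu0]; simp
  have ht1 : coeff 1 (theta u - u) = 0 := by
    rw [map_sub, coeff_theta, hu1]; simp
  have ht2 : coeff 2 (theta u - u) = 20 := by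
    rw [map_sub, coeff_theta, hu2]; norm_num
  -- `s u - r X = s + (8 s - r) q + 20 s q²`
  have hCs0 : coeff 0 (C s : R⟦X⟧) = s := by simp
  have hCs1 : coeff 1 (C s : R⟦X⟧) = 0 := by rw [PowerSeries.coeff_C]; simp
  have hCs2 : coeff 2 (C s : R⟦X⟧) = 0 := by rw [PowerSeries.coeff_C]; simp
  have hCr0 : coeff 0 (C r : R⟦X⟧) = r := by simp
  have hCr1 : coeff 1 (C r : R⟦X⟧) = 0 := by rw [PowerSeries.coeff_C]; simp
  have hz0 : coeff 0 (C s * u - C r * X) = s := by
    rw [map_sub, coeff_zero_mul', coeff_zero_mul', hCs0, hu0, hX0]; ring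
  have hz1 : coeff 1 (C s * u - C r * X) = 8 * s - r := by
    rw [map_sub, coeff_one_mul', coeff_one_mul', hCs0, hCs1, hu0, hu1, hCr0, hCr1, hX0, hX1]; ring
  have hz2 : coeff 2 (C s * u - C r * X) = 20 * s := by
    rw [map_sub, coeff_two_mul', coeff_two_mul', hCs0, hCs1, hCs2, hu0, hu1, hu2, hCr0, hCr1,
      hX0, hX1, hX2]; ring
  have hR : coeff 2 ((theta u - u) * (C s * u - C r * X)) = 0 := by
    rw [coeff_two_mul', ht0, ht1, ht2, hz0, hz1, hz2]; ring
  have h2 := congrArg (coeff 2) h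
  rw [hL, hR] at h2
  have : (96 : R) = -(-96) := by norm_num
  rw [this, h2, neg_zero]

end Coeff

/-! ### The coefficients of `u₄` and `E₂` -/

theorem coeff_f4_one : coeff 1 L4.f4 = 1 := by
  rw [L4.approx_f4 1 (by norm_num)]; decide +kernel

theorem coeff_f4_two : coeff 2 L4.f4 = 8 := by
  rw [L4.approx_f4 2 (by norm_num)]; decide +kernel

theorem coeff_f4_three : coeff 3 L4.f4 = 28 := by
  rw [L4.approx_f4 3 (by norm_num)]; decide +kernel

theorem coeff_f1 (n : ℕ) : coeff n L4.f1 = coeff (n + 1) L4.f4 := by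
  rw [L4.f1, divX, coeff_mk]

theorem coeff_f1'_zero : coeff 0 L4.f1' = 1 := by
  rw [coeff_zero_eq_constantCoeff_apply, L4.constantCoeff_f1']

theorem coeff_f1'_one : coeff 1 L4.f1' = 0 := by
  rw [L4.f1', PowerSeries.coeff_expand_of_not_dvd 2 two_ne_zero _ (by norm_num)]

theorem coeff_f1'_two : coeff 2 L4.f1' = 8 := by
  have h := PowerSeries.coeff_expand_mul 2 two_ne_zero L4.f1 1
  rw [L4.f1', h, coeff_f1, coeff_f4_two]

theorem coeff_u4_zero : coeff 0 L4.u4 = 1 := by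
  rw [coeff_zero_eq_constantCoeff_apply, L4.constantCoeff_u4]

theorem coeff_u4_one : coeff 1 L4.u4 = 8 := by
  have h := congrArg (coeff 1) L4.f1'_mul_u4
  rw [coeff_one_mul', coeff_f1'_zero, coeff_f1'_one, coeff_u4_zero, coeff_f1, coeff_f4_two] at h
  linarith

theorem coeff_u4_two : coeff 2 L4.u4 = 20 := by
  have h := congrArg (coeff 2) L4.f1'_mul_u4
  rw [coeff_two_mul', coeff_f1'_zero, coeff_f1'_one, coeff_f1'_two, coeff_u4_zero, coeff_u4_one,
    coeff_f1, coeff_f4_three] at h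
  linarith

theorem coeff_E2Z_zero : coeff 0 E2Z = 1 := by
  rw [coeff_zero_eq_constantCoeff_apply, constantCoeff_E2Z]

theorem coeff_ofNat_zero (n : ℕ) [n.AtLeastTwo] :
    coeff 0 (OfNat.ofNat n : ℤ⟦X⟧) = (OfNat.ofNat n : ℤ) := by
  have : (OfNat.ofNat n : ℤ⟦X⟧) = C (OfNat.ofNat n : ℤ) := (map_ofNat (C : ℤ →+* ℤ⟦X⟧) n).symm
  rw [this, PowerSeries.coeff_C]; simp

theorem coeff_ofNat_succ (n : ℕ) [n.AtLeastTwo] (m : ℕ) :
    coeff (m + 1) (OfNat.ofNat n : ℤ⟦X⟧) = 0 := by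
  have : (OfNat.ofNat n : ℤ⟦X⟧) = C (OfNat.ofNat n : ℤ) := (map_ofNat (C : ℤ →+* ℤ⟦X⟧) n).symm
  rw [this, PowerSeries.coeff_C]; simp

theorem coeff_E2Z_one : coeff 1 E2Z = -24 := by
  have h1 : coeff 1 (1 : ℤ⟦X⟧) = 0 := by
    rw [PowerSeries.coeff_one]; simp
  rw [E2Z, map_sub, h1, coeff_one_mul', coeff_ofNat_zero, coeff_ofNat_succ 24 0,
    coeff_sigmaSeries, coeff_sigmaSeries]
  simp [ArithmeticFunction.sigma_one]

theorem coeff_E2Z_two : coeff 2 E2Z = -72 := by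
  have h1 : coeff 2 (1 : ℤ⟦X⟧) = 0 := by
    rw [PowerSeries.coeff_one]; simp
  have hs2 : ArithmeticFunction.sigma 1 2 = 3 := by decide
  rw [E2Z, map_sub, h1, coeff_two_mul', coeff_ofNat_zero, coeff_ofNat_succ 24 0,
    coeff_ofNat_succ 24 1, coeff_sigmaSeries, coeff_sigmaSeries, coeff_sigmaSeries, hs2]
  simp

/-! ### The statement in `k((q))` -/

section Field

variable (k : Type*) [Field k]

/-- the unit part of `x₄` over `k`: `x₄ = q⁻¹ u₄`. -/
def u4K : PowerSeries k := PowerSeries.map (Int.castRingHom k) L4.u4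

theorem xK_eq :
    xK k = HahnSeries.single (-1 : ℤ) (1 : k) * HahnSeries.ofPowerSeries ℤ k (u4K k) := by
  rw [xK, L4.x4, map_mul, cK_ofPowerSeries, Fermat.Agent.S28.H2.qInv, cK, coeffMap_single,
    map_one]
  rfl

theorem coeff_u4K (n : ℕ) : coeff n (u4K k) = ((coeff n L4.u4 : ℤ) : k) := by
  rw [u4K, PowerSeries.coeff_map]; rfl

theorem coeff_Pq (n : ℕ) : coeff n (Pq k) = ((coeff n E2Z : ℤ) : k) := by
  rw [Pq, PowerSeries.coeff_map]; rfl

/-- `x - 16 = q⁻¹ (u - 16 q)`. -/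
theorem xK_sub_eq : xK k - 16 =
    HahnSeries.single (-1 : ℤ) (1 : k) * iK k (u4K k - C 16 * X) := by
  have hq : HahnSeries.single (-1 : ℤ) (1 : k) * iK k X = 1 := by
    rw [HahnSeries.ofPowerSeries_X, HahnSeries.single_mul_single]
    simp
  have h16 : iK k (C (16 : k)) = 16 := by
    rw [HahnSeries.ofPowerSeries_C]
    exact map_ofNat (HahnSeries.C : k →+* LaurentSeries k) 16
  rw [xK_eq, map_sub, map_mul, mul_sub, h16, mul_left_comm, hq, mul_one]

/-- `θ x = q⁻¹ (θu - u)`. -/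
theorem thetaL_xK_eq : thetaL (xK k) =
    HahnSeries.single (-1 : ℤ) (1 : k) * iK k (theta (u4K k) - u4K k) := by
  have hs : thetaL (HahnSeries.single (-1 : ℤ) (1 : k)) = -HahnSeries.single (-1 : ℤ) (1 : k) := by
    ext n
    rw [thetaL_coeff, HahnSeries.coeff_neg]
    by_cases hn : n = -1
    · subst hn; simp
    · rw [HahnSeries.coeff_single_of_ne hn]; simp
  rw [xK_eq, thetaL_mul, hs, thetaL_ofPowerSeries, map_sub]
  ring

/-- **`96 = 0`** if `E₂` is a combination of `dlog x₄` and `dlog (x₄ - 16)`. -/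
theorem ninetysix_eq_zero (a₀ a₁ : k)
    (h : iK k (Pq k) = HahnSeries.C a₀ * dlog (xK k) + HahnSeries.C a₁ * dlog (xK k - 16)) :
    (96 : k) = 0 := by
  have hx : xK k ≠ 0 := xK_ne_zero k
  have hx16 : xK k - 16 ≠ 0 := xK_sub_ne_zero k
  have h16 : thetaL (xK k - 16) = thetaL (xK k) := by
    have : (16 : LaurentSeries k) = ((16 : ℕ) : LaurentSeries k) := by norm_num
    rw [thetaL_sub, this, thetaL_natCast, sub_zero]
  -- clear denominators
  have h1 : iK k (Pq k) * (xK k * (xK k - 16)) =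
      thetaL (xK k) * (HahnSeries.C (a₀ + a₁) * xK k - HahnSeries.C (16 * a₀)) := by
    rw [h, dlog, dlog, h16, map_add, map_mul]
    have hC16 : (HahnSeries.C (16 : k) : LaurentSeries k) = 16 :=
      map_ofNat (HahnSeries.C : k →+* LaurentSeries k) 16
    rw [hC16]
    field_simp
    ring
  -- in terms of power series
  set q' := HahnSeries.single (-1 : ℤ) (1 : k) with hq'
  have hq0 : q' ≠ 0 := by
    rw [hq']; exact HahnSeries.single_ne_zero one_ne_zero
  have hqX : q' * iK k X = 1 := by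
    rw [hq', HahnSeries.ofPowerSeries_X, HahnSeries.single_mul_single]
    simp
  have h2 : iK k (Pq k * (u4K k * (u4K k - C 16 * X))) =
      iK k ((theta (u4K k) - u4K k) * (C (a₀ + a₁) * u4K k - C (16 * a₀) * X)) := by
    apply mul_left_cancel₀ (mul_ne_zero hq0 hq0)
    have e1 : q' * q' * iK k (Pq k * (u4K k * (u4K k - C 16 * X))) =
        iK k (Pq k) * (xK k * (xK k - 16)) := by
      rw [xK_sub_eq, xK_eq, map_mul, map_mul]; ring
    have hθ : thetaL (xK k) = q' * iK k (theta (u4K k) - u4K k) := thetaL_xK_eq k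
    have hxq : xK k = q' * iK k (u4K k) := xK_eq k
    have hC1 : iK k (C (a₀ + a₁)) = HahnSeries.C (a₀ + a₁) := HahnSeries.ofPowerSeries_C _
    have hC2 : iK k (C (16 * a₀)) = HahnSeries.C (16 * a₀) := HahnSeries.ofPowerSeries_C _
    have hexp : iK k ((theta (u4K k) - u4K k) * (C (a₀ + a₁) * u4K k - C (16 * a₀) * X)) =
        iK k (theta (u4K k) - u4K k) *
          (HahnSeries.C (a₀ + a₁) * iK k (u4K k) - HahnSeries.C (16 * a₀) * iK k X) := by
      rw [map_mul, map_sub (iK k) (C (a₀ + a₁) * u4K k), map_mul, map_mul, hC1, hC2]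
    have e2 : q' * q' * iK k ((theta (u4K k) - u4K k) * (C (a₀ + a₁) * u4K k - C (16 * a₀) * X)) =
        thetaL (xK k) * (HahnSeries.C (a₀ + a₁) * xK k - HahnSeries.C (16 * a₀)) := by
      rw [hexp, hθ, hxq]
      linear_combination (-(q' * iK k (theta (u4K k) - u4K k) * HahnSeries.C (16 * a₀))) * hqX
    rw [e1, e2, h1]
  have h3 := HahnSeries.ofPowerSeries_injective h2
  refine ninetysix_core (u := u4K k) (E := Pq k) ?_ ?_ ?_ ?_ ?_ ?_ (a₀ + a₁) (16 * a₀) h3
  · rw [coeff_u4K, coeff_u4_zero]; simp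
  · rw [coeff_u4K, coeff_u4_one]; simp
  · rw [coeff_u4K, coeff_u4_two]; simp
  · rw [coeff_Pq, coeff_E2Z_zero]; simp
  · rw [coeff_Pq, coeff_E2Z_one]; simp
  · rw [coeff_Pq, coeff_E2Z_two]; simp

/-- sign variant: `-E₂ = a₀ dlog x + a₁ dlog (x - 16)`. -/
theorem ninetysix_eq_zero' (a₀ a₁ : k)
    (h : -(iK k (Pq k)) = HahnSeries.C a₀ * dlog (xK k) + HahnSeries.C a₁ * dlog (xK k - 16)) :
    (96 : k) = 0 := by
  refine ninetysix_eq_zero k (-a₀) (-a₁) ?_
  rw [map_neg, map_neg]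
  linear_combination -h

/-- **In characteristic `p ≥ 5`** (more generally when `96 ≠ 0`), `E₂` is not a combination of
`dlog x₄` and `dlog (x₄ - 16)`. -/
theorem E2_ne_combination (p : ℕ) [Fact p.Prime] [CharP k p] (hp : 5 ≤ p) (a₀ a₁ : k) :
    iK k (Pq k) ≠ HahnSeries.C a₀ * dlog (xK k) + HahnSeries.C a₁ * dlog (xK k - 16) := by
  intro h
  have h96 := ninetysix_eq_zero k a₀ a₁ h
  have h1 : ((96 : ℕ) : k) = 0 := by exact_mod_cast h96
  rw [CharP.cast_eq_zero_iff k p] at h1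
  have hpr : p.Prime := Fact.out
  have h2 : p ∣ 2 ^ 5 * 3 := by norm_num; exact h1
  rcases (Nat.Prime.dvd_mul hpr).1 h2 with h3 | h3
  · have := (Nat.prime_dvd_prime_iff_eq hpr Nat.prime_two).1 (hpr.dvd_of_dvd_pow h3)
    omega
  · have := (Nat.prime_dvd_prime_iff_eq hpr Nat.prime_three).1 h3
    omega

end Field

end

end Fermat.Agent.S40x.Diag.CoeffNinetySix
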