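/-
P-S44, block C2/DIAG, leaf CUSPFUN (helper77): functoriality of the cusps under the two degeneracy
maps of the special fibre.

`k` algebraically closed, `l` a prime with `(l : k) ≠ 0`, `κ = Fk k M`, `κ_l = Fk k (M l)`,
`ᾱ, β̄ : κ → κ_l` the two degeneracy maps (INPUTS, given by their `q`-series: `ᾱ u = u`,
`β̄ u = u(q^l)`).  The series `j(q)` and `j(q^l)` are integral over each other's polynomial rings
(modular equation of level `l`), hence for a place `W` of `κ_l`:

  `0 ≤ ord_W j(q)  ↔  0 ≤ ord_W j(q^l)`,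

and the non-cuspidal places `NC = {P | 0 ≤ ord_P j}` are functorial: for `W` over `v ∈ NC(κ)`
along `ᾱ` the place `β̄(W)` lies in `NC(κ)`, and symmetrically.  This is the hypothesis `hNC` of
`Diag/DiagNStable.dvd_ord_normAlong_comp` (claim (A) / (KEY') of DIAG).
-/
import Fermat.Agent.S28.Conjugates
import Fermat.Agent.S28.ModEq.Final
import Fermat.Agent.Gateway.GoodRed.PlacesIntegral
import Fermat.Agent.Gateway.BaseChange.Square
import Fermat.Agent.Gateway.C0.LevelFactsK

set_option autoImplicit false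
set_option linter.unusedSectionVars false
set_option linter.style.haveILetI false

noncomputable section

namespace Fermat.Agent.S40x.Diag.CuspFun

open ModularCurve AlgebraicCurve IntermediateField Polynomial
open Fermat.Agent.S28 Fermat.Agent.S28.Conjugates
open Fermat.Agent.Gateway.GoodRed Fermat.Agent.Gateway.GoodRed.ConjFamily
open Fermat.Agent.Gateway.GoodRed.PlacesIntegral

section Integral

variable {k : Type} [Field k] {N : ℕ} [NeZero N]

/-- `j` as an element of the ring `k[j] ⊆ Fk k N`. -/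
def jR : Algebra.adjoin k {jFk k N} := ⟨jFk k N, Algebra.subset_adjoin rfl⟩

/-- Abstract integrality criterion: an element `y` of `Fk k N` whose `q`-series is a root of
`Φ(X, x)` with `Φ ∈ ℤ[Y][X]` monic and `x : Fk k N`, is integral over `k[x]`. -/
theorem isIntegral_of_root {Φ : (ℤ[X])[X]} (hΦ : Φ.Monic) (x y : Fk k N)
    (h : (Φ.map (evalA (x : LaurentSeries k))).eval (y : LaurentSeries k) = 0) :
    IsIntegral (Algebra.adjoin k {x}) y := by
  let xR : Algebra.adjoin k {x} := ⟨x, Algebra.subset_adjoin rfl⟩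
  refine ⟨Φ.map (evalA xR), hΦ.map _, ?_⟩
  rw [Polynomial.eval₂_eq_eval_map, map_evalA_map]
  apply (algebraMap (Fk k N) (LaurentSeries k)).injective
  rw [map_zero, ← Polynomial.eval_map_apply, map_evalA_map]
  exact h

end Integral

section Places

variable {k : Type} [Field k] [IsAlgClosed k] {M l : ℕ} [NeZero M] [NeZero l]

-- (the instance `NeZero (M * l)` is Mathlib's `NeZero.mul`)

variable (hl : l.Prime) (hMl : ((M * l : ℕ) : k) ≠ 0)
  (jl : Fk k (M * l)) (hjl : (jl : LaurentSeries k) = qExpand k l (jqModC k))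

include hl hMl hjl

theorem exists_primitiveRoot_l : ∃ ζ : kˣ, IsPrimitiveRoot ζ l := by
  have hlk : ((l : ℕ) : k) ≠ 0 := by
    intro h
    apply hMl
    rw [Nat.cast_mul, h, mul_zero]
  haveI : NeZero ((l : ℕ) : k) := ⟨hlk⟩
  obtain ⟨ζ, hζ⟩ := HasEnoughRootsOfUnity.exists_primitiveRoot k l
  exact ⟨(hζ.isUnit (NeZero.ne l)).unit, hζ.isUnit_unit (NeZero.ne l)⟩

/-- **`j(q^l)` is integral over `k[j]`.** -/
theorem isIntegral_jl : IsIntegral (Algebra.adjoin k {jFk k (M * l)}) jl := by
  obtain ⟨ζ, hζ⟩ := exists_primitiveRoot_l hl hMl jl hjl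
  obtain ⟨E⟩ := exists_modularEquation l hl
  refine isIntegral_of_root E.monic (jFk k (M * l)) jl ?_
  have h := rel_expd E ζ hζ (d := 1) one_ne_zero
  rw [expd_one, one_mul, expd_eq] at h
  rw [hjl]
  exact h

/-- **`j` is integral over `k[j(q^l)]`.** -/
theorem isIntegral_j : IsIntegral (Algebra.adjoin k {jl}) (jFk k (M * l)) := by
  obtain ⟨ζ, hζ⟩ := exists_primitiveRoot_l hl hMl jl hjl
  obtain ⟨E⟩ := exists_modularEquation l hl
  refine isIntegral_of_root E.monic jl (jFk k (M * l)) ?_
  have h := E.factor ζ hζ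
  rw [hjl]
  show (E.Φ.map (evalY (qExpand k l (jqModC k)))).eval (jqModC k) = 0
  rw [h, eval_mul, eval_prod]
  apply mul_eq_zero_of_right
  apply Finset.prod_eq_zero (Finset.mem_range.mpr hl.pos)
  simp [twist_one]

end Places

section Generic

variable {K F F' : Type*} [Field K] [Field F] [Field F'] [Algebra K F] [Algebra K F']

/-- An element integral over `K[x]` is regular at every place where `x` is regular
(no finiteness, no separability). -/
theorem ord_nonneg_of_isIntegral {x f : F} (hf : IsIntegral (Algebra.adjoin K {x}) f)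
    (P : Place K F) (hP : 0 ≤ P.ord x) : 0 ≤ P.ord f := by
  have hxmem : x ∈ P.toValuationSubring := by
    rcases eq_or_ne x 0 with rfl | hx0
    · exact P.toValuationSubring.zero_mem
    · exact (Fermat.Agent.S24.ZP.ord_nonneg_iff P hx0).mp hP
  have hfmem : f ∈ P.toValuationSubring :=
    Fermat.Agent.S24.ZP.integralClosure_le_place x P hxmem ⟨f, hf⟩
  rcases eq_or_ne f 0 with rfl | hf0
  · simp
  · exact (Fermat.Agent.S24.ZP.ord_nonneg_iff P hf0).mpr hfmem

/-- Regularity at the restricted place can be tested upstairs. -/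
theorem ord_restrictAlong_nonneg_iff (φ : F →ₐ[K] F') (hφ : φ.toRingHom.IsIntegral)
    (W : Place K F') (u : F) : 0 ≤ (W.restrictAlong φ hφ).ord u ↔ 0 ≤ W.ord (φ u) := by
  rw [Place.ord_restrictAlong φ hφ W u]
  have he : (0 : ℤ) < (Place.ramificationIndexAlong φ W : ℤ) := by
    exact_mod_cast Fermat.Agent.Gateway.BaseChange.ramificationIndexAlong_pos φ hφ W
  constructor
  · intro h
    exact mul_nonneg he.le h
  · intro h
    by_contra hneg
    rw [not_le] at hneg
    have := mul_neg_of_pos_of_neg he hneg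
    omega

end Generic

section Functorial

variable {k : Type} [Field k] [IsAlgClosed k] {M l : ℕ} [NeZero M] [NeZero l]

/-- The non-cuspidal places of `Fk k N`. -/
def NC (k : Type) [Field k] (N : ℕ) [NeZero N] : Set (Place k (Fk k N)) :=
  {P | 0 ≤ P.ord (jFk k N)}

theorem mem_NC {N : ℕ} [NeZero N] {P : Place k (Fk k N)} :
    P ∈ NC k N ↔ 0 ≤ P.ord (jFk k N) := Iff.rfl

variable (hl : l.Prime) (hMl : ((M * l : ℕ) : k) ≠ 0)
  (aK bK : Fk k M →ₐ[k] Fk k (M * l))
  (haK : ∀ u, ((aK u : Fk k (M * l)) : LaurentSeries k) = (u : LaurentSeries k))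
  (hbK : ∀ u, ((bK u : Fk k (M * l)) : LaurentSeries k) = qExpand k l (u : LaurentSeries k))

include haK in
omit [IsAlgClosed k] in
theorem aK_jFk : aK (jFk k M) = jFk k (M * l) := Subtype.ext (haK _)

include hbK in
omit [IsAlgClosed k] in
theorem coe_bK_jFk :
    ((bK (jFk k M) : Fk k (M * l)) : LaurentSeries k) = qExpand k l (jqModC k) := hbK _

include hl hMl hbK in
/-- **Cusps upstairs**: a place `W` of `κ_l` is non-cuspidal for `j(q)` iff it is non-cuspidal
for `j(q^l)`. -/
theorem ord_jFk_nonneg_iff (W : Place k (Fk k (M * l))) :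
    0 ≤ W.ord (jFk k (M * l)) ↔ 0 ≤ W.ord (bK (jFk k M)) := by
  have hjl := coe_bK_jFk bK hbK
  exact ⟨ord_nonneg_of_isIntegral (isIntegral_jl hl hMl _ hjl) W,
    ord_nonneg_of_isIntegral (isIntegral_j hl hMl _ hjl) W⟩

variable (ha : aK.toRingHom.IsIntegral) (hb : bK.toRingHom.IsIntegral)

include hl hMl haK hbK in
/-- `W` lies over a non-cuspidal place along `ᾱ` iff it does along `β̄`. -/
theorem restrictAlong_mem_NC_iff (W : Place k (Fk k (M * l))) :
    W.restrictAlong aK ha ∈ NC k M ↔ W.restrictAlong bK hb ∈ NC k M := by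
  rw [mem_NC, mem_NC, ord_restrictAlong_nonneg_iff, ord_restrictAlong_nonneg_iff,
    aK_jFk aK haK]
  exact ord_jFk_nonneg_iff hl hMl bK hbK W

variable [HasPrincipalDivisors k (Fk k (M * l))]

include hl hMl haK hbK in
/-- **`hNC` for `Norm_ᾱ ∘ β̄`** (hypothesis of `DiagNStable.dvd_ord_normAlong_comp` with `ψ = ᾱ`,
`φ = β̄`). -/
theorem hNC_alpha_beta :
    ∀ v ∈ NC k M, ∀ W ∈ Place.fiberAlong aK ha v, W.restrictAlong bK hb ∈ NC k M := by
  intro v hv W hW
  rw [Place.mem_fiberAlong] at hW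
  rw [← restrictAlong_mem_NC_iff hl hMl aK bK haK hbK ha hb W, hW]
  exact hv

include hl hMl haK hbK in
/-- **`hNC` for `Norm_β̄ ∘ ᾱ`** (hypothesis of `DiagNStable.dvd_ord_normAlong_comp` with `ψ = β̄`,
`φ = ᾱ`). -/
theorem hNC_beta_alpha :
    ∀ v ∈ NC k M, ∀ W ∈ Place.fiberAlong bK hb v, W.restrictAlong aK ha ∈ NC k M := by
  intro v hv W hW
  rw [Place.mem_fiberAlong] at hW
  rw [restrictAlong_mem_NC_iff hl hMl aK bK haK hbK ha hb W, hW]
  exact hv

end Functorial

end Fermat.Agent.S40x.Diag.CuspFun
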