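import Mathlib
import Fermat.Agent.Gateway.HK1.Ext

/-!
# P-S44 (DIAG tool): extensions of function fields in characteristic `p`

Characteristic-free version of `Gateway/HK1/Ext.lean` (whose norm formula needs a perfect base
field, through Mathlib's `Ideal.relNorm_eq_pow_of_isMaximal`): for a finite SEPARABLE extension
`F' / F` of fields over `K`, with places in the sense of the prelude,

* `sumRamificationInertia_of_isSeparable`, `fundamentalIdentity_of_isSeparable` :
  `∑_{w | v} e(w|v) f(w|v) = [F' : F]`;
* `sum_ord_of_inertiaDeg_eq_one`, `pushforwardNormFormula_of_inertiaDeg_eq_one` : if all the inertia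
  degrees are one (e.g. all places of `F'` have degree one: `inertiaDeg_eq_one_of_deg_eq_one`),
  then `∑_{w | v} ord_w g = ord_v (N g)`;
* the forms along an algebra hom: `fundamentalIdentityAlong_of_isSeparable`,
  `normFormulaAlong_of_deg_eq_one`, `ord_normAlong_eq_sum`, the Hecke formula for orders
  `ord_normAlong_comp_eq_sum` : `ord_v (N_ψ (φ u)) = ∑_{W ↦ v} e_φ(W) ord_{φ(W)} u`,
  `card_fiberAlong_of_unramified`, and the diagonal consumer form `ord_normAlong_comp_of_diagonal`.

Dedekind core (`relNorm_eq_of_inertiaDeg_eq_one`): if all the primes `Q` of `B` over the maximal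
ideal `p` of `A` have inertia degree one, then `relNorm A Q = p`: in
`p ^ [B : A] = relNorm (p B) = ∏ relNorm(Q) ^ e_Q = p ^ (∑ s_Q e_Q)` every `s_Q` is positive and
`[B : A] = ∑ e_Q`, so `s_Q = 1`.
-/

set_option autoImplicit false
set_option linter.unusedSectionVars false
set_option linter.style.haveILetI false

noncomputable section

open Ideal IsDedekindDomain IsDedekindDomain.HeightOneSpectrum WithZero AlgebraicCurve

namespace Fermat.Agent.S40x.Diag.ExtSep

section Dedekind

variable {A B : Type*} [CommRing A] [IsDedekindDomain A] [CommRing B] [IsDedekindDomain B]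
  [Algebra A B] [Module.Finite A B] [Module.IsTorsionFree A B]

/-- the exponent of `p` in the relative norm of a prime over `p` is positive. -/
theorem exists_relNorm_eq_pow_succ (p : Ideal A) [hp : p.IsMaximal] (Q : Ideal B) [Q.IsPrime]
    [hQ : Q.LiesOver p] : ∃ s : ℕ, relNorm A Q = p ^ (s + 1) := by
  obtain ⟨s, hs⟩ := exists_relNorm_eq_pow_of_isPrime Q p
  rcases s with _ | s
  · exfalso
    rw [pow_zero, Ideal.one_eq_top] at hs
    have h1 : relNorm A Q ≤ p := by
      have := relNorm_le_comap A Q
      rwa [← Ideal.under_def, ← hQ.over] at this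
    rw [hs, top_le_iff] at h1
    exact hp.ne_top h1
  · exact ⟨s, hs⟩

theorem relNorm_eq_of_inertiaDeg_eq_one (p : Ideal A) [hp : p.IsMaximal] (hp0 : p ≠ ⊥)
    (hf : ∀ Q ∈ p.primesOver B, Q.inertiaDeg A = 1) {P : Ideal B} (hP : P ∈ p.primesOver B) :
    relNorm A P = p := by
  classical
  haveI : Algebra.IsIntegral A B := Algebra.IsIntegral.of_finite A B
  have hex : ∀ Q : p.primesOver B, ∃ s : ℕ, relNorm A Q.1 = p ^ (s + 1) := fun Q => by
    haveI := Q.2.1
    haveI := Q.2.2
    exact exists_relNorm_eq_pow_succ p Q.1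
  choose s hs using hex
  have h1 : relNorm A (map (algebraMap A B) p) = p ^ Module.finrank A B := relNorm_algebraMap B p
  have h2 : map (algebraMap A B) p = ∏ Q ∈ p.primesOver B, Q ^ Q.ramificationIdx A :=
    Ideal.map_algebraMap_eq_finsetProd_pow hp0
  have h4 := Ideal.sum_ramification_inertia_eq_finrank p B
  -- apply `relNorm` to the factorisation of `p B`
  have h5 : p ^ Module.finrank A B =
      p ^ ∑ Q : p.primesOver B, (s Q + 1) * Q.1.ramificationIdx A := by
    rw [← h1, h2, ← Finset.prod_set_coe, map_prod, ← Finset.prod_pow_eq_pow_sum]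
    refine Finset.prod_congr rfl fun Q _ => ?_
    rw [map_pow, hs Q, ← pow_mul]
  have hpu : p ≠ 1 := fun hu => hp.ne_top (by rwa [Ideal.one_eq_top] at hu)
  have h6 : Module.finrank A B = ∑ Q : p.primesOver B, (s Q + 1) * Q.1.ramificationIdx A :=
    (IsLeftCancelMulZero.mul_left_cancel_of_ne_zero hp0).pow_injective hpu h5
  have h7 : ∑ Q : p.primesOver B, Q.1.ramificationIdx A =
      ∑ Q : p.primesOver B, (s Q + 1) * Q.1.ramificationIdx A := by
    rw [← h6, ← h4]
    refine Finset.sum_congr rfl fun Q _ => ?_
    rw [hf Q.1 Q.2, mul_one]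
  have h8 : ∑ Q : p.primesOver B, s Q * Q.1.ramificationIdx A = 0 := by
    have : ∑ Q : p.primesOver B, (s Q + 1) * Q.1.ramificationIdx A =
        ∑ Q : p.primesOver B, s Q * Q.1.ramificationIdx A +
          ∑ Q : p.primesOver B, Q.1.ramificationIdx A := by
      rw [← Finset.sum_add_distrib]
      exact Finset.sum_congr rfl fun Q _ => by ring
    omega
  have h9 := (Finset.sum_eq_zero_iff.mp h8) ⟨P, hP⟩ (Finset.mem_univ _)
  have he : P.ramificationIdx A ≠ 0 := by
    haveI := hP.1
    haveI := hP.2
    rw [← ramificationIdx'_eq_ramificationIdx p P hp0]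
    exact Ideal.IsDedekindDomain.ramificationIdx'_ne_zero_of_liesOver P hp0
  have hs0 : s ⟨P, hP⟩ = 0 := by
    rcases Nat.mul_eq_zero.mp h9 with h | h
    · exact h
    · exact absurd h he
  have := hs ⟨P, hP⟩
  rw [hs0, zero_add, pow_one] at this
  exact this

theorem multiplicity_prime_prime' {P Q : Ideal B} (hP : P.IsMaximal) (hQ : Q.IsMaximal) :
    multiplicity P Q = if P = Q then 1 else 0 := by
  split_ifs with h
  · subst h
    exact multiplicity_self
  · rw [multiplicity_eq_zero, Ideal.dvd_iff_le]
    intro hle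
    exact h (hQ.eq_of_le hP.ne_top hle).symm

theorem multiplicity_top' {P : Ideal B} (hP : P.IsMaximal) : multiplicity P (⊤ : Ideal B) = 0 := by
  rw [multiplicity_eq_zero, Ideal.dvd_iff_le, top_le_iff]
  exact hP.ne_top

theorem multiplicity_relNorm_prime_of_inertiaDeg_eq_one (p : Ideal A) [hp : p.IsMaximal]
    (hp0 : p ≠ ⊥) (hf : ∀ Q ∈ p.primesOver B, Q.inertiaDeg A = 1)
    (Q : Ideal B) [hQ : Q.IsMaximal] :
    multiplicity p (relNorm A Q) = if Q.under A = p then 1 else 0 := by
  have : Algebra.IsIntegral A B := Algebra.IsIntegral.of_finite A B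
  have hq : (Q.under A).IsMaximal := Ideal.IsMaximal.under A Q
  split_ifs with h
  · have hQp : Q ∈ p.primesOver B := ⟨hQ.isPrime, ⟨h.symm⟩⟩
    rw [relNorm_eq_of_inertiaDeg_eq_one p hp0 hf hQp]
    exact multiplicity_self
  · have hlies : Q.LiesOver (Q.under A) := ⟨rfl⟩
    obtain ⟨s, hs⟩ := exists_relNorm_eq_pow_of_isPrime Q (Q.under A)
    rw [hs, multiplicity_eq_zero]
    intro hdvd
    have hprime : Prime p := (Ideal.prime_iff_isPrime hp0).mpr hp.isPrime
    have h1 : p ∣ Q.under A := hprime.dvd_of_dvd_pow hdvd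
    rw [Ideal.dvd_iff_le] at h1
    exact h (hq.eq_of_le hp.ne_top h1)

/-- If all the primes over `p` have inertia degree one, the multiplicity of `p` in the relative
norm of `I` is the sum of the multiplicities in `I` of the primes over `p`. -/
theorem multiplicity_relNorm_of_inertiaDeg_eq_one (p : Ideal A) [hp : p.IsMaximal] (hp0 : p ≠ ⊥)
    (hf : ∀ Q ∈ p.primesOver B, Q.inertiaDeg A = 1) (I : Ideal B) (hI : I ≠ ⊥) :
    haveI : Algebra.IsIntegral A B := Algebra.IsIntegral.of_finite A B
    multiplicity p (relNorm A I) = ∑ Q : p.primesOver B, multiplicity Q.1 I := by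
  have hint : Algebra.IsIntegral A B := Algebra.IsIntegral.of_finite A B
  have hprime : Prime p := (Ideal.prime_iff_isPrime hp0).mpr hp.isPrime
  have hQne : ∀ Q : p.primesOver B, Q.1 ≠ ⊥ := fun Q =>
    Ideal.ne_bot_of_mem_primesOver hp0 Q.2
  have hQprime : ∀ Q : p.primesOver B, Prime Q.1 := fun Q =>
    (Ideal.prime_iff_isPrime (hQne Q)).mpr Q.2.1
  have hQmax : ∀ Q : p.primesOver B, Q.1.IsMaximal := fun Q =>
    Q.2.1.isMaximal (hQne Q)
  revert hI
  refine UniqueFactorizationMonoid.induction_on_prime
    (P := fun I : Ideal B => I ≠ ⊥ → multiplicity p (relNorm A I) =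
      ∑ Q : p.primesOver B, multiplicity Q.1 I) I ?_ ?_ ?_
  · intro h
    exact absurd Ideal.zero_eq_bot h
  · intro x hx _
    rw [Ideal.isUnit_iff] at hx
    subst hx
    rw [relNorm_top, multiplicity_top' hp]
    symm
    apply Finset.sum_eq_zero
    intro Q _
    exact multiplicity_top' (hQmax Q)
  · intro a q ha hq IH _
    have ha' : a ≠ ⊥ := ha
    have hq0 : q ≠ ⊥ := hq.ne_zero
    have hqP : q.IsPrime := (Ideal.prime_iff_isPrime hq0).mp hq
    have hqmax : q.IsMaximal := hqP.isMaximal hq0
    have hne : relNorm A q * relNorm A a ≠ 0 := by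
      apply mul_ne_zero
      · rw [Ne, Ideal.zero_eq_bot, relNorm_eq_bot_iff]; exact hq0
      · rw [Ne, Ideal.zero_eq_bot, relNorm_eq_bot_iff]; exact ha'
    rw [map_mul, multiplicity_mul hprime (FiniteMultiplicity.of_prime_left hprime hne), IH ha']
    have hsum : ∀ Q : p.primesOver B, multiplicity Q.1 (q * a) =
        multiplicity Q.1 q + multiplicity Q.1 a := by
      intro Q
      exact multiplicity_mul (hQprime Q)
        (FiniteMultiplicity.of_prime_left (hQprime Q) (mul_ne_zero hq0 ha'))
    rw [Finset.sum_congr rfl (fun Q _ => hsum Q), Finset.sum_add_distrib]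
    congr 1
    rw [multiplicity_relNorm_prime_of_inertiaDeg_eq_one p hp0 hf q]
    split_ifs with h
    · -- `q` lies over `p`
      let Q₀ : p.primesOver B := ⟨q, hqP, ⟨h.symm⟩⟩
      rw [Finset.sum_eq_single Q₀]
      · show 1 = multiplicity q q
        rw [multiplicity_self]
      · intro Q _ hQ
        rw [multiplicity_prime_prime' (hQmax Q) hqmax, if_neg]
        intro h'
        exact hQ (Subtype.ext h')
      · intro h'
        exact absurd (Finset.mem_univ _) h'
    · symm
      apply Finset.sum_eq_zero
      intro Q _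
      rw [multiplicity_prime_prime' (hQmax Q) hqmax, if_neg]
      intro h'
      apply h
      rw [← h']
      exact ((Ideal.liesOver_iff _ _).mp Q.2.2).symm

end Dedekind

open Fermat.Agent.Gateway.HK1 Fermat.Agent.S24

section Abstract

variable {K F F' : Type*} [Field K] [Field F] [Field F'] [Algebra K F] [Algebra K F']
  [Algebra F F'] [IsScalarTower K F F'] [Algebra.IsIntegral F F']
variable {A B : Type*} [CommRing A] [IsDedekindDomain A] [CommRing B] [IsDedekindDomain B]
  [Algebra A B] [Module.IsTorsionFree A B]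
  [Algebra A F] [IsFractionRing A F] [Algebra A F'] [IsScalarTower A F F']
  [Algebra B F'] [IsFractionRing B F'] [IsScalarTower A B F']
  [Algebra K A] [IsScalarTower K A F] [Algebra K B] [IsScalarTower K B F']
  [IsIntegralClosure B A F'] [Module.Finite A B] [HasPrincipalDivisors K F']
  [FiniteDimensional F F']

theorem log_valuation_norm_algebraMap_of_inertiaDeg_eq_one (p : HeightOneSpectrum A)
    (hf : ∀ Q ∈ p.asIdeal.primesOver B, Q.inertiaDeg A = 1) {b : B} (hb : b ≠ 0) :
    log (p.valuation F (Algebra.norm F (algebraMap B F' b))) =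
      ∑ Q : p.asIdeal.primesOver B,
        log ((primeAbove p Q).valuation F' (algebraMap B F' b)) := by
  have hpmax : p.asIdeal.IsMaximal := p.isMaximal
  have hbF : algebraMap B F' b ≠ 0 :=
    (IsFractionRing.injective B F').ne hb |>.trans_eq (map_zero _)
  have hN : Algebra.norm F (algebraMap B F' b) ≠ 0 := by
    rw [Ne, Algebra.norm_eq_zero_iff]
    exact hbF
  have hint : algebraMap A F (Algebra.intNorm A B b) = Algebra.norm F (algebraMap B F' b) :=
    Algebra.algebraMap_intNorm (A := A) (K := F) (L := F') (B := B) b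
  have hc0 : Algebra.intNorm A B b ≠ 0 := by
    intro h0
    rw [h0, map_zero] at hint
    exact hN hint.symm
  rw [← hint, valuation_of_algebraMap, intValuation_eq_exp_neg_multiplicity p hc0, log_exp,
    ← relNorm_singleton, multiplicity_relNorm_of_inertiaDeg_eq_one p.asIdeal p.ne_bot hf _
      (by simpa using hb),
    Nat.cast_sum, ← Finset.sum_neg_distrib]
  refine Finset.sum_congr rfl fun Q _ => ?_
  rw [OrdNorm.log_valuation_algebraMap (F := F') (primeAbove p Q) hb]
  rfl

theorem log_valuation_norm_of_inertiaDeg_eq_one (p : HeightOneSpectrum A)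
    (hf : ∀ Q ∈ p.asIdeal.primesOver B, Q.inertiaDeg A = 1) {f : F'} (hf0 : f ≠ 0) :
    log (p.valuation F (Algebra.norm F f)) =
      ∑ Q : p.asIdeal.primesOver B, log ((primeAbove p Q).valuation F' f) := by
  obtain ⟨b, c, hc, rfl⟩ := IsFractionRing.div_surjective (A := B) f
  have hc0 : c ≠ 0 := nonZeroDivisors.ne_zero hc
  have hb0 : b ≠ 0 := by
    rintro rfl
    simp at hf0
  have hbF : algebraMap B F' b ≠ 0 :=
    (IsFractionRing.injective B F').ne hb0 |>.trans_eq (map_zero _)
  have hcF : algebraMap B F' c ≠ 0 :=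
    (IsFractionRing.injective B F').ne hc0 |>.trans_eq (map_zero _)
  have hNc : Algebra.norm F (algebraMap B F' c) ≠ 0 := by
    rw [Ne, Algebra.norm_eq_zero_iff]; exact hcF
  set f := algebraMap B F' b / algebraMap B F' c with hfdef
  have hmul : f * algebraMap B F' c = algebraMap B F' b := div_mul_cancel₀ _ hcF
  have hNf : Algebra.norm F f ≠ 0 := by
    rw [Ne, Algebra.norm_eq_zero_iff]; exact hf0
  have h1 : log (p.valuation F (Algebra.norm F f)) =
      log (p.valuation F (Algebra.norm F (algebraMap B F' b))) -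
        log (p.valuation F (Algebra.norm F (algebraMap B F' c))) := by
    rw [eq_sub_iff_add_eq, ← log_mul ((Valuation.ne_zero_iff _).mpr hNf)
      ((Valuation.ne_zero_iff _).mpr hNc), ← map_mul, ← map_mul, hmul]
  rw [h1, log_valuation_norm_algebraMap_of_inertiaDeg_eq_one p hf hb0,
    log_valuation_norm_algebraMap_of_inertiaDeg_eq_one p hf hc0, ← Finset.sum_sub_distrib]
  refine Finset.sum_congr rfl (fun Q _ => ?_)
  rw [sub_eq_iff_eq_add, ← log_mul ((Valuation.ne_zero_iff _).mpr hf0)
    ((Valuation.ne_zero_iff _).mpr hcF), ← map_mul, hmul]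

variable (B) in
include B in
/-- **Norm formula** at the place of `p`, all inertia degrees over `p` being one. -/
theorem sum_ord_of_primes_inertiaDeg_eq_one (p : HeightOneSpectrum A)
    (hf : ∀ Q ∈ p.asIdeal.primesOver B, Q.inertiaDeg A = 1) {g : F'} (hg : g ≠ 0) :
    ∑ w ∈ (PD.placeOfPrime (K := K) (F := F) p).fiber F', w.ord g =
      (PD.placeOfPrime (K := K) (F := F) p).ord (Algebra.norm F g) := by
  rw [sum_fiber_eq (B := B) p, PD.placeOfPrime_ord, log_valuation_norm_of_inertiaDeg_eq_one (B := B) p hf hg,
    ← Finset.sum_neg_distrib]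
  refine Finset.sum_congr rfl fun Q _ => ?_
  rw [PD.placeOfPrime_ord]

end Abstract

section Concrete

variable {K F F' : Type*} [Field K] [Field F] [Field F'] [Algebra K F] [Algebra K F']
  [Algebra F F'] [IsScalarTower K F F'] [FiniteDimensional F F'] [Algebra.IsSeparable F F']
  [HasPrincipalDivisors K F']

omit [Algebra.IsSeparable F F'] in
theorem placeOfPrime_heightOneSpectrum' (v : Place K F) :
    PD.placeOfPrime (K := K) (F := F) v.heightOneSpectrum = v := by
  have h := PD.placeOfPrime_primeOfPlace (B := v.toValuationSubring) v (fun b => b.2)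
  have h2 : PD.primeOfPlace (B := v.toValuationSubring) v (fun b => b.2) = v.heightOneSpectrum := by
    apply HeightOneSpectrum.ext
    ext b
    exact Iff.rfl
  rwa [h2] at h

set_option maxHeartbeats 1000000 in
/-- **Fundamental identity** `∑_{w | v} e(w|v) f(w|v) = [F' : F]`, separable case. -/
theorem sum_ramificationIndex_mul_inertiaDeg_place_of_isSeparable (v : Place K F) :
    ∑ w ∈ v.fiber F', (w.ramificationIndex F : ℤ) * (w.inertiaDeg F : ℤ) =
      (Module.finrank F F' : ℤ) := by
  let A := ↥v.toValuationSubring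
  let _ : Algebra A F' := ((algebraMap F F').comp (algebraMap A F)).toAlgebra
  have : IsScalarTower A F F' := IsScalarTower.of_algebraMap_eq fun _ => rfl
  have : IsScalarTower K A F' := IsScalarTower.of_algebraMap_eq fun k => by
    show algebraMap K F' k = algebraMap F F' (algebraMap A F (algebraMap K A k))
    rw [← IsScalarTower.algebraMap_apply K A F, ← IsScalarTower.algebraMap_apply K F F']
  have : Module.IsTorsionFree A F' := Module.isTorsionFree_iff_algebraMap_injective.mpr
    ((algebraMap F F').injective.comp (IsFractionRing.injective A F))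
  let B := integralClosure A F'
  have : IsDedekindDomain B := integralClosure.isDedekindDomain A F F'
  have : IsFractionRing B F' := integralClosure.isFractionRing_of_finite_extension F F'
  have : Module.Finite A B := IsIntegralClosure.finite A F F' B
  have h := sum_ramificationIndex_mul_inertiaDeg (K := K) (F := F) (F' := F') B v.heightOneSpectrum
  rwa [placeOfPrime_heightOneSpectrum'] at h

set_option maxHeartbeats 1000000 in
/-- **Norm formula** `∑_{w | v} ord_w g = ord_v (N g)` when all inertia degrees are one. -/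
theorem sum_ord_of_inertiaDeg_eq_one (h1 : ∀ w : Place K F', w.inertiaDeg F = 1)
    (v : Place K F) {g : F'} (hg : g ≠ 0) :
    ∑ w ∈ v.fiber F', w.ord g = v.ord (Algebra.norm F g) := by
  let A := ↥v.toValuationSubring
  let _ : Algebra A F' := ((algebraMap F F').comp (algebraMap A F)).toAlgebra
  have : IsScalarTower A F F' := IsScalarTower.of_algebraMap_eq fun _ => rfl
  have : IsScalarTower K A F' := IsScalarTower.of_algebraMap_eq fun k => by
    show algebraMap K F' k = algebraMap F F' (algebraMap A F (algebraMap K A k))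
    rw [← IsScalarTower.algebraMap_apply K A F, ← IsScalarTower.algebraMap_apply K F F']
  have : Module.IsTorsionFree A F' := Module.isTorsionFree_iff_algebraMap_injective.mpr
    ((algebraMap F F').injective.comp (IsFractionRing.injective A F))
  let B := integralClosure A F'
  have : IsDedekindDomain B := integralClosure.isDedekindDomain A F F'
  have : IsFractionRing B F' := integralClosure.isFractionRing_of_finite_extension F F'
  have : Module.Finite A B := IsIntegralClosure.finite A F F' B
  have hf : ∀ Q ∈ v.heightOneSpectrum.asIdeal.primesOver B, Q.inertiaDeg A = 1 := by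
    intro Q hQ
    have := inertiaDeg_placeOfPrime (K := K) (F := F) (F' := F') v.heightOneSpectrum
      (primeAbove v.heightOneSpectrum ⟨Q, hQ⟩)
    rw [h1] at this
    exact this.symm
  have h := sum_ord_of_primes_inertiaDeg_eq_one (K := K) (F := F) (F' := F') B
    v.heightOneSpectrum hf hg
  rwa [placeOfPrime_heightOneSpectrum'] at h

/-- The prelude's `SumRamificationInertia` for a finite separable extension. -/
theorem sumRamificationInertia_of_isSeparable : SumRamificationInertia K F F' :=
  ⟨sum_ramificationIndex_mul_inertiaDeg_place_of_isSeparable⟩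

/-- The prelude's `FundamentalIdentity` for a finite separable extension. -/
theorem fundamentalIdentity_of_isSeparable : FundamentalIdentity K F F' :=
  haveI := sumRamificationInertia_of_isSeparable (K := K) (F := F) (F' := F')
  inferInstance

omit [FiniteDimensional F F'] [Algebra.IsSeparable F F'] in
/-- places of degree one have inertia degree one. -/
theorem inertiaDeg_eq_one_of_deg_eq_one [Algebra.IsIntegral F F'] (w : Place K F')
    (hdeg : w.deg = 1) : w.inertiaDeg F = 1 := by
  have h := w.deg_restrict_mul_inertiaDeg (F := F)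
  rw [hdeg] at h
  exact Nat.dvd_one.mp (Dvd.intro_left _ h)

/-- The prelude's `PushforwardNormFormula` for a finite separable extension all of whose
inertia degrees are one. -/
theorem pushforwardNormFormula_of_inertiaDeg_eq_one (h1 : ∀ w : Place K F', w.inertiaDeg F = 1) :
    Divisor.PushforwardNormFormula K F F' := by
  classical
  intro f hf D hD v
  rw [Divisor.pushforward_apply, ← Finset.sum_filter]
  have hsub : D.support.filter (fun w => w.restrict F = v) ⊆ v.fiber F' := by
    intro w hw
    exact Place.mem_fiber.mpr (Finset.mem_filter.mp hw).2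
  rw [Finset.sum_subset hsub, ← sum_ord_of_inertiaDeg_eq_one h1 v hf]
  · exact Finset.sum_congr rfl (fun w _ => by rw [hD, h1 w, Nat.cast_one, mul_one])
  · intro w hw hnot
    have h0 : D w = 0 := by
      by_contra h
      exact hnot (Finset.mem_filter.mpr ⟨Finsupp.mem_support_iff.mpr h, Place.mem_fiber.mp hw⟩)
    rw [h0, zero_mul]

end Concrete

section Along

variable {K F F' : Type*} [Field K] [Field F] [Field F'] [Algebra K F] [Algebra K F']
  [HasPrincipalDivisors K F']

/-- `FundamentalIdentityAlong` for a finite separable morphism. -/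
theorem fundamentalIdentityAlong_of_isSeparable (φ : F →ₐ[K] F') (hφ : φ.toRingHom.IsIntegral)
    (hfin : FiniteAlong K φ)
    (hsep : letI := algebraAlong φ; Algebra.IsSeparable F F') :
    FundamentalIdentityAlong K φ hφ := by
  letI := algebraAlong φ
  haveI := isScalarTower_along φ
  haveI : Module.Finite F F' := hfin
  haveI : Algebra.IsSeparable F F' := hsep
  exact fundamentalIdentity_of_isSeparable (K := K) (F := F) (F' := F')

/-- `NormFormulaAlong` for a finite separable morphism into a field all of whose places have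
degree one. -/
theorem normFormulaAlong_of_deg_eq_one (φ : F →ₐ[K] F') (hfin : FiniteAlong K φ)
    (hsep : letI := algebraAlong φ; Algebra.IsSeparable F F')
    (hdeg : ∀ w : Place K F', w.deg = 1) :
    NormFormulaAlong K φ hfin := by
  letI := algebraAlong φ
  haveI := isScalarTower_along φ
  haveI : Module.Finite F F' := hfin
  haveI : Algebra.IsSeparable F F' := hsep
  exact pushforwardNormFormula_of_inertiaDeg_eq_one (K := K) (F := F) (F' := F')
    (fun w => inertiaDeg_eq_one_of_deg_eq_one w (hdeg w))

/-- **Norm formula along `ψ`**: `ord_v (N_ψ g) = ∑_{W ↦ v} ord_W g`. -/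
theorem ord_normAlong_eq_sum (ψ : F →ₐ[K] F') (hψ : ψ.toRingHom.IsIntegral)
    (hfin : FiniteAlong K ψ)
    (hsep : letI := algebraAlong ψ; Algebra.IsSeparable F F')
    (hdeg : ∀ w : Place K F', w.deg = 1) (v : Place K F) {g : F'} (hg : g ≠ 0) :
    v.ord (letI := algebraAlong ψ; Algebra.norm F g) = ∑ W ∈ Place.fiberAlong ψ hψ v, W.ord g := by
  letI := algebraAlong ψ
  haveI := isScalarTower_along ψ
  haveI : Module.Finite F F' := hfin
  haveI : Algebra.IsSeparable F F' := hsep
  exact (sum_ord_of_inertiaDeg_eq_one (K := K) (F := F) (F' := F')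
    (fun w => inertiaDeg_eq_one_of_deg_eq_one w (hdeg w)) v hg).symm

/-- **Hecke formula for orders**: `ord_v (N_ψ (φ u)) = ∑_{W ↦ v (ψ)} e_φ(W) ord_{φ(W)} u`. -/
theorem ord_normAlong_comp_eq_sum (φ ψ : F →ₐ[K] F') (hφ : φ.toRingHom.IsIntegral)
    (hψ : ψ.toRingHom.IsIntegral) (hfin : FiniteAlong K ψ)
    (hsep : letI := algebraAlong ψ; Algebra.IsSeparable F F')
    (hdeg : ∀ w : Place K F', w.deg = 1) (v : Place K F) {u : F} (hu : u ≠ 0) :
    v.ord (letI := algebraAlong ψ; Algebra.norm F (φ u)) =
      ∑ W ∈ Place.fiberAlong ψ hψ v,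
        (Place.ramificationIndexAlong φ W : ℤ) * (W.restrictAlong φ hφ).ord u := by
  rw [ord_normAlong_eq_sum ψ hψ hfin hsep hdeg v ((map_ne_zero φ).mpr hu)]
  exact Finset.sum_congr rfl fun W _ => Place.ord_restrictAlong φ hφ W u

/-- The fibre of an unramified place has `[F' : F]` elements. -/
theorem card_fiberAlong_of_unramified (ψ : F →ₐ[K] F') (hψ : ψ.toRingHom.IsIntegral)
    (hfin : FiniteAlong K ψ)
    (hsep : letI := algebraAlong ψ; Algebra.IsSeparable F F')
    (hdeg : ∀ w : Place K F', w.deg = 1) (v : Place K F)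
    (hunr : ∀ W ∈ Place.fiberAlong ψ hψ v, Place.ramificationIndexAlong ψ W = 1) :
    (Place.fiberAlong ψ hψ v).card = finrankAlong K ψ := by
  letI := algebraAlong ψ
  haveI := isScalarTower_along ψ
  haveI : Module.Finite F F' := hfin
  haveI : Algebra.IsSeparable F F' := hsep
  have h := sum_ramificationIndex_mul_inertiaDeg_place_of_isSeparable (K := K) (F := F) (F' := F') v
  have h2 : ∑ w ∈ v.fiber F', (w.ramificationIndex F : ℤ) * (w.inertiaDeg F : ℤ) =
      ∑ _w ∈ v.fiber F', (1 : ℤ) := by
    refine Finset.sum_congr rfl fun w hw => ?_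
    have he : w.ramificationIndex F = 1 := hunr w hw
    rw [he, inertiaDeg_eq_one_of_deg_eq_one w (hdeg w)]
    norm_num
  rw [h2, Finset.sum_const, nsmul_eq_mul, mul_one] at h
  exact_mod_cast h

/-- **Diagonal case** (consumer form for DIAG): if `v` is unramified along `ψ`, every place `W`
over it is unramified along `φ`, and `ord u ≡ c` at all the places `φ(W)`, then
`ord_v (N_ψ (φ u)) ≡ [F' : F] * c`. -/
theorem ord_normAlong_comp_of_diagonal (p : ℕ) (φ ψ : F →ₐ[K] F') (hφ : φ.toRingHom.IsIntegral)
    (hψ : ψ.toRingHom.IsIntegral) (hfin : FiniteAlong K ψ)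
    (hsep : letI := algebraAlong ψ; Algebra.IsSeparable F F')
    (hdeg : ∀ w : Place K F', w.deg = 1) (v : Place K F) {u : F} (hu : u ≠ 0) (c : ZMod p)
    (hunrψ : ∀ W ∈ Place.fiberAlong ψ hψ v, Place.ramificationIndexAlong ψ W = 1)
    (hunrφ : ∀ W ∈ Place.fiberAlong ψ hψ v, Place.ramificationIndexAlong φ W = 1)
    (hc : ∀ W ∈ Place.fiberAlong ψ hψ v, (((W.restrictAlong φ hφ).ord u : ℤ) : ZMod p) = c) :
    ((v.ord (letI := algebraAlong ψ; Algebra.norm F (φ u)) : ℤ) : ZMod p) =
      (finrankAlong K ψ : ZMod p) * c := by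
  rw [ord_normAlong_comp_eq_sum φ ψ hφ hψ hfin hsep hdeg v hu, Int.cast_sum,
    ← card_fiberAlong_of_unramified ψ hψ hfin hsep hdeg v hunrψ]
  rw [Finset.sum_congr rfl (g := fun _ => c)]
  · rw [Finset.sum_const, nsmul_eq_mul]
  · intro W hW
    rw [hunrφ W hW, Nat.cast_one, one_mul]
    exact hc W hW

end Along

end Fermat.Agent.S40x.Diag.ExtSep
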