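import Mathlib
import Fermat.Agent.Gateway.GoodRed.ConjFamily.Degree
import Fermat.Agent.Gateway.FkBasics.Modular
import Fermat.Agent.S24.CombIndex
import Fermat.Agent.S40x.Diag.ExtSep
import Fermat.Prelude.Def_AlgebraicCurve_Correspondence

/-!
# P-S44 (C2 / DIAG input (i)): the degeneracy maps on the special fibre at a good level (helper89)

`k` algebraically closed, `l` prime, `l ∤ M`, `(M * l : k) ≠ 0` (any characteristic prime to
`M * l`).  `Fk k M = modularFunctionFieldFullC k M ⊆ k((q))`.

* `alphaC : Fk k M →ₐ[k] Fk k (M * l)` the inclusion, `betaC` the substitution `q ↦ q ^ l`;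
* `finrankAlong_alphaC : finrankAlong k alphaC = l + 1`, `finiteAlong_alphaC`,
  `isSeparable_alphaC`, `isIntegral_alphaC`;
* `isIntegral_betaC` : `Fk k (M * l)` is algebraic over `betaC (Fk k M)` (no degree claim: all norms
  of the Hecke correspondence `heckeFun = N_α (β u)` are taken along `alphaC`).

These are exactly the hypotheses `hφ hψ hfin hsep` of `S40x/Diag/ExtSep.ord_normAlong_comp_eq_sum`
for `ψ = alphaC`, `φ = betaC`; `hdeg` is `FkBasics.deg_eq_one_Fk`, and the `HasPrincipalDivisors`
instance is `FkBasics.hasPrincipalDivisors_Fk`.  The corollary `ord_norm_alphaC_betaC` records the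
resulting Hecke formula for orders on the special fibre.

The first section is abstract (Mathlib + Prelude `algebraAlong` only).
-/

set_option autoImplicit false
set_option linter.unusedSectionVars false
set_option linter.style.haveILetI false

noncomputable section

namespace Fermat.Agent.S40x.Diag.DegC

open AlgebraicCurve IntermediateField Polynomial

/-! ### Abstract part -/

section Abstract

variable {K F F' : Type*} [Field K] [Field F] [Field F'] [Algebra K F] [Algebra K F']
  (φ : F →ₐ[K] F') (j : F)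

/-- `K(j) ≃ K(φ j)`. -/
def adjoinEquivAlong : K⟮j⟯ ≃+* K⟮φ j⟯ :=
  ((K⟮j⟯).equivMap φ).toRingEquiv.trans
    (IntermediateField.equivOfEq (by
      rw [IntermediateField.adjoin_map, Set.image_singleton])).toRingEquiv

theorem coe_adjoinEquivAlong (x : K⟮j⟯) :
    ((adjoinEquivAlong φ j x : K⟮φ j⟯) : F') = φ (x : F) := rfl

/-- the composite algebra `K(j) → F → F'`. -/
@[reducible] def algebraBaseAlong : Algebra K⟮j⟯ F' :=
  (φ.toRingHom.comp (algebraMap K⟮j⟯ F)).toAlgebra

theorem adjoinEquivAlong_compat :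
    letI := algebraBaseAlong φ j
    (algebraMap K⟮φ j⟯ F').comp (adjoinEquivAlong φ j).toRingHom =
      (RingEquiv.refl F').toRingHom.comp (algebraMap K⟮j⟯ F') := by
  letI := algebraBaseAlong φ j
  refine RingHom.ext fun x => ?_
  rfl

theorem finrank_base_along :
    letI := algebraBaseAlong φ j
    Module.finrank K⟮j⟯ F' = Module.finrank K⟮φ j⟯ F' := by
  letI := algebraBaseAlong φ j
  exact Algebra.finrank_eq_of_equiv_equiv (adjoinEquivAlong φ j) (RingEquiv.refl _)
    (adjoinEquivAlong_compat φ j)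

/-- tower law along `φ`. -/
theorem finrank_mul_finrankAlong (j' : F') (hj : φ j = j') :
    Module.finrank K⟮j⟯ F * finrankAlong K φ = Module.finrank K⟮j'⟯ F' := by
  subst hj
  letI := algebraAlong φ
  letI := algebraBaseAlong φ j
  haveI : IsScalarTower K⟮j⟯ F F' := IsScalarTower.of_algebraMap_eq fun _ => rfl
  rw [← finrank_base_along φ j]
  exact Module.finrank_mul_finrank K⟮j⟯ F F'

/-- separability along `φ` from separability over `K(φ j)`. -/
theorem isSeparable_along (j' : F') (hj : φ j = j') [Algebra.IsSeparable K⟮j'⟯ F'] :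
    letI := algebraAlong φ
    Algebra.IsSeparable F F' := by
  subst hj
  letI := algebraAlong φ
  letI := algebraBaseAlong φ j
  have hst := IsScalarTower.of_algebraMap_eq (R := K⟮j⟯) (S := F) (A := F') fun _ => rfl
  haveI : Algebra.IsSeparable K⟮j⟯ F' :=
    Algebra.IsSeparable.of_equiv_equiv (adjoinEquivAlong φ j).symm (RingEquiv.refl _) (by
      refine RingHom.ext fun x => ?_
      have h := DFunLike.congr_fun (adjoinEquivAlong_compat φ j) ((adjoinEquivAlong φ j).symm x)
      simp only [RingHom.comp_apply, RingEquiv.toRingHom_eq_coe, RingHom.coe_coe,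
        RingEquiv.apply_symm_apply] at h ⊢
      rw [h]
      rfl)
  exact @Algebra.isSeparable_tower_top_of_isSeparable K⟮j⟯ F _ F' _ _ _ _ _ hst _

/-- if a generating set of `F' / K` consists of elements integral over `φ F`, then `φ` is
integral. -/
theorem isIntegral_of_generators (S : Set F') (hS : adjoin K S = ⊤)
    (h : ∀ s ∈ S, φ.toRingHom.IsIntegralElem s) : φ.toRingHom.IsIntegral := by
  letI := algebraAlong φ
  haveI := isScalarTower_along φ
  have hle : adjoin K S ≤ (algebraicClosure F F').restrictScalars K := by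
    rw [adjoin_le_iff]
    intro s hs
    show s ∈ algebraicClosure F F'
    rw [mem_algebraicClosure_iff']
    exact h s hs
  intro y
  have hy : y ∈ algebraicClosure F F' := hle (hS ▸ mem_top)
  rw [mem_algebraicClosure_iff'] at hy
  exact hy

end Abstract

/-! ### The modular equation, in the direction `j(q^d)` over `j(q^(d r))` -/

section Rel

open Fermat.Agent.S28 Fermat.Agent.S28.Conjugates ModularCurve

/-- The relation `Φ_r(j(u^d), j(u^(d r))) = 0`. -/
theorem rel_expd' {k : Type} [Field k] {r : ℕ} [NeZero r] (E : ModularEquation r) (ζ : kˣ)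
    (hζ : IsPrimitiveRoot ζ r) {d : ℕ} (hd : d ≠ 0) :
    (E.Φ.map (evalA (expd (d * r) (jqModC k)))).eval (expd d (jqModC k)) = 0 := by
  have h := factor_sub E ζ hζ (1 : kˣ) hd
  rw [one_pow, one_pow, jSub_one] at h
  rw [h, eval_mul, eval_prod]
  have h0 : ∏ i ∈ Finset.range r,
      eval (expd d (jqModC k)) (X - C (jSub k (1 * ζ ^ i) d)) = 0 := by
    refine Finset.prod_eq_zero (i := 0) (Finset.mem_range.mpr (NeZero.pos r)) ?_
    rw [pow_zero, mul_one, jSub_one, eval_sub, eval_X, eval_C, sub_self]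
  rw [h0, mul_zero]

/-- a root of `Φ(X, φ y)` (checked after an embedding `ι`) is integral along `φ`. -/
theorem isIntegralElem_of_rel {F F' Ω : Type*} [Field F] [Field F'] [Field Ω] (φ : F →+* F')
    (ι : F' →+* Ω) (Φ : Polynomial (Polynomial ℤ)) (hΦ : Φ.Monic) (y : F) (x : F')
    (h : (Φ.map (evalA (ι (φ y)))).eval (ι x) = 0) : φ.IsIntegralElem x := by
  refine ⟨Φ.map (evalA y), hΦ.map _, ?_⟩
  apply ι.injective
  rw [map_zero, Polynomial.eval₂_eq_eval_map, map_evalA_map, ← Polynomial.eval_map_apply,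
    map_evalA_map]
  exact h

end Rel

/-! ### The degeneracy maps on `Fk` -/

open ModularCurve
open Fermat.Agent.Gateway.GoodRed.ConjFamily
open Fermat.Agent.S28 Fermat.Agent.S28.Conjugates

section Defs

variable (k : Type) [Field k] (M l : ℕ) [NeZero M] [NeZero l]

/-- the inclusion `Fk k M ⊆ Fk k (M * l)`. -/
def alphaC : Fk k M →ₐ[k] Fk k (M * l) :=
  IntermediateField.inclusion (full_degeneracyC_le k (dvd_mul_right M l))

/-- the substitution `q ↦ q ^ l`, `Fk k M → Fk k (M * l)`. -/
def betaC : Fk k M →ₐ[k] Fk k (M * l) where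
  toFun x := ⟨qExpand k l (x : LaurentSeries k), full_degeneracyC_map_le k M l ⟨x, x.2, rfl⟩⟩
  map_one' := Subtype.ext (map_one (qExpand k l))
  map_mul' _ _ := Subtype.ext (map_mul (qExpand k l) _ _)
  map_zero' := Subtype.ext (map_zero (qExpand k l))
  map_add' _ _ := Subtype.ext (map_add (qExpand k l) _ _)
  commutes' c := Subtype.ext (by
    show qExpand k l (algebraMap k (LaurentSeries k) c) = algebraMap k (LaurentSeries k) c
    rw [algebraMap_laurentSeries_eq_single, qExpand_single, mul_zero])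

theorem coe_alphaC (x : Fk k M) :
    ((alphaC k M l x : Fk k (M * l)) : LaurentSeries k) = (x : LaurentSeries k) :=
  IntermediateField.coe_inclusion _ x

theorem coe_betaC (x : Fk k M) :
    ((betaC k M l x : Fk k (M * l)) : LaurentSeries k) = qExpand k l (x : LaurentSeries k) := rfl

theorem alphaC_jFk : alphaC k M l (jFk k M) = jFk k (M * l) :=
  Subtype.ext (by rw [coe_alphaC]; rfl)

end Defs

section Degree

variable {k : Type} [Field k] [IsAlgClosed k] {M l : ℕ} [NeZero M] [NeZero l]

theorem natCast_ne_zero_left (hk : ((M * l : ℕ) : k) ≠ 0) : ((M : ℕ) : k) ≠ 0 := by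
  intro h
  apply hk
  rw [Nat.cast_mul, h, zero_mul]

theorem natCast_ne_zero_right (hk : ((M * l : ℕ) : k) ≠ 0) : ((l : ℕ) : k) ≠ 0 := by
  intro h
  apply hk
  rw [Nat.cast_mul, h, mul_zero]

/-- **`[Fk k (M l) : Fk k M] = l + 1`** along the inclusion. -/
theorem finrankAlong_alphaC (hl : l.Prime) (hlM : ¬ l ∣ M) (hk : ((M * l : ℕ) : k) ≠ 0) :
    finrankAlong k (alphaC k M l) = l + 1 := by
  have h3 := finrank_mul_finrankAlong (alphaC k M l) (jFk k M) (jFk k (M * l)) (alphaC_jFk k M l)
  rw [finrank_Fk_eq_dedekindPsi hk, finrank_Fk_eq_dedekindPsi (natCast_ne_zero_left hk),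
    Fermat.Agent.S24.Comb.dedekindPsi_mul_prime_of_not_dvd (NeZero.ne M) hl hlM] at h3
  have hpos : 0 < dedekindPsi M := by
    rw [← finrank_Fk_eq_dedekindPsi (k := k) (natCast_ne_zero_left hk)]
    haveI := finiteDimensional_Fk (k := k) (N := M) (natCast_ne_zero_left hk)
    exact Module.finrank_pos
  have h4 : dedekindPsi M * finrankAlong k (alphaC k M l) = dedekindPsi M * (l + 1) := by
    rw [h3, mul_comm]
  exact Nat.eq_of_mul_eq_mul_left hpos h4

theorem finiteAlong_alphaC (hl : l.Prime) (hlM : ¬ l ∣ M) (hk : ((M * l : ℕ) : k) ≠ 0) :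
    FiniteAlong k (alphaC k M l) := by
  letI := algebraAlong (alphaC k M l)
  show Module.Finite (Fk k M) (Fk k (M * l))
  have h : Module.finrank (Fk k M) (Fk k (M * l)) = l + 1 := finrankAlong_alphaC hl hlM hk
  exact Module.finite_of_finrank_pos (by rw [h]; omega)

theorem isIntegral_alphaC (hl : l.Prime) (hlM : ¬ l ∣ M) (hk : ((M * l : ℕ) : k) ≠ 0) :
    (alphaC k M l).toRingHom.IsIntegral := by
  letI := algebraAlong (alphaC k M l)
  haveI : Module.Finite (Fk k M) (Fk k (M * l)) := finiteAlong_alphaC hl hlM hk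
  intro x
  exact Algebra.IsIntegral.isIntegral (R := Fk k M) x

/-- `Fk k (M l) / Fk k M` is separable. -/
theorem isSeparable_alphaC (hk : ((M * l : ℕ) : k) ≠ 0) :
    letI := algebraAlong (alphaC k M l)
    Algebra.IsSeparable (Fk k M) (Fk k (M * l)) := by
  haveI := isSeparable_Fk (k := k) (N := M * l) hk
  exact isSeparable_along (alphaC k M l) (jFk k M) (jFk k (M * l)) (alphaC_jFk k M l)

end Degree

section Beta

open Fermat.Agent.Gateway

variable {k : Type} [Field k] [IsAlgClosed k] {M l : ℕ} [NeZero M] [NeZero l]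

/-- **`Fk k (M l)` is algebraic over `betaC (Fk k M)`**: the generators `j(q^(l d'))` are in the
image, and the generators `j(q^d)`, `d ∣ M`, are roots of the modular equations
`Φ_l(X, j(q^(l d)))`. -/
theorem isIntegral_betaC (hl : l.Prime) (hk : ((M * l : ℕ) : k) ≠ 0) :
    (betaC k M l).toRingHom.IsIntegral := by
  refine isIntegral_of_generators (betaC k M l) (FkBasics.genSet k (M * l))
    (FkBasics.adjoin_genSet k (M * l)) ?_
  rintro _ ⟨⟨d, hd⟩, rfl⟩
  have hdvd : d ∣ M * l := Nat.dvd_of_mem_divisors hd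
  have hl0 : l ≠ 0 := hl.ne_zero
  have hd0 : d ≠ 0 := ne_zero_of_dvd_ne_zero (NeZero.ne (M * l)) hdvd
  show (betaC k M l).toRingHom.IsIntegralElem (FkBasics.genF k (M * l) hdvd)
  by_cases hld : l ∣ d
  · obtain ⟨d', rfl⟩ := hld
    have hd'0 : d' ≠ 0 := fun h => hd0 (by rw [h, mul_zero])
    have hd'M : d' ∣ M := by
      have h1 : l * d' ∣ l * M := by rwa [mul_comm M l] at hdvd
      exact Nat.dvd_of_mul_dvd_mul_left hl.pos h1
    have h2 : FkBasics.genF k (M * l) hdvd = betaC k M l (FkBasics.genF k M hd'M) :=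
      Subtype.ext (by
        rw [coe_betaC, FkBasics.coe_genF, FkBasics.coe_genF, FkBasics.genΩ, FkBasics.genΩ,
          ← expd_eq, expd_expd hl0 hd'0])
    rw [h2]
    exact (betaC k M l).toRingHom.isIntegralElem_map
  · have hcop : Nat.Coprime d l := ((Nat.Prime.coprime_iff_not_dvd hl).mpr hld).symm
    have hdM : d ∣ M := hcop.dvd_of_dvd_mul_right hdvd
    obtain ⟨ζ, hζ⟩ := FkBasics.exists_primitiveRoot_unit k l (natCast_ne_zero_right hk)
    refine isIntegralElem_of_rel (betaC k M l).toRingHom
      (algebraMap (Fk k (M * l)) (LaurentSeries k)) (ModEq.modularEquation l hl).Φ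
      (ModEq.modularEquation l hl).monic (FkBasics.genF k M hdM) _ ?_
    show ((ModEq.modularEquation l hl).Φ.map
      (evalA (qExpand k l (FkBasics.genΩ k d)))).eval (FkBasics.genΩ k d) = 0
    rw [FkBasics.genΩ, ← expd_eq, expd_expd hl0 hd0, mul_comm l d]
    exact rel_expd' _ ζ hζ hd0

/-- **Hecke formula for orders on the special fibre** (`ExtSep.ord_normAlong_comp_eq_sum` for
`ψ = alphaC`, `φ = betaC`): `ord_v (N_α (β u)) = ∑_{W ↦ v (α)} e_β(W) ord_{β(W)} u`. -/
theorem ord_norm_alphaC_betaC (hl : l.Prime) (hlM : ¬ l ∣ M) (hk : ((M * l : ℕ) : k) ≠ 0)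
    (v : Place k (Fk k M)) {u : Fk k M} (hu : u ≠ 0) :
    haveI := FkBasics.hasPrincipalDivisors_Fk k (M * l) hk
    v.ord (letI := algebraAlong (alphaC k M l); Algebra.norm (Fk k M) (betaC k M l u)) =
      ∑ W ∈ Place.fiberAlong (alphaC k M l) (isIntegral_alphaC hl hlM hk) v,
        (Place.ramificationIndexAlong (betaC k M l) W : ℤ) *
          (W.restrictAlong (betaC k M l) (isIntegral_betaC hl hk)).ord u := by
  haveI := FkBasics.hasPrincipalDivisors_Fk k (M * l) hk
  exact ExtSep.ord_normAlong_comp_eq_sum (betaC k M l) (alphaC k M l)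
    (isIntegral_betaC hl hk) (isIntegral_alphaC hl hlM hk) (finiteAlong_alphaC hl hlM hk)
    (isSeparable_alphaC hk) (FkBasics.deg_eq_one_Fk k (M * l) hk) v hu

end Beta

end Fermat.Agent.S40x.Diag.DegC
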