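/-
P-S44 / block C2, DIAG (G3), route DIAG-N, claim (B): the instance glue (helper38).

`hAB` of the landed abstract core `Diag/DiagNCore.diag_core` asks, at `E = Fk k M`
(`modularFunctionFieldFullC k M`), for every `φ ≠ 0` a `φ' ≠ 0` with

* (i)  `φ' = normAlong aK (bK φ)` (`aK` = inclusion of levels, `bK` = `q ↦ q^l`), which is what the
  landed `Diag/Key.dvd_ord_normAlong_comp_of_pred` consumes, and
* (ii) `dlog (φ' : k((q))) = heckeT l (dlog (φ : k((q))))`.

This file proves (ii) for `φ' := normAlong aK (bK φ)` by lifting to characteristic zero: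
`φ = resFk φ̃`, `heckeFun φ̃ = Norm_α (β φ̃)`, the `q`-expansion norm formula in characteristic zero
(`Kummer.NormQExpFormula`, a hypothesis; over `ℚ̄` it is the landed
`ESC.normQExpFormula_algebraicClosure`), coefficientwise reduction (pattern of helper42's
`C2/KH/Core.heckeT_dlog_gred`) and "the norm commutes with reduction" (helper43's
`Diag/NormRedVal.red_norm` over helper71's `C2/TraceRed.Setup`, a hypothesis here; the instance is
helper77's `Diag/RedDegInst.setup_alpha`).

* `dlog_gred_of_norm_formula` : Laurent series core;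
* `norm_red_dlog` : abstract form over a `TraceRed.Setup`;
* `dlog_normAlong_eq_heckeT` : the instance `OvVal` / `resFk` / `heckeAlphaBar` / `heckeBetaBar`;
* `hAB_of_hkey` : the literal `hAB` of `diag_core` (with `dl = dlog ∘ coe`, `H = heckeT l`) from
  the conclusion `hkey` of `Diag/KeyWrap.hkey_of_pred`;
* `hAB_of_key` : the same with `hkey` discharged by `Diag/Key.dvd_ord_normAlong_comp_of_pred`.
-/
import Fermat.Agent.S40x.C2.KH.Core
import Fermat.Agent.S40x.Diag.NormRedVal
import Fermat.Agent.S40x.Diag.Key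
import Fermat.Agent.Gateway.GoodRed.GaussBar
import Fermat.Agent.S34x.TwoVal.Gauss0
import Fermat.Agent.Gateway.Kummer.HeckeRed

set_option autoImplicit false
set_option linter.style.haveILetI false
set_option linter.unusedSectionVars false

noncomputable section

namespace Fermat.Agent.S40x.Diag.HeckeRedGlue

open ModularCurve AlgebraicCurve
open Fermat.Agent.Gateway Fermat.Agent.Gateway.Red Fermat.Agent.Gateway.GoodRed
open Fermat.Agent.S40x.C2.DlogHecke Fermat.Agent.S40x.C2.KH Fermat.Agent.S40x.C2.TraceRed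

/-! ### Laurent series core -/

section Series

variable {L : Type*} [Field L] {A : ValuationSubring L} {k : Type*} [Field k] {π : A →+* k}

/-- **Reduction of the norm formula.**  If `F` is a Gauss unit, `G` lies in the Gauss ring and
`G(q^ℓ) = F(q^{ℓ²}) ∏_{b<ℓ} F(ζ^b q)` (`ζ` a primitive `ℓ`-th root of unity, `ℓ` a prime different
from the residue characteristic) then `Ḡ ≠ 0` and `dlog Ḡ = T_ℓ (dlog F̄)`. -/
theorem dlog_gred_of_norm_formula {ℓ : ℕ} [NeZero ℓ] (hℓ : ℓ.Prime) (hℓk : (ℓ : k) ≠ 0)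
    {ζ : Lˣ} (hζ : IsPrimitiveRoot ζ ℓ) {F G : LaurentSeries L}
    (hF : IsGaussUnit A π F) (hG : G ∈ gaussRing A π)
    (hN : qExpand L ℓ G =
      qExpand L (ℓ * ℓ) F * ∏ b ∈ Finset.range ℓ, Kummer.twist (ζ ^ b) F) :
    gred A π G ≠ 0 ∧ dlog (gred A π G) = heckeT ℓ (dlog (gred A π F)) := by
  obtain ⟨ζA, rfl⟩ := exists_unit_of_pow_eq_one (A := A) (NeZero.ne ℓ) ζ hζ.pow_eq_one
  have hζk : IsPrimitiveRoot (Units.map (π : A →* k) ζA) ℓ := isPrimitiveRoot_map_pi hℓ hℓk hζ
  have htw : ∀ b ∈ Finset.range ℓ,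
      IsGaussUnit A π (Kummer.twist (Units.map (A.subtype : A →* L) ζA ^ b) F) := by
    intro b _
    rw [← map_pow]
    exact hF.twist (ζA ^ b)
  have hP := IsGaussUnit.prod (Finset.range ℓ)
    (fun b => Kummer.twist (Units.map (A.subtype : A →* L) ζA ^ b) F) htw
  have hR : IsGaussUnit A π (qExpand L (ℓ * ℓ) F *
      ∏ b ∈ Finset.range ℓ, Kummer.twist (Units.map (A.subtype : A →* L) ζA ^ b) F) :=
    (hF.qExpand (ℓ * ℓ)).mul hP
  have hRred : gred A π (qExpand L (ℓ * ℓ) F *
      ∏ b ∈ Finset.range ℓ, Kummer.twist (Units.map (A.subtype : A →* L) ζA ^ b) F) =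
      qExpand k (ℓ * ℓ) (gred A π F) *
        ∏ b ∈ Finset.range ℓ, Kummer.twist (Units.map (π : A →* k) ζA ^ b) (gred A π F) := by
    rw [gred_mul (hF.qExpand (ℓ * ℓ)).1 hP.1, gred_qExpand (ℓ * ℓ) hF.1,
      gred_prod (Finset.range ℓ) _ htw]
    congr 1
    refine Finset.prod_congr rfl fun b _ => ?_
    rw [← map_pow, gred_twist (ζA ^ b) hF.1, map_pow]
  have hform : qExpand k ℓ (gred A π G) = qExpand k ℓ (qExpand k ℓ (gred A π F)) *
      ∏ b ∈ Finset.range ℓ, Kummer.twist (Units.map (π : A →* k) ζA ^ b) (gred A π F) := by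
    rw [← gred_qExpand ℓ hG, hN, hRred, qExpand_qExpand]
  refine ⟨?_, dlog_of_norm_formula hℓk hζk hF.gred_ne_zero hform⟩
  intro h0
  have h1 := hR.gred_ne_zero
  rw [← hN, gred_qExpand ℓ hG, h0, map_zero] at h1
  exact h1 rfl

end Series

/-! ### Abstract form over a `TraceRed.Setup` -/

section Abstract

open Module

variable {L : Type*} [Field L] {A : ValuationSubring L} {k : Type*} [Field k] {π : A →+* k}
  {F F' : Type*} [Field F] [Field F'] [Algebra F F']
  {O : ValuationSubring F} {O' : ValuationSubring F'}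
  {E E' : Type*} [Field E] [Field E'] [Algebra E E']
  {r : O →+* E} {r' : O' →+* E'}

/-- **Claim (B), abstract form.**  `F'/F` (characteristic zero, algebra structure = `α`) and
`E'/E` (the residue fields, algebra structure = `ᾱ`) with `[F' : F] ≤ [E' : E]`, `q`-expansion
maps `cF`, `cE` compatible with the Gauss reduction, a second map `β : F → F'` with reduction
`bK : E → E'`, and the norm `q`-expansion formula `hN` for `u ↦ N_{F'/F}(β u)`.  Then
`φ' := N_{E'/E}(bK φ)` is nonzero and `dlog φ' = T_ℓ (dlog φ)` for every `φ ≠ 0`. -/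
theorem norm_red_dlog (S : Setup O O' r r') [FiniteDimensional F F'] [FiniteDimensional E E']
    (hdeg : finrank F F' ≤ finrank E E')
    (cF : F →+* LaurentSeries L) (cE : E →+* LaurentSeries k)
    (hcO : ∀ x : O, cF (x : F) ∈ gaussRing A π)
    (hcr : ∀ x : O, cE (r x) = gred A π (cF (x : F)))
    (β : F →+* F') (bK : E →+* E')
    (hβO : ∀ x : O, β (x : F) ∈ O')
    (hβr : ∀ x : O, r' ⟨β (x : F), hβO x⟩ = bK (r x))
    {ℓ : ℕ} [NeZero ℓ] (hℓ : ℓ.Prime) (hℓk : (ℓ : k) ≠ 0) {ζ : Lˣ} (hζ : IsPrimitiveRoot ζ ℓ)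
    (hN : ∀ u : F, qExpand L ℓ (cF (Algebra.norm F (β u))) =
      qExpand L (ℓ * ℓ) (cF u) * ∏ b ∈ Finset.range ℓ, Kummer.twist (ζ ^ b) (cF u))
    (φ : E) (hφ : φ ≠ 0) :
    Algebra.norm E (bK φ) ≠ 0 ∧
      dlog (cE (Algebra.norm E (bK φ))) = heckeT ℓ (dlog (cE φ)) := by
  obtain ⟨x, rfl⟩ := S.surj φ
  have hred := NormRedVal.red_norm S hdeg ⟨β (x : F), hβO x⟩
  rw [hβr x] at hred
  have hFU : IsGaussUnit A π (cF (x : F)) := isGaussUnit_iff.mpr ⟨hcO x, by
    rw [← hcr x]
    exact (map_ne_zero cE).mpr hφ⟩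
  have hG : cF (Algebra.norm F (β (x : F))) ∈ gaussRing A π :=
    hcO ⟨Algebra.norm F (β (x : F)), NormRedVal.norm_mem S hdeg ⟨β (x : F), hβO x⟩⟩
  obtain ⟨h1, h2⟩ := dlog_gred_of_norm_formula hℓ hℓk hζ hFU hG (hN x)
  have hc : cE (Algebra.norm E (bK (r x))) = gred A π (cF (Algebra.norm F (β (x : F)))) := by
    rw [← hred]
    exact hcr ⟨Algebra.norm F (β (x : F)), NormRedVal.norm_mem S hdeg ⟨β (x : F), hβO x⟩⟩
  rw [hc, hcr x]
  refine ⟨?_, h2⟩
  intro h0
  apply h1
  rw [← hc, h0, map_zero]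

end Abstract

/-! ### The instance: `OvVal`, `resFk`, `heckeAlphaBar`, `heckeBetaBar` -/

section Concrete

open Fermat.Agent.S34x.TwoVal

variable {L : Type} [Field L] [Algebra ℚ L] (A : ValuationSubring L)
  {k : Type} [Field k] (π : A →+* k) [IsAlgClosed k]
  (p : ℕ) [Fact p.Prime] [CharP k p]
  (M l : ℕ) [NeZero M] [NeZero l]
  (hπ : Function.Surjective π) (hpM : ¬ p ∣ M) (hpMl : ¬ p ∣ M * l)

/-- **Claim (B) at the instance.**  `aK`, `bK` the characteristic `p` degeneracy maps
(`bK` given by its `q`-series; `aK` enters through the `TraceRed.Setup` `S` along `α` / `aK`,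
which is `RedDegInst.setup_alpha`), `hdeg` the degree inequality `[F_{Ml} : F_M] ≤ [Fk_{Ml} : Fk_M]`,
`hC1` the characteristic zero norm `q`-expansion formula.  Then for `φ ≠ 0` in `Fk k M` the function
`φ' := normAlong aK (bK φ)` is nonzero and `dlog φ' = T_l (dlog φ)`. -/
theorem dlog_normAlong_eq_heckeT
    (aK bK : modularFunctionFieldFullC k M →ₐ[k] modularFunctionFieldFullC k (M * l))
    (hbK : ∀ u : modularFunctionFieldFullC k M,
      ((bK u : modularFunctionFieldFullC k (M * l)) : LaurentSeries k) =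
        qExpand k l (u : LaurentSeries k))
    (S : letI := algebraAlong (heckeAlphaBar L M l); letI := algebraAlong aK;
      Setup (OvVal A π M p hπ hpM) (OvVal A π (M * l) p hπ hpMl)
        (resFk A π M p hπ hpM) (resFk A π (M * l) p hπ hpMl))
    (hfin : FiniteAlong L (heckeAlphaBar L M l)) (hfinK : FiniteAlong k aK)
    (hdeg : finrankAlong L (heckeAlphaBar L M l) ≤ finrankAlong k aK)
    (hl : l.Prime) (hlk : (l : k) ≠ 0) {ζ : Lˣ} (hζ : IsPrimitiveRoot ζ l)
    (hC1 : Kummer.NormQExpFormula L M l ζ)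
    (φ : modularFunctionFieldFullC k M) (hφ : φ ≠ 0) :
    Kummer.normAlong aK (bK φ) ≠ 0 ∧
      dlog ((Kummer.normAlong aK (bK φ) : modularFunctionFieldFullC k M) : LaurentSeries k) =
        heckeT l (dlog (φ : LaurentSeries k)) := by
  letI : Algebra (FBar L M) (FBar L (M * l)) := algebraAlong (heckeAlphaBar L M l)
  letI : Algebra (modularFunctionFieldFullC k M) (modularFunctionFieldFullC k (M * l)) :=
    algebraAlong aK
  haveI : FiniteDimensional (FBar L M) (FBar L (M * l)) := hfin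
  haveI : FiniteDimensional (modularFunctionFieldFullC k M)
    (modularFunctionFieldFullC k (M * l)) := hfinK
  exact norm_red_dlog (A := A) (π := π) S hdeg
    (algebraMap (FBar L M) (LaurentSeries L))
    (algebraMap (modularFunctionFieldFullC k M) (LaurentSeries k))
    (fun x => x.2)
    (fun x => by
      have hx : ((x : FBar L M) : LaurentSeries L) ∈ gaussRing A π := x.2
      exact (gred_of_mem hx).symm)
    (heckeBetaBar L M l).toRingHom bK.toRingHom
    (fun x => beta_mem_Ov A π M l x x.2)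
    (fun x => Subtype.ext (by
      show ((resFk A π (M * l) p hπ hpMl ⟨heckeBetaBar L M l (x : FBar L M),
        beta_mem_Ov A π M l x x.2⟩ : modularFunctionFieldFullC k (M * l)) : LaurentSeries k) =
        ((bK (resFk A π M p hπ hpM x) : modularFunctionFieldFullC k (M * l)) : LaurentSeries k)
      rw [hbK, coe_resFk, coe_resFk]
      exact redV_beta A π M l x x.2))
    hl hlk hζ (fun u => hC1 u) φ hφ

/-- **The literal `hAB` of `Diag/DiagNCore.diag_core`** at `E = Fk k M`, `dl = dlog ∘ coe`,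
`H = heckeT l`, from the conclusion `hkey` of `Diag/KeyWrap.hkey_of_pred` (claim (A)). -/
theorem hAB_of_hkey
    (aK bK : modularFunctionFieldFullC k M →ₐ[k] modularFunctionFieldFullC k (M * l))
    (hbK : ∀ u : modularFunctionFieldFullC k M,
      ((bK u : modularFunctionFieldFullC k (M * l)) : LaurentSeries k) =
        qExpand k l (u : LaurentSeries k))
    (S : letI := algebraAlong (heckeAlphaBar L M l); letI := algebraAlong aK;
      Setup (OvVal A π M p hπ hpM) (OvVal A π (M * l) p hπ hpMl)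
        (resFk A π M p hπ hpM) (resFk A π (M * l) p hπ hpMl))
    (hfin : FiniteAlong L (heckeAlphaBar L M l)) (hfinK : FiniteAlong k aK)
    (hdeg : finrankAlong L (heckeAlphaBar L M l) ≤ finrankAlong k aK)
    (hl : l.Prime) (hlk : (l : k) ≠ 0) {ζ : Lˣ} (hζ : IsPrimitiveRoot ζ l)
    (hC1 : Kummer.NormQExpFormula L M l ζ)
    (NC : Set (Place k (modularFunctionFieldFullC k M)))
    (hkey : ∀ g : modularFunctionFieldFullC k M, g ≠ 0 → (∀ P ∈ NC, (p : ℤ) ∣ P.ord g) →
      ∀ P ∈ NC, (p : ℤ) ∣ P.ord (Kummer.normAlong aK (bK g))) :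
    ∀ φ : modularFunctionFieldFullC k M, φ ≠ 0 → (∀ P ∈ NC, (p : ℤ) ∣ P.ord φ) →
      ∃ φ' : modularFunctionFieldFullC k M, φ' ≠ 0 ∧ (∀ P ∈ NC, (p : ℤ) ∣ P.ord φ') ∧
        dlog ((φ' : modularFunctionFieldFullC k M) : LaurentSeries k) =
          heckeT l (dlog ((φ : modularFunctionFieldFullC k M) : LaurentSeries k)) := by
  intro φ hφ hdiv
  obtain ⟨h1, h2⟩ := dlog_normAlong_eq_heckeT A π p M l hπ hpM hpMl aK bK hbK S hfin hfinK hdeg
    hl hlk hζ hC1 φ hφ
  exact ⟨Kummer.normAlong aK (bK φ), h1, hkey φ hφ hdiv, h2⟩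

/-- **`hAB` of `diag_core`**, with claim (A) discharged by the landed
`Diag/Key.dvd_ord_normAlong_comp_of_pred` (`ψ = aK`, `φ = bK`): `NC` a set of places of `Fk k M`
such that `W ∘ aK ∈ NC → W ∘ bK ∈ NC` for the places `W` of `Fk k (M l)`. -/
theorem hAB_of_key [HasPrincipalDivisors k (modularFunctionFieldFullC k (M * l))]
    (aK bK : modularFunctionFieldFullC k M →ₐ[k] modularFunctionFieldFullC k (M * l))
    (hbK : ∀ u : modularFunctionFieldFullC k M,
      ((bK u : modularFunctionFieldFullC k (M * l)) : LaurentSeries k) =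
        qExpand k l (u : LaurentSeries k))
    (S : letI := algebraAlong (heckeAlphaBar L M l); letI := algebraAlong aK;
      Setup (OvVal A π M p hπ hpM) (OvVal A π (M * l) p hπ hpMl)
        (resFk A π M p hπ hpM) (resFk A π (M * l) p hπ hpMl))
    (hfin : FiniteAlong L (heckeAlphaBar L M l)) (hfinK : FiniteAlong k aK)
    (hdeg : finrankAlong L (heckeAlphaBar L M l) ≤ finrankAlong k aK)
    (hl : l.Prime) (hlk : (l : k) ≠ 0) {ζ : Lˣ} (hζ : IsPrimitiveRoot ζ l)
    (hC1 : Kummer.NormQExpFormula L M l ζ)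
    (hbKint : bK.toRingHom.IsIntegral) (haKint : aK.toRingHom.IsIntegral)
    (hsep : letI := algebraAlong aK;
      Algebra.IsSeparable (modularFunctionFieldFullC k M) (modularFunctionFieldFullC k (M * l)))
    (hdeg1 : ∀ w : Place k (modularFunctionFieldFullC k (M * l)), w.deg = 1)
    (NC : Set (Place k (modularFunctionFieldFullC k M)))
    (hNC : ∀ W : Place k (modularFunctionFieldFullC k (M * l)),
      W.restrictAlong aK haKint ∈ NC → W.restrictAlong bK hbKint ∈ NC) :
    ∀ φ : modularFunctionFieldFullC k M, φ ≠ 0 → (∀ P ∈ NC, (p : ℤ) ∣ P.ord φ) →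
      ∃ φ' : modularFunctionFieldFullC k M, φ' ≠ 0 ∧ (∀ P ∈ NC, (p : ℤ) ∣ P.ord φ') ∧
        dlog ((φ' : modularFunctionFieldFullC k M) : LaurentSeries k) =
          heckeT l (dlog ((φ : modularFunctionFieldFullC k M) : LaurentSeries k)) :=
  hAB_of_hkey A π p M l hπ hpM hpMl aK bK hbK S hfin hfinK hdeg hl hlk hζ hC1 NC
    (fun _ hg hup P hP => Key.dvd_ord_normAlong_comp_of_pred (fun P => P ∈ NC) bK aK hbKint haKint
      hfinK hsep hdeg1 hNC p hg hup P hP)

end Concrete

end Fermat.Agent.S40x.Diag.HeckeRedGlue
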