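import Fermat.Agent.S40x.Diag.ExtSep
import Fermat.Agent.Gateway.Kummer.Basic
import Fermat.Agent.Gateway.BaseChange.Square
import Fermat.Agent.S24.AddVal

/-!
# P-S44, block C2 / DIAG, leaf D-KEY (helper94): "divisible off the cusps" is preserved by `T_l`

Prelude `Place` vocabulary, abstract.  `K` a field, `F`, `F'` fields over `K` with all places of `F'`
of degree one, `φ ψ : F →ₐ[K] F'` with `ψ` finite separable (`φ = ᾱ`, `ψ = β̄`), so that the Hecke
operator on Kummer functions is `u ↦ Nn u := normAlong ψ (φ u)`.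

* `dvd_ord_normAlong_comp_of_pred` **(KEY', predicate form)**: `NC : Place K F → Prop` with
  "`W ∘ ψ ∈ NC → W ∘ φ ∈ NC`" for every place `W` of `F'`; if `p ∣ ord_P u` for all `P ∈ NC` then
  `p ∣ ord_P (Nn u)` for all `P ∈ NC`.
* `dvd_ord_normAlong_comp` **(KEY')**: the case `NC P := 0 ≤ P.ord y` (`y = j̄`).
* `ord_nonneg_of_isIntegral`, `ord_restrictAlong_nonneg_of_isIntegral`: the hypothesis on `y` follows
  from "`φ y` is integral over `K[ψ y]`" (modular equation).
* `ord_normAlong_comp_zmod`: the same bookkeeping modulo `p` for a function whose orders are known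
  modulo `p` on `NC`: `ord_P (Nn u) ≡ ∑_{W ↦ P} e_φ(W) * c (W ∘ φ)`.
Nothing about nodes, ramification or counts enters.
-/

set_option autoImplicit false
set_option linter.unusedSectionVars false
set_option linter.style.haveILetI false

noncomputable section

open AlgebraicCurve

namespace Fermat.Agent.S40x.Diag.Key

open Fermat.Agent.Gateway.Kummer Fermat.Agent.S40x.Diag.ExtSep

variable {K F F' : Type*} [Field K] [Field F] [Field F'] [Algebra K F] [Algebra K F']
  [HasPrincipalDivisors K F']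

/-- **(KEY'), predicate form.** -/
theorem dvd_ord_normAlong_comp_of_pred (NC : Place K F → Prop) (φ ψ : F →ₐ[K] F')
    (hφ : φ.toRingHom.IsIntegral) (hψ : ψ.toRingHom.IsIntegral) (hfin : FiniteAlong K ψ)
    (hsep : letI := algebraAlong ψ; Algebra.IsSeparable F F')
    (hdeg : ∀ w : Place K F', w.deg = 1)
    (hNC : ∀ W : Place K F', NC (W.restrictAlong ψ hψ) → NC (W.restrictAlong φ hφ))
    (p : ℕ) {u : F} (hu : u ≠ 0) (hup : ∀ P : Place K F, NC P → (p : ℤ) ∣ P.ord u)
    (v : Place K F) (hv : NC v) : (p : ℤ) ∣ v.ord (normAlong ψ (φ u)) := by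
  have h := ord_normAlong_comp_eq_sum φ ψ hφ hψ hfin hsep hdeg v hu
  have h' : v.ord (normAlong ψ (φ u)) = ∑ W ∈ Place.fiberAlong ψ hψ v,
      (Place.ramificationIndexAlong φ W : ℤ) * (W.restrictAlong φ hφ).ord u := h
  rw [h']
  refine Finset.dvd_sum fun W hW => ?_
  have hWv : W.restrictAlong ψ hψ = v := Place.mem_fiberAlong.mp hW
  exact Dvd.dvd.mul_left (hup _ (hNC W (hWv ▸ hv))) _

/-- **(KEY')**: `p ∣ ord_P u` at all places with `0 ≤ ord_P y` is preserved by
`u ↦ normAlong ψ (φ u)`, provided `0 ≤ ord_{W ∘ ψ} y → 0 ≤ ord_{W ∘ φ} y` for the places `W` of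
`F'`. -/
theorem dvd_ord_normAlong_comp (φ ψ : F →ₐ[K] F')
    (hφ : φ.toRingHom.IsIntegral) (hψ : ψ.toRingHom.IsIntegral) (hfin : FiniteAlong K ψ)
    (hsep : letI := algebraAlong ψ; Algebra.IsSeparable F F')
    (hdeg : ∀ w : Place K F', w.deg = 1) (y : F)
    (hy : ∀ W : Place K F', 0 ≤ (W.restrictAlong ψ hψ).ord y → 0 ≤ (W.restrictAlong φ hφ).ord y)
    (p : ℕ) {u : F} (hu : u ≠ 0) (hup : ∀ P : Place K F, 0 ≤ P.ord y → (p : ℤ) ∣ P.ord u)
    (v : Place K F) (hv : 0 ≤ v.ord y) : (p : ℤ) ∣ v.ord (normAlong ψ (φ u)) :=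
  dvd_ord_normAlong_comp_of_pred (fun P => 0 ≤ P.ord y) φ ψ hφ hψ hfin hsep hdeg hy p hu hup v hv

/-- bookkeeping modulo `p`: if `ord_P u ≡ c P` on `NC`, then
`ord_v (Nn u) ≡ ∑_{W ↦ v} e_φ(W) * c (W ∘ φ)` for `v ∈ NC`. -/
theorem ord_normAlong_comp_zmod (NC : Place K F → Prop) (φ ψ : F →ₐ[K] F')
    (hφ : φ.toRingHom.IsIntegral) (hψ : ψ.toRingHom.IsIntegral) (hfin : FiniteAlong K ψ)
    (hsep : letI := algebraAlong ψ; Algebra.IsSeparable F F')
    (hdeg : ∀ w : Place K F', w.deg = 1)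
    (hNC : ∀ W : Place K F', NC (W.restrictAlong ψ hψ) → NC (W.restrictAlong φ hφ))
    (p : ℕ) {u : F} (hu : u ≠ 0) (c : Place K F → ZMod p)
    (hc : ∀ P : Place K F, NC P → ((P.ord u : ℤ) : ZMod p) = c P)
    (v : Place K F) (hv : NC v) :
    ((v.ord (normAlong ψ (φ u)) : ℤ) : ZMod p) = ∑ W ∈ Place.fiberAlong ψ hψ v,
      (Place.ramificationIndexAlong φ W : ZMod p) * c (W.restrictAlong φ hφ) := by
  have h : v.ord (normAlong ψ (φ u)) = ∑ W ∈ Place.fiberAlong ψ hψ v,
      (Place.ramificationIndexAlong φ W : ℤ) * (W.restrictAlong φ hφ).ord u :=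
    ord_normAlong_comp_eq_sum φ ψ hφ hψ hfin hsep hdeg v hu
  rw [h, Int.cast_sum]
  refine Finset.sum_congr rfl fun W hW => ?_
  have hWv : W.restrictAlong ψ hψ = v := Place.mem_fiberAlong.mp hW
  rw [Int.cast_mul, Int.cast_natCast, hc _ (hNC W (hWv ▸ hv))]

/-! ### The hypothesis on `y` from an integral equation -/

/-- a place is integrally closed: `t` integral over `K[s]` and `0 ≤ ord s` give `0 ≤ ord t`. -/
theorem ord_nonneg_of_isIntegral (W : Place K F') {s t : F'}
    (hint : IsIntegral (Algebra.adjoin K {s}) t) (hs : 0 ≤ W.ord s) : 0 ≤ W.ord t := by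
  rcases eq_or_ne t 0 with rfl | ht
  · simp
  have hsW : s ∈ W.toValuationSubring := by
    rcases eq_or_ne s 0 with rfl | hs0
    · exact W.toValuationSubring.zero_mem
    · exact (Fermat.Agent.S24.place_mem_iff_ord_nonneg W hs0).mpr hs
  have hle : ∀ x ∈ Algebra.adjoin K {s}, x ∈ W.toValuationSubring := by
    intro x hx
    induction hx using Algebra.adjoin_induction with
    | mem x hx =>
      rw [Set.mem_singleton_iff] at hx
      exact hx ▸ hsW
    | algebraMap r => exact W.algebraMap_mem' r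
    | add x y _ _ hx hy => exact W.toValuationSubring.add_mem _ _ hx hy
    | mul x y _ _ hx hy => exact W.toValuationSubring.mul_mem _ _ hx hy
  let j : Algebra.adjoin K {s} →+* W.toValuationSubring :=
    (Algebra.adjoin K {s}).val.toRingHom.codRestrict W.toValuationSubring (fun x => hle x x.2)
  have hint' : IsIntegral W.toValuationSubring t := by
    obtain ⟨f, hf, hft⟩ := hint
    refine ⟨f.map j, hf.map j, ?_⟩
    rw [Polynomial.eval₂_map]
    exact hft
  obtain ⟨z, rfl⟩ := IsIntegrallyClosed.isIntegral_iff.mp hint'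
  exact (Fermat.Agent.S24.place_mem_iff_ord_nonneg W ht).mp z.2

/-- the hypothesis `hy` of `dvd_ord_normAlong_comp` from "`φ y` is integral over `K[ψ y]`". -/
theorem ord_restrictAlong_nonneg_of_isIntegral (φ ψ : F →ₐ[K] F')
    (hφ : φ.toRingHom.IsIntegral) (hψ : ψ.toRingHom.IsIntegral) (y : F)
    (hint : IsIntegral (Algebra.adjoin K {ψ y}) (φ y)) (W : Place K F')
    (h : 0 ≤ (W.restrictAlong ψ hψ).ord y) : 0 ≤ (W.restrictAlong φ hφ).ord y := by
  have h1 : 0 ≤ W.ord (ψ y) := by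
    rw [Place.ord_restrictAlong ψ hψ W y]
    exact mul_nonneg (Int.natCast_nonneg _) h
  have h2 : 0 ≤ W.ord (φ y) := ord_nonneg_of_isIntegral W hint h1
  rw [Place.ord_restrictAlong φ hφ W y] at h2
  have hpos : (0 : ℤ) < (Place.ramificationIndexAlong φ W : ℤ) := by
    exact_mod_cast Fermat.Agent.Gateway.BaseChange.ramificationIndexAlong_pos φ hφ W
  exact nonneg_of_mul_nonneg_right h2 hpos

end Fermat.Agent.S40x.Diag.Key
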