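import Fermat.Agent.S40x.Diag.DegC
import Fermat.Agent.S40x.Diag.NormQK
import Fermat.Agent.S40x.Diag.HeckeRedGlue
import Fermat.Agent.S40x.Diag.Key

/-!
# P-S44 (C2 / DIAG): claims (A), (B) and the literal `hAB` at `alphaC`, `betaC` (helper89)

Plumbing: the landed `Diag/NormQK` (helper61, claim (B) with the characteristic `p` degeneracy maps
and their degree as inputs), `Diag/HeckeRedGlue.hAB_of_key` (helper38) and
`Diag/Key.ord_restrictAlong_nonneg_of_isIntegral` (cusp functoriality from an integral equation)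
instantiated at `aK = DegC.alphaC`, `bK = DegC.betaC`, with ALL degree / finiteness /
separability / integrality hypotheses discharged by `Diag/DegC`.

Context: `L` algebraically closed of characteristic `0`, `A ⊆ L` a valuation subring,
`π : A → k` onto an algebraically closed field of characteristic `p`, `p ∤ M * l`, `l` prime,
`l ∤ M`.

* `Nn k M l : Fk k M → Fk k M`, `Nn φ = N_{alphaC} (betaC φ)` (`= Kummer.normAlong alphaC (betaC φ)`);
* `normQExp_Nn` : `(Nn φ)(q^l) = φ(q^(l²)) ∏_{b<l} φ(ζ^b q)`;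
* `dlog_Nn` : `dlog (Nn φ) = heckeT l (dlog φ)` for `φ ≠ 0` (claim (B));
* `heckeFun_mem_and_red_Nn` : `heckeFun x ∈ O` and `resFk (heckeFun x) = Nn (resFk x)`;
* `NC k M` the set of non-cuspidal places (`0 ≤ ord j`), `restrictAlong_betaC_mem_NC` (cusp
  functoriality, from `Φ_l(j(q^l), j(q)) = 0`);
* `dvd_ord_Nn` : claim (A) = (KEY');
* `hAB_Fk` : the literal `hAB` of `Diag/DiagNCore.diag_core`.
-/

set_option autoImplicit false
set_option linter.unusedSectionVars false
set_option linter.style.haveILetI false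

noncomputable section

namespace Fermat.Agent.S40x.Diag.DegCInst

open ModularCurve AlgebraicCurve Polynomial
open Fermat.Agent.Gateway Fermat.Agent.Gateway.GoodRed Fermat.Agent.Gateway.GoodRed.ConjFamily
open Fermat.Agent.Gateway.Hecke Fermat.Agent.Gateway.Kummer
open Fermat.Agent.S28 Fermat.Agent.S28.Conjugates
open Fermat.Agent.S40x.C2.DlogHecke Fermat.Agent.S40x.Diag.DegC

/-! ### Cusp functoriality -/

section Cusp

/-- a root of a monic `Φ(X, s)` (checked after an embedding) is integral over `K[s]`. -/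
theorem isIntegral_adjoin_of_rel {K F' Ω : Type*} [Field K] [Field F'] [Algebra K F'] [Field Ω]
    (ι : F' →+* Ω) (Φ : Polynomial (Polynomial ℤ)) (hΦ : Φ.Monic) (s t : F')
    (h : (Φ.map (evalA (ι s))).eval (ι t) = 0) : IsIntegral (Algebra.adjoin K {s}) t := by
  let s' : Algebra.adjoin K {s} := ⟨s, Algebra.self_mem_adjoin_singleton K s⟩
  refine ⟨Φ.map (evalA s'), hΦ.map _, ?_⟩
  apply ι.injective
  rw [map_zero, Polynomial.eval₂_eq_eval_map, map_evalA_map, ← Polynomial.eval_map_apply,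
    map_evalA_map]
  exact h

variable {k : Type} [Field k] [IsAlgClosed k] {M l : ℕ} [NeZero M] [NeZero l]

/-- `j(q^l)` is integral over `k[j]` in `Fk k (M l)`. -/
theorem isIntegral_betaC_jFk (hl : l.Prime) (hk : ((M * l : ℕ) : k) ≠ 0) :
    IsIntegral (Algebra.adjoin k {alphaC k M l (jFk k M)}) (betaC k M l (jFk k M)) := by
  obtain ⟨ζ, hζ⟩ := FkBasics.exists_primitiveRoot_unit k l (natCast_ne_zero_right hk)
  refine isIntegral_adjoin_of_rel (algebraMap (Fk k (M * l)) (LaurentSeries k))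
    (ModEq.modularEquation l hl).Φ (ModEq.modularEquation l hl).monic _ _ ?_
  show ((ModEq.modularEquation l hl).Φ.map (evalA (jqModC k))).eval
    (qExpand k l (jqModC k)) = 0
  have h := rel_expd (k := k) (ModEq.modularEquation l hl) ζ hζ (d := 1) one_ne_zero
  rwa [expd_one, one_mul, expd_eq] at h

/-- the non-cuspidal places of `Fk k M`. -/
def NC (k : Type) [Field k] (M : ℕ) [NeZero M] : Set (Place k (Fk k M)) :=
  {P | 0 ≤ P.ord (jFk k M)}

/-- **cusp functoriality**: a place of `Fk k (M l)` which is non-cuspidal along `alphaC` is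
non-cuspidal along `betaC`. -/
theorem restrictAlong_betaC_mem_NC (hl : l.Prime) (hlM : ¬ l ∣ M) (hk : ((M * l : ℕ) : k) ≠ 0)
    (W : Place k (Fk k (M * l)))
    (h : W.restrictAlong (alphaC k M l) (isIntegral_alphaC hl hlM hk) ∈ NC k M) :
    W.restrictAlong (betaC k M l) (isIntegral_betaC hl hk) ∈ NC k M := by
  haveI := FkBasics.hasPrincipalDivisors_Fk k (M * l) hk
  exact Fermat.Agent.S40x.Diag.Key.ord_restrictAlong_nonneg_of_isIntegral (betaC k M l)
    (alphaC k M l) (isIntegral_betaC hl hk) (isIntegral_alphaC hl hlM hk) (jFk k M)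
    (isIntegral_betaC_jFk hl hk) W h

end Cusp

/-! ### Claims (A), (B) and `hAB` -/

section Main

variable {L : Type} [Field L] [Algebra ℚ L] [IsAlgClosed L] (A : ValuationSubring L)
  {k : Type} [Field k] (π : A →+* k) [IsAlgClosed k] (p : ℕ) [Fact p.Prime] [CharP k p]
  (M l : ℕ) [NeZero M] [NeZero l] (hπ : Function.Surjective π) (hpM : ¬ p ∣ M)
  (hpMl : ¬ p ∣ M * l)

/-- the reduced Hecke operator on functions: `Nn φ = N_{alphaC} (betaC φ)`. -/
def Nn (k : Type) [Field k] (M l : ℕ) [NeZero M] [NeZero l] (φ : Fk k M) : Fk k M :=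
  letI := algebraAlong (alphaC k M l)
  Algebra.norm (Fk k M) (betaC k M l φ)

theorem Nn_eq_normAlong (φ : Fk k M) :
    Nn k M l φ = Kummer.normAlong (alphaC k M l) (betaC k M l φ) := rfl

omit [IsAlgClosed k] [Fact p.Prime] in
include hpMl in
theorem natCast_ne_zero_of_not_dvd : ((M * l : ℕ) : k) ≠ 0 := by
  intro h
  exact hpMl ((CharP.cast_eq_zero_iff k p (M * l)).mp h)

include hπ hpM hpMl in
/-- **Claim (B), `q`-expansion form.** -/
theorem normQExp_Nn (hl : l.Prime) (hlM : ¬ l ∣ M) :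
    ∃ ζ : kˣ, IsPrimitiveRoot ζ l ∧ ∀ φ : Fk k M,
      qExpand k l ((Nn k M l φ : Fk k M) : LaurentSeries k) =
        qExpand k l (qExpand k l (φ : LaurentSeries k)) *
          ∏ b ∈ Finset.range l, Kummer.twist (ζ ^ b) (φ : LaurentSeries k) := by
  have hk := natCast_ne_zero_of_not_dvd (k := k) p M l hpMl
  exact NormQK.exists_normQExp_red A π p M l hπ hpM hpMl hl hlM (natCast_ne_zero_right hk)
    (alphaC k M l).toRingHom (betaC k M l).toRingHom (coe_alphaC k M l) (coe_betaC k M l)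
    (finiteAlong_alphaC hl hlM hk) (finrankAlong_alphaC hl hlM hk).ge

include hπ hpM hpMl in
/-- **Claim (B)**: `dlog (Nn φ) = T_l (dlog φ)`. -/
theorem dlog_Nn (hl : l.Prime) (hlM : ¬ l ∣ M) {φ : Fk k M} (hφ : φ ≠ 0) :
    dlog ((Nn k M l φ : Fk k M) : LaurentSeries k) = heckeT l (dlog (φ : LaurentSeries k)) := by
  have hk := natCast_ne_zero_of_not_dvd (k := k) p M l hpMl
  exact NormQK.dlog_norm_eq_heckeT_of_isAlgClosed A π p M l hπ hpM hpMl hl hlM
    (natCast_ne_zero_right hk)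
    (alphaC k M l).toRingHom (betaC k M l).toRingHom (coe_alphaC k M l) (coe_betaC k M l)
    (finiteAlong_alphaC hl hlM hk) (finrankAlong_alphaC hl hlM hk).ge hφ

include hπ hpM hpMl in
/-- **The norm commutes with reduction**: `heckeFun x = N_α (β x)` is Gauss-integral for integral
`x` and reduces to `Nn (resFk x)`. -/
theorem heckeFun_mem_and_red_Nn (hl : l.Prime) (hlM : ¬ l ∣ M) (x : OvVal A π M p hπ hpM) :
    ∃ h : heckeFun L M l (x : FL L M) ∈ OvVal A π M p hπ hpM,
      resFk A π M p hπ hpM ⟨heckeFun L M l (x : FL L M), h⟩ =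
        Nn k M l (resFk A π M p hπ hpM x) := by
  have hk := natCast_ne_zero_of_not_dvd (k := k) p M l hpMl
  have hup : finrankAlong L (heckeAlphaBar L M l) = l + 1 :=
    Fermat.Agent.S34x.Inst.HDeg.finrankAlong_alpha L M l hl hlM
  haveI : CharZero L := charZero_of_ratAlgebra L
  exact NormQK.heckeFun_mem_and_red A π p M l hπ hpM hpMl
    (alphaC k M l).toRingHom (betaC k M l).toRingHom (coe_alphaC k M l) (coe_betaC k M l)
    (Fermat.Agent.Gateway.HK1.finiteAlong_alpha L M l)
    (finiteAlong_alphaC hl hlM hk) (hup.le.trans (finrankAlong_alphaC hl hlM hk).ge) x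

omit [IsAlgClosed L] [Fact p.Prime] in
include hpMl in
/-- **Claim (A) = (KEY')**: divisibility by `n` of the orders at the non-cuspidal places is
preserved by `Nn`. -/
theorem dvd_ord_Nn (hl : l.Prime) (hlM : ¬ l ∣ M) (n : ℕ) {g : Fk k M} (hg : g ≠ 0)
    (hdiv : ∀ P ∈ NC k M, (n : ℤ) ∣ P.ord g) : ∀ P ∈ NC k M, (n : ℤ) ∣ P.ord (Nn k M l g) := by
  have hk := natCast_ne_zero_of_not_dvd (k := k) p M l hpMl
  haveI := FkBasics.hasPrincipalDivisors_Fk k (M * l) hk
  intro P hP
  exact Fermat.Agent.S40x.Diag.Key.dvd_ord_normAlong_comp_of_pred (fun P => P ∈ NC k M)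
    (betaC k M l) (alphaC k M l) (isIntegral_betaC hl hk) (isIntegral_alphaC hl hlM hk)
    (finiteAlong_alphaC hl hlM hk) (isSeparable_alphaC hk) (FkBasics.deg_eq_one_Fk k (M * l) hk)
    (restrictAlong_betaC_mem_NC hl hlM hk) n hg hdiv P hP

include hπ hpM hpMl in
/-- **The literal `hAB` of `Diag/DiagNCore.diag_core`** at `E = Fk k M`, `dl = dlog ∘ coe`,
`H = heckeT l`, `Λ = {φ | p ∣ ord_P φ at every non-cuspidal place}`. -/
theorem hAB_Fk (hl : l.Prime) (hlM : ¬ l ∣ M) :
    ∀ φ : Fk k M, φ ≠ 0 → (∀ P ∈ NC k M, (p : ℤ) ∣ P.ord φ) →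
      ∃ φ' : Fk k M, φ' ≠ 0 ∧ (∀ P ∈ NC k M, (p : ℤ) ∣ P.ord φ') ∧
        dlog ((φ' : Fk k M) : LaurentSeries k) =
          heckeT l (dlog ((φ : Fk k M) : LaurentSeries k)) := by
  intro φ hφ hdiv
  have hk := natCast_ne_zero_of_not_dvd (k := k) p M l hpMl
  have hne : Nn k M l φ ≠ 0 := by
    letI := algebraAlong (alphaC k M l)
    haveI : Module.Finite (Fk k M) (Fk k (M * l)) := finiteAlong_alphaC hl hlM hk
    haveI : Module.Free (Fk k M) (Fk k (M * l)) := Module.Free.of_divisionRing _ _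
    show Algebra.norm (Fk k M) (betaC k M l φ) ≠ 0
    rw [Ne, Algebra.norm_eq_zero_iff]
    exact (map_ne_zero (betaC k M l)).mpr hφ
  exact ⟨Nn k M l φ, hne, dvd_ord_Nn (k := k) p M l hpMl hl hlM p hφ hdiv,
    dlog_Nn A π p M l hπ hpM hpMl hl hlM hφ⟩

end Main

end Fermat.Agent.S40x.Diag.DegCInst
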