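/-
P-S44 / block C2, DIAG (G3), route DIAG-N: helper71's `Diag/Asm.diag_Mq` with the Hecke stability
`hAB` DISCHARGED (helper38).

`diag_Mq_NC` = `Asm.diag_Mq` at `NC := CuspFun.NC k M = {P | 0 ≤ ord_P j̄}` with

* `hAB` := helper1's `Diag/HABDeg.hAB_deg` (= `Diag/HABInst` claim (B) + `Diag/Key` claim (A) +
  `Diag/DegMaps` + `Diag/CuspFun`), at the lifting data `(L, A, π)` of the ambient `ResidueFacts`;
* the separating element `t := x₄` (`AuxLevel.L4.tFk`, `4 ∣ M`);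
* (C1) at the level `M q` over the algebraically closed `L`: `ESC.normQExpFormula_of_finrank` +
  `S34x/Inst/HDeg.finrankAlong_alpha`; `ℓ ≠ 0` in `k` from `ℓ ∤ M q`.

Remaining hypotheses of DIAG at the level `M q`: the node set `Nd ⊆ NC` (non-empty), the reference
unit `φE` (leaves D-REFQ `hEis`, D-REFORD `hEN hES he₀`), the class `x` with its eigen-relation and
the shape of its slope vector (`hnode`, `hoff`: output of C3), and `hNE`.
-/
import Fermat.Agent.S40x.Diag.HABDeg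
import Fermat.Agent.S40x.Diag.Asm

set_option autoImplicit false
set_option linter.style.haveILetI false
set_option linter.unusedSectionVars false

noncomputable section

namespace Fermat.Agent.S40x.Diag.DiagMqNC

open ModularCurve AlgebraicCurve IntermediateField IsLocalRing
open Fermat.Agent.Gateway Fermat.Agent.Gateway.GoodRed Fermat.Agent.Gateway.GoodRed.ConjFamily
open Fermat.Agent.Gateway.Hecke Fermat.Agent.Gateway.ESC Fermat.Agent.Gateway.Kummer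
open Fermat.Agent.S34x.TwoVal Fermat.Agent.S34x.C0two
open Fermat.Agent.S34x.Inst.RedSetupInst Fermat.Agent.S34x.Inst
open Fermat.Agent.S40x.Slope.UnitTwo Fermat.Agent.S40x.Slope.SlopeInv
open Fermat.Agent.S40x.Slope.InstMq
open Fermat.Agent.S40x.C2.DlogHecke

variable {L : Type} [Field L] [Algebra ℚ L] [IsAlgClosed L] [Algebra.IsAlgebraic ℚ L]
  {A : ValuationSubring L}
  {k : Type} [Field k] {π : A →+* k} [IsAlgClosed k]
variable {M q : ℕ} [NeZero M] [NeZero q] [Fact q.Prime] [CharP k q]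
variable {hdeg : finrankAlong L (heckeAlphaBar L M q) = q + 1} {hq : q.Prime} {hqM : ¬ q ∣ M}
variable {hrk : ∀ x ∈ maximalIdeal A, ∀ c : A, c ≠ 0 → ∃ j : ℕ, c ∣ x ^ j}
  {hπ : Function.Surjective π}
variable (H : ResidueFacts A π M q hdeg hq hqM hrk hπ) (hA : A.LiesOverPrime q)

/-- **DIAG (G3) at the level `M q`, `hAB` discharged.**  `NC = CuspFun.NC k M` the non-cuspidal
places of `κ_∞ = Fk k M` (`4 ∣ M`), `Nd ⊆ NC` the node places (non-empty), `ℓ` a prime not dividing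
`M q`.  If the slopes of the `q`-torsion class `x` on `C_∞` are `c` on `Nd` and `0` on `NC \ Nd`,
and `T_ℓ x = a • x` with `a ≢ ℓ + 1 mod q`, then `c = 0`.  Remaining hypotheses: the reference unit
`φE` (leaves D-REFQ, D-REFORD). -/
theorem diag_Mq_NC (h4 : 4 ∣ M) {ℓ : ℕ} [NeZero ℓ] (hℓ : ℓ.Prime) (hℓMq : ¬ ℓ ∣ M * q)
    (Nd : Set (Place k (Fk k M))) (hNd : Nd ⊆ CuspFun.NC k M) (hne : Nd.Nonempty)
    {φE : Fk k M} (hφE : φE ≠ 0) (e₀ : ℤ) (he₀ : ¬ (q : ℤ) ∣ e₀)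
    (hEN : ∀ P ∈ Nd, (q : ℤ) ∣ P.ord φE - e₀)
    (hES : ∀ P ∈ CuspFun.NC k M, P ∉ Nd → (q : ℤ) ∣ P.ord φE)
    (hEis : heckeT ℓ (dlog (φE : LaurentSeries k)) =
      ((ℓ + 1 : ℕ) : LaurentSeries k) * dlog (φE : LaurentSeries k))
    {x : Pic0 L (FL L (M * q))} (hx : (q : ℤ) • x = 0) {a : ℕ}
    (hxa : heckeOperatorAlong L (M * q) ℓ x = a • x)
    (hNE : ((a : ℕ) : ZMod q) ≠ (ℓ : ZMod q) + 1)
    (c : ZMod q) (hnode : ∀ P ∈ Nd, slopeInf H hA q x P = c)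
    (hoff : ∀ P ∈ CuspFun.NC k M, P ∉ Nd → slopeInf H hA q x P = 0) :
    c = 0 := by
  haveI : CharZero L := charZero_of_injective_algebraMap (algebraMap ℚ L).injective
  have hℓM : ¬ ℓ ∣ M := fun h => hℓMq (h.mul_right q)
  have hℓq : ¬ q ∣ M * ℓ := by
    intro h
    rcases (Nat.Prime.dvd_mul (Fact.out : q.Prime)).mp h with h1 | h1
    · exact hqM h1
    · exact hℓMq (((Nat.prime_dvd_prime_iff_eq (Fact.out : q.Prime) hℓ).mp h1) ▸
        dvd_mul_left q M)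
  have hℓk : (ℓ : k) ≠ 0 := HABInst.natCast_ne_zero_of_not_dvd_mul (k := k) q M ℓ hℓq hℓ
  have hMk : ((M : ℕ) : k) ≠ 0 := HABInst.natCast_level_ne_zero (k := k) q M hqM
  obtain ⟨ζ, hζ⟩ := Fermat.Agent.Gateway.ESC.exists_prim_unit L ℓ (NeZero.ne ℓ)
  exact Asm.diag_Mq H hA (Fermat.Agent.Gateway.AuxLevel.L4.tFk h4 hMk)
    (Fermat.Agent.Gateway.AuxLevel.L4.coe_tFk h4 hMk) hℓ hℓk
    ⟨ζ, hζ, Fermat.Agent.Gateway.ESC.normQExpFormula_of_finrank L (M * q) ℓ hℓ hℓMq ζ hζ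
      (Fermat.Agent.S34x.Inst.HDeg.finrankAlong_alpha L (M * q) ℓ hℓ hℓMq)⟩
    (CuspFun.NC k M) Nd hNd hne hφE e₀ he₀ hEN hES hEis
    (HABDeg.hAB_deg A π q M ℓ hπ hqM hℓq hℓ hℓM) hx hxa hNE c hnode hoff

end Fermat.Agent.S40x.Diag.DiagMqNC
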