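import Mathlib
import Fermat.Agent.S40x.Diag.ExtSep

/-!
# P-S44, DIAG (G3), route DIAG-N: Claim (A), the lattice `Λ` is Hecke stable

`F' / F` a finite separable extension of function fields over `K` along `ψ` (all places of `F'` of
degree one, e.g. `K` algebraically closed), `φ : F → F'` a second `K`-embedding (`ψ = ᾱ`,
`φ = β̄`).  `NC` is a set of places of `F` (the non-cuspidal places) such that for every place `W`
of `F'` over a place of `NC` (along `ψ`) the place `φ(W)` of `F` is again in `NC`
(cusps are functorial: `j(q^ℓ)` is integral over `k[j]`).  Then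

`(∀ P ∈ NC, p ∣ ord_P u)  →  ∀ v ∈ NC, p ∣ ord_v (N_ψ (φ u))`

(`dvd_ord_normAlong_comp`), by the Hecke formula for orders `ExtSep.ord_normAlong_comp_eq_sum`.
No ramification information is used.
-/

set_option autoImplicit false
set_option linter.unusedSectionVars false
set_option linter.style.haveILetI false

noncomputable section

open AlgebraicCurve

namespace Fermat.Agent.S40x.Diag.DiagNStable

open Fermat.Agent.S40x.Diag.ExtSep

variable {K F F' : Type*} [Field K] [Field F] [Field F'] [Algebra K F] [Algebra K F']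
  [HasPrincipalDivisors K F']

/-- **Claim (A) of DIAG-N.** -/
theorem dvd_ord_normAlong_comp (p : ℕ) (φ ψ : F →ₐ[K] F') (hφ : φ.toRingHom.IsIntegral)
    (hψ : ψ.toRingHom.IsIntegral) (hfin : FiniteAlong K ψ)
    (hsep : letI := algebraAlong ψ; Algebra.IsSeparable F F')
    (hdeg : ∀ w : Place K F', w.deg = 1) (NC : Set (Place K F))
    (hNC : ∀ v ∈ NC, ∀ W ∈ Place.fiberAlong ψ hψ v, W.restrictAlong φ hφ ∈ NC)
    {u : F} (hu : u ≠ 0) (hdiv : ∀ P ∈ NC, (p : ℤ) ∣ P.ord u) :
    ∀ v ∈ NC, (p : ℤ) ∣ v.ord (letI := algebraAlong ψ; Algebra.norm F (φ u)) := by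
  intro v hv
  rw [ord_normAlong_comp_eq_sum φ ψ hφ hψ hfin hsep hdeg v hu]
  exact Finset.dvd_sum fun W hW => dvd_mul_of_dvd_right (hdiv _ (hNC v hv W hW)) _

end Fermat.Agent.S40x.Diag.DiagNStable

end
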