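import Fermat.Agent.S40x.C2.DlogHecke
import Fermat.Agent.S16.SD.QSeries

/-!
# P-S44 / DIAG leaf (E5): the Eisenstein series `E₂` is an eigenvector of the formal weight 2
Hecke operator `heckeT ℓ` with eigenvalue `ℓ + 1`

Pure q-series.  For every commutative ring `R`, every prime `ℓ` and every power series `G` over
`R` whose `n`-th coefficient is `κ * σ₁(n)` for `n ≥ 1` (any constant term), the Laurent series
of `G` satisfies `heckeT ℓ G = (ℓ + 1) * G` (`heckeT` = `S40x/C2/DlogHecke.heckeT`,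
`a_n ↦ a_{ℓ n} + ℓ a_{n/ℓ}`).  Instances: `E2Z` over `ℤ` and `Pq R` (its image over `R`), the
logarithmic derivative of `Δ`.
-/

set_option autoImplicit false

namespace Fermat.Agent.S40x.Diag.E2Hecke

open ArithmeticFunction
open scoped ArithmeticFunction.sigma

/-! ### The arithmetic of `σ₁` -/

/-- `σ₁(ℓ^(a+1)) = ℓ σ₁(ℓ^a) + 1`. -/
theorem sigma_one_prime_pow_succ {l : ℕ} (hl : l.Prime) (a : ℕ) :
    σ 1 (l ^ (a + 1)) = l * σ 1 (l ^ a) + 1 := by
  rw [sigma_one_apply_prime_pow hl, sigma_one_apply_prime_pow hl, Finset.sum_range_succ',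
    Finset.mul_sum]
  simp [pow_succ, mul_comm]

/-- the weight 2 Hecke relation for `σ₁` on prime powers. -/
theorem sigma_one_prime_pow_hecke {l : ℕ} (hl : l.Prime) (a : ℕ) :
    σ 1 (l ^ (a + 2)) + l * σ 1 (l ^ a) = (l + 1) * σ 1 (l ^ (a + 1)) := by
  rw [sigma_one_prime_pow_succ hl (a + 1), sigma_one_prime_pow_succ hl a]
  ring

/-- `σ₁(ℓ n) = (ℓ + 1) σ₁(n)` for `ℓ ∤ n`. -/
theorem sigma_one_mul_of_not_dvd {l : ℕ} (hl : l.Prime) {n : ℕ} (hn : ¬ l ∣ n) :
    σ 1 (l * n) = (l + 1) * σ 1 n := by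
  have hcop : Nat.Coprime l n := (Nat.Prime.coprime_iff_not_dvd hl).2 hn
  rw [isMultiplicative_sigma.map_mul_of_coprime hcop]
  have : σ 1 l = l + 1 := by
    have := sigma_one_apply_prime_pow (i := 1) hl
    simpa [Finset.sum_range_succ, add_comm] using this
  rw [this]

/-- the weight 2 Hecke relation for `σ₁`: `σ₁(ℓ² m) + ℓ σ₁(m) = (ℓ + 1) σ₁(ℓ m)`, `m ≠ 0`. -/
theorem sigma_one_hecke {l : ℕ} (hl : l.Prime) {m : ℕ} (hm : m ≠ 0) :
    σ 1 (l * (l * m)) + l * σ 1 m = (l + 1) * σ 1 (l * m) := by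
  obtain ⟨a, m', hm', rfl⟩ := Nat.exists_eq_pow_mul_and_not_dvd hm l hl.ne_one
  have hcop : ∀ b : ℕ, Nat.Coprime (l ^ b) m' := fun b =>
    Nat.Coprime.pow_left b ((Nat.Prime.coprime_iff_not_dvd hl).2 hm')
  have e1 : l * (l * (l ^ a * m')) = l ^ (a + 2) * m' := by ring
  have e2 : l * (l ^ a * m') = l ^ (a + 1) * m' := by ring
  rw [e1, e2, isMultiplicative_sigma.map_mul_of_coprime (hcop _),
    isMultiplicative_sigma.map_mul_of_coprime (hcop _),
    isMultiplicative_sigma.map_mul_of_coprime (hcop _)]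
  have := sigma_one_prime_pow_hecke hl a
  calc σ 1 (l ^ (a + 2)) * σ 1 m' + l * (σ 1 (l ^ a) * σ 1 m')
      = (σ 1 (l ^ (a + 2)) + l * σ 1 (l ^ a)) * σ 1 m' := by ring
    _ = (l + 1) * σ 1 (l ^ (a + 1)) * σ 1 m' := by rw [this]
    _ = (l + 1) * (σ 1 (l ^ (a + 1)) * σ 1 m') := by ring

/-! ### The Hecke eigen-property of `σ₁`-series -/

section Series

open Fermat.Agent.S40x.C2.DlogHecke

variable {R : Type*} [CommRing R]

/-- coefficients of the Laurent series of a power series, integer index -/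
theorem ofPowerSeries_coeff_neg (G : PowerSeries R) {n : ℤ} (hn : n < 0) :
    (HahnSeries.ofPowerSeries ℤ R G).coeff n = 0 := by
  have h := PowerSeries.coeff_coe (R := R) G n
  rw [if_pos hn] at h
  exact h

theorem ofPowerSeries_coeff_natCast (G : PowerSeries R) (n : ℕ) :
    (HahnSeries.ofPowerSeries ℤ R G).coeff (n : ℤ) = PowerSeries.coeff n G :=
  HahnSeries.ofPowerSeries_apply_coeff G n

/-- **(E5), general form.** A power series whose coefficients of positive index are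
`κ * σ₁(n)` is an eigenvector of `heckeT ℓ` with eigenvalue `ℓ + 1`, for every prime `ℓ`. -/
theorem heckeT_sigma_series {l : ℕ} [NeZero l] (hl : l.Prime) (κ : R) (G : PowerSeries R)
    (hG : ∀ n : ℕ, n ≠ 0 → PowerSeries.coeff n G = κ * ((σ 1 n : ℕ) : R)) :
    heckeT l (HahnSeries.ofPowerSeries ℤ R G) =
      ((l + 1 : ℕ) : LaurentSeries R) * HahnSeries.ofPowerSeries ℤ R G := by
  have hl0 : (0 : ℤ) < (l : ℤ) := by exact_mod_cast hl.pos
  ext n
  rw [natCast_mul_coeff]
  by_cases hdvd : (l : ℤ) ∣ n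
  · obtain ⟨m, rfl⟩ := hdvd
    rw [heckeT_coeff_mul]
    rcases lt_trichotomy m 0 with hm | hm | hm
    · have h1 : (l : ℤ) * m < 0 := mul_neg_of_pos_of_neg hl0 hm
      have h2 : (l : ℤ) * ((l : ℤ) * m) < 0 := mul_neg_of_pos_of_neg hl0 h1
      rw [ofPowerSeries_coeff_neg G h2, ofPowerSeries_coeff_neg G hm,
        ofPowerSeries_coeff_neg G h1]
      ring
    · subst hm
      simp only [mul_zero]
      push_cast
      ring
    · obtain ⟨k, rfl⟩ := Int.eq_ofNat_of_zero_le hm.le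
      have hk : k ≠ 0 := by
        rintro rfl
        simp at hm
      have e1 : (l : ℤ) * ((l : ℤ) * (k : ℤ)) = ((l * (l * k) : ℕ) : ℤ) := by push_cast; ring
      have e2 : (l : ℤ) * (k : ℤ) = ((l * k : ℕ) : ℤ) := by push_cast; ring
      rw [e1, e2, ofPowerSeries_coeff_natCast, ofPowerSeries_coeff_natCast,
        ofPowerSeries_coeff_natCast, hG _ hk, hG _ (Nat.mul_ne_zero hl.ne_zero hk),
        hG _ (Nat.mul_ne_zero hl.ne_zero (Nat.mul_ne_zero hl.ne_zero hk))]
      have h := congrArg (fun x : ℕ => (x : R)) (sigma_one_hecke hl hk)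
      simp only [Nat.cast_add, Nat.cast_mul, Nat.cast_one] at h
      push_cast
      linear_combination κ * h
  · rw [heckeT_coeff_of_not_dvd l _ hdvd]
    rcases lt_or_ge n 0 with hn | hn
    · have h1 : (l : ℤ) * n < 0 := mul_neg_of_pos_of_neg hl0 hn
      rw [ofPowerSeries_coeff_neg G h1, ofPowerSeries_coeff_neg G hn, mul_zero]
    · obtain ⟨k, rfl⟩ := Int.eq_ofNat_of_zero_le hn
      have hk' : ¬ l ∣ k := fun h => hdvd (Int.natCast_dvd_natCast.2 h)
      have hk : k ≠ 0 := by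
        rintro rfl
        exact hk' (dvd_zero l)
      have e2 : (l : ℤ) * (k : ℤ) = ((l * k : ℕ) : ℤ) := by push_cast; ring
      rw [e2, ofPowerSeries_coeff_natCast, ofPowerSeries_coeff_natCast, hG _ hk,
        hG _ (Nat.mul_ne_zero hl.ne_zero hk), sigma_one_mul_of_not_dvd hl hk']
      push_cast
      ring

open Fermat.Agent.S16.SD Fermat.Agent.S23.IntSeries in
/-- coefficients of `Pq R` (the image of `E2Z = 1 - 24 ∑ σ₁(n) qⁿ` over `R`) -/
theorem coeff_Pq (n : ℕ) (hn : n ≠ 0) :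
    PowerSeries.coeff n (Pq R) = (-24 : R) * ((σ 1 n : ℕ) : R) := by
  have h24 : (24 : PowerSeries ℤ) = PowerSeries.C (24 : ℤ) := by simp
  rw [Pq, PowerSeries.coeff_map, E2Z, map_sub, h24, PowerSeries.coeff_C_mul, coeff_sigmaSeries,
    PowerSeries.coeff_one, if_neg hn]
  simp

open Fermat.Agent.S16.SD in
/-- **(E5).** `E₂` (with coefficients in any commutative ring) is an eigenvector of the formal
weight 2 Hecke operator `T_ℓ` with eigenvalue `ℓ + 1`. -/
theorem heckeT_Pq {l : ℕ} [NeZero l] (hl : l.Prime) :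
    heckeT l (HahnSeries.ofPowerSeries ℤ R (Pq R)) =
      ((l + 1 : ℕ) : LaurentSeries R) * HahnSeries.ofPowerSeries ℤ R (Pq R) :=
  heckeT_sigma_series hl (-24 : R) (Pq R) (fun n hn => coeff_Pq n hn)

end Series

end Fermat.Agent.S40x.Diag.E2Hecke
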