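import Fermat.Agent.S40x.Diag.HABInst
import Fermat.Agent.S40x.Diag.DegMaps
import Fermat.Agent.S40x.Diag.CuspFun

/-!
# P-S44, block C2 / DIAG: the Hecke stability `hAB` at a good level, hypothesis-free (helper1)

Compiler-checked seam.  The landed `Diag/HABInst` (helper38) produces the hypothesis `hAB` of
`Diag/Asm.diag_Mq` / `Diag/DiagNCore.diag_core` from characteristic `p` inputs on the degeneracy
maps `aK bK : Fk k M →ₐ[k] Fk k (M l)`.  Here these inputs are discharged by the landed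

* `Diag/DegMaps` (D-DEG): `aK := αK` (inclusion), `bK := βK` (`q ↦ q^l`), `keyInputs`,
  `finrankAlong_alphaK`;
* `Diag/CuspFun` (helper77): `restrictAlong_mem_NC_iff` ("cusps are functorial") for
  `NC := CuspFun.NC k M = {P | 0 ≤ P.ord j̄}`;
* `Diag/Key` (helper94): (KEY').

Results:
* `hkey_deg` : `p ∣ ord` on `NC` is preserved by `g ↦ Norm_{αK} (βK g)`;
* `hAB_deg` : the literal `hAB` of `Asm.diag_Mq` (`dlog`/`heckeT` form) with `NC := CuspFun.NC k M`;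
* `hAB_dqInst_deg` : the literal `hAB` of `DiagNCore.diag_core` in the `C2/DqInst` vocabulary;
* `diag_core_deg` : `HABInst.diag_core_Fk` with the maps plugged in.
Remaining hypotheses: the reduction data `(A, π, hπ)`, `p ∤ M`, `p ∤ M l`, `l` prime, `l ∤ M`.
Nothing new is proved here.
-/

set_option autoImplicit false
set_option linter.style.haveILetI false
set_option linter.unusedSectionVars false

noncomputable section

namespace Fermat.Agent.S40x.Diag.HABDeg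

open ModularCurve AlgebraicCurve
open Fermat.Agent.Gateway Fermat.Agent.Gateway.GoodRed Fermat.Agent.Gateway.GoodRed.ConjFamily
open Fermat.Agent.S40x.C2.DlogHecke Fermat.Agent.S40x.Diag.DegMaps

variable {L : Type} [Field L] [Algebra ℚ L] [IsAlgClosed L] (A : ValuationSubring L)
  {k : Type} [Field k] (π : A →+* k) [IsAlgClosed k]
  (p : ℕ) [Fact p.Prime] [CharP k p]
  (M l : ℕ) [NeZero M] [NeZero l]
  (hπ : Function.Surjective π) (hpM : ¬ p ∣ M) (hpMl : ¬ p ∣ M * l)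

include hpMl in
/-- `M l ≠ 0` in `k`. -/
theorem natCast_mul_ne_zero : ((M * l : ℕ) : k) ≠ 0 := fun h0 =>
  hpMl ((CharP.cast_eq_zero_iff k p (M * l)).mp h0)

include hpMl in
/-- **(KEY') at a good level**: `p ∣ ord` at the non-cuspidal places is preserved by
`g ↦ Norm_{αK} (βK g)`. -/
theorem hkey_deg (hl : l.Prime) (hlM : ¬ l ∣ M) :
    ∀ g : Fk k M, g ≠ 0 → (∀ P ∈ CuspFun.NC k M, (p : ℤ) ∣ P.ord g) →
      ∀ P ∈ CuspFun.NC k M, (p : ℤ) ∣ P.ord (Kummer.normAlong (alphaK k M l) (betaK k M l g)) := by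
  have hk : ((M * l : ℕ) : k) ≠ 0 := natCast_mul_ne_zero (k := k) p M l hpMl
  haveI := hasPrincipalDivisors_Fk_mul k M l hk
  obtain ⟨hφ, hψ, hfin, hsep, hdeg, -⟩ := keyInputs k M l hl hlM hk
  intro g hg hup P hP
  exact Key.dvd_ord_normAlong_comp_of_pred (fun P => P ∈ CuspFun.NC k M) (betaK k M l)
    (alphaK k M l) hφ hψ hfin hsep hdeg
    (fun W => (CuspFun.restrictAlong_mem_NC_iff hl hk (alphaK k M l) (betaK k M l)
      (coe_alphaK k M l) (coe_betaK k M l) hψ hφ W).mp) p hg hup P hP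

include hπ hpM hpMl in
/-- **`hAB` of `Asm.diag_Mq` at a good level**, no hypotheses on the degeneracy maps left. -/
theorem hAB_deg (hl : l.Prime) (hlM : ¬ l ∣ M) :
    ∀ φ : Fk k M, φ ≠ 0 → (∀ P ∈ CuspFun.NC k M, (p : ℤ) ∣ P.ord φ) →
      ∃ φ' : Fk k M, φ' ≠ 0 ∧ (∀ P ∈ CuspFun.NC k M, (p : ℤ) ∣ P.ord φ') ∧
        dlog ((φ' : Fk k M) : LaurentSeries k) =
          heckeT l (dlog ((φ : Fk k M) : LaurentSeries k)) := by
  have hk : ((M * l : ℕ) : k) ≠ 0 := natCast_mul_ne_zero (k := k) p M l hpMl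
  exact HABInst.hAB_of_hkey_of_isAlgClosed A π p M l hπ hpM hpMl hl hlM (alphaK k M l)
    (betaK k M l) (coe_alphaK k M l) (coe_betaK k M l) (finiteAlong_alphaK k M l hl hlM hk)
    (finrankAlong_alphaK k M l hl hlM hk).ge (CuspFun.NC k M) (hkey_deg p M l hpMl hl hlM)

include hπ hpM hpMl in
/-- **`hAB` of `DiagNCore.diag_core`** (vocabulary of `C2/DqInst`) at a good level. -/
theorem hAB_dqInst_deg (hl : l.Prime) (hlM : ¬ l ∣ M) :
    ∀ φ : Fk k M, φ ≠ 0 → (∀ P ∈ CuspFun.NC k M, (p : ℤ) ∣ P.ord φ) →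
      ∃ φ' : Fk k M, φ' ≠ 0 ∧ (∀ P ∈ CuspFun.NC k M, (p : ℤ) ∣ P.ord φ') ∧
        Fermat.Agent.S40x.C2.DqInst.dl k M φ' =
          (Fermat.Agent.S40x.C2.DqInst.heckeTLin k l).toAddMonoidHom
            (Fermat.Agent.S40x.C2.DqInst.dl k M φ) := by
  have hk : ((M * l : ℕ) : k) ≠ 0 := natCast_mul_ne_zero (k := k) p M l hpMl
  haveI := hasPrincipalDivisors_Fk_mul k M l hk
  obtain ⟨hφ, hψ, hfin, hsep, hdeg, -⟩ := keyInputs k M l hl hlM hk
  exact HABInst.hAB_dqInst A π p M l hπ hpM hpMl hl hlM (alphaK k M l) (betaK k M l)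
    (coe_alphaK k M l) (coe_betaK k M l) hfin (finrankAlong_alphaK k M l hl hlM hk).ge
    hφ hψ hsep hdeg (CuspFun.NC k M)
    (fun W => (CuspFun.restrictAlong_mem_NC_iff hl hk (alphaK k M l) (betaK k M l)
      (coe_alphaK k M l) (coe_betaK k M l) hψ hφ W).mp)

include hπ hpM hpMl in
/-- **`DiagNCore.diag_core` at `E = Fk k M`** (`4 ∣ M`) with the degeneracy maps plugged in and
`NC := {P | 0 ≤ P.ord j̄}`.  Inputs left: the reduced Kummer function `fb` with its orders on the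
node places `Nd` (C3) and its Hecke eigen-relation (KH), the reference unit `φE` (D-REF), `hNE`. -/
theorem diag_core_deg (h4 : 4 ∣ M) (hl : l.Prime) (hlM : ¬ l ∣ M)
    (Nd : Set (Place k (Fk k M))) (hNd : Nd ⊆ CuspFun.NC k M) (hne : Nd.Nonempty)
    {fb φE : Fk k M} (hfb : fb ≠ 0) (hφE : φE ≠ 0) (c e₀ a : ℤ)
    (hfbN : ∀ P ∈ Nd, (p : ℤ) ∣ P.ord fb - c)
    (hfbS : ∀ P ∈ CuspFun.NC k M, P ∉ Nd → (p : ℤ) ∣ P.ord fb)
    (hEN : ∀ P ∈ Nd, (p : ℤ) ∣ P.ord φE - e₀)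
    (hES : ∀ P ∈ CuspFun.NC k M, P ∉ Nd → (p : ℤ) ∣ P.ord φE)
    (he₀ : ¬ (p : ℤ) ∣ e₀)
    (hKH : heckeT l (dlog (fb : LaurentSeries k)) = a • dlog (fb : LaurentSeries k))
    (hEis : heckeT l (dlog (φE : LaurentSeries k)) =
      ((l : ℤ) + 1) • dlog (φE : LaurentSeries k))
    (hNE : ¬ (p : ℤ) ∣ a - ((l : ℤ) + 1)) :
    (p : ℤ) ∣ c := by
  have hk : ((M * l : ℕ) : k) ≠ 0 := natCast_mul_ne_zero (k := k) p M l hpMl
  obtain ⟨hφ, hψ, hfin, hsep, -, -⟩ := keyInputs k M l hl hlM hk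
  exact HABInst.diag_core_Fk A π p M l hπ hpM hpMl h4 hl hlM (alphaK k M l) (betaK k M l)
    (coe_alphaK k M l) (coe_betaK k M l) hfin (finrankAlong_alphaK k M l hl hlM hk).ge
    hφ hψ hsep (CuspFun.NC k M) Nd
    (fun W => (CuspFun.restrictAlong_mem_NC_iff hl hk (alphaK k M l) (betaK k M l)
      (coe_alphaK k M l) (coe_betaK k M l) hψ hφ W).mp)
    hNd hne hfb hφE c e₀ a hfbN hfbS hEN hES he₀ hKH hEis hNE

end Fermat.Agent.S40x.Diag.HABDeg
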