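/-
P-S44, block C2/DIAG, leaf D-DEG (instance half; helper77): the degeneracy maps `α, β` at a prime
`l` between the Gauss valuation rings of levels `N` and `N l`, as instances of helper71's
`TraceRed.Setup`, and the resulting "norm commutes with reduction" statements
`red (Norm_β y) = Norm_{β̄} (red y)`, `red (Norm_α y) = Norm_{ᾱ} (red y)` (helper43's `NormRedVal`).

The characteristic-`p` degeneracy maps `ᾱ, β̄ : Fk k N → Fk k (N l)` are INPUTS, given by their
`q`-series (`ᾱ u = u`, `β̄ u = u(q^l)`), so that any definition of them plugs in.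
-/
import Fermat.Agent.S34x.TwoVal.Gauss0
import Fermat.Agent.S40x.Diag.NormRedVal

set_option autoImplicit false
set_option linter.unusedSectionVars false
set_option linter.style.haveILetI false

noncomputable section

namespace Fermat.Agent.S40x.Diag.RedDegInst

open ModularCurve AlgebraicCurve IntermediateField
open Fermat.Agent.Gateway Fermat.Agent.Gateway.Hecke Fermat.Agent.Gateway.ESC
open Fermat.Agent.Gateway.Red Fermat.Agent.Gateway.GoodRed
open Fermat.Agent.S34x.TwoVal Fermat.Agent.S40x.C2.TraceRed

variable {L : Type} [Field L] [Algebra ℚ L] (A : ValuationSubring L)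
  {k : Type} [Field k] (π : A →+* k) [IsAlgClosed k]
  (p : ℕ) [Fact p.Prime] [CharP k p] (N l : ℕ) [NeZero N] [NeZero l]
  (hπ : Function.Surjective π) (hpN : ¬ p ∣ N) (hpNl : ¬ p ∣ N * l)

/-! ### membership -/

/-- `α x ∈ O_{N l} ↔ x ∈ O_N`. -/
theorem alpha_mem_OvVal_iff (x : FBar L N) :
    heckeAlphaBar L N l x ∈ OvVal A π (N * l) p hπ hpNl ↔ x ∈ OvVal A π N p hπ hpN := by
  rw [mem_OvVal_iff, mem_OvVal_iff]
  exact alpha_mem_Ov_iff A π N l x

/-- `β x ∈ O_{N l} ↔ x ∈ O_N`. -/
theorem beta_mem_OvVal_iff (x : FBar L N) :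
    heckeBetaBar L N l x ∈ OvVal A π (N * l) p hπ hpNl ↔ x ∈ OvVal A π N p hπ hpN := by
  rw [mem_OvVal_iff, mem_OvVal_iff]
  refine ⟨fun hm => ?_, beta_mem_Ov A π N l x⟩
  rw [mem_Ov_iff, coe_heckeBetaBar] at hm
  exact mem_Ov_of_qExpand_mem A π p N hπ hpN l x hm

/-! ### compatibility of the residue maps -/

/-- `red (α x) = red x` as `q`-series. -/
theorem coe_resFk_alpha (x : OvVal A π N p hπ hpN) :
    ((resFk A π (N * l) p hπ hpNl
        ⟨heckeAlphaBar L N l (x : FBar L N),
          (alpha_mem_OvVal_iff A π p N l hπ hpN hpNl _).mpr x.2⟩ :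
        modularFunctionFieldFullC k (N * l)) : LaurentSeries k) =
      ((resFk A π N p hπ hpN x : modularFunctionFieldFullC k N) : LaurentSeries k) := by
  rw [coe_resFk, coe_resFk]
  exact redV_alpha A π N l (x : FBar L N) x.2

/-- `red (β x) = (red x)(q^l)` as `q`-series. -/
theorem coe_resFk_beta (x : OvVal A π N p hπ hpN) :
    ((resFk A π (N * l) p hπ hpNl
        ⟨heckeBetaBar L N l (x : FBar L N),
          (beta_mem_OvVal_iff A π p N l hπ hpN hpNl _).mpr x.2⟩ :
        modularFunctionFieldFullC k (N * l)) : LaurentSeries k) =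
      qExpand k l
        ((resFk A π N p hπ hpN x : modularFunctionFieldFullC k N) : LaurentSeries k) := by
  rw [coe_resFk, coe_resFk]
  exact redV_beta A π N l (x : FBar L N) x.2

/-! ### the two `Setup`s -/

/-- **The `Setup` for `α`.** -/
theorem setup_alpha
    (aK : modularFunctionFieldFullC k N →+* modularFunctionFieldFullC k (N * l))
    (haK : ∀ u, ((aK u : modularFunctionFieldFullC k (N * l)) : LaurentSeries k) =
      (u : LaurentSeries k)) :
    letI := algebraAlong (heckeAlphaBar L N l)
    letI := aK.toAlgebra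
    Setup (OvVal A π N p hπ hpN) (OvVal A π (N * l) p hπ hpNl)
      (resFk A π N p hπ hpN) (resFk A π (N * l) p hπ hpNl) := by
  letI := algebraAlong (heckeAlphaBar L N l)
  letI := aK.toAlgebra
  refine ⟨fun x => alpha_mem_OvVal_iff A π p N l hπ hpN hpNl x,
    resFk_surjective A π N p hπ hpN, resFk_surjective A π (N * l) p hπ hpNl,
    resFk_eq_zero_iff A π N p hπ hpN, resFk_eq_zero_iff A π (N * l) p hπ hpNl, ?_⟩
  intro x hx
  apply Subtype.ext
  have h1 := coe_resFk_alpha A π p N l hπ hpN hpNl x
  rw [show algebraMap (modularFunctionFieldFullC k N) (modularFunctionFieldFullC k (N * l))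
    (resFk A π N p hπ hpN x) = aK (resFk A π N p hπ hpN x) from rfl, haK]
  exact h1

/-- **The `Setup` for `β`.** -/
theorem setup_beta
    (bK : modularFunctionFieldFullC k N →+* modularFunctionFieldFullC k (N * l))
    (hbK : ∀ u, ((bK u : modularFunctionFieldFullC k (N * l)) : LaurentSeries k) =
      qExpand k l (u : LaurentSeries k)) :
    letI := algebraAlong (heckeBetaBar L N l)
    letI := bK.toAlgebra
    Setup (OvVal A π N p hπ hpN) (OvVal A π (N * l) p hπ hpNl)
      (resFk A π N p hπ hpN) (resFk A π (N * l) p hπ hpNl) := by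
  letI := algebraAlong (heckeBetaBar L N l)
  letI := bK.toAlgebra
  refine ⟨fun x => beta_mem_OvVal_iff A π p N l hπ hpN hpNl x,
    resFk_surjective A π N p hπ hpN, resFk_surjective A π (N * l) p hπ hpNl,
    resFk_eq_zero_iff A π N p hπ hpN, resFk_eq_zero_iff A π (N * l) p hπ hpNl, ?_⟩
  intro x hx
  apply Subtype.ext
  have h1 := coe_resFk_beta A π p N l hπ hpN hpNl x
  rw [show algebraMap (modularFunctionFieldFullC k N) (modularFunctionFieldFullC k (N * l))
    (resFk A π N p hπ hpN x) = bK (resFk A π N p hπ hpN x) from rfl, hbK]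
  exact h1

/-! ### the norm commutes with reduction -/

open Fermat.Agent.S40x.Diag.NormRedVal in
/-- **`red (Norm_β y) = Norm_{β̄} (red y)`** for `y` in the Gauss valuation ring of level `N l`,
as soon as `[F_{N l} : β F_N] ≤ [κ_{N l} : β̄ κ_N]`. -/
theorem red_normAlong_beta
    (bK : modularFunctionFieldFullC k N →+* modularFunctionFieldFullC k (N * l))
    (hbK : ∀ u, ((bK u : modularFunctionFieldFullC k (N * l)) : LaurentSeries k) =
      qExpand k l (u : LaurentSeries k))
    (hfin : FiniteAlong L (heckeBetaBar L N l))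
    (hfinK : letI := bK.toAlgebra
      FiniteDimensional (modularFunctionFieldFullC k N) (modularFunctionFieldFullC k (N * l)))
    (hdeg : finrankAlong L (heckeBetaBar L N l) ≤
      (letI := bK.toAlgebra
       Module.finrank (modularFunctionFieldFullC k N) (modularFunctionFieldFullC k (N * l))))
    (y : OvVal A π (N * l) p hπ hpNl) :
    ∃ h : Kummer.normAlong (heckeBetaBar L N l) (y : FBar L (N * l)) ∈ OvVal A π N p hπ hpN,
      resFk A π N p hπ hpN ⟨_, h⟩ =
        (letI := bK.toAlgebra
         Algebra.norm (modularFunctionFieldFullC k N) (resFk A π (N * l) p hπ hpNl y)) := by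
  letI := algebraAlong (heckeBetaBar L N l)
  letI := bK.toAlgebra
  haveI : FiniteDimensional (FBar L N) (FBar L (N * l)) := hfin
  haveI : FiniteDimensional (modularFunctionFieldFullC k N)
    (modularFunctionFieldFullC k (N * l)) := hfinK
  exact norm_mem_and_red (setup_beta A π p N l hπ hpN hpNl bK hbK) hdeg y

open Fermat.Agent.S40x.Diag.NormRedVal in
/-- **`red (Norm_α y) = Norm_{ᾱ} (red y)`** for `y` in the Gauss valuation ring of level `N l`,
as soon as `[F_{N l} : α F_N] ≤ [κ_{N l} : ᾱ κ_N]`. -/
theorem red_normAlong_alpha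
    (aK : modularFunctionFieldFullC k N →+* modularFunctionFieldFullC k (N * l))
    (haK : ∀ u, ((aK u : modularFunctionFieldFullC k (N * l)) : LaurentSeries k) =
      (u : LaurentSeries k))
    (hfin : FiniteAlong L (heckeAlphaBar L N l))
    (hfinK : letI := aK.toAlgebra
      FiniteDimensional (modularFunctionFieldFullC k N) (modularFunctionFieldFullC k (N * l)))
    (hdeg : finrankAlong L (heckeAlphaBar L N l) ≤
      (letI := aK.toAlgebra
       Module.finrank (modularFunctionFieldFullC k N) (modularFunctionFieldFullC k (N * l))))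
    (y : OvVal A π (N * l) p hπ hpNl) :
    ∃ h : Kummer.normAlong (heckeAlphaBar L N l) (y : FBar L (N * l)) ∈ OvVal A π N p hπ hpN,
      resFk A π N p hπ hpN ⟨_, h⟩ =
        (letI := aK.toAlgebra
         Algebra.norm (modularFunctionFieldFullC k N) (resFk A π (N * l) p hπ hpNl y)) := by
  letI := algebraAlong (heckeAlphaBar L N l)
  letI := aK.toAlgebra
  haveI : FiniteDimensional (FBar L N) (FBar L (N * l)) := hfin
  haveI : FiniteDimensional (modularFunctionFieldFullC k N)
    (modularFunctionFieldFullC k (N * l)) := hfinK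
  exact norm_mem_and_red (setup_alpha A π p N l hπ hpN hpNl aK haK) hdeg y

include hpNl in
/-- **The Hecke step on Gauss units, reduced**: for `f` in the Gauss valuation ring of level `N`,
`red_∞ (Norm_β (α f)) = Norm_{β̄} (ᾱ (red_∞ f))`. -/
theorem red_normAlong_beta_alpha
    (aK bK : modularFunctionFieldFullC k N →+* modularFunctionFieldFullC k (N * l))
    (haK : ∀ u, ((aK u : modularFunctionFieldFullC k (N * l)) : LaurentSeries k) =
      (u : LaurentSeries k))
    (hbK : ∀ u, ((bK u : modularFunctionFieldFullC k (N * l)) : LaurentSeries k) =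
      qExpand k l (u : LaurentSeries k))
    (hfin : FiniteAlong L (heckeBetaBar L N l))
    (hfinK : letI := bK.toAlgebra
      FiniteDimensional (modularFunctionFieldFullC k N) (modularFunctionFieldFullC k (N * l)))
    (hdeg : finrankAlong L (heckeBetaBar L N l) ≤
      (letI := bK.toAlgebra
       Module.finrank (modularFunctionFieldFullC k N) (modularFunctionFieldFullC k (N * l))))
    (f : OvVal A π N p hπ hpN) :
    ∃ h : Kummer.normAlong (heckeBetaBar L N l) (heckeAlphaBar L N l (f : FBar L N)) ∈
        OvVal A π N p hπ hpN,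
      resFk A π N p hπ hpN ⟨_, h⟩ =
        (letI := bK.toAlgebra
         Algebra.norm (modularFunctionFieldFullC k N) (aK (resFk A π N p hπ hpN f))) := by
  obtain ⟨h, hh⟩ := red_normAlong_beta A π p N l hπ hpN hpNl bK hbK hfin hfinK hdeg
    ⟨heckeAlphaBar L N l (f : FBar L N), (alpha_mem_OvVal_iff A π p N l hπ hpN hpNl _).mpr f.2⟩
  refine ⟨h, hh.trans ?_⟩
  congr 1
  apply Subtype.ext
  rw [haK]
  exact coe_resFk_alpha A π p N l hπ hpN hpNl f

end Fermat.Agent.S40x.Diag.RedDegInst
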