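/-
P-S44 / block C2, DIAG (G3), route DIAG-N: the hypothesis `hAB` of `Diag/DiagNCore.diag_core` at the
instance `E = Fk k M`, `dl = dlog ∘ coe` (`C2/DqInst.dl`), `H = T_l` (`C2/DqInst.heckeTLin`), with
only characteristic `p` inputs left (helper38).

`Diag/HeckeRedGlue.hAB_of_key` with

* the `TraceRed.Setup` along `α` / `aK` discharged by helper77's `Diag/RedDegInst.setup_alpha`;
* over an algebraically closed `L` (e.g. `ℚ̄`): the characteristic zero norm `q`-expansion formula
  (C1) by `ESC.normQExpFormula_of_finrank`, the upstairs degree `[F_{Ml} : α F_M] = l + 1` by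
  `S34x/Inst/HDeg.finrankAlong_alpha`, finiteness by `HK1.finiteAlong_alpha`.

Remaining inputs (D-DEG in characteristic `p` + "cusps are functorial"): `aK bK : Fk k M →ₐ[k]
Fk k (M l)` with `q`-series `aK u = u`, `bK u = u(q^l)`; `FiniteAlong k aK`,
`l + 1 ≤ finrankAlong k aK`, separability along `aK`, integrality of `aK`, `bK`, all places of
`Fk k (M l)` of degree one, and `hNC`.
-/
import Fermat.Agent.S40x.Diag.HeckeRedGlue
import Fermat.Agent.S40x.Diag.RedDegInst
import Fermat.Agent.S40x.Diag.DiagNCore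
import Fermat.Agent.S40x.C2.DqInst
import Fermat.Agent.Gateway.ESC.NormQExp
import Fermat.Agent.S34x.Inst.HDeg
import Fermat.Agent.Gateway.HK1.Modular

set_option autoImplicit false
set_option linter.style.haveILetI false
set_option linter.unusedSectionVars false

noncomputable section

namespace Fermat.Agent.S40x.Diag.HABInst

open ModularCurve AlgebraicCurve
open Fermat.Agent.Gateway Fermat.Agent.Gateway.Red Fermat.Agent.Gateway.GoodRed
open Fermat.Agent.S40x.C2.DlogHecke Fermat.Agent.S40x.C2.TraceRed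
open Fermat.Agent.S40x.Diag.HeckeRedGlue

variable {L : Type} [Field L] [Algebra ℚ L] (A : ValuationSubring L)
  {k : Type} [Field k] (π : A →+* k) [IsAlgClosed k]
  (p : ℕ) [Fact p.Prime] [CharP k p]
  (M l : ℕ) [NeZero M] [NeZero l]
  (hπ : Function.Surjective π) (hpM : ¬ p ∣ M) (hpMl : ¬ p ∣ M * l)

include hpMl in
/-- `l ≠ 0` in `k` for a prime `l ≠ p`. -/
theorem natCast_ne_zero_of_not_dvd_mul (hl : l.Prime) : (l : k) ≠ 0 := by
  intro h0
  have h1 : p ∣ l := (CharP.cast_eq_zero_iff k p l).mp h0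
  have h2 : p = l := (Nat.prime_dvd_prime_iff_eq (Fact.out : p.Prime) hl).mp h1
  exact hpMl (h2 ▸ dvd_mul_left p M)

include hπ hpM hpMl in
/-- **Claim (B) with the `Setup` discharged** (any `L`; C1, finiteness and the degree upstairs still
hypotheses). -/
theorem dlog_normAlong_eq_heckeT'
    (aK bK : modularFunctionFieldFullC k M →ₐ[k] modularFunctionFieldFullC k (M * l))
    (haK : ∀ u : modularFunctionFieldFullC k M,
      ((aK u : modularFunctionFieldFullC k (M * l)) : LaurentSeries k) = (u : LaurentSeries k))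
    (hbK : ∀ u : modularFunctionFieldFullC k M,
      ((bK u : modularFunctionFieldFullC k (M * l)) : LaurentSeries k) =
        qExpand k l (u : LaurentSeries k))
    (hfin : FiniteAlong L (heckeAlphaBar L M l)) (hfinK : FiniteAlong k aK)
    (hdeg : finrankAlong L (heckeAlphaBar L M l) ≤ finrankAlong k aK)
    (hl : l.Prime) {ζ : Lˣ} (hζ : IsPrimitiveRoot ζ l)
    (hC1 : Kummer.NormQExpFormula L M l ζ)
    (φ : modularFunctionFieldFullC k M) (hφ : φ ≠ 0) :
    Kummer.normAlong aK (bK φ) ≠ 0 ∧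
      dlog ((Kummer.normAlong aK (bK φ) : modularFunctionFieldFullC k M) : LaurentSeries k) =
        heckeT l (dlog (φ : LaurentSeries k)) :=
  dlog_normAlong_eq_heckeT A π p M l hπ hpM hpMl aK bK hbK
    (RedDegInst.setup_alpha A π p M l hπ hpM hpMl aK.toRingHom haK) hfin hfinK hdeg hl
    (natCast_ne_zero_of_not_dvd_mul p M l hpMl hl) hζ hC1 φ hφ

section Closed

variable [IsAlgClosed L]

include hπ hpM hpMl in
/-- **Claim (B) over an algebraically closed `L`**, only characteristic `p` inputs. -/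
theorem dlog_normAlong_eq_heckeT_of_isAlgClosed (hl : l.Prime) (hlM : ¬ l ∣ M)
    (aK bK : modularFunctionFieldFullC k M →ₐ[k] modularFunctionFieldFullC k (M * l))
    (haK : ∀ u : modularFunctionFieldFullC k M,
      ((aK u : modularFunctionFieldFullC k (M * l)) : LaurentSeries k) = (u : LaurentSeries k))
    (hbK : ∀ u : modularFunctionFieldFullC k M,
      ((bK u : modularFunctionFieldFullC k (M * l)) : LaurentSeries k) =
        qExpand k l (u : LaurentSeries k))
    (hfinK : FiniteAlong k aK) (hdegK : l + 1 ≤ finrankAlong k aK)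
    (φ : modularFunctionFieldFullC k M) (hφ : φ ≠ 0) :
    Kummer.normAlong aK (bK φ) ≠ 0 ∧
      dlog ((Kummer.normAlong aK (bK φ) : modularFunctionFieldFullC k M) : LaurentSeries k) =
        heckeT l (dlog (φ : LaurentSeries k)) := by
  haveI : CharZero L := charZero_of_injective_algebraMap (algebraMap ℚ L).injective
  obtain ⟨ζ, hζ⟩ := Fermat.Agent.Gateway.ESC.exists_prim_unit L l (NeZero.ne l)
  have hup : finrankAlong L (heckeAlphaBar L M l) = l + 1 :=
    Fermat.Agent.S34x.Inst.HDeg.finrankAlong_alpha L M l hl hlM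
  exact dlog_normAlong_eq_heckeT' A π p M l hπ hpM hpMl aK bK haK hbK
    (Fermat.Agent.Gateway.HK1.finiteAlong_alpha L M l) hfinK (hup.le.trans hdegK) hl hζ
    (Fermat.Agent.Gateway.ESC.normQExpFormula_of_finrank L M l hl hlM ζ hζ hup) φ hφ

include hπ hpM hpMl in
/-- **`hAB` of `diag_core`** over an algebraically closed `L`, from the conclusion `hkey` of
`Diag/KeyWrap.hkey_of_pred` (claim (A)). -/
theorem hAB_of_hkey_of_isAlgClosed (hl : l.Prime) (hlM : ¬ l ∣ M)
    (aK bK : modularFunctionFieldFullC k M →ₐ[k] modularFunctionFieldFullC k (M * l))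
    (haK : ∀ u : modularFunctionFieldFullC k M,
      ((aK u : modularFunctionFieldFullC k (M * l)) : LaurentSeries k) = (u : LaurentSeries k))
    (hbK : ∀ u : modularFunctionFieldFullC k M,
      ((bK u : modularFunctionFieldFullC k (M * l)) : LaurentSeries k) =
        qExpand k l (u : LaurentSeries k))
    (hfinK : FiniteAlong k aK) (hdegK : l + 1 ≤ finrankAlong k aK)
    (NC : Set (Place k (modularFunctionFieldFullC k M)))
    (hkey : ∀ g : modularFunctionFieldFullC k M, g ≠ 0 → (∀ P ∈ NC, (p : ℤ) ∣ P.ord g) →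
      ∀ P ∈ NC, (p : ℤ) ∣ P.ord (Kummer.normAlong aK (bK g))) :
    ∀ φ : modularFunctionFieldFullC k M, φ ≠ 0 → (∀ P ∈ NC, (p : ℤ) ∣ P.ord φ) →
      ∃ φ' : modularFunctionFieldFullC k M, φ' ≠ 0 ∧ (∀ P ∈ NC, (p : ℤ) ∣ P.ord φ') ∧
        dlog ((φ' : modularFunctionFieldFullC k M) : LaurentSeries k) =
          heckeT l (dlog ((φ : modularFunctionFieldFullC k M) : LaurentSeries k)) := by
  intro φ hφ hdiv
  obtain ⟨h1, h2⟩ := dlog_normAlong_eq_heckeT_of_isAlgClosed A π p M l hπ hpM hpMl hl hlM aK bK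
    haK hbK hfinK hdegK φ hφ
  exact ⟨Kummer.normAlong aK (bK φ), h1, hkey φ hφ hdiv, h2⟩

include hπ hpM hpMl in
/-- **`hAB` of `diag_core`** over an algebraically closed `L`, claim (A) discharged by
`Diag/Key.dvd_ord_normAlong_comp_of_pred`; vocabulary of `C2/DqInst` (`dl`, `heckeTLin`): this is
LITERALLY the argument `hAB` of `DiagNCore.diag_core` for `E := Fk k M`, `M := k((q))`,
`dl := DqInst.dl k M`, `H := (DqInst.heckeTLin k l).toAddMonoidHom`. -/
theorem hAB_dqInst [HasPrincipalDivisors k (modularFunctionFieldFullC k (M * l))]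
    (hl : l.Prime) (hlM : ¬ l ∣ M)
    (aK bK : modularFunctionFieldFullC k M →ₐ[k] modularFunctionFieldFullC k (M * l))
    (haK : ∀ u : modularFunctionFieldFullC k M,
      ((aK u : modularFunctionFieldFullC k (M * l)) : LaurentSeries k) = (u : LaurentSeries k))
    (hbK : ∀ u : modularFunctionFieldFullC k M,
      ((bK u : modularFunctionFieldFullC k (M * l)) : LaurentSeries k) =
        qExpand k l (u : LaurentSeries k))
    (hfinK : FiniteAlong k aK) (hdegK : l + 1 ≤ finrankAlong k aK)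
    (hbKint : bK.toRingHom.IsIntegral) (haKint : aK.toRingHom.IsIntegral)
    (hsep : letI := algebraAlong aK;
      Algebra.IsSeparable (modularFunctionFieldFullC k M) (modularFunctionFieldFullC k (M * l)))
    (hdeg1 : ∀ w : Place k (modularFunctionFieldFullC k (M * l)), w.deg = 1)
    (NC : Set (Place k (modularFunctionFieldFullC k M)))
    (hNC : ∀ W : Place k (modularFunctionFieldFullC k (M * l)),
      W.restrictAlong aK haKint ∈ NC → W.restrictAlong bK hbKint ∈ NC) :
    ∀ φ : modularFunctionFieldFullC k M, φ ≠ 0 → (∀ P ∈ NC, (p : ℤ) ∣ P.ord φ) →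
      ∃ φ' : modularFunctionFieldFullC k M, φ' ≠ 0 ∧ (∀ P ∈ NC, (p : ℤ) ∣ P.ord φ') ∧
        Fermat.Agent.S40x.C2.DqInst.dl k M φ' =
          (Fermat.Agent.S40x.C2.DqInst.heckeTLin k l).toAddMonoidHom
            (Fermat.Agent.S40x.C2.DqInst.dl k M φ) :=
  hAB_of_hkey_of_isAlgClosed A π p M l hπ hpM hpMl hl hlM aK bK haK hbK hfinK hdegK NC
    (fun _ hg hup P hP => Key.dvd_ord_normAlong_comp_of_pred (fun P => P ∈ NC) bK aK hbKint haKint
      hfinK hsep hdeg1 hNC p hg hup P hP)

include hpM in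
/-- `M ≠ 0` in `k`. -/
theorem natCast_level_ne_zero : ((M : ℕ) : k) ≠ 0 := fun h0 =>
  hpM ((CharP.cast_eq_zero_iff k p M).mp h0)

include hπ hpM hpMl in
/-- **`DiagNCore.diag_core` at the instance `E = Fk k M`** (`4 ∣ M`), with `hAB` discharged:
`Dq = θ ∘ coe`, `dl = dlog ∘ coe`, `t = x₄`, `H = T_l`.  Inputs: the characteristic `p` degeneracy
maps `aK`, `bK` (D-DEG) with "cusps are functorial" `hNC`, the reduced Kummer function `fb` with its
orders (`hfbN`, `hfbS`: C3) and Hecke eigen-relation (`hKH`: leaf KH), the reference unit `φE`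
(`hEN`, `hES`, `he₀`, `hEis`: D-REF), and `hNE`. -/
theorem diag_core_Fk (h4 : 4 ∣ M) (hl : l.Prime) (hlM : ¬ l ∣ M)
    (aK bK : modularFunctionFieldFullC k M →ₐ[k] modularFunctionFieldFullC k (M * l))
    (haK : ∀ u : modularFunctionFieldFullC k M,
      ((aK u : modularFunctionFieldFullC k (M * l)) : LaurentSeries k) = (u : LaurentSeries k))
    (hbK : ∀ u : modularFunctionFieldFullC k M,
      ((bK u : modularFunctionFieldFullC k (M * l)) : LaurentSeries k) =
        qExpand k l (u : LaurentSeries k))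
    (hfinK : FiniteAlong k aK) (hdegK : l + 1 ≤ finrankAlong k aK)
    (hbKint : bK.toRingHom.IsIntegral) (haKint : aK.toRingHom.IsIntegral)
    (hsep : letI := algebraAlong aK;
      Algebra.IsSeparable (modularFunctionFieldFullC k M) (modularFunctionFieldFullC k (M * l)))
    (NC Nd : Set (Place k (modularFunctionFieldFullC k M)))
    (hNC : ∀ W : Place k (modularFunctionFieldFullC k (M * l)),
      W.restrictAlong aK haKint ∈ NC → W.restrictAlong bK hbKint ∈ NC)
    (hNd : Nd ⊆ NC) (hne : Nd.Nonempty)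
    {fb φE : modularFunctionFieldFullC k M} (hfb : fb ≠ 0) (hφE : φE ≠ 0) (c e₀ a : ℤ)
    (hfbN : ∀ P ∈ Nd, (p : ℤ) ∣ P.ord fb - c)
    (hfbS : ∀ P ∈ NC, P ∉ Nd → (p : ℤ) ∣ P.ord fb)
    (hEN : ∀ P ∈ Nd, (p : ℤ) ∣ P.ord φE - e₀)
    (hES : ∀ P ∈ NC, P ∉ Nd → (p : ℤ) ∣ P.ord φE)
    (he₀ : ¬ (p : ℤ) ∣ e₀)
    (hKH : heckeT l (dlog (fb : LaurentSeries k)) = a • dlog (fb : LaurentSeries k))
    (hEis : heckeT l (dlog (φE : LaurentSeries k)) =
      ((l : ℤ) + 1) • dlog (φE : LaurentSeries k))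
    (hNE : ¬ (p : ℤ) ∣ a - ((l : ℤ) + 1)) :
    (p : ℤ) ∣ c := by
  have hMk : ((M : ℕ) : k) ≠ 0 := natCast_level_ne_zero (k := k) p M hpM
  have hMlk : ((M * l : ℕ) : k) ≠ 0 := natCast_level_ne_zero (k := k) p (M * l) hpMl
  haveI : HasPrincipalDivisors k (modularFunctionFieldFullC k (M * l)) :=
    Fermat.Agent.Gateway.FkBasics.hasPrincipalDivisors_Fk k (M * l) hMlk
  haveI := Fermat.Agent.S40x.C2.DqInst.isSeparable_tFk h4 hMk
  exact DiagNCore.diag_core p (Fermat.Agent.Gateway.AuxLevel.L4.tFk h4 hMk)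
    (Fermat.Agent.S40x.C2.DqInst.thetaDer k M)
    (Fermat.Agent.S40x.C2.DqInst.thetaDer_tFk_ne_zero h4 hMk)
    (Fermat.Agent.S40x.C2.DqInst.dl k M) Fermat.Agent.S40x.C2.DqInst.smul_dl
    NC Nd hNd hne (Fermat.Agent.S40x.C2.DqInst.heckeTLin k l).toAddMonoidHom hfb hφE c e₀ a l
    hfbN hfbS hEN hES he₀ hKH hEis
    (hAB_dqInst A π p M l hπ hpM hpMl hl hlM aK bK haK hbK hfinK hdegK hbKint haKint hsep
      (Fermat.Agent.Gateway.FkBasics.deg_eq_one_Fk k (M * l) hMlk) NC hNC)
    hNE

end Closed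

end Fermat.Agent.S40x.Diag.HABInst
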