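import Fermat.Agent.S40x.C2.DerivKernel

/-!
# P-S44, block C2, DIAG leaf D-HECKE: abstract core

Vocabulary of `C2/AsmAbs`: a field `E` over a perfect field `k` of characteristic `p`, an
`E`-module `M`, a `k`-derivation `Dq : E → M` with `Dq t ≠ 0` for a separating element `t`
(`E / k(t)` algebraic separable) and a "logarithmic derivative" `dl : E → M` with
`f • dl f = Dq f` for `f ≠ 0` (instance: `E = Fk k M̂`, `M = k((q))`, `Dq = θ_q ∘ coe`,
`dl = dlog ∘ coe`).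

* `dl_one`, `dl_mul`, `dl_inv`, `dl_div`, `dl_pow`, `dl_zpow`, `dl_pow_char`, `dl_algebraMap`: the
  formal rules of `dl`;
* `exists_eq_mul_pow_of_dl_eq`: `dl ψ = a • dl f` (`a : ℤ`) implies `ψ = f ^ a * g ^ p`
  (kernel of a derivation = `p`-th powers, `DerivKernel`);
* `exists_eq_mul_pow_of_hecke`: the Hecke form used by `DIAG`: if `dl ψ = H (dl f)` (`ψ = Nn f`
  the norm of the pull-back, leaf (B): `dlog ∘ Nn = heckeT ∘ dlog`) and
  `H (dl f) = (a : k) • dl f` (leaves KH-a / KH-b / REFQ) then `ψ = f ^ a * g ^ p`;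
* `dvd_ord_sub_of_hecke`: consequence in terms of any "order function" `v : E → ℤ`
  (`v (x * y) = v x + v y` on nonzero elements): `v ψ ≡ a * v f mod p`.
-/

set_option autoImplicit false

namespace Fermat.Agent.S40x.Diag.HeckeAbs

open IntermediateField

variable {k E : Type*} [Field k] [Field E] [Algebra k E]
  {M : Type*} [AddCommGroup M] [Module E M] [Module k M]
  {Dq : Derivation k E M} {dl : E → M}

section Rules

variable (hdl : ∀ f : E, f ≠ 0 → f • dl f = Dq f)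
include hdl

theorem dl_eq_zero_iff {f : E} (hf : f ≠ 0) : dl f = 0 ↔ Dq f = 0 := by
  rw [← hdl f hf, smul_eq_zero, or_iff_right hf]

theorem dl_one : dl (1 : E) = 0 := by
  rw [dl_eq_zero_iff hdl one_ne_zero]
  exact Dq.map_one_eq_zero

theorem dl_mul {f g : E} (hf : f ≠ 0) (hg : g ≠ 0) : dl (f * g) = dl f + dl g := by
  have h1 : (f * g) • dl (f * g) = (f * g) • (dl f + dl g) := by
    rw [hdl _ (mul_ne_zero hf hg), Dq.leibniz, ← hdl f hf, ← hdl g hg, smul_add, smul_smul,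
      smul_smul, mul_comm g f, add_comm]
  exact smul_right_injective M (mul_ne_zero hf hg) h1

theorem dl_inv {f : E} (hf : f ≠ 0) : dl f⁻¹ = -dl f := by
  have h := dl_mul hdl hf (inv_ne_zero hf)
  rw [mul_inv_cancel₀ hf, dl_one hdl] at h
  exact (neg_eq_of_add_eq_zero_right h.symm).symm

theorem dl_div {f g : E} (hf : f ≠ 0) (hg : g ≠ 0) : dl (f / g) = dl f - dl g := by
  rw [div_eq_mul_inv, dl_mul hdl hf (inv_ne_zero hg), dl_inv hdl hg, sub_eq_add_neg]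

theorem dl_pow {f : E} (hf : f ≠ 0) (n : ℕ) : dl (f ^ n) = n • dl f := by
  induction n with
  | zero => rw [pow_zero, zero_smul, dl_one hdl]
  | succ n ih => rw [pow_succ, dl_mul hdl (pow_ne_zero n hf) hf, ih, succ_nsmul]

theorem dl_zpow {f : E} (hf : f ≠ 0) (a : ℤ) : dl (f ^ a) = a • dl f := by
  obtain ⟨n, rfl | rfl⟩ := a.eq_nat_or_neg
  · rw [zpow_natCast, dl_pow hdl hf, natCast_zsmul]
  · rw [zpow_neg, zpow_natCast, dl_inv hdl (pow_ne_zero n hf), dl_pow hdl hf, neg_smul,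
      natCast_zsmul]

theorem dl_algebraMap {c : k} (hc : c ≠ 0) : dl (algebraMap k E c) = 0 := by
  rw [dl_eq_zero_iff hdl ((map_ne_zero _).2 hc)]
  exact Dq.map_algebraMap c

theorem dl_pow_char (p : ℕ) [CharP k p] {g : E} (hg : g ≠ 0) : dl (g ^ p) = 0 := by
  have : CharP E p := charP_of_injective_algebraMap (algebraMap k E).injective p
  rw [dl_eq_zero_iff hdl (pow_ne_zero p hg), Dq.leibniz_pow, ← Nat.cast_smul_eq_nsmul E,
    CharP.cast_eq_zero E p, zero_smul]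

end Rules

section Kernel

variable (p : ℕ) [hp : Fact p.Prime] [CharP k p] [PerfectField k]
  (t : E) [Algebra.IsSeparable k⟮t⟯ E] (hDt : Dq t ≠ 0)
  (hdl : ∀ f : E, f ≠ 0 → f • dl f = Dq f)
include hDt hdl

/-- `dl ψ = dl φ` implies `ψ = φ * g ^ p`. -/
theorem exists_eq_mul_pow_of_dl_eq' {ψ φ : E} (hψ : ψ ≠ 0) (hφ : φ ≠ 0) (h : dl ψ = dl φ) :
    ∃ g : E, g ≠ 0 ∧ ψ = φ * g ^ p := by
  have h0 : dl (ψ / φ) = 0 := by rw [dl_div hdl hψ hφ, h, sub_self]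
  have hne : ψ / φ ≠ 0 := div_ne_zero hψ hφ
  obtain ⟨g, hg⟩ := Fermat.Agent.S40x.C2.DerivKernel.exists_pow_eq_of_derivation_eq_zero p t Dq hDt
    (ψ / φ) ((dl_eq_zero_iff hdl hne).1 h0)
  refine ⟨g, ?_, ?_⟩
  · rintro rfl
    rw [zero_pow hp.out.ne_zero] at hg
    exact hne hg.symm
  · rw [hg, mul_div_cancel₀ _ hφ]

/-- **Kernel form.** `dl ψ = a • dl f` (`a : ℤ`) implies `ψ = f ^ a * g ^ p`. -/
theorem exists_eq_mul_pow_of_dl_eq {ψ f : E} (hψ : ψ ≠ 0) (hf : f ≠ 0) {a : ℤ}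
    (h : dl ψ = a • dl f) : ∃ g : E, g ≠ 0 ∧ ψ = f ^ a * g ^ p :=
  exists_eq_mul_pow_of_dl_eq' p t hDt hdl hψ (zpow_ne_zero a hf)
    (by rw [h, dl_zpow hdl hf])

/-- **Hecke form (D-HECKE, abstract).**  `ψ = Nn f` with `dl ψ = H (dl f)` (leaf (B)) and
`H (dl f) = (a : k) • dl f` (leaves KH-a, KH-b, REFQ): then `ψ = f ^ a * g ^ p`. -/
theorem exists_eq_mul_pow_of_hecke (H : M → M) {ψ f : E} (hψ : ψ ≠ 0) (hf : f ≠ 0) {a : ℤ}
    (hB : dl ψ = H (dl f)) (hKH : H (dl f) = ((a : ℤ) : k) • dl f) :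
    ∃ g : E, g ≠ 0 ∧ ψ = f ^ a * g ^ p :=
  exists_eq_mul_pow_of_dl_eq p t hDt hdl hψ hf
    (by rw [hB, hKH, Int.cast_smul_eq_zsmul])

/-- Natural-number eigenvalue (the reference function: `a = l + 1`). -/
theorem exists_eq_mul_pow_of_hecke_nat (H : M → M) {ψ f : E} (hψ : ψ ≠ 0) (hf : f ≠ 0) {a : ℕ}
    (hB : dl ψ = H (dl f)) (hKH : H (dl f) = ((a : ℕ) : k) • dl f) :
    ∃ g : E, g ≠ 0 ∧ ψ = f ^ a * g ^ p := by
  obtain ⟨g, hg, h⟩ := exists_eq_mul_pow_of_hecke p t hDt hdl H hψ hf (a := (a : ℤ)) hB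
    (by rw [hKH, Int.cast_natCast])
  exact ⟨g, hg, by rw [h, zpow_natCast]⟩

/-- Order form: for a "valuation" `v : E → ℤ` additive on nonzero elements,
`v ψ ≡ a * v f mod p`. -/
theorem dvd_ord_sub_of_hecke (H : M → M) {ψ f : E} (hψ : ψ ≠ 0) (hf : f ≠ 0) {a : ℤ}
    (hB : dl ψ = H (dl f)) (hKH : H (dl f) = ((a : ℤ) : k) • dl f)
    (v : E → ℤ) (hv : ∀ x y : E, x ≠ 0 → y ≠ 0 → v (x * y) = v x + v y) :
    (p : ℤ) ∣ v ψ - a * v f := by
  obtain ⟨g, hg, h⟩ := exists_eq_mul_pow_of_hecke p t hDt hdl H hψ hf hB hKH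
  have hv1 : v 1 = 0 := by
    have := hv 1 1 one_ne_zero one_ne_zero
    rw [mul_one] at this
    linarith
  have hvpow : ∀ (x : E), x ≠ 0 → ∀ n : ℕ, v (x ^ n) = n * v x := by
    intro x hx n
    induction n with
    | zero => simp [hv1]
    | succ n ih => rw [pow_succ, hv _ _ (pow_ne_zero n hx) hx, ih]; push_cast; ring
  have hvinv : ∀ (x : E), x ≠ 0 → v x⁻¹ = - v x := by
    intro x hx
    have := hv x x⁻¹ hx (inv_ne_zero hx)
    rw [mul_inv_cancel₀ hx, hv1] at this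
    linarith
  have hvz : v (f ^ a) = a * v f := by
    obtain ⟨n, rfl | rfl⟩ := a.eq_nat_or_neg
    · rw [zpow_natCast, hvpow f hf]
    · rw [zpow_neg, zpow_natCast, hvinv _ (pow_ne_zero n hf), hvpow f hf]; ring
  rw [h, hv _ _ (zpow_ne_zero a hf) (pow_ne_zero p hg), hvz, hvpow g hg]
  exact ⟨v g, by ring⟩

end Kernel

end Fermat.Agent.S40x.Diag.HeckeAbs
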