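import Fermat.Agent.S40x.Diag.HeckeKerQ
import Fermat.Agent.S40x.Diag.RefQB
import Fermat.Agent.S40x.C2.DqInst

/-!
# P-S44, block C2, DIAG leaf D-HECKE: the instance at `κ = Fk k N`

`k` algebraically closed of characteristic `p`, `4 ∣ N`, `N` invertible in `k`; `κ = Fk k N` with its
`q`-expansion coercion into `k((q))`, `θ_q` and the Hauptmodul of level four (`C2/DqInst`).

The two Hecke hypotheses `hf`, `hU` of the landed abstract core `Diag/Abs.diag_zero` are produced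
from the reduced `q`-expansion norm formula (claim (B): `g = Nn f`,
`g(q^ℓ) = f(q^{ℓ²}) ∏_{b<ℓ} f(ζ^b q)`):

* `exists_eq_mul_pow_of_norm_formula` : for a function `f` whose logarithmic derivative is a
  `T_ℓ`-eigenvector with eigenvalue `a : ℕ` (landed `C2/KH/Main.heckeT_dlog_resInfty_Qb` for the
  reduction of a Kummer function of an eigenclass): `g = c₁ * f ^ a * h ^ p`, `c₁` without zeros and
  poles (here `c₁ = 1`);
* `exists_eq_mul_pow_ref` : for the reference function `Ū` with `q`-expansion `(Δ̄^(p-1))⁻¹`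
  (`dlog Ū = Ē₂`, `T_ℓ Ē₂ = (ℓ + 1) Ē₂`: landed `Diag/RefQB`): `g = c₂ * Ū ^ (ℓ + 1) * h' ^ p`.
-/

set_option autoImplicit false
set_option linter.unusedSectionVars false
set_option linter.style.haveILetI false

namespace Fermat.Agent.S40x.Diag.HeckeInst

open ModularCurve AlgebraicCurve Fermat.Agent.Gateway.GoodRed Fermat.Agent.Gateway.Kummer
open Fermat.Agent.Gateway.GoodRed.ConjFamily Fermat.Agent.Gateway.AuxLevel
open Fermat.Agent.S40x.C2.DlogHecke Fermat.Agent.S40x.C2.DqInst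

variable {k : Type} [Field k] [IsAlgClosed k] {N : ℕ} [NeZero N]
variable (p : ℕ) [hp : Fact p.Prime] [CharP k p]

/-- **D-HECKE at `Fk k N`, integer exponent.** -/
theorem exists_eq_zpow_mul_pow_of_norm_formula (h4 : 4 ∣ N) (hNk : ((N : ℕ) : k) ≠ 0)
    {ℓ : ℕ} [NeZero ℓ] (hℓk : (ℓ : k) ≠ 0) {ζ : kˣ} (hζ : IsPrimitiveRoot ζ ℓ)
    {f g : Fk k N} (hf : f ≠ 0) (hg : g ≠ 0)
    (hN : qExpand k ℓ (g : LaurentSeries k) =
      qExpand k ℓ (qExpand k ℓ (f : LaurentSeries k)) *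
        ∏ b ∈ Finset.range ℓ, twist (ζ ^ b) (f : LaurentSeries k))
    {a : ℤ} (heig : heckeT ℓ (dlog (f : LaurentSeries k)) =
      (a : LaurentSeries k) * dlog (f : LaurentSeries k)) :
    ∃ u : Fk k N, u ≠ 0 ∧ g = f ^ a * u ^ p := by
  haveI := isSeparable_tFk (k := k) (N := N) h4 hNk
  exact HeckeKerQ.exists_eq_zpow_mul_pow_of_norm_formula p (L4.tFk h4 hNk) (thetaDer k N)
    (thetaDer_tFk_ne_zero h4 hNk) (fun x : Fk k N => (x : LaurentSeries k))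
    (fun x hx => smul_dl x hx) hℓk hζ hf (coe_ne_zero hf) hg hN heig

/-- **D-HECKE at `Fk k N`, the shape of `hf` in `Diag/Abs.diag_zero`.** -/
theorem exists_eq_mul_pow_of_norm_formula (h4 : 4 ∣ N) (hNk : ((N : ℕ) : k) ≠ 0)
    {ℓ : ℕ} [NeZero ℓ] (hℓk : (ℓ : k) ≠ 0) {ζ : kˣ} (hζ : IsPrimitiveRoot ζ ℓ)
    {f g : Fk k N} (hf : f ≠ 0) (hg : g ≠ 0)
    (hN : qExpand k ℓ (g : LaurentSeries k) =
      qExpand k ℓ (qExpand k ℓ (f : LaurentSeries k)) *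
        ∏ b ∈ Finset.range ℓ, twist (ζ ^ b) (f : LaurentSeries k))
    {a : ℕ} (heig : heckeT ℓ (dlog (f : LaurentSeries k)) =
      (a : LaurentSeries k) * dlog (f : LaurentSeries k)) :
    ∃ c₁ h : Fk k N, c₁ ≠ 0 ∧ h ≠ 0 ∧ (∀ P : Place k (Fk k N), P.ord c₁ = 0) ∧
      g = c₁ * f ^ a * h ^ p := by
  obtain ⟨u, hu, hgu⟩ := exists_eq_zpow_mul_pow_of_norm_formula p h4 hNk hℓk hζ hf hg hN
    (a := (a : ℤ)) (by rw [heig, Int.cast_natCast])
  refine ⟨1, u, one_ne_zero, hu, fun P => P.ord_one, ?_⟩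
  rw [hgu, zpow_natCast, one_mul]

/-- **D-HECKE at `Fk k N` for the reference function** `Ū = (Δ̄^(p-1))⁻¹`: the shape of `hU` in
`Diag/Abs.diag_zero`. -/
theorem exists_eq_mul_pow_ref (h4 : 4 ∣ N) (hNk : ((N : ℕ) : k) ≠ 0)
    {ℓ : ℕ} [NeZero ℓ] (hℓ : ℓ.Prime) (hℓk : (ℓ : k) ≠ 0) {ζ : kˣ} (hζ : IsPrimitiveRoot ζ ℓ)
    {Ub g : Fk k N} (hUb : (Ub : LaurentSeries k) = ((RefQB.DeltaL k) ^ (p - 1))⁻¹) (hg : g ≠ 0)
    (hN : qExpand k ℓ (g : LaurentSeries k) =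
      qExpand k ℓ (qExpand k ℓ (Ub : LaurentSeries k)) *
        ∏ b ∈ Finset.range ℓ, twist (ζ ^ b) (Ub : LaurentSeries k)) :
    ∃ c₂ h' : Fk k N, c₂ ≠ 0 ∧ h' ≠ 0 ∧ (∀ P : Place k (Fk k N), P.ord c₂ = 0) ∧
      g = c₂ * Ub ^ (ℓ + 1) * h' ^ p := by
  have hU0 : Ub ≠ 0 := by
    intro h0
    have h1 : (Ub : LaurentSeries k) = 0 := by rw [h0]; rfl
    rw [hUb] at h1
    exact inv_ne_zero (pow_ne_zero _ (RefQB.DeltaL_ne_zero k)) h1
  refine exists_eq_mul_pow_of_norm_formula p h4 hNk hℓk hζ hU0 hg hN (a := ℓ + 1) ?_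
  rw [hUb]
  exact RefQB.heckeT_dlog_ref k p hℓ

end Fermat.Agent.S40x.Diag.HeckeInst
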