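import Fermat.Agent.S40x.C2.DerivKernel

/-!
# P-S44, block C2, DIAG leaf D-HECKE: abstract core

Vocabulary of `C2/AsmAbs`: `E / k` a function field in one variable over a perfect field of
characteristic `p` (`t` a separating element), `Dq : Derivation k E M` with `Dq t ≠ 0`
(instance: `E = Fk k M̂`, `M = k((q))`, `Dq = θ_q ∘ coe`) and a "logarithmic derivative"
`dl : E → M` with `f • dl f = Dq f`.

* `dl_mul`, `dl_inv`, `dl_div`, `dl_pow`, `dl_zpow`, `dl_pow_char`, `dl_algebraMap`: calculus of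
  `dl`;
* `exists_pow_of_dl_eq`: `dl f = dl g` implies `f = g * u ^ p` (kernel of a derivation =
  `p`-th powers, `DerivKernel`);
* `exists_eq_zpow_mul_pow`: if `Nn : E → E` (instance: `g ↦ Norm_β (α g)`) satisfies
  `dl (Nn φ) = H (dl φ)` for the unit `f` (`H` = formal Hecke operator `T_ℓ` on `q`-series;
  reduced `q`-expansion norm formula + `DlogHecke.dlog_of_norm_formula`) and `dl f` is an
  eigenvector, `H (dl f) = a • dl f` (`a : ℤ`), then `Nn f = f ^ a * u ^ p`.
  Applied to `f̄` (eigenvalue `a`, KH-a) and to the reference unit `Ū = Δ̄^(1-p)`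
  (`dl Ū = Ē₂`, eigenvalue `ℓ + 1`).
* `dvd_ord_sub_of_eq_zpow_mul_pow`: the congruence on orders that `D-ABS` consumes, for any
  "order function" `ord : E → ℤ` which is additive on products of nonzero elements.
-/

set_option autoImplicit false
set_option linter.unusedSectionVars false

namespace Fermat.Agent.S40x.Diag.HeckeKer

open IntermediateField

variable {k E : Type*} [Field k] [Field E] [Algebra k E]
variable {M : Type*} [AddCommGroup M] [Module E M] [Module k M]

section Calculus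

variable (Dq : Derivation k E M) (dl : E → M) (hdl : ∀ f : E, f ≠ 0 → f • dl f = Dq f)

include hdl

theorem dl_mul {f g : E} (hf : f ≠ 0) (hg : g ≠ 0) : dl (f * g) = dl f + dl g := by
  have hfg : f * g ≠ 0 := mul_ne_zero hf hg
  have h1 : (f * g) • dl (f * g) = (f * g) • (dl f + dl g) := by
    rw [hdl _ hfg, Dq.leibniz, smul_add, mul_smul, mul_smul, hdl g hg, smul_comm f g (dl f),
      hdl f hf]
    abel
  have h2 : (f * g) • (dl (f * g) - (dl f + dl g)) = 0 := by
    rw [smul_sub, h1, sub_self]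
  exact sub_eq_zero.mp ((smul_eq_zero.mp h2).resolve_left hfg)

theorem dl_one : dl (1 : E) = 0 := by
  have h := hdl 1 one_ne_zero
  rw [one_smul, Dq.map_one_eq_zero] at h
  exact h

theorem dl_inv {f : E} (hf : f ≠ 0) : dl f⁻¹ = -dl f := by
  have h := dl_mul Dq dl hdl hf (inv_ne_zero hf)
  rw [mul_inv_cancel₀ hf, dl_one Dq dl hdl] at h
  exact eq_neg_of_add_eq_zero_right h.symm

theorem dl_div {f g : E} (hf : f ≠ 0) (hg : g ≠ 0) : dl (f / g) = dl f - dl g := by
  rw [div_eq_mul_inv, dl_mul Dq dl hdl hf (inv_ne_zero hg), dl_inv Dq dl hdl hg, sub_eq_add_neg]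

theorem dl_pow {f : E} (hf : f ≠ 0) (n : ℕ) : dl (f ^ n) = n • dl f := by
  induction n with
  | zero => rw [pow_zero, dl_one Dq dl hdl, zero_smul]
  | succ n ih => rw [pow_succ, dl_mul Dq dl hdl (pow_ne_zero n hf) hf, ih, succ_nsmul]

theorem dl_zpow {f : E} (hf : f ≠ 0) (a : ℤ) : dl (f ^ a) = a • dl f := by
  cases a with
  | ofNat n => rw [Int.ofNat_eq_natCast, zpow_natCast, dl_pow Dq dl hdl hf, natCast_zsmul]
  | negSucc n =>
    rw [zpow_negSucc, dl_inv Dq dl hdl (pow_ne_zero _ hf), dl_pow Dq dl hdl hf, negSucc_zsmul]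

/-- `dl` kills the constants. -/
theorem dl_algebraMap {c : k} (hc : c ≠ 0) : dl (algebraMap k E c) = 0 := by
  have hcE : algebraMap k E c ≠ 0 := (map_ne_zero (algebraMap k E)).mpr hc
  have h := hdl _ hcE
  rw [Dq.map_algebraMap] at h
  exact (smul_eq_zero.mp h).resolve_left hcE

/-- in characteristic `p`, `dl` kills the `p`-th powers. -/
theorem dl_pow_char (p : ℕ) [CharP E p] {u : E} (hu : u ≠ 0) : dl (u ^ p) = 0 := by
  have hup : u ^ p ≠ 0 := pow_ne_zero p hu
  have h := hdl _ hup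
  rw [Dq.leibniz_pow, ← Nat.cast_smul_eq_nsmul E, CharP.cast_eq_zero E p, zero_smul] at h
  exact (smul_eq_zero.mp h).resolve_left hup

end Calculus

section Kernel

variable (p : ℕ) [hp : Fact p.Prime] [CharP k p] [PerfectField k]
variable (t : E) [Algebra.IsSeparable k⟮t⟯ E] (Dq : Derivation k E M) (hDt : Dq t ≠ 0)
variable (dl : E → M) (hdl : ∀ f : E, f ≠ 0 → f • dl f = Dq f)

include hDt hdl

/-- **Equal logarithmic derivatives.**  `dl f = dl g` implies `f = g * u ^ p`. -/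
theorem exists_pow_of_dl_eq {f g : E} (hf : f ≠ 0) (hg : g ≠ 0) (h : dl f = dl g) :
    ∃ u : E, u ≠ 0 ∧ f = g * u ^ p := by
  have hfg : f / g ≠ 0 := div_ne_zero hf hg
  have h0 : Dq (f / g) = 0 := by
    rw [← hdl _ hfg, dl_div Dq dl hdl hf hg, h, sub_self, smul_zero]
  obtain ⟨u, hu⟩ := Fermat.Agent.S40x.C2.DerivKernel.exists_pow_eq_of_derivation_eq_zero p t Dq hDt (f / g) h0
  refine ⟨u, ?_, ?_⟩
  · rintro rfl
    rw [zero_pow hp.out.ne_zero] at hu
    exact hfg hu.symm
  · rw [hu, mul_div_cancel₀ _ hg]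

/-- **D-HECKE, abstract form.**  If the logarithmic derivative of `Nn f` is `H (dl f)` and `dl f`
is an eigenvector of `H` with eigenvalue `a : ℤ`, then `Nn f = f ^ a * u ^ p`. -/
theorem exists_eq_zpow_mul_pow (Nn : E → E) (H : M → M) {f : E} (hf : f ≠ 0)
    (hNf : Nn f ≠ 0) (hB : dl (Nn f) = H (dl f)) {a : ℤ} (heig : H (dl f) = a • dl f) :
    ∃ u : E, u ≠ 0 ∧ Nn f = f ^ a * u ^ p := by
  refine exists_pow_of_dl_eq p t Dq hDt dl hdl hNf (zpow_ne_zero a hf) ?_
  rw [hB, heig, dl_zpow Dq dl hdl hf]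

/-- the same with the eigenvalue read in `k` (the shape of `C2/AsmAbs` and `C2/KH`):
`H (dl f) = (a : k) • dl f`. -/
theorem exists_eq_zpow_mul_pow' (Nn : E → E) (H : M → M) {f : E} (hf : f ≠ 0)
    (hNf : Nn f ≠ 0) (hB : dl (Nn f) = H (dl f)) {a : ℤ}
    (heig : H (dl f) = ((a : ℤ) : k) • dl f) :
    ∃ u : E, u ≠ 0 ∧ Nn f = f ^ a * u ^ p :=
  exists_eq_zpow_mul_pow p t Dq hDt dl hdl Nn H hf hNf hB
    (by rw [heig, Int.cast_smul_eq_zsmul])

end Kernel

section Orders

/-- **Orders of `Nn`**: if `Nn f = f ^ a * u ^ p` then `ord (Nn f) ≡ a * ord f` modulo `p`, for any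
function `ord : E → ℤ` additive on products of nonzero elements (e.g. `P.ord`, `P` a place). -/
theorem dvd_ord_sub_of_eq_zpow_mul_pow (ord : E → ℤ)
    (hmul : ∀ x y : E, x ≠ 0 → y ≠ 0 → ord (x * y) = ord x + ord y)
    {p : ℕ} {f u g : E} {a : ℤ} (hf : f ≠ 0) (hu : u ≠ 0) (hg : g = f ^ a * u ^ p) :
    (p : ℤ) ∣ ord g - a * ord f := by
  have hone : ord 1 = 0 := by
    have h := hmul 1 1 one_ne_zero one_ne_zero
    rw [mul_one] at h
    linarith
  have hpow : ∀ (x : E), x ≠ 0 → ∀ n : ℕ, ord (x ^ n) = n * ord x := by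
    intro x hx n
    induction n with
    | zero => rw [pow_zero, hone, Nat.cast_zero, zero_mul]
    | succ n ih =>
      rw [pow_succ, hmul _ _ (pow_ne_zero n hx) hx, ih, Nat.cast_succ]
      ring
  have hinv : ∀ (x : E), x ≠ 0 → ord x⁻¹ = -ord x := by
    intro x hx
    have h := hmul x x⁻¹ hx (inv_ne_zero hx)
    rw [mul_inv_cancel₀ hx, hone] at h
    linarith
  have hzpow : ∀ (x : E), x ≠ 0 → ∀ n : ℤ, ord (x ^ n) = n * ord x := by
    intro x hx n
    cases n with
    | ofNat n => rw [Int.ofNat_eq_natCast, zpow_natCast, hpow x hx]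
    | negSucc n =>
      rw [zpow_negSucc, hinv _ (pow_ne_zero _ hx), hpow x hx, Int.negSucc_eq]
      push_cast
      ring
  rw [hg, hmul _ _ (zpow_ne_zero a hf) (pow_ne_zero p hu), hzpow f hf, hpow u hu]
  exact ⟨ord u, by ring⟩

end Orders

end Fermat.Agent.S40x.Diag.HeckeKer
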