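import Fermat.Agent.S40x.Diag.HeckeKer
import Fermat.Agent.S40x.C2.DlogHecke

/-!
# P-S44, block C2, DIAG leaf D-HECKE: `q`-series form

`E / k` a function field with a `q`-expansion map `ι : E → k((q))` (instance: `E = Fk k M̂`, `ι` the
coercion), `Dq : Derivation k E k((q))` with `f • dlog (ι f) = Dq f` (instance: `Dq = θ_q ∘ ι`,
leaf DEL), `t` a separating element with `Dq t ≠ 0`.

`exists_eq_zpow_mul_pow_of_norm_formula`: if `g f ∈ E` satisfy the `q`-expansion norm formula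
`g(q^ℓ) = f(q^{ℓ²}) ∏_{b<ℓ} f(ζ^b q)` (instance: `g = Nn f = Norm (α/β f)`, reduced
`ESC.normQExpFormula`) and `dlog f` is a `T_ℓ`-eigenvector with eigenvalue `a : ℤ`
(`heckeT ℓ (dlog f) = a * dlog f`: the shape of the landed `C2/KH/Main.heckeT_dlog_resInfty_Qb`;
for the reference unit `Ū`: `dlog Ū = Ē₂`, `a = ℓ + 1`), then `g = f ^ a * u ^ p` in `E`.

`dvd_ord_sub_of_norm_formula`: hence `p ∣ ord (g) - a * ord (f)` for every additive order function.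
-/

set_option autoImplicit false
set_option linter.unusedSectionVars false

namespace Fermat.Agent.S40x.Diag.HeckeKerQ

open IntermediateField ModularCurve Fermat.Agent.Gateway.Kummer Fermat.Agent.S40x.C2.DlogHecke

variable {k E : Type*} [Field k] [Field E] [Algebra k E] [Module E (LaurentSeries k)]
variable (p : ℕ) [hp : Fact p.Prime] [CharP k p] [PerfectField k]
variable (t : E) [Algebra.IsSeparable k⟮t⟯ E] (Dq : Derivation k E (LaurentSeries k))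
  (hDt : Dq t ≠ 0) (ι : E → LaurentSeries k)
  (hdl : ∀ f : E, f ≠ 0 → f • dlog (ι f) = Dq f)

include hDt hdl

/-- **D-HECKE, `q`-series form.** -/
theorem exists_eq_zpow_mul_pow_of_norm_formula {ℓ : ℕ} [NeZero ℓ] (hℓk : (ℓ : k) ≠ 0)
    {ζ : kˣ} (hζ : IsPrimitiveRoot ζ ℓ) {f g : E} (hf : f ≠ 0) (hιf : ι f ≠ 0) (hg : g ≠ 0)
    (hN : qExpand k ℓ (ι g) =
      qExpand k ℓ (qExpand k ℓ (ι f)) * ∏ b ∈ Finset.range ℓ, twist (ζ ^ b) (ι f))
    {a : ℤ} (heig : heckeT ℓ (dlog (ι f)) = (a : LaurentSeries k) * dlog (ι f)) :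
    ∃ u : E, u ≠ 0 ∧ g = f ^ a * u ^ p := by
  have hB : dlog (ι g) = heckeT ℓ (dlog (ι f)) := dlog_of_norm_formula hℓk hζ hιf hN
  exact HeckeKer.exists_eq_zpow_mul_pow p t Dq hDt (fun x => dlog (ι x)) hdl (fun _ => g)
    (heckeT ℓ) hf hg hB (by rw [heig, zsmul_eq_mul])

/-- **D-HECKE, orders.** -/
theorem dvd_ord_sub_of_norm_formula {ℓ : ℕ} [NeZero ℓ] (hℓk : (ℓ : k) ≠ 0)
    {ζ : kˣ} (hζ : IsPrimitiveRoot ζ ℓ) {f g : E} (hf : f ≠ 0) (hιf : ι f ≠ 0) (hg : g ≠ 0)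
    (hN : qExpand k ℓ (ι g) =
      qExpand k ℓ (qExpand k ℓ (ι f)) * ∏ b ∈ Finset.range ℓ, twist (ζ ^ b) (ι f))
    {a : ℤ} (heig : heckeT ℓ (dlog (ι f)) = (a : LaurentSeries k) * dlog (ι f))
    (ord : E → ℤ) (hmul : ∀ x y : E, x ≠ 0 → y ≠ 0 → ord (x * y) = ord x + ord y) :
    (p : ℤ) ∣ ord g - a * ord f := by
  obtain ⟨u, hu, hgu⟩ := exists_eq_zpow_mul_pow_of_norm_formula p t Dq hDt ι hdl hℓk hζ hf hιf hg
    hN heig
  exact HeckeKer.dvd_ord_sub_of_eq_zpow_mul_pow ord hmul hf hu hgu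

end Fermat.Agent.S40x.Diag.HeckeKerQ
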