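import Fermat.Agent.S40x.Diag.NormQK
import Fermat.Agent.S40x.Diag.HeckeAbs
import Fermat.Agent.S40x.C2.DqInst
import Fermat.Agent.S40x.Diag.RefQ
import Fermat.Agent.S40x.C2.KH.Main

/-!
# P-S44, block C2, DIAG leaf D-HECKE: the instance at `κ = Fk k N`

Good level `N` (`4 ∣ N`, `p ∤ N l`, `l` a prime not dividing `N`, `l ≠ p`), `k` algebraically
closed of characteristic `p`, lifting data `A ⊆ L`, `π : A → k` (`L` algebraically closed of
characteristic zero).  The characteristic `p` degeneracy maps `aK bK : Fk k N → Fk k (N l)` are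
inputs given by their `q`-series, with `l + 1 ≤ [Fk k (N l) : aK (Fk k N)]` (leaf D-DEG).

* `Nn aK bK : Fk k N →* Fk k N`, `φ ↦ N_{aK} (bK φ)`: the reduced Hecke operator on functions (the
  `Nn` of `Diag/Abs.diag_zero`);
* `dlog_Nn` : `dlog (Nn φ) = T_l (dlog φ)` (claim (B), `Diag/NormQK`);
* `exists_Nn_eq_zpow_mul_pow` : `T_l (dlog φ) = a * dlog φ` ⟹ `Nn φ = φ ^ a * u ^ p`
  (`Diag/HeckeAbs` + `C2/DqInst` + `C2/DerivKernel`);
* `exists_Nn_Ubar_eq` : `Nn Ū = Ū ^ (l + 1) * u ^ p` for the reference function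
  `Ū = Δ̄^(1-p)` (`Diag/RefQ`);
* `exists_Nn_resInfty_eq` : at the level `M q` (`q = p`, vocabulary of `S34x/Inst/RedSetupInst`):
  for a `T_ℓ`-eigenclass `x` with eigenvalue `a` and a Kummer function `f` of `x` which is a unit
  at `v_∞`, `Nn (f̄) = f̄ ^ a * u ^ q` with `f̄ = resInfty f ∈ Fk k M` (KH-a, `C2/KH/Main`).
-/

set_option autoImplicit false
set_option linter.style.haveILetI false
set_option linter.unusedSectionVars false

noncomputable section

namespace Fermat.Agent.S40x.Diag.HeckeNn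

open ModularCurve AlgebraicCurve IntermediateField
open Fermat.Agent.Gateway.Hecke Fermat.Agent.Gateway.Red Fermat.Agent.Gateway.GoodRed
open Fermat.Agent.Gateway.Kummer
open Fermat.Agent.S40x.C2.DlogHecke Fermat.Agent.S40x.C2.DqInst
open Fermat.Agent.Gateway.AuxLevel

/-! ### The reduced Hecke operator on functions -/

section Def

variable {k : Type} [Field k] {N l : ℕ}

/-- `Nn φ = N_{aK} (bK φ)`, a monoid homomorphism of `Fk k N`. -/
def Nn (aK bK : modularFunctionFieldFullC k N →+* modularFunctionFieldFullC k (N * l)) :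
    modularFunctionFieldFullC k N →* modularFunctionFieldFullC k N :=
  letI := aK.toAlgebra
  (Algebra.norm (modularFunctionFieldFullC k N)).comp
    (bK : modularFunctionFieldFullC k N →* modularFunctionFieldFullC k (N * l))

theorem Nn_apply (aK bK : modularFunctionFieldFullC k N →+* modularFunctionFieldFullC k (N * l))
    (φ : modularFunctionFieldFullC k N) :
    Nn aK bK φ = (letI := aK.toAlgebra
      Algebra.norm (modularFunctionFieldFullC k N) (bK φ)) := rfl

theorem Nn_ne_zero (aK bK : modularFunctionFieldFullC k N →+* modularFunctionFieldFullC k (N * l))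
    (hfinK : letI := aK.toAlgebra
      FiniteDimensional (modularFunctionFieldFullC k N) (modularFunctionFieldFullC k (N * l)))
    {φ : modularFunctionFieldFullC k N} (hφ : φ ≠ 0) : Nn aK bK φ ≠ 0 := by
  letI := aK.toAlgebra
  haveI : FiniteDimensional (modularFunctionFieldFullC k N)
    (modularFunctionFieldFullC k (N * l)) := hfinK
  haveI : Module.Free (modularFunctionFieldFullC k N) (modularFunctionFieldFullC k (N * l)) :=
    Module.Free.of_divisionRing _ _
  rw [Nn_apply, Algebra.norm_ne_zero_iff]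
  exact (map_ne_zero bK).2 hφ

end Def

/-! ### Good level -/

section Good

variable {L : Type} [Field L] [Algebra ℚ L] [IsAlgClosed L] (A : ValuationSubring L)
  {k : Type} [Field k] (π : A →+* k) [IsAlgClosed k] (p : ℕ) [Fact p.Prime] [CharP k p]
  (N l : ℕ) [NeZero N] [NeZero l] (hπ : Function.Surjective π) (hpN : ¬ p ∣ N)
  (hpNl : ¬ p ∣ N * l)

include hπ hpN hpNl in
/-- **Claim (B)** in terms of `Nn`. -/
theorem dlog_Nn (hl : l.Prime) (hlN : ¬ l ∣ N) (hlk : (l : k) ≠ 0)
    (aK bK : modularFunctionFieldFullC k N →+* modularFunctionFieldFullC k (N * l))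
    (haK : ∀ u, ((aK u : modularFunctionFieldFullC k (N * l)) : LaurentSeries k) =
      (u : LaurentSeries k))
    (hbK : ∀ u, ((bK u : modularFunctionFieldFullC k (N * l)) : LaurentSeries k) =
      qExpand k l (u : LaurentSeries k))
    (hfinK : letI := aK.toAlgebra
      FiniteDimensional (modularFunctionFieldFullC k N) (modularFunctionFieldFullC k (N * l)))
    (hdegK : l + 1 ≤
      (letI := aK.toAlgebra
       Module.finrank (modularFunctionFieldFullC k N) (modularFunctionFieldFullC k (N * l))))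
    {φ : modularFunctionFieldFullC k N} (hφ : φ ≠ 0) :
    dlog ((Nn aK bK φ : modularFunctionFieldFullC k N) : LaurentSeries k) =
      heckeT l (dlog (φ : LaurentSeries k)) :=
  NormQK.dlog_norm_eq_heckeT_of_isAlgClosed A π p N l hπ hpN hpNl hl hlN hlk aK bK haK hbK hfinK
    hdegK hφ

include hπ hpN hpNl in
/-- **D-HECKE at `Fk k N`**: an eigenvector `dlog φ` of `T_l` with eigenvalue `a : ℤ` gives
`Nn φ = φ ^ a * u ^ p`. -/
theorem exists_Nn_eq_zpow_mul_pow (h4 : 4 ∣ N) (hl : l.Prime) (hlN : ¬ l ∣ N) (hlk : (l : k) ≠ 0)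
    (aK bK : modularFunctionFieldFullC k N →+* modularFunctionFieldFullC k (N * l))
    (haK : ∀ u, ((aK u : modularFunctionFieldFullC k (N * l)) : LaurentSeries k) =
      (u : LaurentSeries k))
    (hbK : ∀ u, ((bK u : modularFunctionFieldFullC k (N * l)) : LaurentSeries k) =
      qExpand k l (u : LaurentSeries k))
    (hfinK : letI := aK.toAlgebra
      FiniteDimensional (modularFunctionFieldFullC k N) (modularFunctionFieldFullC k (N * l)))
    (hdegK : l + 1 ≤
      (letI := aK.toAlgebra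
       Module.finrank (modularFunctionFieldFullC k N) (modularFunctionFieldFullC k (N * l))))
    {φ : modularFunctionFieldFullC k N} (hφ : φ ≠ 0) {a : ℤ}
    (heig : heckeT l (dlog (φ : LaurentSeries k)) =
      (a : LaurentSeries k) * dlog (φ : LaurentSeries k)) :
    ∃ u : modularFunctionFieldFullC k N, u ≠ 0 ∧ Nn aK bK φ = φ ^ a * u ^ p := by
  have hNk : ((N : ℕ) : k) ≠ 0 := fun h0 => hpN ((CharP.cast_eq_zero_iff k p N).1 h0)
  haveI := isSeparable_tFk (k := k) (N := N) h4 hNk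
  refine HeckeAbs.exists_eq_mul_pow_of_dl_eq (Dq := thetaDer k N) (dl := dl k N) p
    (L4.tFk h4 hNk) (thetaDer_tFk_ne_zero h4 hNk) (fun f hf => smul_dl f hf)
    (Nn_ne_zero aK bK hfinK hφ) hφ ?_
  rw [dl_def, dl_def, dlog_Nn A π p N l hπ hpN hpNl hl hlN hlk aK bK haK hbK hfinK hdegK hφ, heig,
    zsmul_eq_mul]

include hπ hpN hpNl in
/-- **D-HECKE for the reference function** `Ū = Δ̄^(1-p)`: `Nn Ū = Ū ^ (l + 1) * u ^ p`. -/
theorem exists_Nn_Ubar_eq (h4 : 4 ∣ N) (hp2 : p ≠ 2) (hl : l.Prime) (hlN : ¬ l ∣ N)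
    (hlk : (l : k) ≠ 0)
    (aK bK : modularFunctionFieldFullC k N →+* modularFunctionFieldFullC k (N * l))
    (haK : ∀ u, ((aK u : modularFunctionFieldFullC k (N * l)) : LaurentSeries k) =
      (u : LaurentSeries k))
    (hbK : ∀ u, ((bK u : modularFunctionFieldFullC k (N * l)) : LaurentSeries k) =
      qExpand k l (u : LaurentSeries k))
    (hfinK : letI := aK.toAlgebra
      FiniteDimensional (modularFunctionFieldFullC k N) (modularFunctionFieldFullC k (N * l)))
    (hdegK : l + 1 ≤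
      (letI := aK.toAlgebra
       Module.finrank (modularFunctionFieldFullC k N) (modularFunctionFieldFullC k (N * l)))) :
    ∃ u : modularFunctionFieldFullC k N, u ≠ 0 ∧
      Nn aK bK (RefQ.UbarF k p hp2 N) = RefQ.UbarF k p hp2 N ^ (l + 1) * u ^ p := by
  have heig : heckeT l (dlog ((RefQ.UbarF k p hp2 N : modularFunctionFieldFullC k N) :
      LaurentSeries k)) = (((l + 1 : ℕ) : ℤ) : LaurentSeries k) *
        dlog ((RefQ.UbarF k p hp2 N : modularFunctionFieldFullC k N) : LaurentSeries k) := by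
    rw [RefQ.UbarF_val, RefQ.heckeT_dlog_Ubar k p hl, Int.cast_natCast]
  obtain ⟨u, hu, h⟩ := exists_Nn_eq_zpow_mul_pow A π p N l hπ hpN hpNl h4 hl hlN hlk aK bK haK hbK
    hfinK hdegK (RefQ.UbarF_ne_zero k p hp2 N) heig
  exact ⟨u, hu, by rw [h, zpow_natCast]⟩

end Good

/-! ### The level `M q`: Kummer functions of Hecke eigenclasses -/

section LevelMq

open Fermat.Agent.S34x.TwoVal Fermat.Agent.S34x.Inst.RedSetupInst IsLocalRing
open Fermat.Agent.S40x.C2.KH

local notation "Qb" => AlgebraicClosure ℚ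

variable {A : ValuationSubring Qb} {k : Type} [Field k] {π : A →+* k} [IsAlgClosed k]
variable {M q : ℕ} [NeZero M] [Fact q.Prime] [CharP k q]
variable {hdeg : finrankAlong Qb (heckeAlphaBar Qb M q) = q + 1} {hq : q.Prime} {hqM : ¬ q ∣ M}
variable {hrk : ∀ x ∈ maximalIdeal A, ∀ c : A, c ≠ 0 → ∃ j : ℕ, c ∣ x ^ j}
  {hπ : Function.Surjective π}

/-- **KH-a reduced to functions**: `T_ℓ x = a • x`, `f` a Kummer function of `x` (exponent `q`),
unit at `v_∞`: `Nn f̄ = f̄ ^ a * u ^ q` in `Fk k M`, `f̄ = resInfty f`. -/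
theorem exists_Nn_resInfty_eq (H : ResidueFacts A π M q hdeg hq hqM hrk hπ) (h4 : 4 ∣ M)
    {ℓ : ℕ} [NeZero ℓ] (hℓ : ℓ.Prime) (hℓN : ¬ ℓ ∣ M * q)
    (aK bK : modularFunctionFieldFullC k M →+* modularFunctionFieldFullC k (M * ℓ))
    (haK : ∀ u, ((aK u : modularFunctionFieldFullC k (M * ℓ)) : LaurentSeries k) =
      (u : LaurentSeries k))
    (hbK : ∀ u, ((bK u : modularFunctionFieldFullC k (M * ℓ)) : LaurentSeries k) =
      qExpand k ℓ (u : LaurentSeries k))
    (hfinK : letI := aK.toAlgebra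
      FiniteDimensional (modularFunctionFieldFullC k M) (modularFunctionFieldFullC k (M * ℓ)))
    (hdegK : ℓ + 1 ≤
      (letI := aK.toAlgebra
       Module.finrank (modularFunctionFieldFullC k M) (modularFunctionFieldFullC k (M * ℓ))))
    {x : Pic0 Qb (FL Qb (M * q))} {a : ℤ} (hx : heckeOperatorAlong Qb (M * q) ℓ x = a • x)
    {f : FL Qb (M * q)} (hf : IsKummerRep q x f)
    (hfU : (valInfty A π M q hrk hπ hqM).valuation f = 1) :
    ∃ (hfO : f ∈ valInfty A π M q hrk hπ hqM) (u : modularFunctionFieldFullC k M), u ≠ 0 ∧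
      Nn aK bK (resInfty H ⟨f, hfO⟩) = resInfty H ⟨f, hfO⟩ ^ a * u ^ q := by
  obtain ⟨hfO, heig⟩ := heckeT_dlog_resInfty_Qb H hℓ hℓN hx hf hfU
  have hℓM : ¬ ℓ ∣ M := fun h => hℓN (h.mul_right q)
  have hqℓ : q ≠ ℓ := fun h => hℓN (h ▸ dvd_mul_left q M)
  have hℓk : (ℓ : k) ≠ 0 := by
    intro h0
    have h1 : q ∣ ℓ := (CharP.cast_eq_zero_iff k q ℓ).mp h0
    exact hqℓ ((Nat.prime_dvd_prime_iff_eq (Fact.out : q.Prime) hℓ).mp h1)
  have hqMℓ : ¬ q ∣ M * ℓ := by
    intro h
    rcases (Fact.out : q.Prime).dvd_mul.1 h with h1 | h1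
    · exact hqM h1
    · exact hqℓ ((Nat.prime_dvd_prime_iff_eq (Fact.out : q.Prime) hℓ).mp h1)
  have hne : resInfty H ⟨f, hfO⟩ ≠ 0 := by
    obtain ⟨hx, hne⟩ := (valInfty_eq_one_iff A π M q hqM hrk hπ f).mp hfU
    intro h0
    apply hne
    have h1 := congrArg (fun z : modularFunctionFieldFullC k M => (z : LaurentSeries k)) h0
    exact h1
  obtain ⟨u, hu, h⟩ := exists_Nn_eq_zpow_mul_pow A π q M ℓ hπ hqM hqMℓ h4 hℓ hℓM hℓk aK bK haK hbK
    hfinK hdegK hne heig
  exact ⟨hfO, u, hu, h⟩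

end LevelMq

end Fermat.Agent.S40x.Diag.HeckeNn
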