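import Fermat.Agent.S40x.Diag.DegC
import Fermat.Agent.S40x.Diag.HeckeNn

/-!
# P-S44 (C2 / DIAG, D-HECKE): `Diag/HeckeNn` at the degeneracy maps of `Diag/DegC` (helper89)

Plumbing: helper61's `Diag/HeckeNn` takes the characteristic `p` degeneracy maps
`aK bK : Fk k N →+* Fk k (N l)` and the facts `hfinK`, `hdegK` as hypotheses.  Here they are
instantiated with `aK = DegC.alphaC`, `bK = DegC.betaC`, and `hfinK`, `hdegK` are discharged by
`DegC.finiteAlong_alphaC`, `DegC.finrankAlong_alphaC`.  The statements are hypothesis-free at a good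
level.

* `NnC k N l : Fk k N →* Fk k N`, the reduced Hecke operator `φ ↦ N_{alphaC} (betaC φ)` on
  functions (the `Nn` of `Diag/Abs.diag_zero`);
* `dlog_NnC` : `dlog (NnC φ) = T_l (dlog φ)`;
* `exists_NnC_eq_zpow_mul_pow` : `T_l (dlog φ) = a * dlog φ` ⟹ `NnC φ = φ ^ a * u ^ p`;
* `exists_NnC_Ubar_eq` : `NnC Ū = Ū ^ (l + 1) * u ^ p`;
* `exists_NnC_resInfty_eq` : at level `M q`, for a `T_ℓ`-eigenclass `x` (eigenvalue `a`) with
  Kummer function `f`, a unit at `v_∞`: `NnC f̄ = f̄ ^ a * u ^ q`, `f̄ = resInfty f`.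
-/

set_option autoImplicit false
set_option linter.style.haveILetI false
set_option linter.unusedSectionVars false

noncomputable section

namespace Fermat.Agent.S40x.Diag.HeckeNnInst

open ModularCurve AlgebraicCurve IntermediateField
open Fermat.Agent.Gateway.Hecke Fermat.Agent.Gateway.Red Fermat.Agent.Gateway.GoodRed
open Fermat.Agent.Gateway.Kummer
open Fermat.Agent.S40x.C2.DlogHecke
open Fermat.Agent.S40x.Diag.DegC

/-- the reduced Hecke operator on functions, `φ ↦ N_{alphaC} (betaC φ)`. -/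
def NnC (k : Type) [Field k] (N l : ℕ) [NeZero N] [NeZero l] :
    modularFunctionFieldFullC k N →* modularFunctionFieldFullC k N :=
  HeckeNn.Nn (alphaC k N l).toRingHom (betaC k N l).toRingHom

theorem NnC_apply {k : Type} [Field k] {N l : ℕ} [NeZero N] [NeZero l]
    (φ : modularFunctionFieldFullC k N) :
    NnC k N l φ = (letI := algebraAlong (alphaC k N l)
      Algebra.norm (modularFunctionFieldFullC k N) (betaC k N l φ)) := rfl

theorem NnC_eq_normAlong {k : Type} [Field k] {N l : ℕ} [NeZero N] [NeZero l]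
    (φ : modularFunctionFieldFullC k N) :
    NnC k N l φ = Fermat.Agent.Gateway.Kummer.normAlong (alphaC k N l) (betaC k N l φ) := rfl

section Good

variable {L : Type} [Field L] [Algebra ℚ L] [IsAlgClosed L] (A : ValuationSubring L)
  {k : Type} [Field k] (π : A →+* k) [IsAlgClosed k] (p : ℕ) [Fact p.Prime] [CharP k p]
  (N l : ℕ) [NeZero N] [NeZero l] (hπ : Function.Surjective π) (hpN : ¬ p ∣ N)
  (hpNl : ¬ p ∣ N * l)

omit [IsAlgClosed L] [IsAlgClosed k] [Fact p.Prime] in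
include hpNl in
theorem natCast_mul_ne_zero : ((N * l : ℕ) : k) ≠ 0 := fun h =>
  hpNl ((CharP.cast_eq_zero_iff k p (N * l)).mp h)

omit [IsAlgClosed L] [Fact p.Prime] in
include hpNl in
theorem NnC_ne_zero (hl : l.Prime) (hlN : ¬ l ∣ N) {φ : modularFunctionFieldFullC k N}
    (hφ : φ ≠ 0) : NnC k N l φ ≠ 0 :=
  HeckeNn.Nn_ne_zero _ _ (finiteAlong_alphaC hl hlN (natCast_mul_ne_zero (k := k) p N l hpNl)) hφ

include hπ hpN hpNl in
/-- **Claim (B)**: `dlog (NnC φ) = T_l (dlog φ)`. -/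
theorem dlog_NnC (hl : l.Prime) (hlN : ¬ l ∣ N) {φ : modularFunctionFieldFullC k N}
    (hφ : φ ≠ 0) :
    dlog ((NnC k N l φ : modularFunctionFieldFullC k N) : LaurentSeries k) =
      heckeT l (dlog (φ : LaurentSeries k)) := by
  have hk := natCast_mul_ne_zero (k := k) p N l hpNl
  exact HeckeNn.dlog_Nn A π p N l hπ hpN hpNl hl hlN (natCast_ne_zero_right hk)
    (alphaC k N l).toRingHom (betaC k N l).toRingHom (coe_alphaC k N l) (coe_betaC k N l)
    (finiteAlong_alphaC hl hlN hk) (finrankAlong_alphaC hl hlN hk).ge hφ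

include hπ hpN hpNl in
/-- **D-HECKE at `Fk k N`**: `T_l (dlog φ) = a * dlog φ` gives `NnC φ = φ ^ a * u ^ p`. -/
theorem exists_NnC_eq_zpow_mul_pow (h4 : 4 ∣ N) (hl : l.Prime) (hlN : ¬ l ∣ N)
    {φ : modularFunctionFieldFullC k N} (hφ : φ ≠ 0) {a : ℤ}
    (heig : heckeT l (dlog (φ : LaurentSeries k)) =
      (a : LaurentSeries k) * dlog (φ : LaurentSeries k)) :
    ∃ u : modularFunctionFieldFullC k N, u ≠ 0 ∧ NnC k N l φ = φ ^ a * u ^ p := by
  have hk := natCast_mul_ne_zero (k := k) p N l hpNl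
  exact HeckeNn.exists_Nn_eq_zpow_mul_pow A π p N l hπ hpN hpNl h4 hl hlN
    (natCast_ne_zero_right hk)
    (alphaC k N l).toRingHom (betaC k N l).toRingHom (coe_alphaC k N l) (coe_betaC k N l)
    (finiteAlong_alphaC hl hlN hk) (finrankAlong_alphaC hl hlN hk).ge hφ heig

include hπ hpN hpNl in
/-- **D-HECKE for the reference function** `Ū = Δ̄^(1-p)`: `NnC Ū = Ū ^ (l + 1) * u ^ p`. -/
theorem exists_NnC_Ubar_eq (h4 : 4 ∣ N) (hp2 : p ≠ 2) (hl : l.Prime) (hlN : ¬ l ∣ N) :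
    ∃ u : modularFunctionFieldFullC k N, u ≠ 0 ∧
      NnC k N l (RefQ.UbarF k p hp2 N) = RefQ.UbarF k p hp2 N ^ (l + 1) * u ^ p := by
  have hk := natCast_mul_ne_zero (k := k) p N l hpNl
  exact HeckeNn.exists_Nn_Ubar_eq A π p N l hπ hpN hpNl h4 hp2 hl hlN
    (natCast_ne_zero_right hk)
    (alphaC k N l).toRingHom (betaC k N l).toRingHom (coe_alphaC k N l) (coe_betaC k N l)
    (finiteAlong_alphaC hl hlN hk) (finrankAlong_alphaC hl hlN hk).ge

end Good

section LevelMq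

open Fermat.Agent.S34x.TwoVal Fermat.Agent.S34x.Inst.RedSetupInst IsLocalRing
open Fermat.Agent.S40x.C2.KH

local notation "Qb" => AlgebraicClosure ℚ

variable {A : ValuationSubring Qb} {k : Type} [Field k] {π : A →+* k} [IsAlgClosed k]
variable {M q : ℕ} [NeZero M] [Fact q.Prime] [CharP k q]
variable {hdeg : finrankAlong Qb (heckeAlphaBar Qb M q) = q + 1} {hq : q.Prime} {hqM : ¬ q ∣ M}
variable {hrk : ∀ x ∈ maximalIdeal A, ∀ c : A, c ≠ 0 → ∃ j : ℕ, c ∣ x ^ j}
  {hπ : Function.Surjective π}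

/-- **KH-a reduced to functions, hypothesis-free**: `T_ℓ x = a • x`, `f` a Kummer function of `x`
(exponent `q`) which is a unit at `v_∞`: `NnC f̄ = f̄ ^ a * u ^ q` in `Fk k M`, `f̄ = resInfty f`. -/
theorem exists_NnC_resInfty_eq (H : ResidueFacts A π M q hdeg hq hqM hrk hπ) (h4 : 4 ∣ M)
    {ℓ : ℕ} [NeZero ℓ] (hℓ : ℓ.Prime) (hℓN : ¬ ℓ ∣ M * q)
    {x : Pic0 Qb (FL Qb (M * q))} {a : ℤ} (hx : heckeOperatorAlong Qb (M * q) ℓ x = a • x)
    {f : FL Qb (M * q)} (hf : IsKummerRep q x f)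
    (hfU : (valInfty A π M q hrk hπ hqM).valuation f = 1) :
    ∃ (hfO : f ∈ valInfty A π M q hrk hπ hqM) (u : modularFunctionFieldFullC k M), u ≠ 0 ∧
      NnC k M ℓ (resInfty H ⟨f, hfO⟩) = resInfty H ⟨f, hfO⟩ ^ a * u ^ q := by
  have hℓM : ¬ ℓ ∣ M := fun h => hℓN (h.mul_right q)
  have hqℓ : q ≠ ℓ := fun h => hℓN (h ▸ dvd_mul_left q M)
  have hqMℓ : ¬ q ∣ M * ℓ := by
    intro h
    rcases (Fact.out : q.Prime).dvd_mul.1 h with h1 | h1
    · exact hqM h1
    · exact hqℓ ((Nat.prime_dvd_prime_iff_eq (Fact.out : q.Prime) hℓ).mp h1)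
  have hk : ((M * ℓ : ℕ) : k) ≠ 0 := fun h => hqMℓ ((CharP.cast_eq_zero_iff k q (M * ℓ)).mp h)
  exact HeckeNn.exists_Nn_resInfty_eq H h4 hℓ hℓN
    (alphaC k M ℓ).toRingHom (betaC k M ℓ).toRingHom (coe_alphaC k M ℓ) (coe_betaC k M ℓ)
    (finiteAlong_alphaC hℓ hℓM hk) (finrankAlong_alphaC hℓ hℓM hk).ge hx hf hfU

end LevelMq

end Fermat.Agent.S40x.Diag.HeckeNnInst
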