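import Fermat.Agent.S40x.Diag.KeyWrap
import Fermat.Agent.S40x.Diag.HeckeKerQ

/-!
# P-S44, block C2 / DIAG: seam D-HECKE -> abstract core (helper56)

Compiler-checked seam between the landed output of D-HECKE and the landed core of DIAG:

* `Diag/HeckeKer.lean`, `Diag/HeckeKerQ.lean`: `Nn f = f ^ a * u ^ p` with an INTEGER exponent `a`
  (from the `q`-expansion norm formula and `heckeT ℓ (dlog f) = a * dlog f`);
* `Diag/Abs.lean`: wants `Nn f = c₁ * f ^ a' * h ^ p` with a NATURAL exponent `a'`, a constant `c₁`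
  and `(a' : ZMod p) ≠ ℓ + 1`.

Here:

* `exists_abs_shape_of_zpow`: `g = f ^ a * u ^ p` (`a : ℤ`) gives the `Abs` shape with
  `c₁ = 1`, `a' = (a : ZMod p).val`;
* `diag_dvd_of_zpow`: `KeyWrap.diag_dvd_hecke` with the two Hecke hypotheses in the integer shape
  `normAlong ψ (φ fb) = fb ^ a * u ^ p`, `normAlong ψ (φ Ub) = Ub ^ (ℓ + 1) * u' ^ p` and
  `(a : ZMod p) ≠ ℓ + 1`;
* `diag_dvd_of_norm_formula`: the same with both hypotheses replaced by what `HeckeKerQ` consumes: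
  the `q`-expansion norm formula for `fb` and for `Ub` plus the two eigen-equations
  `heckeT ℓ (dlog fb) = a * dlog fb` (`a : ℤ`, the shape of `C2/KH/Main.heckeT_dlog_resInfty_Qb`),
  `heckeT ℓ (dlog Ub) = ((ℓ + 1 : ℕ) : k((q))) * dlog Ub` (the shape of `RefQB.heckeT_dlog_ref`
  and `E2Hecke`).
Nothing new is proved here.
-/

set_option autoImplicit false
set_option linter.unusedSectionVars false
set_option linter.style.haveILetI false

noncomputable section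

open AlgebraicCurve

namespace Fermat.Agent.S40x.Diag.HeckeWrap

open IntermediateField ModularCurve Fermat.Agent.Gateway.Kummer Fermat.Agent.S40x.Diag
  Fermat.Agent.S40x.C2.DlogHecke

section Shape

variable {K F : Type*} [Field K] [Field F] [Algebra K F]

/-- the integer shape `g = f ^ a * u ^ p` of D-HECKE gives the shape consumed by `Abs.diag_zero`:
`g = 1 * f ^ a' * h ^ p` with the natural representative `a' = (a : ZMod p).val`. -/
theorem exists_abs_shape_of_zpow (p : ℕ) [NeZero p] {f g u : F} {a : ℤ} (hf : f ≠ 0)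
    (hu : u ≠ 0) (hg : g = f ^ a * u ^ p) :
    ∃ c₁ h : F, c₁ ≠ 0 ∧ h ≠ 0 ∧ (∀ P : Place K F, P.ord c₁ = 0) ∧
      g = c₁ * f ^ ((a : ZMod p).val) * h ^ p := by
  obtain ⟨m, hm⟩ : (p : ℤ) ∣ a - (((a : ZMod p).val : ℕ) : ℤ) := by
    rw [← ZMod.intCast_zmod_eq_zero_iff_dvd, Int.cast_sub, Int.cast_natCast,
      ZMod.natCast_zmod_val, sub_self]
  refine ⟨1, f ^ m * u, one_ne_zero, mul_ne_zero (zpow_ne_zero m hf) hu,
    fun P => P.ord_one, ?_⟩
  have ha : a = (((a : ZMod p).val : ℕ) : ℤ) + m * (p : ℤ) := by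
    rw [mul_comm m, ← hm]; ring
  rw [hg, one_mul, mul_pow, ← mul_assoc]
  congr 1
  conv_lhs => rw [ha]
  rw [zpow_add₀ hf, zpow_natCast, zpow_mul, zpow_natCast]

end Shape

section Diag

variable {K F F' : Type*} [Field K] [Field F] [Field F'] [Algebra K F] [Algebra K F']
  [HasPrincipalDivisors K F']

/-- `KeyWrap.diag_dvd_hecke` with the Hecke hypotheses in the integer shape of D-HECKE. -/
theorem diag_dvd_of_zpow (p : ℕ) [Fact p.Prime] (φ ψ : F →ₐ[K] F')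
    (hφ : φ.toRingHom.IsIntegral) (hψ : ψ.toRingHom.IsIntegral) (hfin : FiniteAlong K ψ)
    (hsep : letI := algebraAlong ψ; Algebra.IsSeparable F F')
    (hdeg : ∀ w : Place K F', w.deg = 1) (y : F)
    (hint : IsIntegral (Algebra.adjoin K {ψ y}) (φ y))
    {fb Ub : F} (hfb : fb ≠ 0) (hUb : Ub ≠ 0) (a : ℤ) (l : ℕ)
    (hf : ∃ u : F, u ≠ 0 ∧ normAlong ψ (φ fb) = fb ^ a * u ^ p)
    (hU : ∃ u' : F, u' ≠ 0 ∧ normAlong ψ (φ Ub) = Ub ^ ((l : ℤ) + 1) * u' ^ p)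
    (S : Set (Place K F)) (c e₀ : ZMod p)
    (hslope : ∀ P : Place K F, 0 ≤ P.ord y → P ∈ S → Abs.ordMod p P fb = c)
    (hslope' : ∀ P : Place K F, 0 ≤ P.ord y → P ∉ S → Abs.ordMod p P fb = 0)
    (href : ∀ P : Place K F, 0 ≤ P.ord y → P ∈ S → Abs.ordMod p P Ub = e₀)
    (href' : ∀ P : Place K F, 0 ≤ P.ord y → P ∉ S → Abs.ordMod p P Ub = 0)
    (he₀ : e₀ ≠ 0)
    (hNE : (a : ZMod p) ≠ (l : ZMod p) + 1) :
    ∀ P : Place K F, 0 ≤ P.ord y → (p : ℤ) ∣ P.ord fb := by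
  haveI : NeZero p := ⟨(Fact.out : p.Prime).ne_zero⟩
  obtain ⟨u, hu, hfu⟩ := hf
  obtain ⟨u', hu', hUu⟩ := hU
  refine KeyWrap.diag_dvd_hecke p φ ψ hφ hψ hfin hsep hdeg y hint hfb hUb ((a : ZMod p).val) l
    (exists_abs_shape_of_zpow p hfb hu hfu) ⟨1, u', one_ne_zero, hu', fun P => P.ord_one, ?_⟩
    S c e₀ hslope hslope' href href' he₀ ?_
  · rw [hUu, one_mul, ← zpow_natCast Ub (l + 1), Nat.cast_add, Nat.cast_one]
  · rwa [ZMod.natCast_zmod_val]

/-- the Hecke operator preserves nonzero functions. -/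
theorem normAlong_comp_ne_zero (φ ψ : F →ₐ[K] F') (hfin : FiniteAlong K ψ) {f : F} (hf : f ≠ 0) :
    normAlong ψ (φ f) ≠ 0 := by
  letI := algebraAlong ψ
  haveI : Module.Finite F F' := hfin
  change Algebra.norm F (φ f) ≠ 0
  rw [Algebra.norm_ne_zero_iff]
  exact (map_ne_zero φ).mpr hf

variable [Module F (LaurentSeries K)]

/-- **DIAG from the `q`-expansion norm formula.**  `KeyWrap.diag_dvd_hecke` with the two Hecke
hypotheses replaced by the input of `HeckeKerQ`: the `q`-expansion norm formula for `fb` and `Ub`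
and the eigen-equations of `dlog fb`, `dlog Ub`. -/
theorem diag_dvd_of_norm_formula (p : ℕ) [Fact p.Prime] [CharP K p] [PerfectField K]
    (t : F) [Algebra.IsSeparable K⟮t⟯ F] (Dq : Derivation K F (LaurentSeries K))
    (hDt : Dq t ≠ 0) (ι : F → LaurentSeries K)
    (hdl : ∀ f : F, f ≠ 0 → f • dlog (ι f) = Dq f) (φ ψ : F →ₐ[K] F')
    (hφ : φ.toRingHom.IsIntegral) (hψ : ψ.toRingHom.IsIntegral) (hfin : FiniteAlong K ψ)
    (hsep : letI := algebraAlong ψ; Algebra.IsSeparable F F')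
    (hdeg : ∀ w : Place K F', w.deg = 1) (y : F)
    (hint : IsIntegral (Algebra.adjoin K {ψ y}) (φ y))
    {l : ℕ} [NeZero l] (hlK : (l : K) ≠ 0) {ζ : Kˣ} (hζ : IsPrimitiveRoot ζ l)
    {fb Ub : F} (hfb : fb ≠ 0) (hUb : Ub ≠ 0) (hιf : ι fb ≠ 0) (hιU : ι Ub ≠ 0)
    (hNf : qExpand K l (ι (normAlong ψ (φ fb))) =
      qExpand K l (qExpand K l (ι fb)) * ∏ b ∈ Finset.range l, twist (ζ ^ b) (ι fb))
    (hNU : qExpand K l (ι (normAlong ψ (φ Ub))) =
      qExpand K l (qExpand K l (ι Ub)) * ∏ b ∈ Finset.range l, twist (ζ ^ b) (ι Ub))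
    (a : ℤ)
    (heigf : heckeT l (dlog (ι fb)) = (a : LaurentSeries K) * dlog (ι fb))
    (heigU : heckeT l (dlog (ι Ub)) = ((l + 1 : ℕ) : LaurentSeries K) * dlog (ι Ub))
    (S : Set (Place K F)) (c e₀ : ZMod p)
    (hslope : ∀ P : Place K F, 0 ≤ P.ord y → P ∈ S → Abs.ordMod p P fb = c)
    (hslope' : ∀ P : Place K F, 0 ≤ P.ord y → P ∉ S → Abs.ordMod p P fb = 0)
    (href : ∀ P : Place K F, 0 ≤ P.ord y → P ∈ S → Abs.ordMod p P Ub = e₀)
    (href' : ∀ P : Place K F, 0 ≤ P.ord y → P ∉ S → Abs.ordMod p P Ub = 0)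
    (he₀ : e₀ ≠ 0)
    (hNE : (a : ZMod p) ≠ (l : ZMod p) + 1) :
    ∀ P : Place K F, 0 ≤ P.ord y → (p : ℤ) ∣ P.ord fb := by
  refine diag_dvd_of_zpow p φ ψ hφ hψ hfin hsep hdeg y hint hfb hUb a l ?_ ?_ S c e₀
    hslope hslope' href href' he₀ hNE
  · exact HeckeKerQ.exists_eq_zpow_mul_pow_of_norm_formula p t Dq hDt ι hdl hlK hζ hfb
      hιf (normAlong_comp_ne_zero φ ψ hfin hfb) hNf heigf
  · exact HeckeKerQ.exists_eq_zpow_mul_pow_of_norm_formula p t Dq hDt ι hdl hlK hζ hUb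
      hιU (normAlong_comp_ne_zero φ ψ hfin hUb) hNU (by rw [heigU]; push_cast; rfl)

end Diag

end Fermat.Agent.S40x.Diag.HeckeWrap
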