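import Fermat.Agent.S40x.Diag.Key
import Fermat.Agent.S40x.Diag.Abs

/-!
# P-S44, block C2 / DIAG: seam (KEY') -> abstract core (helper56)

Compiler-checked seam between the two landed halves of DIAG:

* `Diag/Key.lean` (helper94): `p ∣ ord` off the cusps is preserved by `u ↦ normAlong ψ (φ u)`;
* `Diag/Abs.lean` (helper71): `diag_zero` / `diag_dvd` for an abstract `Nn : κ →* κ` with the
  hypothesis `hkey`.

Here: `heckeNorm φ ψ : F →* F`, `u ↦ normAlong ψ (φ u)` as a monoid homomorphism, the hypothesis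
`hkey` of `Abs.diag_zero` for it in exactly the shape of `Abs` (predicate form, and the form
"`φ y` integral over `K[ψ y]`" with `NC P := 0 ≤ P.ord y`), and `diag_zero` / `diag_dvd` with
`Nn := heckeNorm φ ψ` plugged in.  In the application `ψ = ᾱ` is the inclusion of levels, `φ = β̄`,
`y = j̄`.  Nothing new is proved here.
-/

set_option autoImplicit false
set_option linter.unusedSectionVars false
set_option linter.style.haveILetI false

noncomputable section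

open AlgebraicCurve

namespace Fermat.Agent.S40x.Diag.KeyWrap

open Fermat.Agent.Gateway.Kummer Fermat.Agent.S40x.Diag

variable {K F F' : Type*} [Field K] [Field F] [Field F'] [Algebra K F] [Algebra K F']

/-- the Hecke operator on functions, `u ↦ Norm_ψ (φ u)`, as a monoid homomorphism. -/
def heckeNorm (φ ψ : F →ₐ[K] F') : F →* F where
  toFun u := normAlong ψ (φ u)
  map_one' := by
    letI := algebraAlong ψ
    change Algebra.norm F (φ 1) = 1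
    rw [map_one, map_one]
  map_mul' a b := by
    letI := algebraAlong ψ
    change Algebra.norm F (φ (a * b)) = Algebra.norm F (φ a) * Algebra.norm F (φ b)
    rw [map_mul, map_mul]

@[simp] theorem heckeNorm_apply (φ ψ : F →ₐ[K] F') (u : F) :
    heckeNorm φ ψ u = normAlong ψ (φ u) := rfl

variable [HasPrincipalDivisors K F']

/-- **(KEY') in the shape of `Abs.diag_zero`**, predicate form. -/
theorem hkey_of_pred (NC : Place K F → Prop) (φ ψ : F →ₐ[K] F')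
    (hφ : φ.toRingHom.IsIntegral) (hψ : ψ.toRingHom.IsIntegral) (hfin : FiniteAlong K ψ)
    (hsep : letI := algebraAlong ψ; Algebra.IsSeparable F F')
    (hdeg : ∀ w : Place K F', w.deg = 1)
    (hNC : ∀ W : Place K F', NC (W.restrictAlong ψ hψ) → NC (W.restrictAlong φ hφ))
    (p : ℕ) :
    ∀ g : F, g ≠ 0 → (∀ P, NC P → (p : ℤ) ∣ P.ord g) →
      ∀ P, NC P → (p : ℤ) ∣ P.ord (heckeNorm φ ψ g) :=
  fun _ hg hup P hP =>
    Key.dvd_ord_normAlong_comp_of_pred NC φ ψ hφ hψ hfin hsep hdeg hNC p hg hup P hP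

/-- **(KEY') in the shape of `Abs.diag_zero`** for `NC P := 0 ≤ P.ord y`, from the modular
equation "`φ y` is integral over `K[ψ y]`". -/
theorem hkey_of_isIntegral (φ ψ : F →ₐ[K] F')
    (hφ : φ.toRingHom.IsIntegral) (hψ : ψ.toRingHom.IsIntegral) (hfin : FiniteAlong K ψ)
    (hsep : letI := algebraAlong ψ; Algebra.IsSeparable F F')
    (hdeg : ∀ w : Place K F', w.deg = 1) (y : F)
    (hint : IsIntegral (Algebra.adjoin K {ψ y}) (φ y)) (p : ℕ) :
    ∀ g : F, g ≠ 0 → (∀ P : Place K F, 0 ≤ P.ord y → (p : ℤ) ∣ P.ord g) →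
      ∀ P : Place K F, 0 ≤ P.ord y → (p : ℤ) ∣ P.ord (heckeNorm φ ψ g) :=
  hkey_of_pred (fun P => 0 ≤ P.ord y) φ ψ hφ hψ hfin hsep hdeg
    (fun W h => Key.ord_restrictAlong_nonneg_of_isIntegral φ ψ hφ hψ y hint W h) p

/-- `Abs.diag_zero` with `Nn := heckeNorm φ ψ` and `NC P := 0 ≤ P.ord y`. -/
theorem diag_zero_hecke (p : ℕ) [Fact p.Prime] (φ ψ : F →ₐ[K] F')
    (hφ : φ.toRingHom.IsIntegral) (hψ : ψ.toRingHom.IsIntegral) (hfin : FiniteAlong K ψ)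
    (hsep : letI := algebraAlong ψ; Algebra.IsSeparable F F')
    (hdeg : ∀ w : Place K F', w.deg = 1) (y : F)
    (hint : IsIntegral (Algebra.adjoin K {ψ y}) (φ y))
    {fb Ub : F} (hfb : fb ≠ 0) (hUb : Ub ≠ 0) (a l : ℕ)
    (hf : ∃ c₁ h : F, c₁ ≠ 0 ∧ h ≠ 0 ∧ (∀ P : Place K F, P.ord c₁ = 0) ∧
      normAlong ψ (φ fb) = c₁ * fb ^ a * h ^ p)
    (hU : ∃ c₂ h' : F, c₂ ≠ 0 ∧ h' ≠ 0 ∧ (∀ P : Place K F, P.ord c₂ = 0) ∧
      normAlong ψ (φ Ub) = c₂ * Ub ^ (l + 1) * h' ^ p)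
    (S : Set (Place K F)) (c e₀ : ZMod p)
    (hslope : ∀ P : Place K F, 0 ≤ P.ord y → P ∈ S → Abs.ordMod p P fb = c)
    (hslope' : ∀ P : Place K F, 0 ≤ P.ord y → P ∉ S → Abs.ordMod p P fb = 0)
    (href : ∀ P : Place K F, 0 ≤ P.ord y → P ∈ S → Abs.ordMod p P Ub = e₀)
    (href' : ∀ P : Place K F, 0 ≤ P.ord y → P ∉ S → Abs.ordMod p P Ub = 0)
    (he₀ : e₀ ≠ 0) (hS : ∃ P : Place K F, P ∈ S ∧ 0 ≤ P.ord y)
    (hNE : (a : ZMod p) ≠ (l : ZMod p) + 1) : c = 0 :=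
  Abs.diag_zero p (fun P => 0 ≤ P.ord y) (heckeNorm φ ψ)
    (hkey_of_isIntegral φ ψ hφ hψ hfin hsep hdeg y hint p) hfb hUb a l hf hU S c e₀
    hslope hslope' href href' he₀ hS hNE

/-- `Abs.diag_dvd` with `Nn := heckeNorm φ ψ` and `NC P := 0 ≤ P.ord y`: all orders of `fb` at the
places with `0 ≤ ord y` are divisible by `p`. -/
theorem diag_dvd_hecke (p : ℕ) [Fact p.Prime] (φ ψ : F →ₐ[K] F')
    (hφ : φ.toRingHom.IsIntegral) (hψ : ψ.toRingHom.IsIntegral) (hfin : FiniteAlong K ψ)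
    (hsep : letI := algebraAlong ψ; Algebra.IsSeparable F F')
    (hdeg : ∀ w : Place K F', w.deg = 1) (y : F)
    (hint : IsIntegral (Algebra.adjoin K {ψ y}) (φ y))
    {fb Ub : F} (hfb : fb ≠ 0) (hUb : Ub ≠ 0) (a l : ℕ)
    (hf : ∃ c₁ h : F, c₁ ≠ 0 ∧ h ≠ 0 ∧ (∀ P : Place K F, P.ord c₁ = 0) ∧
      normAlong ψ (φ fb) = c₁ * fb ^ a * h ^ p)
    (hU : ∃ c₂ h' : F, c₂ ≠ 0 ∧ h' ≠ 0 ∧ (∀ P : Place K F, P.ord c₂ = 0) ∧
      normAlong ψ (φ Ub) = c₂ * Ub ^ (l + 1) * h' ^ p)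
    (S : Set (Place K F)) (c e₀ : ZMod p)
    (hslope : ∀ P : Place K F, 0 ≤ P.ord y → P ∈ S → Abs.ordMod p P fb = c)
    (hslope' : ∀ P : Place K F, 0 ≤ P.ord y → P ∉ S → Abs.ordMod p P fb = 0)
    (href : ∀ P : Place K F, 0 ≤ P.ord y → P ∈ S → Abs.ordMod p P Ub = e₀)
    (href' : ∀ P : Place K F, 0 ≤ P.ord y → P ∉ S → Abs.ordMod p P Ub = 0)
    (he₀ : e₀ ≠ 0)
    (hNE : (a : ZMod p) ≠ (l : ZMod p) + 1) :
    ∀ P : Place K F, 0 ≤ P.ord y → (p : ℤ) ∣ P.ord fb :=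
  Abs.diag_dvd p (fun P => 0 ≤ P.ord y) (heckeNorm φ ψ)
    (hkey_of_isIntegral φ ψ hφ hψ hfin hsep hdeg y hint p) hfb hUb a l hf hU S c e₀
    hslope hslope' href href' he₀ hNE

end Fermat.Agent.S40x.Diag.KeyWrap
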