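/-
helper43 (P-S44, block C2/DIAG, leaf D-REFORD): the orders of the reference function
`Rb = (θ x̄ / x̄)^(p-1)` (hence of `Ub = Δ̄^(1-p)`) at the non-cuspidal places: `-2` (resp. `12`) at
the node places, `0` elsewhere.

* Part 1 (polynomial algebra, on top of helper84's `Thick/RatOrders`): in the situation of
  `RatOrders.dvd_of_natDegree_le` (`δ = A/B`, `δ' = X^e (Num/Den - 1)`, the poles of `δ` away from
  `0, c` among the zeros of `H`, `2 deg H ≤ m`) the function `Num/Den` is EXACTLY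
  `u (X - c)^m / H^2`:  `Num * H^2 = C u * (X - C c)^m * Den`, and `H ∣ B`.
* Part 2 (places): if `t - a` is a uniformiser at the place `P` then `ord_P (g(t))` is the root
  multiplicity of `g` at `a`; hence for `Rb H(t)^2 = u (t - c)^m`, `H` squarefree, `a ≠ c`:
  `ord_P Rb = -2` if `H(a) = 0` and `0` otherwise; and for
  `Ub = ((t - c)^2 / t)^(p-1) Rb^(-6)`, `a ≠ 0`: `ord_P Ub = 12` resp. `0`.
-/
import Mathlib
import Fermat.Agent.S24.AddVal
import Fermat.Agent.S40x.Thick.RatOrders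

set_option autoImplicit false
set_option linter.unusedSectionVars false

namespace Fermat.Agent.S40x.Diag.RefOrd

open Polynomial AlgebraicCurve

/-! ### Part 1: the exact shape of `Num/Den` -/

section Poly

variable {k : Type*} [Field k]

open Fermat.Agent.S40x.Thick.RatOrders in
/-- **exact form of the reference function.**  In the situation of
`RatOrders.dvd_of_natDegree_le`: `Num/Den = u (X - c)^m / H^2`. -/
theorem exists_ref_form (e m : ℕ) (c : k) (A B Num Den H : k[X]) (a b : ℕ) (hH : H ≠ 0)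
    (hDen0 : Den.eval 0 ≠ 0) (hDenc : Den.eval c ≠ 0)
    (hNum0 : Num ≠ 0) (hNum : (X - C c) ^ m ∣ Num) (hdeg : Num.natDegree ≤ Den.natDegree)
    (hrel : (derivative A * B - A * derivative B) * Den = X ^ e * (Num - Den) * B ^ 2)
    (hden : B ∣ X ^ a * (X - C c) ^ b * H)
    (hS : 2 * H.natDegree ≤ m) :
    ∃ u : k, u ≠ 0 ∧ Num * H ^ 2 = C u * (X - C c) ^ m * Den := by
  obtain ⟨g, n, d, hg, hn, hd, hnd, hdB⟩ := core_dvd e A B Num Den hDen0 hrel
  have hn0 : n ≠ 0 := by
    rintro rfl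
    exact hNum0 (by rw [hn, mul_zero])
  have hd0' : d ≠ 0 := by
    rintro rfl
    apply hDen0
    rw [hd, mul_zero, eval_zero]
  have hdeg' : n.natDegree ≤ d.natDegree := by
    rw [hn, hd, natDegree_mul hg hn0, natDegree_mul hg hd0'] at hdeg
    omega
  have hgc : g.eval c ≠ 0 := by
    intro h
    apply hDenc
    rw [hd, eval_mul, h, zero_mul]
  have hmn : (X - C c) ^ m ∣ n := by
    have h1 : IsCoprime ((X - C c) ^ m) g := (isCoprime_X_sub_C_of_eval_ne_zero hgc).pow_left
    rw [hn] at hNum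
    exact h1.dvd_of_dvd_mul_left hNum
  have hm : m ≤ n.natDegree := by
    have := natDegree_le_of_dvd hmn hn0
    rwa [natDegree_pow, natDegree_X_sub_C, mul_one] at this
  have hdc : d.eval c ≠ 0 := by
    intro h
    apply hDenc
    rw [hd, eval_mul, h, mul_zero]
  have hd0 : d.eval 0 ≠ 0 := by
    intro h
    apply hDen0
    rw [hd, eval_mul, h, mul_zero]
  have h2 : d ∣ (X ^ a * (X - C c) ^ b * H) ^ 2 := hdB.trans (pow_dvd_pow_of_dvd hden 2)
  have h3 : (X ^ a * (X - C c) ^ b * H) ^ 2 =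
      (X ^ (2 * a) * (X - C c) ^ (2 * b)) * H ^ 2 := by ring
  rw [h3] at h2
  have h4 : IsCoprime d (X ^ (2 * a) * (X - C c) ^ (2 * b)) := by
    apply IsCoprime.mul_right
    · have := isCoprime_X_sub_C_of_eval_ne_zero hd0
      rw [C_0, sub_zero] at this
      exact (this.pow_left).symm
    · exact ((isCoprime_X_sub_C_of_eval_ne_zero hdc).pow_left).symm
  have hdH : d ∣ H ^ 2 := h4.dvd_of_dvd_mul_left h2
  have hH2 : (H ^ 2).natDegree = 2 * H.natDegree := natDegree_pow H 2
  have hdle : d.natDegree ≤ 2 * H.natDegree := by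
    rw [← hH2]
    exact natDegree_le_of_dvd hdH (pow_ne_zero 2 hH)
  -- all degrees coincide
  have hnm : n.natDegree = m := by omega
  have hdm : d.natDegree = 2 * H.natDegree := by omega
  -- `n = C u * (X - c)^m`
  obtain ⟨n₁, hn₁⟩ := hmn
  have hn₁0 : n₁ ≠ 0 := by
    rintro rfl
    exact hn0 (by rw [hn₁, mul_zero])
  have hn₁deg : n₁.natDegree = 0 := by
    have h5 := congrArg natDegree hn₁
    rw [natDegree_mul (pow_ne_zero _ (X_sub_C_ne_zero c)) hn₁0, natDegree_pow,
      natDegree_X_sub_C, mul_one, hnm] at h5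
    omega
  obtain ⟨u, hu⟩ := natDegree_eq_zero.mp hn₁deg
  have hu0 : u ≠ 0 := by
    rintro rfl
    exact hn₁0 (by rw [← hu, C_0])
  -- `H^2 = C v * d`
  have hassoc : Associated d (H ^ 2) := by
    apply associated_of_dvd_of_natDegree_le hdH (pow_ne_zero 2 hH)
    rw [hH2, hdm]
  obtain ⟨w, hw⟩ := hassoc
  obtain ⟨v, hv0, hv⟩ : ∃ v : k, v ≠ 0 ∧ (w : k[X]) = C v := by
    have h5 := Polynomial.isUnit_iff.mp w.isUnit
    obtain ⟨v, hv, hv'⟩ := h5
    exact ⟨v, hv.ne_zero, hv'.symm⟩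
  refine ⟨u * v, mul_ne_zero hu0 hv0, ?_⟩
  rw [hn, ← hw, hv, hn₁, ← hu, hd, C_mul]
  ring

open Fermat.Agent.S40x.Thick.RatOrders in
/-- every zero of `H` is a pole of `δ` (re-export of `RatOrders.dvd_of_natDegree_le`), and away
from `0`, `c` the zeros of `B` are the zeros of `H`. -/
theorem isRoot_iff (e m : ℕ) (c : k) (A B Num Den H : k[X]) (a b : ℕ) (hH : H ≠ 0)
    (hDen0 : Den.eval 0 ≠ 0) (hDenc : Den.eval c ≠ 0)
    (hNum0 : Num ≠ 0) (hNum : (X - C c) ^ m ∣ Num) (hdeg : Num.natDegree ≤ Den.natDegree)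
    (hrel : (derivative A * B - A * derivative B) * Den = X ^ e * (Num - Den) * B ^ 2)
    (hden : B ∣ X ^ a * (X - C c) ^ b * H)
    (hS : 2 * H.natDegree ≤ m) {s : k} (hs0 : s ≠ 0) (hsc : s ≠ c) :
    B.IsRoot s ↔ H.IsRoot s := by
  have hHB := dvd_of_natDegree_le e m c A B Num Den H a b hH hDen0 hDenc hNum0 hNum hdeg hrel
    hden hS
  constructor
  · intro hB
    have h1 : (X ^ a * (X - C c) ^ b * H).IsRoot s := by
      obtain ⟨q, hq⟩ := hden
      rw [IsRoot, hq, eval_mul, hB, zero_mul]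
    rw [IsRoot, eval_mul, eval_mul, eval_pow, eval_pow, eval_X, eval_sub, eval_X, eval_C] at h1
    rcases mul_eq_zero.mp h1 with h2 | h2
    · exfalso
      rcases mul_eq_zero.mp h2 with h3 | h3
      · exact hs0 (pow_eq_zero_iff (by
          rintro rfl
          rw [pow_zero] at h3
          exact one_ne_zero h3) |>.mp h3)
      · exact hsc (sub_eq_zero.mp (pow_eq_zero_iff (by
          rintro rfl
          rw [pow_zero] at h3
          exact one_ne_zero h3) |>.mp h3))
    · exact h2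
  · intro hHs
    obtain ⟨q, hq⟩ := hHB
    rw [IsRoot, hq, eval_mul, hHs, zero_mul]

end Poly

/-! ### Part 2: orders at a place where `t - a` is a uniformiser -/

section Place

variable {k κ : Type*} [Field k] [Field κ] [Algebra k κ]

theorem ord_const (P : Place k κ) {a : k} (ha : a ≠ 0) : P.ord (algebraMap k κ a) = 0 :=
  (Fermat.Agent.S24.isAddVal_ord P).map_const a ha

theorem ne_zero_of_ord_ne_zero (P : Place k κ) {f : κ} (h : P.ord f ≠ 0) : f ≠ 0 := by
  rintro rfl
  exact h P.ord_zero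

/-- polynomials in a function regular at `P` are regular at `P` -/
theorem aeval_mem (P : Place k κ) {t : κ} (ht : t ∈ P.toValuationSubring) (g : k[X]) :
    aeval t g ∈ P.toValuationSubring := by
  induction g using Polynomial.induction_on' with
  | add p q hp hq =>
    rw [map_add]
    exact P.toValuationSubring.add_mem _ _ hp hq
  | monomial n a =>
    rw [aeval_monomial]
    exact P.toValuationSubring.mul_mem _ _ (P.algebraMap_mem' a)
      (P.toValuationSubring.pow_mem ht n)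

theorem mem_of_ord_sub_eq_one (P : Place k κ) {t : κ} {a : k}
    (hP : P.ord (t - algebraMap k κ a) = 1) : t ∈ P.toValuationSubring := by
  have h0 : t - algebraMap k κ a ≠ 0 := ne_zero_of_ord_ne_zero P (by rw [hP]; exact one_ne_zero)
  have h1 : t - algebraMap k κ a ∈ P.toValuationSubring := by
    rw [Fermat.Agent.S24.place_mem_iff_ord_nonneg P h0, hP]
    exact zero_le_one
  have : t = (t - algebraMap k κ a) + algebraMap k κ a := by ring
  rw [this]
  exact P.toValuationSubring.add_mem _ _ h1 (P.algebraMap_mem' a)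

/-- a polynomial not vanishing at `a` is a unit at a place with `t(P) = a` -/
theorem ord_aeval_of_eval_ne_zero (P : Place k κ) {t : κ} {a : k}
    (hP : P.ord (t - algebraMap k κ a) = 1) (g : k[X]) (hg : g.eval a ≠ 0) :
    aeval t g ≠ 0 ∧ P.ord (aeval t g) = 0 := by
  have h0 : t - algebraMap k κ a ≠ 0 := ne_zero_of_ord_ne_zero P (by rw [hP]; exact one_ne_zero)
  obtain ⟨h, hh⟩ : X - C a ∣ g - C (g.eval a) := X_sub_C_dvd_sub_C_eval
  have e1 : aeval t g = algebraMap k κ (g.eval a) + (t - algebraMap k κ a) * aeval t h := by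
    have := congrArg (aeval t) hh
    simp only [map_sub, map_mul, aeval_X, aeval_C] at this
    linear_combination this
  have hc0 : algebraMap k κ (g.eval a) ≠ 0 := by rwa [ne_eq, map_eq_zero]
  have hcord : P.ord (algebraMap k κ (g.eval a)) = 0 := ord_const P hg
  rcases eq_or_ne (aeval t h) 0 with h1 | h1
  · rw [e1, h1, mul_zero, add_zero]
    exact ⟨hc0, hcord⟩
  · have h2 : (t - algebraMap k κ a) * aeval t h ≠ 0 := mul_ne_zero h0 h1
    have h3 : 0 ≤ P.ord (aeval t h) :=
      (Fermat.Agent.S24.place_mem_iff_ord_nonneg P h1).mp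
        (aeval_mem P (mem_of_ord_sub_eq_one P hP) h)
    have h4 : P.ord (algebraMap k κ (g.eval a)) < P.ord ((t - algebraMap k κ a) * aeval t h) := by
      rw [hcord, P.ord_mul h0 h1, hP]
      omega
    have h5 := (Fermat.Agent.S24.isAddVal_ord P).map_add_of_lt hc0 h2 h4
    rw [← e1, hcord] at h5
    refine ⟨?_, h5⟩
    rw [e1]
    intro h6
    have h7 : algebraMap k κ (g.eval a) = -((t - algebraMap k κ a) * aeval t h) :=
      eq_neg_of_add_eq_zero_left h6
    rw [h7, (Fermat.Agent.S24.isAddVal_ord P).map_neg h2] at h4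
    exact lt_irrefl _ h4

/-- **the order of `g(t)` at a place where `t - a` is a uniformiser is the multiplicity of the
root `a` of `g`.** -/
theorem ord_aeval (P : Place k κ) {t : κ} {a : k} (hP : P.ord (t - algebraMap k κ a) = 1)
    (g : k[X]) (hg : g ≠ 0) :
    aeval t g ≠ 0 ∧ P.ord (aeval t g) = g.rootMultiplicity a := by
  have h0 : t - algebraMap k κ a ≠ 0 := ne_zero_of_ord_ne_zero P (by rw [hP]; exact one_ne_zero)
  obtain ⟨g₁, hg₁, hnd⟩ := exists_eq_pow_rootMultiplicity_mul_and_not_dvd g hg a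
  have hg₁a : g₁.eval a ≠ 0 := by
    intro h
    exact hnd (dvd_iff_isRoot.mpr h)
  obtain ⟨h1, h2⟩ := ord_aeval_of_eval_ne_zero P hP g₁ hg₁a
  have e1 : aeval t g = (t - algebraMap k κ a) ^ (g.rootMultiplicity a) * aeval t g₁ := by
    conv_lhs => rw [hg₁]
    rw [map_mul, map_pow, map_sub, aeval_X, aeval_C]
  have hpow : P.ord ((t - algebraMap k κ a) ^ (g.rootMultiplicity a)) = g.rootMultiplicity a := by
    have := P.ord_zpow (t - algebraMap k κ a) (g.rootMultiplicity a : ℤ)
    rw [zpow_natCast, hP, mul_one] at this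
    exact this
  refine ⟨?_, ?_⟩
  · rw [e1]
    exact mul_ne_zero (pow_ne_zero _ h0) h1
  · rw [e1, P.ord_mul (pow_ne_zero _ h0) h1, hpow, h2, add_zero]

/-- **REF-ORD for `Rb`.**  `Rb H(t)^2 = u (t - c)^m` with `H` squarefree; at a place `P` with
uniformiser `t - a`, `a ≠ c`: `ord_P Rb = -2` if `H(a) = 0`, `0` otherwise. -/
theorem ord_Rb (P : Place k κ) {t Rb : κ} {a c u : k} (hP : P.ord (t - algebraMap k κ a) = 1)
    (hac : a ≠ c) (hu : u ≠ 0) (m : ℕ) (H : k[X]) (hH : Squarefree H)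
    (hRb : Rb * aeval t H ^ 2 = algebraMap k κ u * (t - algebraMap k κ c) ^ m)
    [Decidable (H.IsRoot a)] :
    Rb ≠ 0 ∧ P.ord Rb = if H.IsRoot a then -2 else 0 := by
  have hH0 : H ≠ 0 := hH.ne_zero
  obtain ⟨hHt0, hHord⟩ := ord_aeval P hP H hH0
  -- `t - c` is a unit at `P`
  have hXc : (X - C c : k[X]).eval a ≠ 0 := by
    rw [eval_sub, eval_X, eval_C]
    exact sub_ne_zero.mpr hac
  obtain ⟨htc0, htcord⟩ := ord_aeval_of_eval_ne_zero P hP (X - C c) hXc
  rw [map_sub, aeval_X, aeval_C] at htc0 htcord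
  have hu0 : algebraMap k κ u ≠ 0 := by rwa [ne_eq, map_eq_zero]
  have hrhs0 : algebraMap k κ u * (t - algebraMap k κ c) ^ m ≠ 0 :=
    mul_ne_zero hu0 (pow_ne_zero _ htc0)
  have hRb0 : Rb ≠ 0 := by
    rintro rfl
    rw [zero_mul] at hRb
    exact hrhs0 hRb.symm
  refine ⟨hRb0, ?_⟩
  have hpowc : P.ord ((t - algebraMap k κ c) ^ m) = 0 := by
    have := P.ord_zpow (t - algebraMap k κ c) (m : ℤ)
    rw [zpow_natCast, htcord, mul_zero] at this
    exact this
  have hsq : P.ord (aeval t H ^ 2) = 2 * (H.rootMultiplicity a : ℤ) := by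
    have := P.ord_zpow (aeval t H) (2 : ℤ)
    rw [hHord] at this
    rw [← this]
    norm_cast
  have h1 := congrArg P.ord hRb
  rw [P.ord_mul hRb0 (pow_ne_zero _ hHt0), P.ord_mul hu0 (pow_ne_zero _ htc0), ord_const P hu,
    hpowc, hsq] at h1
  -- multiplicity of a root of a squarefree polynomial
  have hmult : H.rootMultiplicity a = if H.IsRoot a then 1 else 0 := by
    split_ifs with hr
    · have h2 : H.rootMultiplicity a ≤ 1 := by
        by_contra hcon
        rw [not_le] at hcon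
        have h3 : (X - C a) ^ 2 ∣ H :=
          (pow_dvd_pow _ hcon).trans (pow_rootMultiplicity_dvd H a)
        rw [pow_two] at h3
        exact (irreducible_X_sub_C a).not_isUnit (hH _ h3)
      have h3 : 0 < H.rootMultiplicity a := (rootMultiplicity_pos hH0).mpr hr
      omega
    · exact rootMultiplicity_eq_zero hr
  rw [hmult] at h1
  split_ifs with hr
  · rw [if_pos hr] at h1
    push_cast at h1
    omega
  · rw [if_neg hr] at h1
    push_cast at h1
    omega

/-- **REF-ORD for `Ub`.**  `Ub t^(p-1) Rb^6 = ((t - c)^2)^(p-1)`; at a place `P` with uniformiser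
`t - a`, `a ≠ 0`, `a ≠ c`: `ord_P Ub = 12` if `H(a) = 0`, `0` otherwise. -/
theorem ord_Ub (P : Place k κ) {t Rb Ub : κ} {a c u : k} (hP : P.ord (t - algebraMap k κ a) = 1)
    (ha0 : a ≠ 0) (hac : a ≠ c) (hu : u ≠ 0) (m n : ℕ) (H : k[X]) (hH : Squarefree H)
    (hRb : Rb * aeval t H ^ 2 = algebraMap k κ u * (t - algebraMap k κ c) ^ m)
    (hUb : Ub * (t ^ n * Rb ^ 6) = ((t - algebraMap k κ c) ^ 2) ^ n)
    [Decidable (H.IsRoot a)] :
    P.ord Ub = if H.IsRoot a then 12 else 0 := by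
  obtain ⟨hRb0, hRbord⟩ := ord_Rb P hP hac hu m H hH hRb
  have hXc : (X - C c : k[X]).eval a ≠ 0 := by
    rw [eval_sub, eval_X, eval_C]
    exact sub_ne_zero.mpr hac
  obtain ⟨htc0, htcord⟩ := ord_aeval_of_eval_ne_zero P hP (X - C c) hXc
  rw [map_sub, aeval_X, aeval_C] at htc0 htcord
  have hX : (X : k[X]).eval a ≠ 0 := by rwa [eval_X]
  obtain ⟨ht0, htord⟩ := ord_aeval_of_eval_ne_zero P hP X hX
  rw [aeval_X] at ht0 htord
  have hrhs0 : ((t - algebraMap k κ c) ^ 2) ^ n ≠ 0 := pow_ne_zero _ (pow_ne_zero _ htc0)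
  have hUb0 : Ub ≠ 0 := by
    rintro rfl
    rw [zero_mul] at hUb
    exact hrhs0 hUb.symm
  have e1 : P.ord (((t - algebraMap k κ c) ^ 2) ^ n) = 0 := by
    rw [← pow_mul]
    have := P.ord_zpow (t - algebraMap k κ c) ((2 * n : ℕ) : ℤ)
    rw [zpow_natCast, htcord, mul_zero] at this
    exact this
  have e2 : P.ord (t ^ n) = 0 := by
    have := P.ord_zpow t (n : ℤ)
    rw [zpow_natCast, htord, mul_zero] at this
    exact this
  have e3 : P.ord (Rb ^ 6) = 6 * P.ord Rb := by
    have := P.ord_zpow Rb (6 : ℤ)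
    rw [← this]
    norm_cast
  have h1 := congrArg P.ord hUb
  rw [P.ord_mul hUb0 (mul_ne_zero (pow_ne_zero _ ht0) (pow_ne_zero _ hRb0)),
    P.ord_mul (pow_ne_zero _ ht0) (pow_ne_zero _ hRb0), e1, e2, e3, hRbord] at h1
  split_ifs with hr
  · rw [if_pos hr] at h1
    omega
  · rw [if_neg hr] at h1
    omega

/-- from the polynomial identity to the identity in the function field -/
theorem rb_rel {t Rb : κ} {Num Den H : k[X]} {u c : k} {m : ℕ}
    (hpoly : Num * H ^ 2 = C u * (X - C c) ^ m * Den) (hden0 : aeval t Den ≠ 0)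
    (hRbdef : aeval t Den * Rb = aeval t Num) :
    Rb * aeval t H ^ 2 = algebraMap k κ u * (t - algebraMap k κ c) ^ m := by
  apply mul_left_cancel₀ hden0
  have h1 := congrArg (aeval t) hpoly
  simp only [map_mul, map_pow, map_sub, aeval_X, aeval_C] at h1
  calc aeval t Den * (Rb * aeval t H ^ 2) = (aeval t Den * Rb) * aeval t H ^ 2 := by ring
    _ = aeval t Num * aeval t H ^ 2 := by rw [hRbdef]
    _ = algebraMap k κ u * (t - algebraMap k κ c) ^ m * aeval t Den := h1
    _ = aeval t Den * (algebraMap k κ u * (t - algebraMap k κ c) ^ m) := by ring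

open Fermat.Agent.S40x.Thick.RatOrders in
/-- **REF-ORD, assembled.**  `δ = A/B` with `B` squarefree (simple poles), `δ' = X^e (Num/Den - 1)`,
`Rb = Num(t)/Den(t)`, `Ub t^n Rb^6 = (t - c)^(2n)`.  At a place `P` with uniformiser `t - s`,
`s ≠ 0, c`:  `ord_P Ub = 12` if `s` is a pole of `δ`, `0` otherwise. -/
theorem ord_Ub_of_thick (e m : ℕ) (c : k) (A B Num Den H : k[X]) (a b : ℕ) (hH : H ≠ 0)
    (hDen0 : Den.eval 0 ≠ 0) (hDenc : Den.eval c ≠ 0)
    (hNum0 : Num ≠ 0) (hNum : (X - C c) ^ m ∣ Num) (hdeg : Num.natDegree ≤ Den.natDegree)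
    (hrel : (derivative A * B - A * derivative B) * Den = X ^ e * (Num - Den) * B ^ 2)
    (hden : B ∣ X ^ a * (X - C c) ^ b * H)
    (hS : 2 * H.natDegree ≤ m) (hBsq : Squarefree B)
    (P : Place k κ) {t Rb Ub : κ} {s : k} (hP : P.ord (t - algebraMap k κ s) = 1)
    (hs0 : s ≠ 0) (hsc : s ≠ c) (hden0 : aeval t Den ≠ 0)
    (hRbdef : aeval t Den * Rb = aeval t Num) (n : ℕ)
    (hUb : Ub * (t ^ n * Rb ^ 6) = ((t - algebraMap k κ c) ^ 2) ^ n)
    [Decidable (B.IsRoot s)] :
    P.ord Ub = if B.IsRoot s then 12 else 0 := by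
  classical
  obtain ⟨u, hu, hpoly⟩ := exists_ref_form e m c A B Num Den H a b hH hDen0 hDenc hNum0 hNum hdeg
    hrel hden hS
  have hHB := dvd_of_natDegree_le e m c A B Num Den H a b hH hDen0 hDenc hNum0 hNum hdeg hrel
    hden hS
  have hHsq : Squarefree H := hBsq.squarefree_of_dvd hHB
  have hiff := isRoot_iff e m c A B Num Den H a b hH hDen0 hDenc hNum0 hNum hdeg hrel hden hS
    hs0 hsc
  have h1 := ord_Ub P hP hs0 hsc hu m n H hHsq (rb_rel hpoly hden0 hRbdef) hUb
  rw [h1]
  by_cases hr : B.IsRoot s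
  · rw [if_pos hr, if_pos (hiff.mp hr)]
  · rw [if_neg hr, if_neg (fun h => hr (hiff.mpr h))]

end Place

end Fermat.Agent.S40x.Diag.RefOrd
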