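/-
helper43 (P-S44, block C2/DIAG + R1 seam): **node places = poles of the thickness function `δ`**.

GENERIC two-valuation chart (vocabulary of `Thick/PolesNodes`, `Thick/Assemble`): `u = ϖ • w`,
`δ := red_∞ w`, `Ψ = w u'` (`u u' = ϖ Ψ`), Bezout `E + b Ψ + E' = 1` with `red_0 E = 0`,
`red_∞ E' = 0`.  For a place `P` of `κ₁` at which the chart coordinate `x̄ = red_∞ t` is regular:

* (A) `delta_mem_of_nonNode` (T5): if some `e ∈ B∞` with `red_0 e = 0` does not vanish at `P`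
  (`P` is not a node) then `δ` is regular at `P`;
* (B) `delta_not_mem_of_node` (T4 + Bezout): if every `e ∈ B∞` with `red_0 e = 0` vanishes at `P`
  (`P` is a node) then `δ` has a pole at `P`; `red_∞ Ψ` is a unit at `P` and
  `red_∞ Ψ = δ * red_∞ u'`;
* (C) `isNonNode_iff`: the condition of (A) is `Node/SmoothInst.IsNonNode₁ C P`;
* (D) `mem_iff_not_isRoot`: for `δ = ev r`, `r : RatFunc k`, and `x̄ - s` a uniformiser at `P`:
  `δ` is regular at `P` iff `s` is not a root of the denominator of `r`.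

* (E) `node_iff_isRoot`, (E') `not_isNonNode_iff_isRoot`: TOGETHER, `P` is a node place `↔` the
  value `s` of `x̄` at `P` is a root of the denominator `B` of `δ`: the link between the set `S`
  of `Diag/RefOrd` (roots of `B`) and the node places of `C3`.
-/
import Fermat.Agent.S40x.Thick.Assemble
import Fermat.Agent.S40x.Diag.RefOrd
import Fermat.Agent.S24.ZP.PlaceSum

set_option autoImplicit false
set_option linter.unusedSectionVars false
set_option linter.style.haveILetI false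

noncomputable section

namespace Fermat.Agent.S40x.Diag.NodePole

open AlgebraicCurve Polynomial
open Fermat.Agent.S34x Fermat.Agent.S34x.C0two Fermat.Agent.S34x.Lattice2
open Fermat.Agent.S33x.H1.InstC1 Fermat.Agent.S33x.H1.InstBBasic
open Fermat.Agent.S40x.Thick.PolesNodes Fermat.Agent.S40x.Thick.Assemble

variable {K : Type*} [Field K] {A : ValuationSubring K} {F : Type*} [Field F] [Algebra K F]
  {O₁ O₂ : ValuationSubring F} {k κ₁ κ₂ : Type*} [Field k] [Field κ₁] [Field κ₂]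
  [Algebra k κ₁] [Algebra k κ₂]
  (R₁ : Fermat.Agent.Gateway.C0.RedSetup A O₁ k κ₁)
  (R₂ : Fermat.Agent.Gateway.C0.RedSetup A O₂ k κ₂) (hπ : R₁.π = R₂.π)
  (C : ChartCoord (redSetupTwoVal R₁ R₂ hπ))

/-- units of a valuation subring -/
theorem inv_mem_of_notMem_nonunits (O : ValuationSubring κ₁) {x : κ₁} (hn : x ∉ O.nonunits) :
    x⁻¹ ∈ O := by
  rw [ValuationSubring.mem_nonunits_iff, not_lt] at hn
  apply (O.valuation_le_one_iff _).mp
  rw [map_inv₀]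
  exact inv_le_one_of_one_le₀ hn

theorem add_mem_nonunits (O : ValuationSubring κ₁) {x y : κ₁} (hx : x ∈ O.nonunits)
    (hy : y ∈ O.nonunits) : x + y ∈ O.nonunits := by
  rw [ValuationSubring.mem_nonunits_iff] at hx hy ⊢
  exact lt_of_le_of_lt (Valuation.map_add _ _ _) (max_lt hx hy)

theorem mul_mem_nonunits (O : ValuationSubring κ₁) {x y : κ₁} (hx : x ∈ O)
    (hy : y ∈ O.nonunits) : x * y ∈ O.nonunits := by
  rw [ValuationSubring.mem_nonunits_iff] at hy ⊢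
  have h1 : O.valuation x ≤ 1 := (O.valuation_le_one_iff _).mpr hx
  rw [map_mul]
  exact lt_of_le_of_lt (mul_le_of_le_one_left' h1) hy

theorem one_notMem_nonunits (O : ValuationSubring κ₁) : (1 : κ₁) ∉ O.nonunits := by
  rw [ValuationSubring.mem_nonunits_iff, map_one]
  exact lt_irrefl _

section Places

variable (P : Place k κ₁) (hT : xb R₁ R₂ hπ C ∈ P.toValuationSubring)

include hT in
/-- first reductions of elements of the chart ring are regular wherever `x̄` is. -/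
theorem rho₁_mem (x : BooAlg C) : rho₁ R₁ R₂ hπ C x ∈ P.toValuationSubring := by
  obtain ⟨f, hf⟩ := x
  obtain ⟨b, hfL, hfO⟩ := hf
  have hint : IsIntegral (Algebra.adjoin K {C.t}) f := by
    have := hfL.1
    rwa [pow_zero, one_mul] at this
  have h1 := C.hint1 f hfO hint
  have h2 : IsIntegral (Algebra.adjoin k {((xb R₁ R₂ hπ C, xb' R₁ R₂ hπ C) : κ₁ × κ₂)})
      ((R₁.res ⟨f, hfO.1⟩, R₂.res ⟨f, hfO.2⟩) : κ₁ × κ₂) := h1
  rw [isIntegral_adjoin_prod_iff] at h2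
  exact Fermat.Agent.S24.ZP.integralClosure_le_place (K := k) (F := κ₁) (xb R₁ R₂ hπ C) P hT
    ⟨_, h2.1⟩

include hT in
/-- **(A)**: away from the nodes the thickness function `δ = red_∞ (u / ϖ)` is regular. -/
theorem delta_mem_of_nonNode {u w : F} {ϖ : A} (hϖ : ϖ ≠ 0) (hu : u ∈ BooAlg C)
    (huw : u = ϖ • w) (hw : w ∈ O₁) (e : BooAlg C) (he0 : rho₂ R₁ R₂ hπ C e = 0)
    (heP : rho₁ R₁ R₂ hπ C e ∉ P.toValuationSubring.nonunits) :
    R₁.res ⟨w, hw⟩ ∈ P.toValuationSubring := by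
  obtain ⟨n, hn⟩ := exists_pow_mul_mem_BooAlg R₁ R₂ hπ C hϖ hu huw hw e.2
    ((R₂.res_ker _).mp he0)
  have h1 : rho₁ R₁ R₂ hπ C ⟨(e : F) ^ n * w, hn⟩ =
      rho₁ R₁ R₂ hπ C e ^ n * R₁.res ⟨w, hw⟩ := by
    rw [← map_pow]
    show R₁.res _ = R₁.res _ * R₁.res _
    rw [← map_mul]
    rfl
  have h2 := rho₁_mem R₁ R₂ hπ C P hT ⟨(e : F) ^ n * w, hn⟩
  rw [h1] at h2
  have h3 : rho₁ R₁ R₂ hπ C e ^ n ∉ P.toValuationSubring.nonunits := by
    rw [ValuationSubring.mem_nonunits_iff, not_lt] at heP ⊢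
    rw [map_pow]
    exact one_le_pow₀ heP
  have h4 := inv_mem_of_notMem_nonunits _ h3
  have h5 : rho₁ R₁ R₂ hπ C e ^ n ≠ 0 := by
    intro h0
    apply h3
    rw [h0, ValuationSubring.mem_nonunits_iff, map_zero]
    exact zero_lt_one
  have h6 : R₁.res ⟨w, hw⟩ =
      (rho₁ R₁ R₂ hπ C e ^ n)⁻¹ * (rho₁ R₁ R₂ hπ C e ^ n * R₁.res ⟨w, hw⟩) := by
    rw [← mul_assoc, inv_mul_cancel₀ h5, one_mul]
  rw [h6]
  exact P.toValuationSubring.mul_mem _ _ h4 h2

/-- **T4** in the `rho₁` vocabulary: `red_∞ Ψ = δ * red_∞ u'`, `Ψ = w u'`. -/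
theorem rho₁_psi {u' w : F} (hw : w ∈ O₁) (hu' : u' ∈ BooAlg C) (hΨ : w * u' ∈ BooAlg C) :
    rho₁ R₁ R₂ hπ C ⟨w * u', hΨ⟩ = R₁.res ⟨w, hw⟩ * rho₁ R₁ R₂ hπ C ⟨u', hu'⟩ := by
  show R₁.res _ = R₁.res _ * R₁.res _
  rw [← map_mul]
  rfl

include hT in
/-- **(B)**: at a node the thickness function has a pole, and `red_∞ Ψ` is a unit. -/
theorem delta_not_mem_of_node {u' w : F} (hw : w ∈ O₁) (hu' : u' ∈ BooAlg C)
    (hg0 : rho₂ R₁ R₂ hπ C ⟨u', hu'⟩ = 0) (hΨ : w * u' ∈ BooAlg C) {E b E' : BooAlg C}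
    (hE : rho₂ R₁ R₂ hπ C E = 0) (hE' : rho₁ R₁ R₂ hπ C E' = 0)
    (hsum : E + b * ⟨w * u', hΨ⟩ + E' = 1)
    (hnode : ∀ e : BooAlg C, rho₂ R₁ R₂ hπ C e = 0 →
      rho₁ R₁ R₂ hπ C e ∈ P.toValuationSubring.nonunits) :
    rho₁ R₁ R₂ hπ C ⟨w * u', hΨ⟩ ∉ P.toValuationSubring.nonunits ∧
      R₁.res ⟨w, hw⟩ ∉ P.toValuationSubring := by
  have h1 := congrArg (rho₁ R₁ R₂ hπ C) hsum
  rw [map_add, map_add, map_mul, hE', add_zero, map_one] at h1
  have hEm := hnode E hE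
  have hbm := rho₁_mem R₁ R₂ hπ C P hT b
  have hΨunit : rho₁ R₁ R₂ hπ C ⟨w * u', hΨ⟩ ∉ P.toValuationSubring.nonunits := by
    intro hcon
    have h2 := add_mem_nonunits _ hEm (mul_mem_nonunits _ hbm hcon)
    rw [h1] at h2
    exact one_notMem_nonunits _ h2
  refine ⟨hΨunit, ?_⟩
  intro hδ
  apply hΨunit
  rw [rho₁_psi R₁ R₂ hπ C hw hu' hΨ]
  exact mul_mem_nonunits _ hδ (hnode _ hg0)

end Places

/-- **(C)**: the non-node condition of (A) is `Node/SmoothInst.IsNonNode₁ C P` (unfolded): some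
`a ∈ B₁` with `(a, 0)` in the reduced chart ring is a unit at `P`. -/
theorem isNonNode_iff (P : Place k κ₁) :
    (∃ a : C.B₁, ((a, 0) : C.B₁ × C.B₂) ∈ C.BbarT ∧ (a : κ₁) ∉ P.toValuationSubring.nonunits) ↔
      ∃ e : BooAlg C, rho₂ R₁ R₂ hπ C e = 0 ∧
        rho₁ R₁ R₂ hπ C e ∉ P.toValuationSubring.nonunits := by
  constructor
  · rintro ⟨a, ha, haP⟩
    obtain ⟨b, x, hx, hxL, hres⟩ := (C.mem_BbarT_iff.mp ha)
    have h1 : (R₁.res ⟨x, hx.1⟩, R₂.res ⟨x, hx.2⟩) = ((a : κ₁), (0 : κ₂)) := hres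
    refine ⟨⟨x, b, hxL, hx⟩, ?_, ?_⟩
    · exact (Prod.ext_iff.mp h1).2
    · have h2 : rho₁ R₁ R₂ hπ C ⟨x, b, hxL, hx⟩ = (a : κ₁) := (Prod.ext_iff.mp h1).1
      rw [h2]
      exact haP
  · rintro ⟨⟨f, hf⟩, he0, heP⟩
    obtain ⟨b, hfL, hfO⟩ := hf
    have hint : IsIntegral (Algebra.adjoin K {C.t}) f := by
      have := hfL.1
      rwa [pow_zero, one_mul] at this
    have h1 := C.hint1 f hfO hint
    have h2 : IsIntegral (Algebra.adjoin k {((xb R₁ R₂ hπ C, xb' R₁ R₂ hπ C) : κ₁ × κ₂)})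
        ((R₁.res ⟨f, hfO.1⟩, R₂.res ⟨f, hfO.2⟩) : κ₁ × κ₂) := h1
    rw [isIntegral_adjoin_prod_iff] at h2
    refine ⟨⟨R₁.res ⟨f, hfO.1⟩, h2.1⟩, ?_, heP⟩
    rw [C.mem_BbarT_iff]
    refine ⟨b, f, hfO, hfL, ?_⟩
    have h3 : R₂.res ⟨f, hfO.2⟩ = 0 := he0
    exact Prod.ext rfl h3

/-- **(D)**: a rational function of `x̄` is regular at a place with uniformiser `x̄ - s` iff `s` is
not a root of its denominator. -/
theorem mem_iff_not_isRoot (P : Place k κ₁) {x : κ₁} {s : k}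
    (hP : P.ord (x - algebraMap k κ₁ s) = 1) (ev : RatFunc k →+* κ₁)
    (hev : ∀ g : k[X], ev (algebraMap k[X] (RatFunc k) g) = aeval x g) (r : RatFunc k) :
    ev r ∈ P.toValuationSubring ↔ ¬ r.denom.IsRoot s := by
  have hd0 : r.denom ≠ 0 := RatFunc.denom_ne_zero r
  obtain ⟨hdne, hdord⟩ := RefOrd.ord_aeval P hP r.denom hd0
  have hrel : ev r * aeval x r.denom = aeval x r.num := by
    have h1 : r * algebraMap k[X] (RatFunc k) r.denom = algebraMap k[X] (RatFunc k) r.num := by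
      have h2 := RatFunc.num_div_denom r
      have h3 : algebraMap k[X] (RatFunc k) r.denom ≠ 0 := RatFunc.algebraMap_ne_zero hd0
      rw [div_eq_iff h3] at h2
      exact h2.symm
    have := congrArg ev h1
    rwa [map_mul, hev, hev] at this
  have hxmem := RefOrd.mem_of_ord_sub_eq_one P hP
  constructor
  · intro hmem hroot
    -- the numerator does not vanish at `s`
    have hnum : r.num.eval s ≠ 0 := by
      intro h0
      have hcop := RatFunc.isCoprime_num_denom r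
      have h1 : X - C s ∣ r.num := dvd_iff_isRoot.mpr h0
      have h2 : X - C s ∣ r.denom := dvd_iff_isRoot.mpr hroot
      exact (irreducible_X_sub_C s).not_isUnit (hcop.isUnit_of_dvd' h1 h2)
    obtain ⟨hnne, hnord⟩ := RefOrd.ord_aeval_of_eval_ne_zero P hP r.num hnum
    have hpos : 0 < r.denom.rootMultiplicity s := (rootMultiplicity_pos hd0).mpr hroot
    have hr0 : ev r ≠ 0 := by
      intro h0
      rw [h0, zero_mul] at hrel
      exact hnne hrel.symm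
    have h3 := congrArg P.ord hrel
    rw [P.ord_mul hr0 hdne, hdord, hnord] at h3
    have h4 : 0 ≤ P.ord (ev r) := (Fermat.Agent.S24.place_mem_iff_ord_nonneg P hr0).mp hmem
    have h5 : (0 : ℤ) < (r.denom.rootMultiplicity s : ℤ) := by exact_mod_cast hpos
    omega
  · intro hroot
    have hmult : r.denom.rootMultiplicity s = 0 := rootMultiplicity_eq_zero hroot
    rw [hmult] at hdord
    have hinv : (aeval x r.denom)⁻¹ ∈ P.toValuationSubring := by
      rw [Fermat.Agent.S24.place_mem_iff_ord_nonneg P (inv_ne_zero hdne), P.ord_inv, hdord]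
      simp
    have h1 : ev r = aeval x r.num * (aeval x r.denom)⁻¹ := by
      rw [← hrel, mul_assoc, mul_inv_cancel₀ hdne, mul_one]
    rw [h1]
    exact P.toValuationSubring.mul_mem _ _ (RefOrd.aeval_mem P hxmem r.num) hinv

/-- **(E)**: at a place `P` of the chart with uniformiser `x̄ - s`, with `δ = r(x̄)`:
`P` is a node (every `e ∈ B∞` vanishing on the other component vanishes at `P`) iff `s` is a root
of the denominator of `r`. -/
theorem node_iff_isRoot (P : Place k κ₁) {s : k}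
    (hP : P.ord (xb R₁ R₂ hπ C - algebraMap k κ₁ s) = 1)
    {u u' w : F} {ϖ : A} (hϖ : ϖ ≠ 0) (hu : u ∈ BooAlg C) (huw : u = ϖ • w) (hw : w ∈ O₁)
    (hu' : u' ∈ BooAlg C) (hg0 : rho₂ R₁ R₂ hπ C ⟨u', hu'⟩ = 0) (hΨ : w * u' ∈ BooAlg C)
    {E b E' : BooAlg C} (hE : rho₂ R₁ R₂ hπ C E = 0) (hE' : rho₁ R₁ R₂ hπ C E' = 0)
    (hsum : E + b * ⟨w * u', hΨ⟩ + E' = 1)
    (ev : RatFunc k →+* κ₁)
    (hev : ∀ g : k[X], ev (algebraMap k[X] (RatFunc k) g) = aeval (xb R₁ R₂ hπ C) g)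
    (r : RatFunc k) (hr : R₁.res ⟨w, hw⟩ = ev r) :
    (∀ e : BooAlg C, rho₂ R₁ R₂ hπ C e = 0 →
      rho₁ R₁ R₂ hπ C e ∈ P.toValuationSubring.nonunits) ↔ r.denom.IsRoot s := by
  have hT : xb R₁ R₂ hπ C ∈ P.toValuationSubring := RefOrd.mem_of_ord_sub_eq_one P hP
  have hD := mem_iff_not_isRoot P hP ev hev r
  constructor
  · intro hnode
    have h1 := (delta_not_mem_of_node R₁ R₂ hπ C P hT hw hu' hg0 hΨ hE hE' hsum hnode).2
    rw [hr, hD] at h1
    exact not_not.mp h1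
  · intro hroot e he0
    by_contra heP
    have h1 := delta_mem_of_nonNode R₁ R₂ hπ C P hT hϖ hu huw hw e he0 heP
    rw [hr, hD] at h1
    exact h1 hroot

/-- **(E')**: the same in the vocabulary of `Node/SmoothInst.IsNonNode₁` (unfolded). -/
theorem not_isNonNode_iff_isRoot (P : Place k κ₁) {s : k}
    (hP : P.ord (xb R₁ R₂ hπ C - algebraMap k κ₁ s) = 1)
    {u u' w : F} {ϖ : A} (hϖ : ϖ ≠ 0) (hu : u ∈ BooAlg C) (huw : u = ϖ • w) (hw : w ∈ O₁)
    (hu' : u' ∈ BooAlg C) (hg0 : rho₂ R₁ R₂ hπ C ⟨u', hu'⟩ = 0) (hΨ : w * u' ∈ BooAlg C)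
    {E b E' : BooAlg C} (hE : rho₂ R₁ R₂ hπ C E = 0) (hE' : rho₁ R₁ R₂ hπ C E' = 0)
    (hsum : E + b * ⟨w * u', hΨ⟩ + E' = 1)
    (ev : RatFunc k →+* κ₁)
    (hev : ∀ g : k[X], ev (algebraMap k[X] (RatFunc k) g) = aeval (xb R₁ R₂ hπ C) g)
    (r : RatFunc k) (hr : R₁.res ⟨w, hw⟩ = ev r) :
    (¬ ∃ a : C.B₁, ((a, 0) : C.B₁ × C.B₂) ∈ C.BbarT ∧
      (a : κ₁) ∉ P.toValuationSubring.nonunits) ↔ r.denom.IsRoot s := by
  rw [isNonNode_iff R₁ R₂ hπ C P,
    ← node_iff_isRoot R₁ R₂ hπ C P hP hϖ hu huw hw hu' hg0 hΨ hE hE' hsum ev hev r hr]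
  constructor
  · intro h e he0
    by_contra heP
    exact h ⟨e, he0, heP⟩
  · rintro h ⟨e, he0, heP⟩
    exact heP (h e he0)

end Fermat.Agent.S40x.Diag.NodePole
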