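/-
helper43 (P-S44, block C2/DIAG, leaf D-REFORD route D; seam `hSnc` "node places are non-cuspidal"):
**the poles of the thickness function avoid the cusps `0`, `c`** (abstract half, on
`Diag/RefOrd.exists_ref_form`).

In the situation of `RefOrd.exists_ref_form` (`Num * H^2 = C u * (X - c)^m * Den`, `u ≠ 0`,
`Den(0) ≠ 0`, `Den(c) ≠ 0`, `(X - c)^m ∣ Num`) with `c ≠ 0`:

* `eval_zero_ne_zero` : `H(0) ≠ 0`;   `eval_c_ne_zero` : `H(c) ≠ 0`;
* `eval_ne_zero_of_dvd` : for `B ∣ H` (the case `a = b = 0`, `H := B` of the application):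
  `B(0) ≠ 0 ∧ B(c) ≠ 0`;
* `isCoprime_of_dvd` : `IsCoprime B (X * (X - C c))`;
* `ne_of_isRoot` : a root `s` of `B` is `≠ 0, c` (the hypotheses `hs0`, `hsc` of
  `RefOrd.ord_Ub_of_thick` / `RefOrdNode` at the node places).

Application: `c = 16`, `H = B = r.denom` (`Thick/Level4pData.exists_denom_data`).
-/
import Fermat.Agent.S40x.Diag.RefOrd

set_option autoImplicit false

namespace Fermat.Agent.S40x.Diag.RefOrdNonCusp

open Polynomial

variable {k : Type*} [Field k]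

/-- from the exact form: `H(0) ≠ 0` (needs `c ≠ 0`). -/
theorem eval_zero_ne_zero_of_form {m : ℕ} {c u : k} {Num Den H : k[X]} (hc : c ≠ 0) (hu : u ≠ 0)
    (hDen0 : Den.eval 0 ≠ 0) (hpoly : Num * H ^ 2 = C u * (X - C c) ^ m * Den) :
    H.eval 0 ≠ 0 := by
  intro h0
  have h1 := congrArg (eval 0) hpoly
  rw [eval_mul, eval_pow, h0, eval_mul, eval_mul, eval_C, eval_pow, eval_sub, eval_X, eval_C] at h1
  have h2 : u * (0 - c) ^ m * Den.eval 0 ≠ 0 :=
    mul_ne_zero (mul_ne_zero hu (pow_ne_zero _ (by rw [zero_sub]; exact neg_ne_zero.mpr hc))) hDen0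
  apply h2
  rw [← h1]
  ring

/-- from the exact form: `H(c) ≠ 0`. -/
theorem eval_c_ne_zero_of_form {m : ℕ} {c u : k} {Num Den H : k[X]} (hu : u ≠ 0)
    (hDenc : Den.eval c ≠ 0) (hNum : (X - C c) ^ m ∣ Num)
    (hpoly : Num * H ^ 2 = C u * (X - C c) ^ m * Den) :
    H.eval c ≠ 0 := by
  obtain ⟨N', hN'⟩ := hNum
  have hX : (X - C c) ^ m ≠ 0 := pow_ne_zero _ (X_sub_C_ne_zero c)
  have h1 : N' * H ^ 2 = C u * Den := by
    apply mul_left_cancel₀ hX
    rw [← mul_assoc, ← hN', hpoly]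
    ring
  intro h0
  have h2 := congrArg (eval c) h1
  rw [eval_mul, eval_pow, h0, eval_mul, eval_C] at h2
  have h3 : u * Den.eval c ≠ 0 := mul_ne_zero hu hDenc
  apply h3
  rw [← h2]
  ring

section Thick

variable (e m : ℕ) (c : k) (A B Num Den H : k[X]) (a b : ℕ) (hH : H ≠ 0)
  (hDen0 : Den.eval 0 ≠ 0) (hDenc : Den.eval c ≠ 0)
  (hNum0 : Num ≠ 0) (hNum : (X - C c) ^ m ∣ Num) (hdeg : Num.natDegree ≤ Den.natDegree)
  (hrel : (derivative A * B - A * derivative B) * Den = X ^ e * (Num - Den) * B ^ 2)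
  (hden : B ∣ X ^ a * (X - C c) ^ b * H)
  (hS : 2 * H.natDegree ≤ m)

include hH hDen0 hDenc hNum0 hNum hdeg hrel hden hS

/-- `H(0) ≠ 0` in the situation of `RefOrd.exists_ref_form`, `c ≠ 0`. -/
theorem eval_zero_ne_zero (hc : c ≠ 0) : H.eval 0 ≠ 0 := by
  obtain ⟨u, hu, hpoly⟩ := RefOrd.exists_ref_form e m c A B Num Den H a b hH hDen0 hDenc hNum0
    hNum hdeg hrel hden hS
  exact eval_zero_ne_zero_of_form hc hu hDen0 hpoly

/-- `H(c) ≠ 0` in the situation of `RefOrd.exists_ref_form`. -/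
theorem eval_c_ne_zero : H.eval c ≠ 0 := by
  obtain ⟨u, hu, hpoly⟩ := RefOrd.exists_ref_form e m c A B Num Den H a b hH hDen0 hDenc hNum0
    hNum hdeg hrel hden hS
  exact eval_c_ne_zero_of_form hu hDenc hNum hpoly

/-- for `B ∣ H`: `B(0) ≠ 0` and `B(c) ≠ 0`. -/
theorem eval_ne_zero_of_dvd (hc : c ≠ 0) (hBH : B ∣ H) : B.eval 0 ≠ 0 ∧ B.eval c ≠ 0 := by
  have h0 := eval_zero_ne_zero e m c A B Num Den H a b hH hDen0 hDenc hNum0 hNum hdeg hrel hden
    hS hc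
  have hcc := eval_c_ne_zero e m c A B Num Den H a b hH hDen0 hDenc hNum0 hNum hdeg hrel hden hS
  obtain ⟨q, hq⟩ := hBH
  constructor
  · intro h
    apply h0
    rw [hq, eval_mul, h, zero_mul]
  · intro h
    apply hcc
    rw [hq, eval_mul, h, zero_mul]

/-- for `B ∣ H`: `B` is coprime to `X (X - c)`. -/
theorem isCoprime_of_dvd (hc : c ≠ 0) (hBH : B ∣ H) : IsCoprime B (X * (X - C c)) := by
  obtain ⟨h0, hcc⟩ := eval_ne_zero_of_dvd e m c A B Num Den H a b hH hDen0 hDenc hNum0 hNum hdeg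
    hrel hden hS hc hBH
  have h1 : IsCoprime (X - C (0 : k)) B :=
    Fermat.Agent.S40x.Thick.RatOrders.isCoprime_X_sub_C_of_eval_ne_zero h0
  rw [C_0, sub_zero] at h1
  have h2 : IsCoprime (X - C c) B :=
    Fermat.Agent.S40x.Thick.RatOrders.isCoprime_X_sub_C_of_eval_ne_zero hcc
  exact (h1.mul_left h2).symm

/-- for `B ∣ H`: a root of `B` is neither `0` nor `c`. -/
theorem ne_of_isRoot (hc : c ≠ 0) (hBH : B ∣ H) {s : k} (hs : B.IsRoot s) : s ≠ 0 ∧ s ≠ c := by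
  obtain ⟨h0, hcc⟩ := eval_ne_zero_of_dvd e m c A B Num Den H a b hH hDen0 hDenc hNum0 hNum hdeg
    hrel hden hS hc hBH
  constructor
  · rintro rfl
    exact h0 hs
  · rintro rfl
    exact hcc hs

end Thick

end Fermat.Agent.S40x.Diag.RefOrdNonCusp
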