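/-
helper43 (P-S44, block C2/DIAG, seam `hSnc` "node places are non-cuspidal and unramified over the
`x̄`-line"): place-level half, on `Diag/NodePole` + `Diag/RefOrdNonCusp`.

At a place `P` with `0 < ord_P (x - s)` (no unramifiedness assumed):
* `ord_aeval_of_eval_ne_zero_of_pos` : `g(s) ≠ 0 → g(x) ≠ 0 ∧ ord_P g(x) = 0`;
* `mem_of_not_isRoot_of_pos` : `¬ r.denom.IsRoot s → ev r ∈ O_P`;
* `quot_mem_of_eval_ne_zero` : `jb * D(x) = N(x)`, `D(s) ≠ 0 → jb ∈ O_P`, `0 ≤ ord_P jb`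
  (application: `jb = j̄ = N4(x̄)/D4(x̄)`, `D4 = X (X - 16)^4`: `P` is non-cuspidal as soon as
  `s ≠ 0, 16`).
In the generic two-valuation chart (`Thick/Assemble`), for a NODE place `P` (every `e ∈ B∞` with
`red_0 e = 0` vanishes at `P`) with `0 < ord_P (x̄ - s)` and `δ = r(x̄)`:
* `isRoot_of_node` : `s` is a root of `r.denom`;
* `ne_of_node` : `s ≠ 0 ∧ s ≠ c` under the polynomial hypotheses of `RefOrd.exists_ref_form`
  (`B = r.denom ∣ H`).
So `0 ≤ ord_P j̄`, and C2-UNR then gives `ord_P (x̄ - s) = 1`, the hypothesis `hP` of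
`NodePole.not_isNonNode_iff_isRoot` / `RefOrdNode`.
-/
import Fermat.Agent.S40x.Diag.NodePole
import Fermat.Agent.S40x.Diag.RefOrdNonCusp

set_option autoImplicit false
set_option linter.unusedSectionVars false
set_option linter.style.haveILetI false

noncomputable section

namespace Fermat.Agent.S40x.Diag.NodeNonCusp

open AlgebraicCurve Polynomial
open Fermat.Agent.S34x Fermat.Agent.S34x.C0two Fermat.Agent.S34x.Lattice2
open Fermat.Agent.S33x.H1.InstC1 Fermat.Agent.S33x.H1.InstBBasic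
open Fermat.Agent.S40x.Thick.PolesNodes Fermat.Agent.S40x.Thick.Assemble

section Place

variable {k κ : Type*} [Field k] [Field κ] [Algebra k κ]

theorem mem_of_ord_sub_pos (P : Place k κ) {t : κ} {a : k}
    (hpos : 0 < P.ord (t - algebraMap k κ a)) : t ∈ P.toValuationSubring := by
  have h0 : t - algebraMap k κ a ≠ 0 := RefOrd.ne_zero_of_ord_ne_zero P (ne_of_gt hpos)
  have h1 : t - algebraMap k κ a ∈ P.toValuationSubring := by
    rw [Fermat.Agent.S24.place_mem_iff_ord_nonneg P h0]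
    exact le_of_lt hpos
  have : t = (t - algebraMap k κ a) + algebraMap k κ a := by ring
  rw [this]
  exact P.toValuationSubring.add_mem _ _ h1 (P.algebraMap_mem' a)

/-- a polynomial not vanishing at `a` is a unit at a place with `t(P) = a`. -/
theorem ord_aeval_of_eval_ne_zero_of_pos (P : Place k κ) {t : κ} {a : k}
    (hpos : 0 < P.ord (t - algebraMap k κ a)) (g : k[X]) (hg : g.eval a ≠ 0) :
    aeval t g ≠ 0 ∧ P.ord (aeval t g) = 0 := by
  have h0 : t - algebraMap k κ a ≠ 0 := RefOrd.ne_zero_of_ord_ne_zero P (ne_of_gt hpos)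
  obtain ⟨h, hh⟩ : X - C a ∣ g - C (g.eval a) := X_sub_C_dvd_sub_C_eval
  have e1 : aeval t g = algebraMap k κ (g.eval a) + (t - algebraMap k κ a) * aeval t h := by
    have := congrArg (aeval t) hh
    simp only [map_sub, map_mul, aeval_X, aeval_C] at this
    linear_combination this
  have hc0 : algebraMap k κ (g.eval a) ≠ 0 := by rwa [ne_eq, map_eq_zero]
  have hcord : P.ord (algebraMap k κ (g.eval a)) = 0 := RefOrd.ord_const P hg
  rcases eq_or_ne (aeval t h) 0 with h1 | h1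
  · rw [e1, h1, mul_zero, add_zero]
    exact ⟨hc0, hcord⟩
  · have h2 : (t - algebraMap k κ a) * aeval t h ≠ 0 := mul_ne_zero h0 h1
    have h3 : 0 ≤ P.ord (aeval t h) :=
      (Fermat.Agent.S24.place_mem_iff_ord_nonneg P h1).mp
        (RefOrd.aeval_mem P (mem_of_ord_sub_pos P hpos) h)
    have h4 : P.ord (algebraMap k κ (g.eval a)) < P.ord ((t - algebraMap k κ a) * aeval t h) := by
      rw [hcord, P.ord_mul h0 h1]
      omega
    have h5 := (Fermat.Agent.S24.isAddVal_ord P).map_add_of_lt hc0 h2 h4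
    rw [← e1, hcord] at h5
    refine ⟨?_, h5⟩
    rw [e1]
    intro h6
    have h7 : algebraMap k κ (g.eval a) = -((t - algebraMap k κ a) * aeval t h) :=
      eq_neg_of_add_eq_zero_left h6
    rw [h7, (Fermat.Agent.S24.isAddVal_ord P).map_neg h2] at h4
    exact lt_irrefl _ h4

/-- a quotient `N(x)/D(x)` with `D(s) ≠ 0` is regular at a place with `x(P) = s`. -/
theorem quot_mem_of_eval_ne_zero (P : Place k κ) {x jb : κ} {s : k}
    (hpos : 0 < P.ord (x - algebraMap k κ s)) {N D : k[X]}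
    (hj : jb * aeval x D = aeval x N) (hD : D.eval s ≠ 0) :
    jb ∈ P.toValuationSubring := by
  obtain ⟨hdne, hdord⟩ := ord_aeval_of_eval_ne_zero_of_pos P hpos D hD
  have hinv : (aeval x D)⁻¹ ∈ P.toValuationSubring := by
    rw [Fermat.Agent.S24.place_mem_iff_ord_nonneg P (inv_ne_zero hdne), P.ord_inv, hdord]
    simp
  have h1 : jb = aeval x N * (aeval x D)⁻¹ := by
    rw [← hj, mul_assoc, mul_inv_cancel₀ hdne, mul_one]
  rw [h1]
  exact P.toValuationSubring.mul_mem _ _ (RefOrd.aeval_mem P (mem_of_ord_sub_pos P hpos) N) hinv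

/-- the same as an inequality of orders (`P` is non-cuspidal). -/
theorem ord_quot_nonneg (P : Place k κ) {x jb : κ} {s : k}
    (hpos : 0 < P.ord (x - algebraMap k κ s)) {N D : k[X]}
    (hj : jb * aeval x D = aeval x N) (hD : D.eval s ≠ 0) : 0 ≤ P.ord jb := by
  rcases eq_or_ne jb 0 with h0 | h0
  · rw [h0, P.ord_zero]
  · exact (Fermat.Agent.S24.place_mem_iff_ord_nonneg P h0).mp
      (quot_mem_of_eval_ne_zero P hpos hj hD)

/-- a rational function of `x` whose denominator does not vanish at `s = x(P)` is regular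
at `P`. -/
theorem mem_of_not_isRoot_of_pos (P : Place k κ) {x : κ} {s : k}
    (hpos : 0 < P.ord (x - algebraMap k κ s)) (ev : RatFunc k →+* κ)
    (hev : ∀ g : k[X], ev (algebraMap k[X] (RatFunc k) g) = aeval x g) (r : RatFunc k)
    (hroot : ¬ r.denom.IsRoot s) : ev r ∈ P.toValuationSubring := by
  have hd0 : r.denom ≠ 0 := RatFunc.denom_ne_zero r
  have hrel : ev r * aeval x r.denom = aeval x r.num := by
    have h1 : r * algebraMap k[X] (RatFunc k) r.denom = algebraMap k[X] (RatFunc k) r.num := by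
      have h2 := RatFunc.num_div_denom r
      have h3 : algebraMap k[X] (RatFunc k) r.denom ≠ 0 := RatFunc.algebraMap_ne_zero hd0
      rw [div_eq_iff h3] at h2
      exact h2.symm
    have := congrArg ev h1
    rwa [map_mul, hev, hev] at this
  exact quot_mem_of_eval_ne_zero P hpos hrel hroot

end Place

section Chart

variable {K : Type*} [Field K] {A : ValuationSubring K} {F : Type*} [Field F] [Algebra K F]
  {O₁ O₂ : ValuationSubring F} {k κ₁ κ₂ : Type*} [Field k] [Field κ₁] [Field κ₂]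
  [Algebra k κ₁] [Algebra k κ₂]
  (R₁ : Fermat.Agent.Gateway.C0.RedSetup A O₁ k κ₁)
  (R₂ : Fermat.Agent.Gateway.C0.RedSetup A O₂ k κ₂) (hπ : R₁.π = R₂.π)
  (C : ChartCoord (redSetupTwoVal R₁ R₂ hπ))

/-- **a node place lies over a root of the denominator of `δ`** (no unramifiedness assumed). -/
theorem isRoot_of_node (P : Place k κ₁) {s : k}
    (hpos : 0 < P.ord (xb R₁ R₂ hπ C - algebraMap k κ₁ s))
    {u' w : F} (hw : w ∈ O₁) (hu' : u' ∈ BooAlg C) (hg0 : rho₂ R₁ R₂ hπ C ⟨u', hu'⟩ = 0)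
    (hΨ : w * u' ∈ BooAlg C) {E b E' : BooAlg C} (hE : rho₂ R₁ R₂ hπ C E = 0)
    (hE' : rho₁ R₁ R₂ hπ C E' = 0) (hsum : E + b * ⟨w * u', hΨ⟩ + E' = 1)
    (ev : RatFunc k →+* κ₁)
    (hev : ∀ g : k[X], ev (algebraMap k[X] (RatFunc k) g) = aeval (xb R₁ R₂ hπ C) g)
    (r : RatFunc k) (hr : R₁.res ⟨w, hw⟩ = ev r)
    (hnode : ∀ e : BooAlg C, rho₂ R₁ R₂ hπ C e = 0 →
      rho₁ R₁ R₂ hπ C e ∈ P.toValuationSubring.nonunits) : r.denom.IsRoot s := by
  have hT : xb R₁ R₂ hπ C ∈ P.toValuationSubring := mem_of_ord_sub_pos P hpos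
  have h1 := (NodePole.delta_not_mem_of_node R₁ R₂ hπ C P hT hw hu' hg0 hΨ hE hE' hsum hnode).2
  by_contra hroot
  apply h1
  rw [hr]
  exact mem_of_not_isRoot_of_pos P hpos ev hev r hroot

/-- the same with the node condition in the (unfolded) form `¬ SmoothInst.IsNonNode₁ C P`. -/
theorem isRoot_of_not_isNonNode (P : Place k κ₁) {s : k}
    (hpos : 0 < P.ord (xb R₁ R₂ hπ C - algebraMap k κ₁ s))
    {u' w : F} (hw : w ∈ O₁) (hu' : u' ∈ BooAlg C) (hg0 : rho₂ R₁ R₂ hπ C ⟨u', hu'⟩ = 0)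
    (hΨ : w * u' ∈ BooAlg C) {E b E' : BooAlg C} (hE : rho₂ R₁ R₂ hπ C E = 0)
    (hE' : rho₁ R₁ R₂ hπ C E' = 0) (hsum : E + b * ⟨w * u', hΨ⟩ + E' = 1)
    (ev : RatFunc k →+* κ₁)
    (hev : ∀ g : k[X], ev (algebraMap k[X] (RatFunc k) g) = aeval (xb R₁ R₂ hπ C) g)
    (r : RatFunc k) (hr : R₁.res ⟨w, hw⟩ = ev r)
    (hnode : ¬ ∃ a : C.B₁, ((a, 0) : C.B₁ × C.B₂) ∈ C.BbarT ∧
      (a : κ₁) ∉ P.toValuationSubring.nonunits) : r.denom.IsRoot s := by
  apply isRoot_of_node R₁ R₂ hπ C P hpos hw hu' hg0 hΨ hE hE' hsum ev hev r hr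
  intro e he0
  by_contra heP
  exact hnode ((NodePole.isNonNode_iff R₁ R₂ hπ C P).mpr ⟨e, he0, heP⟩)

/-- **node places are non-cuspidal**: the value `s` of `x̄` at a node place is `≠ 0, c`
(polynomial hypotheses = those of `RefOrd.exists_ref_form` with `A = r.num`, `B = r.denom`). -/
theorem ne_of_node (P : Place k κ₁) {s : k}
    (hpos : 0 < P.ord (xb R₁ R₂ hπ C - algebraMap k κ₁ s))
    {u' w : F} (hw : w ∈ O₁) (hu' : u' ∈ BooAlg C) (hg0 : rho₂ R₁ R₂ hπ C ⟨u', hu'⟩ = 0)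
    (hΨ : w * u' ∈ BooAlg C) {E bE E' : BooAlg C} (hE : rho₂ R₁ R₂ hπ C E = 0)
    (hE' : rho₁ R₁ R₂ hπ C E' = 0) (hsum : E + bE * ⟨w * u', hΨ⟩ + E' = 1)
    (ev : RatFunc k →+* κ₁)
    (hev : ∀ g : k[X], ev (algebraMap k[X] (RatFunc k) g) = aeval (xb R₁ R₂ hπ C) g)
    (r : RatFunc k) (hr : R₁.res ⟨w, hw⟩ = ev r)
    (hnode : ¬ ∃ a : C.B₁, ((a, 0) : C.B₁ × C.B₂) ∈ C.BbarT ∧
      (a : κ₁) ∉ P.toValuationSubring.nonunits)
    (e m : ℕ) (c : k) (Num Den H : k[X]) (a b : ℕ) (hH : H ≠ 0)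
    (hDen0 : Den.eval 0 ≠ 0) (hDenc : Den.eval c ≠ 0)
    (hNum0 : Num ≠ 0) (hNum : (X - Polynomial.C c) ^ m ∣ Num)
    (hdeg : Num.natDegree ≤ Den.natDegree)
    (hrel : (derivative r.num * r.denom - r.num * derivative r.denom) * Den =
      X ^ e * (Num - Den) * r.denom ^ 2)
    (hden : r.denom ∣ X ^ a * (X - Polynomial.C c) ^ b * H)
    (hS : 2 * H.natDegree ≤ m) (hc : c ≠ 0) (hBH : r.denom ∣ H) :
    r.denom.IsRoot s ∧ s ≠ 0 ∧ s ≠ c := by
  have h1 := isRoot_of_not_isNonNode R₁ R₂ hπ C P hpos hw hu' hg0 hΨ hE hE' hsum ev hev r hr hnode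
  exact ⟨h1, RefOrdNonCusp.ne_of_isRoot e m c r.num r.denom Num Den H a b hH hDen0 hDenc hNum0
    hNum hdeg hrel hden hS hc hBH h1⟩

end Chart

end Fermat.Agent.S40x.Diag.NodeNonCusp
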