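/-
helper43 (P-S44, block C2/DIAG, seam `hs0`/`hsc` at the non-cuspidal places): **the value of `x̄`
at a non-cuspidal place avoids the roots of the denominator of `j̄`**.

`jb * D(x) = N(x)` in a function field `κ / k`, `P` a place with `0 < ord_P (x - s)`:
* `ord_quot_neg` : `D(s) = 0`, `N(s) ≠ 0`, `D(x) ≠ 0`  `⟹`  `ord_P jb < 0`;
* `not_isRoot_of_ord_nonneg` : `0 ≤ ord_P jb` (non-cuspidal), `N(s) ≠ 0`  `⟹`  `D(s) ≠ 0`;
* `ne_of_ord_nonneg` : for `D = X^a * (X - C c)^b`, `a, b ≥ 1` (`D4 = X (X - 16)^4`):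
  `s ≠ 0 ∧ s ≠ c` (the hypotheses `hs0`, `hsc` of `RefOrd.ord_Ub_of_thick` / `RefOrdNode`).
Companion of `Diag/NodeNonCusp.ord_quot_nonneg` (the converse direction).
-/
import Fermat.Agent.S40x.Diag.NodeNonCusp

set_option autoImplicit false

namespace Fermat.Agent.S40x.Diag.NonCuspValue

open AlgebraicCurve Polynomial

variable {k κ : Type*} [Field k] [Field κ] [Algebra k κ]

/-- at a place over a root of the denominator (and not of the numerator) the quotient has a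
pole. -/
theorem ord_quot_neg (P : Place k κ) {x jb : κ} {s : k}
    (hpos : 0 < P.ord (x - algebraMap k κ s)) {N D : k[X]}
    (hj : jb * aeval x D = aeval x N) (hN : N.eval s ≠ 0) (hD : D.IsRoot s)
    (hD0 : aeval x D ≠ 0) : P.ord jb < 0 := by
  obtain ⟨hNne, hNord⟩ := NodeNonCusp.ord_aeval_of_eval_ne_zero_of_pos P hpos N hN
  obtain ⟨D', hD'⟩ : X - C s ∣ D := dvd_iff_isRoot.mpr hD
  have e1 : aeval x D = (x - algebraMap k κ s) * aeval x D' := by
    rw [hD', map_mul, map_sub, aeval_X, aeval_C]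
  have h0 : x - algebraMap k κ s ≠ 0 := RefOrd.ne_zero_of_ord_ne_zero P (ne_of_gt hpos)
  have hD'0 : aeval x D' ≠ 0 := by
    intro h
    apply hD0
    rw [e1, h, mul_zero]
  have hD'ord : 0 ≤ P.ord (aeval x D') :=
    (Fermat.Agent.S24.place_mem_iff_ord_nonneg P hD'0).mp
      (RefOrd.aeval_mem P (NodeNonCusp.mem_of_ord_sub_pos P hpos) D')
  have hjb0 : jb ≠ 0 := by
    rintro rfl
    rw [zero_mul] at hj
    exact hNne hj.symm
  have h1 := congrArg P.ord hj
  rw [P.ord_mul hjb0 hD0, e1, P.ord_mul h0 hD'0, hNord] at h1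
  omega

/-- at a non-cuspidal place the value of `x` is not a root of the denominator. -/
theorem not_isRoot_of_ord_nonneg (P : Place k κ) {x jb : κ} {s : k}
    (hpos : 0 < P.ord (x - algebraMap k κ s)) {N D : k[X]}
    (hj : jb * aeval x D = aeval x N) (hN : N.eval s ≠ 0) (hD0 : aeval x D ≠ 0)
    (hnc : 0 ≤ P.ord jb) : ¬ D.IsRoot s := by
  intro hD
  have := ord_quot_neg P hpos hj hN hD hD0
  omega

/-- `D = X^a (X - c)^b`, `a, b ≥ 1`: at a non-cuspidal place `s ≠ 0`, `s ≠ c`. -/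
theorem ne_of_ord_nonneg (P : Place k κ) {x jb : κ} {s c : k}
    (hpos : 0 < P.ord (x - algebraMap k κ s)) {N : k[X]} {a b : ℕ} (ha : a ≠ 0) (hb : b ≠ 0)
    (hj : jb * aeval x (X ^ a * (X - C c) ^ b : k[X]) = aeval x N)
    (hN0 : N.eval 0 ≠ 0) (hNc : N.eval c ≠ 0)
    (hD0 : aeval x (X ^ a * (X - C c) ^ b : k[X]) ≠ 0)
    (hnc : 0 ≤ P.ord jb) : s ≠ 0 ∧ s ≠ c := by
  constructor
  · rintro rfl
    apply not_isRoot_of_ord_nonneg P hpos hj hN0 hD0 hnc
    rw [IsRoot, eval_mul, eval_pow, eval_X, zero_pow ha, zero_mul]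
  · rintro rfl
    apply not_isRoot_of_ord_nonneg P hpos hj hNc hD0 hnc
    rw [IsRoot, eval_mul, eval_pow, eval_pow, eval_sub, eval_X, eval_C, sub_self, zero_pow hb,
      mul_zero]

end Fermat.Agent.S40x.Diag.NonCuspValue
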