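import Mathlib
import Fermat.Agent.S40x.Thick.ThetaX4K

set_option autoImplicit false

/-!
# S40x / Diag / RefId : the level-4 identity `Δ · x⁵ (x - 16)² = (θ x)⁶` (leaf D-REFID of DIAG)

(helper67; block C2 / DIAG of P-S44, leaf D-REFID of helper71's note 2792.)

`x = x₄` the Hauptmodul of `X₀(4)` (`L4.x4`), `θ = q d/dq`.  From the landed relations
`E₄ θx C4(x) = - E₆ x (x-16) A4(x)` (`ThetaX4.thetaL_x4`), `j D4(x) = N4(x)` (`ThetaX4.jq_rel`),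
`N4 - 1728 D4 = C4²`, `Δ j = E₄³`, `E₄³ - E₆² = 1728 Δ`:

* `delta_x4_int` : `Δ · x⁵ · (x - 16)² = (θ x)⁶` in `ℤ((q))`, i.e. `Δ (x-16)² = x (θx/x)⁶`;
* `delta_xK` : the same over any coefficient ring `K`;
* `delta_pow_xK` : `Δ^n (x^n)⁵ ((x-16)^n)² = ((θx)^n)⁶`;
* over a field: `deltaInv_pow_eq` : `(Δ^n)⁻¹ = ((x-16)²/x)^n · ((θx/x)^n)⁻¹ ^ 6`
  (for `n = p - 1`: `Ūb = Δ̄^(1-p) = ((x̄-16)²/x̄)^(p-1) R̄b⁻⁶`, `R̄b = (θx̄/x̄)^(p-1)`);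
* `deltaInv_pow_rational` : with the denominator `B` of `ThetaX4K.exists_denominator`
  (`B(x̄) (θx̄)^(p-1) = (x̄ (x̄-16) A4(x̄))^(p-1)`):
  `Δ̄^(p-1) · B(x̄)⁶ = (x̄ (x̄-16)⁴ A4(x̄)⁶)^(p-1)`, so `Ūb` is the rational function
  `B⁶ / (X (X-16)⁴ A4⁶)^(p-1)` of `x̄`.
-/

namespace Fermat.Agent.S40x.Diag.RefId

open Polynomial ModularCurve
open Fermat.Agent.S23.IntSeries Fermat.Agent.S16.SD Fermat.Agent.S16.Two
open Fermat.Agent.Gateway.AuxLevel Fermat.Agent.S40x.Thick.ModM Fermat.Agent.S40x.Thick.ThetaX4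

noncomputable section

local notation "ι" => HahnSeries.ofPowerSeries ℤ ℤ

/-! ### The identity over `ℤ` -/

/-- the polynomial core of the identity, step 1: from the five relations,
`C² x (x-16)² · (a² t² (x-16)²) = C² x (x-16)² · (D x A²)`. -/
theorem core1 {R : Type*} [CommRing R] {a b D j x t A C : R}
    (h1 : a * t * C = -(b * x * (x - 16) * A))
    (h2 : j * (x * (x - 16) ^ 4) = A ^ 3)
    (h3 : A ^ 3 - 1728 * (x * (x - 16) ^ 4) = C ^ 2)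
    (h4 : D * j = a ^ 3)
    (h5 : a ^ 3 - b ^ 2 = 1728 * D) :
    C ^ 2 * x * (x - 16) ^ 2 * (a ^ 2 * t ^ 2 * (x - 16) ^ 2) =
      C ^ 2 * x * (x - 16) ^ 2 * (D * x * A ^ 2) := by
  linear_combination (x * (x - 16) ^ 4 * (a * t * C - b * x * (x - 16) * A)) * h1 +
    (x ^ 2 * (x - 16) ^ 2 * A ^ 2 * D) * h2 + (x ^ 2 * (x - 16) ^ 2 * A ^ 2 * D) * h3 -
    (x ^ 2 * (x - 16) ^ 2 * A ^ 2 * (x * (x - 16) ^ 4)) * h4 -
    (x ^ 2 * (x - 16) ^ 2 * A ^ 2 * (x * (x - 16) ^ 4)) * h5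

/-- step 2: `a⁶ (x-16)⁶ · t⁶ = a⁶ (x-16)⁶ · (D x⁵ (x-16)²)`. -/
theorem core2 {R : Type*} [CommRing R] {a D j x t A : R}
    (k1 : a ^ 2 * t ^ 2 * (x - 16) ^ 2 = D * x * A ^ 2)
    (h2 : j * (x * (x - 16) ^ 4) = A ^ 3)
    (h4 : D * j = a ^ 3) :
    a ^ 6 * (x - 16) ^ 6 * t ^ 6 = a ^ 6 * (x - 16) ^ 6 * (D * x ^ 5 * (x - 16) ^ 2) := by
  linear_combination ((a ^ 2 * t ^ 2 * (x - 16) ^ 2) ^ 2 +
      (a ^ 2 * t ^ 2 * (x - 16) ^ 2) * (D * x * A ^ 2) + (D * x * A ^ 2) ^ 2) * k1 -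
    (D ^ 3 * x ^ 3 * (j * (x * (x - 16) ^ 4) + A ^ 3)) * h2 +
    (D * x ^ 5 * (x - 16) ^ 8 * (a ^ 3 + D * j)) * h4

/-- **`Δ · x⁵ · (x - 16)² = (θ x)⁶`** in `ℤ((q))`. -/
theorem delta_x4_int :
    ι DeltaZ * L4.x4 ^ 5 * (L4.x4 - 16) ^ 2 = thetaL L4.x4 ^ 6 := by
  have h1 := thetaL_x4
  have h2 : jqModC ℤ * (L4.x4 * (L4.x4 - 16) ^ 4) = aeval L4.x4 A4 ^ 3 := by
    have h := jq_rel
    rw [aeval_D4, N4, map_pow] at h
    exact h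
  have h3 : aeval L4.x4 A4 ^ 3 - 1728 * (L4.x4 * (L4.x4 - 16) ^ 4) = aeval L4.x4 C4 ^ 2 := by
    have h := congrArg (aeval L4.x4) N4_sub
    rw [map_sub, map_mul, map_pow, map_ofNat, aeval_D4, N4, map_pow] at h
    exact h
  have h4 : ι DeltaZ * jqModC ℤ = ι E4Z ^ 3 := QS.DeltaZ_mul_jq
  have h5 : ι E4Z ^ 3 - ι E6Z ^ 2 = 1728 * ι DeltaZ := by
    have h := congrArg ι E4Z_cube_sub_E6Z_sq
    rw [map_sub, map_pow, map_pow, map_mul, map_ofNat] at h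
    exact h
  -- nonvanishing
  have hx : L4.x4 ≠ 0 := L4.x4_ne_zero
  have hx16 : L4.x4 - 16 ≠ 0 := L4.x4_sub_ne_zero
  have hD : ι DeltaZ ≠ 0 := QS.ofPowerSeries_DeltaZ_ne_zero
  have hj : jqModC ℤ ≠ 0 := Fermat.Agent.S28.jqModC_ne_zero ℤ
  have ha : ι E4Z ≠ 0 := by
    intro h0
    rw [h0, zero_pow (by norm_num)] at h4
    exact mul_ne_zero hD hj h4
  have hj' : jqModC ℤ - 1728 ≠ 0 := jq_sub_ne_zero ℤ
  have hC : aeval L4.x4 C4 ≠ 0 := by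
    intro h0
    have hC2 : aeval L4.x4 C4 ^ 2 = (jqModC ℤ - 1728) * (L4.x4 * (L4.x4 - 16) ^ 4) := by
      rw [← h3, ← h2]; ring
    rw [h0, zero_pow (by norm_num)] at hC2
    exact mul_ne_zero hj' (mul_ne_zero hx (pow_ne_zero _ hx16)) hC2.symm
  -- step 1
  have k1 : ι E4Z ^ 2 * thetaL L4.x4 ^ 2 * (L4.x4 - 16) ^ 2 =
      ι DeltaZ * L4.x4 * aeval L4.x4 A4 ^ 2 := by
    have hne : aeval L4.x4 C4 ^ 2 * L4.x4 * (L4.x4 - 16) ^ 2 ≠ 0 :=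
      mul_ne_zero (mul_ne_zero (pow_ne_zero _ hC) hx) (pow_ne_zero _ hx16)
    exact mul_left_cancel₀ hne (core1 h1 h2 h3 h4 h5)
  -- step 2
  have hne2 : ι E4Z ^ 6 * (L4.x4 - 16) ^ 6 ≠ 0 :=
    mul_ne_zero (pow_ne_zero _ ha) (pow_ne_zero _ hx16)
  exact (mul_left_cancel₀ hne2 (core2 k1 h2 h4)).symm

/-! ### Any coefficient ring -/

section Ring

variable (K : Type*) [CommRing K]

/-- **`Δ · x⁵ · (x - 16)² = (θ x)⁶`** over any coefficient ring. -/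
theorem delta_xK : iK K (Dq K) * xK K ^ 5 * (xK K - 16) ^ 2 = thetaL (xK K) ^ 6 := by
  have h := congrArg (cK K) delta_x4_int
  rw [map_mul, map_mul, map_pow, map_pow, map_pow, map_sub, cK_ofPowerSeries, cK_thetaL,
    cK_ofNat] at h
  exact h

/-- `Δ^n (x^n)⁵ ((x-16)^n)² = ((θx)^n)⁶`. -/
theorem delta_pow_xK (n : ℕ) :
    iK K (Dq K) ^ n * (xK K ^ n) ^ 5 * ((xK K - 16) ^ n) ^ 2 = (thetaL (xK K) ^ n) ^ 6 := by
  have h := congrArg (fun y => y ^ n) (delta_xK K)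
  simp only [mul_pow] at h
  rw [← pow_mul, ← pow_mul, ← pow_mul] at h
  rw [← pow_mul, ← pow_mul, ← pow_mul, mul_comm n 5, mul_comm n 2, mul_comm n 6]
  exact h

end Ring

/-! ### Fields -/

section Field

variable (k : Type*) [Field k]

theorem iK_Dq_ne_zero' : iK k (Dq k) ≠ 0 := by
  intro h
  have h1 : Dq k = 0 := HahnSeries.ofPowerSeries_injective (by rw [h, map_zero])
  exact Dq_ne_zero k h1

theorem thetaL_xK_ne_zero : thetaL (xK k) ≠ 0 := by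
  intro h
  have h1 := delta_xK k
  rw [h, zero_pow (by norm_num)] at h1
  exact mul_ne_zero (mul_ne_zero (iK_Dq_ne_zero' k) (pow_ne_zero _ (xK_ne_zero k)))
    (pow_ne_zero _ (xK_sub_ne_zero k)) h1

/-- **`(Δ^n)⁻¹ = ((x-16)²/x)^n · ((θx/x)^n)⁻¹ ^ 6`** (division form of `delta_pow_xK`); for
`n = p - 1` in characteristic `p` this is `Ūb = ((x̄-16)²/x̄)^(p-1) · R̄b⁻⁶` with `Ūb = Δ̄^(1-p)`,
`R̄b = (θx̄/x̄)^(p-1)`. -/
theorem deltaInv_pow_eq (n : ℕ) :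
    (iK k (Dq k) ^ n)⁻¹ =
      ((xK k - 16) ^ 2 / xK k) ^ n * (((thetaL (xK k) / xK k) ^ n)⁻¹) ^ 6 := by
  have h := delta_pow_xK k n
  have hD := pow_ne_zero n (iK_Dq_ne_zero' k)
  have hx := pow_ne_zero n (xK_ne_zero k)
  have hx16 := pow_ne_zero n (xK_sub_ne_zero k)
  have ht := pow_ne_zero n (thetaL_xK_ne_zero k)
  rw [div_pow, div_pow, inv_div, ← pow_mul, mul_comm 2 n, pow_mul]
  field_simp
  linear_combination -h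

/-- **`Ūb` as a rational function of `x̄`**: if `B(x̄) (θx̄)^n = (x̄ (x̄-16) A4(x̄))^n`
(`ThetaX4K.exists_denominator`, `n = p - 1`), then
`Δ̄^n · B(x̄)⁶ = (x̄ (x̄-16)⁴ A4(x̄)⁶)^n`. -/
theorem deltaInv_pow_rational (n : ℕ) {Bx : LaurentSeries k}
    (hB : Bx * thetaL (xK k) ^ n = (xK k * (xK k - 16) * aeval (xK k) A4) ^ n) :
    iK k (Dq k) ^ n * Bx ^ 6 = (xK k * (xK k - 16) ^ 4 * aeval (xK k) A4 ^ 6) ^ n := by
  have h := delta_pow_xK k n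
  have ht : (thetaL (xK k) ^ n) ^ 6 ≠ 0 := pow_ne_zero _ (pow_ne_zero n (thetaL_xK_ne_zero k))
  have hB' : Bx * thetaL (xK k) ^ n = xK k ^ n * (xK k - 16) ^ n * aeval (xK k) A4 ^ n := by
    rw [hB, mul_pow, mul_pow]
  have e : (xK k * (xK k - 16) ^ 4 * aeval (xK k) A4 ^ 6) ^ n =
      xK k ^ n * ((xK k - 16) ^ n) ^ 4 * (aeval (xK k) A4 ^ n) ^ 6 := by
    rw [mul_pow, mul_pow, ← pow_mul, ← pow_mul, ← pow_mul, ← pow_mul, mul_comm 4 n, mul_comm 6 n]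
  rw [e]
  apply mul_left_cancel₀ ht
  have hB6 : Bx ^ 6 * (thetaL (xK k) ^ n) ^ 6 =
      (xK k ^ n) ^ 6 * ((xK k - 16) ^ n) ^ 6 * (aeval (xK k) A4 ^ n) ^ 6 := by
    rw [← mul_pow, hB', mul_pow, mul_pow]
  linear_combination (iK k (Dq k) ^ n) * hB6 +
    (xK k ^ n * ((xK k - 16) ^ n) ^ 4 * (aeval (xK k) A4 ^ n) ^ 6) * h

/-- **Package for REF-ORD**: the denominator `B` of `ThetaX4K.exists_denominator` also computes
`Δ̄^(p-1)`: `Δ̄^(p-1) · B(x̄)⁶ = (x̄ (x̄-16)⁴ A4(x̄)⁶)^(p-1)`. -/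
theorem exists_denominator_delta (p : ℕ) [Fact p.Prime] [CharP k p] (hp2 : p ≠ 2) :
    ∃ B : k[X], B.Monic ∧ B.natDegree = 6 * ((p - 1) / 2) ∧ B.eval 0 ≠ 0 ∧ B.eval 16 ≠ 0 ∧
      B.eval₂ (HahnSeries.C : k →+* LaurentSeries k) (xK k) * thetaL (xK k) ^ (p - 1) =
        (xK k * (xK k - 16) * aeval (xK k) A4) ^ (p - 1) ∧
      iK k (Dq k) ^ (p - 1) * B.eval₂ (HahnSeries.C : k →+* LaurentSeries k) (xK k) ^ 6 =
        (xK k * (xK k - 16) ^ 4 * aeval (xK k) A4 ^ 6) ^ (p - 1) := by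
  obtain ⟨B, h1, h2, h3, h4, h5⟩ :=
    Fermat.Agent.S40x.Thick.ThetaX4K.exists_denominator p k hp2
  exact ⟨B, h1, h2, h3, h4, h5, deltaInv_pow_rational k (p - 1) h5⟩

end Field

end

end Fermat.Agent.S40x.Diag.RefId
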