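/-
helper84 (P-S44, block C2/DIAG, leaf D-REFORD, INSTANCE half of route D; abstract half =
helper43's `Diag/RefOrd.lean` on top of `Thick/RatOrders.lean`).

`k` a field of odd characteristic `p`, `x̄ = xK k` the reduced Hauptmodul of `X_0(4)` in `k((q))`,
`E` any intermediate field of `k((q))/k` containing `x̄` (e.g. `Fk k M`, `4 ∣ M`), `t ∈ E` with
`(t : k((q))) = x̄`, `Ub ∈ E` with `(Ub : k((q))) = (Δ̄^(p-1))⁻¹`, `δ = N(x̄)/Dn(x̄)` the T1 series
(`θ δ = x̄^p (G^p - G)`, `G x̄ = θ x̄`) with `Dn` squarefree and `2 deg Dn ≤ p - 1`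
(thickness outputs T4, T5, T10).  Then at every place `P` of `E/k` with uniformiser `t - s`,
`s ≠ 0, 16`:

  `ord_P Ub = 12` if `Dn(s) = 0` (i.e. `δ` has a pole at `P`), and `0` otherwise     (`ord_Ub_eq`).

* `poly_rel` : the polynomial identity `(N' Dn - N Dn') B = X^(p-1) (numRb - B) Dn^2` behind
  `Thick/Count` (quotient rule + chain rule for `θ`, T1, `ThetaX4K.exists_denominator`).
* `coe_aeval` : `((aeval t Q : E) : k((q))) = Q(x̄)`.
* `ord_Ub_eq`, `ord_delta_eq`, `isRoot_iff_ord_neg` : the orders of `Ub` and of `δ`.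
* `exists_unif_ne` / `ordMod_Ub_of_nc` at `E = Fk k M`, `4 ∣ M`, `p ∤ M`: UNR
  (`C2/HurwitzEqB.exists_ord_sub_eq_one_four`) gives the uniformiser `t - s` at every
  non-cuspidal place (`0 ≤ ord_P j`), and `s ≠ 0, 16` there; hence `href`/`href'` of
  `Diag/Abs.diag_zero` with `e₀ = 12` and `S = {P | ord_P δ < 0}`.
-/
import Mathlib
import Fermat.Agent.S40x.Diag.RefOrd
import Fermat.Agent.S40x.Diag.RefId
import Fermat.Agent.S40x.Diag.Abs
import Fermat.Agent.S40x.Thick.ThetaX4K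
import Fermat.Agent.S40x.Thick.RatOrdersT9
import Fermat.Agent.S40x.C2.HurwitzEqB

set_option autoImplicit false
set_option linter.unusedSectionVars false

noncomputable section

namespace Fermat.Agent.S40x.Diag.RefOrdInst

open Polynomial ModularCurve AlgebraicCurve
open Fermat.Agent.S16.Two Fermat.Agent.S16.SD Fermat.Agent.S40x.Thick.ThetaX4
open Fermat.Agent.S40x.Thick.ThetaX4K
open Fermat.Agent.S40x.Thick.ModM
open Fermat.Agent.S40x.Thick.RatOrders Fermat.Agent.S40x.Thick.RatOrdersT9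

/-! ### Part A: calculus in `k((q))` -/

section Calculus

variable {k : Type*} [Field k]

local notation "Ck" => (HahnSeries.C : k →+* LaurentSeries k)

theorem thetaL_const (c : k) : thetaL (HahnSeries.C c : LaurentSeries k) = 0 := by
  ext n
  rw [thetaL_coeff, HahnSeries.coeff_zero]
  by_cases hn : n = 0
  · subst hn; simp
  · rw [HahnSeries.C_apply, HahnSeries.coeff_single_of_ne hn, mul_zero]

theorem natCast_eq_C (n : ℕ) : ((n : ℕ) : LaurentSeries k) = HahnSeries.C (n : k) := by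
  simp

/-- polynomial chain rule for `θ`: `θ (P(x)) = P'(x) θx` -/
theorem thetaL_eval₂ (x : LaurentSeries k) (P : k[X]) :
    thetaL (P.eval₂ Ck x) = (derivative P).eval₂ Ck x * thetaL x := by
  induction P using Polynomial.induction_on' with
  | add p q hp hq => rw [eval₂_add, thetaL_add, hp, hq, derivative_add, eval₂_add, add_mul]
  | monomial n a =>
    rw [eval₂_monomial, thetaL_mul, thetaL_const, zero_mul, zero_add, derivative_monomial,
      eval₂_monomial]
    cases n with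
    | zero => simp [thetaL_one]
    | succ n =>
      rw [thetaL_pow_succ, Nat.add_sub_cancel, map_mul, natCast_eq_C]
      push_cast
      ring

theorem eval₂_eq_aeval (x : LaurentSeries k) (P : k[X]) : P.eval₂ Ck x = aeval x P := by
  rw [aeval_def]
  congr 1
  exact RingHom.ext fun c => Fermat.Agent.S28.C_eq_algebraMap_laurent c

/-- `P ↦ P(x)` is injective when `x` has a pole -/
theorem eval₂_injective {x : LaurentSeries k} (hx : x.order < 0) :
    Function.Injective (fun P : k[X] => P.eval₂ Ck x) := by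
  have htr := Fermat.Agent.S28.transcendental_of_order_neg hx
  intro P Q hPQ
  by_contra hne
  apply htr
  refine ⟨P - Q, sub_ne_zero.mpr hne, ?_⟩
  rw [← eval₂_eq_aeval, eval₂_sub, sub_eq_zero]
  exact hPQ

variable (k)

theorem order_xK_neg : (xK k).order < 0 := by
  have h : (xK k).coeff (-1) ≠ 0 := by rw [xK_coeff_neg_one]; exact one_ne_zero
  exact lt_of_le_of_lt (HahnSeries.order_le_of_coeff_ne_zero h) (by norm_num)

theorem thetaL_xK_ne_zero : thetaL (xK k) ≠ 0 := by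
  intro h
  have h1 : (thetaL (xK k)).coeff (-1) = -1 := by
    rw [thetaL_coeff, xK_coeff_neg_one]
    simp
  rw [h, HahnSeries.coeff_zero] at h1
  exact one_ne_zero (neg_eq_zero.mp h1.symm)

/-- `A(x̄) = ((x̄ - 16) A4(x̄))^e` for `A = numRb k e` -/
theorem eval₂_numRb (e : ℕ) :
    (numRb k e).eval₂ Ck (xK k) = ((xK k - 16) * aeval (xK k) A4) ^ e := by
  have h16 : (16 : k[X]) = C 16 := (map_ofNat C 16).symm
  have h224 : (224 : k[X]) = C 224 := (map_ofNat C 224).symm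
  have h256 : (256 : k[X]) = C 256 := (map_ofNat C 256).symm
  rw [numRb, eval₂_pow, eval₂_mul, eval₂_sub, eval₂_X, h16, eval₂_C, map_ofNat,
    eval₂_add, eval₂_add, eval₂_pow, eval₂_X, eval₂_mul, eval₂_X, h224, h256, eval₂_C, eval₂_C,
    map_ofNat, map_ofNat]
  congr 2
  simp only [A4, map_add, map_mul, map_pow, aeval_X, map_ofNat]

variable {k}

/-- **the polynomial identity behind the count.**  `δ = N(x̄)/Dn(x̄)`, `θ δ = x̄^(m+1) (G^(m+1) - G)`,
`G x̄ = θ x̄`, `B(x̄) (θ x̄)^m = (x̄ (x̄-16) A4(x̄))^m`  ⟹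
`(N' Dn - N Dn') B = X^m (numRb m - B) Dn^2`. -/
theorem poly_rel (m : ℕ) (N Dn B : k[X]) (Dk G : LaurentSeries k)
    (hr : N.eval₂ Ck (xK k) = Dk * Dn.eval₂ Ck (xK k))
    (hD : thetaL Dk = xK k ^ (m + 1) * (G ^ (m + 1) - G)) (hG : G * xK k = thetaL (xK k))
    (hB : B.eval₂ Ck (xK k) * thetaL (xK k) ^ m =
      (xK k * (xK k - 16) * aeval (xK k) A4) ^ m) :
    (derivative N * Dn - N * derivative Dn) * B = X ^ m * (numRb k m - B) * Dn ^ 2 := by
  have hx0 : xK k ≠ 0 := xK_ne_zero k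
  have hθ0 : thetaL (xK k) ≠ 0 := thetaL_xK_ne_zero k
  have hinj := eval₂_injective (order_xK_neg k)
  -- quotient rule
  have h1 : ((derivative N).eval₂ Ck (xK k) * Dn.eval₂ Ck (xK k) -
      N.eval₂ Ck (xK k) * (derivative Dn).eval₂ Ck (xK k)) * thetaL (xK k) =
      thetaL Dk * Dn.eval₂ Ck (xK k) ^ 2 := by
    have h2 := congrArg thetaL hr
    rw [thetaL_eval₂, thetaL_mul, thetaL_eval₂] at h2
    linear_combination (Dn.eval₂ Ck (xK k)) * h2 -
      (derivative Dn).eval₂ Ck (xK k) * thetaL (xK k) * hr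
  -- T1
  have h3 : thetaL Dk = xK k ^ m * thetaL (xK k) * (G ^ m - 1) := by
    rw [hD, ← hG]
    ring
  -- the denominator package
  have h4 : B.eval₂ Ck (xK k) * G ^ m = (numRb k m).eval₂ Ck (xK k) := by
    rw [eval₂_numRb]
    have hB' : xK k ^ m * (B.eval₂ Ck (xK k) * G ^ m) =
        xK k ^ m * ((xK k - 16) * aeval (xK k) A4) ^ m := by
      rw [← hG, mul_pow] at hB
      rw [← mul_pow (xK k)]
      have e : xK k * ((xK k - 16) * aeval (xK k) A4) = xK k * (xK k - 16) * aeval (xK k) A4 := by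
        ring
      rw [e, ← hB]
      ring
    exact mul_left_cancel₀ (pow_ne_zero m hx0) hB'
  -- the identity in `k((q))`
  have h5 : ((derivative N).eval₂ Ck (xK k) * Dn.eval₂ Ck (xK k) -
      N.eval₂ Ck (xK k) * (derivative Dn).eval₂ Ck (xK k)) * B.eval₂ Ck (xK k) =
      xK k ^ m * ((numRb k m).eval₂ Ck (xK k) - B.eval₂ Ck (xK k)) *
        Dn.eval₂ Ck (xK k) ^ 2 := by
    apply mul_left_cancel₀ hθ0
    rw [← h4]
    linear_combination (B.eval₂ Ck (xK k)) * h1 +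
      (B.eval₂ Ck (xK k) * Dn.eval₂ Ck (xK k) ^ 2) * h3
  apply hinj
  simp only [eval₂_mul, eval₂_sub, eval₂_pow, eval₂_X]
  exact h5

end Calculus

/-! ### Part B: an intermediate field `E` of `k((q))/k` containing `x̄` -/

section Field

variable {k : Type*} [Field k] (E : IntermediateField k (LaurentSeries k))

local notation "Ck" => (HahnSeries.C : k →+* LaurentSeries k)

/-- `((aeval t Q : E) : k((q))) = Q(x)` when `(t : k((q))) = x`. -/
theorem coe_aeval {t : E} {x : LaurentSeries k} (ht : (t : LaurentSeries k) = x) (Q : k[X]) :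
    ((aeval t Q : E) : LaurentSeries k) = Q.eval₂ Ck x := by
  have h := Polynomial.aeval_algHom_apply E.val t Q
  rw [eval₂_eq_aeval, ← ht]
  exact h.symm

theorem aeval_ne_zero {t : E} (ht : (t : LaurentSeries k) = xK k) {Q : k[X]} (hQ : Q ≠ 0) :
    aeval t Q ≠ 0 := by
  intro h
  have h1 := coe_aeval E ht Q
  rw [h] at h1
  have h2 : Q = 0 := eval₂_injective (order_xK_neg k) (by simpa using h1.symm)
  exact hQ h2

variable (p : ℕ) [Fact p.Prime] [CharP k p]

/-- **REF-ORD, instance on `E`.**  See the file header. -/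
theorem ord_Ub_eq (hp2 : p ≠ 2) {t Ub : E} (ht : (t : LaurentSeries k) = xK k)
    (hUb : (Ub : LaurentSeries k) = (iK k (Dq k) ^ (p - 1))⁻¹)
    (N Dn : k[X]) (Dk G : LaurentSeries k)
    (hr : N.eval₂ Ck (xK k) = Dk * Dn.eval₂ Ck (xK k))
    (hD : thetaL Dk = xK k ^ p * (G ^ p - G)) (hG : G * xK k = thetaL (xK k))
    (hsq : Squarefree Dn) (hcount : 2 * Dn.natDegree ≤ p - 1)
    (P : Place k E) {s : k} (hP : P.ord (t - algebraMap k E s) = 1) (hs0 : s ≠ 0)
    (hs16 : s ≠ 16) [Decidable (Dn.IsRoot s)] :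
    P.ord Ub = if Dn.IsRoot s then 12 else 0 := by
  have hp : p.Prime := Fact.out
  obtain ⟨B, -, hBdeg, hB0, hB16, hB⟩ := exists_denominator p k hp2
  obtain ⟨m, hm⟩ : ∃ m, p = m + 1 := ⟨p - 1, (Nat.succ_pred_eq_of_pos hp.pos).symm⟩
  have hm' : p - 1 = m := by omega
  rw [hm'] at hB hUb hcount
  rw [hm] at hD
  have hDn0 : Dn ≠ 0 := hsq.ne_zero
  have hrel := poly_rel m N Dn B Dk G hr hD hG hB
  have hB0' : B ≠ 0 := by
    rintro rfl
    simp at hB0
  have hBt0 : aeval t B ≠ 0 := aeval_ne_zero E ht hB0'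
  have hdeg : (numRb k m).natDegree ≤ B.natDegree := by
    rw [natDegree_numRb, hBdeg, hm']
    obtain ⟨j, hj⟩ := hp.eq_two_or_odd'.resolve_left hp2
    omega
  -- the data in `E`
  set Rb : E := aeval t (numRb k m) / aeval t B with hRb
  have hRbdef : aeval t B * Rb = aeval t (numRb k m) := by
    rw [hRb, mul_div_cancel₀ _ hBt0]
  have hx0 : xK k ≠ 0 := xK_ne_zero k
  have hθ0 : thetaL (xK k) ≠ 0 := thetaL_xK_ne_zero k
  have hcoeB : ((aeval t B : E) : LaurentSeries k) ≠ 0 := by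
    intro h
    apply hBt0
    exact_mod_cast h
  -- `Rb = (θx̄/x̄)^m` in `k((q))`
  have hRbcoe : ((Rb : E) : LaurentSeries k) = (thetaL (xK k) / xK k) ^ m := by
    have h1 : ((Rb : E) : LaurentSeries k) =
        ((aeval t (numRb k m) : E) : LaurentSeries k) / ((aeval t B : E) : LaurentSeries k) := by
      rw [hRb]
      push_cast
      rfl
    rw [h1, coe_aeval E ht, coe_aeval E ht, eval₂_numRb, div_pow]
    rw [coe_aeval E ht] at hcoeB
    rw [div_eq_div_iff hcoeB (pow_ne_zero m hx0)]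
    rw [← mul_pow, mul_comm (thetaL (xK k) ^ m), hB]
    congr 1
    ring
  have hUb' : Ub * (t ^ m * Rb ^ 6) = ((t - algebraMap k E 16) ^ 2) ^ m := by
    apply Subtype.ext
    push_cast
    rw [hUb, hRbcoe, ht, map_ofNat, Fermat.Agent.S40x.Diag.RefId.deltaInv_pow_eq k m]
    have h1 : (thetaL (xK k) / xK k) ^ m ≠ 0 := pow_ne_zero m (div_ne_zero hθ0 hx0)
    have e1 : (((thetaL (xK k) / xK k) ^ m)⁻¹) ^ 6 * ((thetaL (xK k) / xK k) ^ m) ^ 6 = 1 := by
      rw [← mul_pow, inv_mul_cancel₀ h1, one_pow]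
    have e2 : ((xK k - 16) ^ 2 / xK k) ^ m * xK k ^ m = ((xK k - 16) ^ 2) ^ m := by
      rw [div_pow, div_mul_cancel₀ _ (pow_ne_zero m hx0)]
    linear_combination (((xK k - 16) ^ 2 / xK k) ^ m * xK k ^ m) * e1 + e2
  have h16' : algebraMap k E 16 = algebraMap k E (16 : k) := rfl
  have hmain := Fermat.Agent.S40x.Diag.RefOrd.ord_Ub_of_thick m m 16 N Dn (numRb k m) B Dn 0 0
    hDn0 hB0 hB16 (numRb_monic m).ne_zero (pow_dvd_numRb m) hdeg hrel
    (by rw [pow_zero, pow_zero, one_mul, one_mul]) hcount hsq P hP hs0 hs16 hBt0 hRbdef m hUb'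
  exact hmain

/-- the order of `δ = N(t)/Dn(t)` at a place with uniformiser `t - s` (`N`, `Dn` coprime):
`Dn(s) = 0 ↔ ord_P δ < 0`. -/
theorem isRoot_iff_ord_neg {t δ : E} (ht : (t : LaurentSeries k) = xK k) (N Dn : k[X])
    (hcop : IsCoprime N Dn) (hδ : δ * aeval t Dn = aeval t N)
    (P : Place k E) {s : k} (hP : P.ord (t - algebraMap k E s) = 1) :
    Dn.IsRoot s ↔ P.ord δ < 0 := by
  have hDn0 : Dn ≠ 0 := by
    rintro rfl
    have hN : IsUnit N := by
      obtain ⟨a, b, hab⟩ := hcop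
      rw [mul_zero, add_zero] at hab
      exact IsUnit.of_mul_eq_one a (by rw [mul_comm]; exact hab)
    have h1 : aeval t N ≠ 0 := aeval_ne_zero E ht hN.ne_zero
    rw [map_zero, mul_zero] at hδ
    exact h1 hδ.symm
  obtain ⟨hDt0, hDord⟩ := Fermat.Agent.S40x.Diag.RefOrd.ord_aeval P hP Dn hDn0
  by_cases hN0 : N = 0
  · -- then `Dn` is a unit
    subst hN0
    have hDu : IsUnit Dn := by
      obtain ⟨a, b, hab⟩ := hcop
      rw [mul_zero, zero_add] at hab
      exact IsUnit.of_mul_eq_one b (by rw [mul_comm]; exact hab)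
    have hδ0 : δ = 0 := by
      rw [map_zero] at hδ
      rcases mul_eq_zero.mp hδ with h | h
      · exact h
      · exact absurd h hDt0
    have h1 : ¬ Dn.IsRoot s := by
      intro h
      obtain ⟨c, hc, rfl⟩ := Polynomial.isUnit_iff.mp hDu
      rw [IsRoot, eval_C] at h
      exact hc.ne_zero h
    rw [hδ0, P.ord_zero]
    exact ⟨fun h => absurd h h1, fun h => absurd h (lt_irrefl 0)⟩
  obtain ⟨hNt0, hNord⟩ := Fermat.Agent.S40x.Diag.RefOrd.ord_aeval P hP N hN0
  have hδ0 : δ ≠ 0 := by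
    rintro rfl
    rw [zero_mul] at hδ
    exact hNt0 hδ.symm
  have hord : P.ord δ = (N.rootMultiplicity s : ℤ) - Dn.rootMultiplicity s := by
    have := congrArg P.ord hδ
    rw [P.ord_mul hδ0 hDt0, hDord, hNord] at this
    omega
  constructor
  · intro hroot
    have hNs : ¬ N.IsRoot s := by
      intro hNs
      obtain ⟨a, b, hab⟩ := hcop
      have := congrArg (eval s) hab
      rw [eval_add, eval_mul, eval_mul, hNs.eq_zero, hroot.eq_zero, mul_zero, mul_zero, add_zero,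
        eval_one] at this
      exact zero_ne_one this
    have h1 : N.rootMultiplicity s = 0 := rootMultiplicity_eq_zero hNs
    have h2 : 0 < Dn.rootMultiplicity s := (rootMultiplicity_pos hDn0).mpr hroot
    rw [hord, h1]
    omega
  · intro hneg
    by_contra hroot
    have h2 : Dn.rootMultiplicity s = 0 := rootMultiplicity_eq_zero hroot
    rw [hord, h2] at hneg
    omega

end Field

/-! ### Part C: the special fibre `Fk k N` at a good level `4 ∣ N`, `ℓ ∤ N` -/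

section Fk

open Fermat.Agent.S24.Setup Fermat.Agent.Gateway.GoodRed Fermat.Agent.S40x.Diag.Abs
open Fermat.Agent.Gateway.GoodRed.ConjFamily

variable {N : ℕ} [NeZero N] (ℓ : ℕ) [Fact ℓ.Prime] (A : ValuationSubring Kbar)
  {k : Type} [Field k] [IsAlgClosed k] [CharP k ℓ] (π : A →+* k)
  (hπ : Function.Surjective π) (hℓN : ¬ ℓ ∣ N)

local notation "Ck" => (HahnSeries.C : k →+* LaurentSeries k)

theorem two_ne_zero_of_four_dvd (h4 : 4 ∣ N) (hℓN : ¬ ℓ ∣ N) : (2 : k) ≠ 0 := by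
  intro h
  have h2 : ((2 : ℕ) : k) = 0 := by exact_mod_cast h
  rw [CharP.cast_eq_zero_iff k ℓ] at h2
  exact hℓN (h2.trans ((by norm_num : (2 : ℕ) ∣ 4).trans h4))

theorem ell_ne_two (h4 : 4 ∣ N) (hℓN : ¬ ℓ ∣ N) : ℓ ≠ 2 := by
  rintro rfl
  exact hℓN ((by norm_num : (2 : ℕ) ∣ 4).trans h4)

include hπ hℓN in
/-- **UNR with the value off the cusps**: at a non-cuspidal place `P` of `Fk k N` there is
`s ≠ 0, 16` with `t - s` a uniformiser. -/
theorem exists_unif_ne (h4 : 4 ∣ N) (hA : A.LiesOverPrime ℓ) (t : Fk k N)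
    (ht : (t : LaurentSeries k) = xK k) (P : Place k (Fk k N))
    (hP : 0 ≤ P.ord (jFk k N)) :
    ∃ s : k, P.ord (t - algebraMap k (Fk k N) s) = 1 ∧ s ≠ 0 ∧ s ≠ 16 := by
  obtain ⟨s, hs⟩ := Fermat.Agent.S40x.C2.HurwitzEqB.exists_ord_sub_eq_one_four ℓ A π hπ hℓN h4 hA
    t ht P hP
  have h2 : (2 : k) ≠ 0 := two_ne_zero_of_four_dvd ℓ h4 hℓN
  -- `j * D4(t) = N4(t)` in `Fk k N`
  have hj : jFk k N * aeval t (D4k k) = aeval t (N4k k) := by
    apply Subtype.ext
    push_cast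
    rw [coe_aeval (Fk k N) ht, coe_aeval (Fk k N) ht, D4k, N4k, eval₂_map_int, eval₂_map_int]
    exact jq_relK k
  have hD0 : D4k k ≠ 0 := (D4k_monic k).ne_zero
  have hN0 : N4k k ≠ 0 := (N4k_monic k).ne_zero
  obtain ⟨hDt0, hDord⟩ := Fermat.Agent.S40x.Diag.RefOrd.ord_aeval P hs (D4k k) hD0
  have key : ∀ c : k, (D4k k).eval c = 0 → (N4k k).eval c ≠ 0 → s ≠ c := by
    rintro c hDc hNc rfl
    obtain ⟨hNt0, hNord⟩ :=
      Fermat.Agent.S40x.Diag.RefOrd.ord_aeval_of_eval_ne_zero P hs (N4k k) hNc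
    have hj0 : jFk k N ≠ 0 := by
      rintro h
      rw [h, zero_mul] at hj
      exact hNt0 hj.symm
    have h1 := congrArg P.ord hj
    rw [P.ord_mul hj0 hDt0, hDord, hNord] at h1
    have h3 : 0 < (D4k k).rootMultiplicity s := (rootMultiplicity_pos hD0).mpr hDc
    omega
  refine ⟨s, hs, key 0 (eval_D4k_zero k) ?_, key 16 (eval_D4k_sixteen k) ?_⟩
  · rw [eval_N4k_zero]
    exact pow_ne_zero _ h2
  · rw [eval_N4k_sixteen]
    exact pow_ne_zero _ h2

include hπ hℓN in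
/-- **`href` / `href'` of `Diag/Abs.diag_zero` with `e₀ = 12`, `S = {P | ord_P δ < 0}`** at the good
level `N` (`4 ∣ N`, `ℓ ∤ N`): for the reference function `Ub = Δ̄^(1-ℓ)` and the T1 function
`δ = N(t)/Dn(t)` (`Dn` squarefree, `2 deg Dn ≤ ℓ - 1`), at every non-cuspidal place `P`:
`ord_P Ub = 12` if `δ` has a pole at `P` and `0` otherwise. -/
theorem ord_Ub_of_nc (h4 : 4 ∣ N) (hA : A.LiesOverPrime ℓ) {t Ub δ : Fk k N}
    (ht : (t : LaurentSeries k) = xK k)
    (hUb : (Ub : LaurentSeries k) = (iK k (Dq k) ^ (ℓ - 1))⁻¹)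
    (Nn Dn : k[X]) (hcop : IsCoprime Nn Dn) (G : LaurentSeries k)
    (hδ : δ * aeval t Dn = aeval t Nn)
    (hD : thetaL (δ : LaurentSeries k) = xK k ^ ℓ * (G ^ ℓ - G)) (hG : G * xK k = thetaL (xK k))
    (hsq : Squarefree Dn) (hcount : 2 * Dn.natDegree ≤ ℓ - 1)
    (P : Place k (Fk k N)) (hP : 0 ≤ P.ord (jFk k N)) :
    (P.ord δ < 0 → P.ord Ub = 12) ∧ (¬ P.ord δ < 0 → P.ord Ub = 0) := by
  classical
  obtain ⟨s, hs, hs0, hs16⟩ := exists_unif_ne ℓ A π hπ hℓN h4 hA t ht P hP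
  have hr : Nn.eval₂ Ck (xK k) = (δ : LaurentSeries k) * Dn.eval₂ Ck (xK k) := by
    have h := congrArg (fun y : Fk k N => (y : LaurentSeries k)) hδ
    push_cast at h
    rw [coe_aeval (Fk k N) ht, coe_aeval (Fk k N) ht] at h
    exact h.symm
  have hord := ord_Ub_eq (Fk k N) ℓ (ell_ne_two ℓ h4 hℓN) ht hUb Nn Dn (δ : LaurentSeries k) G hr hD
    hG hsq hcount P hs hs0 hs16
  have hiff := isRoot_iff_ord_neg (Fk k N) ht Nn Dn hcop hδ P hs
  constructor
  · intro h
    rw [hord, if_pos (hiff.mpr h)]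
  · intro h
    rw [hord, if_neg (fun h' => h (hiff.mp h'))]

include hπ hℓN in
/-- the same in the `ordMod` form consumed by `Diag/Abs.diag_zero` (`e₀ = 12`). -/
theorem ordMod_Ub_of_nc (h4 : 4 ∣ N) (hA : A.LiesOverPrime ℓ) {t Ub δ : Fk k N}
    (ht : (t : LaurentSeries k) = xK k)
    (hUb : (Ub : LaurentSeries k) = (iK k (Dq k) ^ (ℓ - 1))⁻¹)
    (Nn Dn : k[X]) (hcop : IsCoprime Nn Dn) (G : LaurentSeries k)
    (hδ : δ * aeval t Dn = aeval t Nn)
    (hD : thetaL (δ : LaurentSeries k) = xK k ^ ℓ * (G ^ ℓ - G)) (hG : G * xK k = thetaL (xK k))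
    (hsq : Squarefree Dn) (hcount : 2 * Dn.natDegree ≤ ℓ - 1) :
    (∀ P : Place k (Fk k N), 0 ≤ P.ord (jFk k N) → P ∈ {Q : Place k (Fk k N) | Q.ord δ < 0} →
        ordMod ℓ P Ub = 12) ∧
      (∀ P : Place k (Fk k N), 0 ≤ P.ord (jFk k N) → P ∉ {Q : Place k (Fk k N) | Q.ord δ < 0} →
        ordMod ℓ P Ub = 0) := by
  constructor
  · intro P hP hPS
    have h := (ord_Ub_of_nc ℓ A π hπ hℓN h4 hA ht hUb Nn Dn hcop G hδ hD hG hsq hcount P hP).1 hPS
    rw [ordMod, h]
    norm_num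
  · intro P hP hPS
    have h := (ord_Ub_of_nc ℓ A π hπ hℓN h4 hA ht hUb Nn Dn hcop G hδ hD hG hsq hcount P hP).2 hPS
    rw [ordMod, h]
    norm_num

/-- `12 ≠ 0` in `ZMod ℓ` for a prime `ℓ ≥ 5`. -/
theorem twelve_ne_zero (h5 : 5 ≤ ℓ) : (12 : ZMod ℓ) ≠ 0 := by
  intro h
  have h1 : ((12 : ℕ) : ZMod ℓ) = 0 := by exact_mod_cast h
  rw [ZMod.natCast_eq_zero_iff] at h1
  have hℓ : ℓ.Prime := Fact.out
  have h2 : ℓ ∣ 2 ^ 2 * 3 := by norm_num; exact h1
  rcases (Nat.Prime.dvd_mul hℓ).mp h2 with h3 | h3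
  · have := Nat.le_of_dvd (by norm_num) (hℓ.dvd_of_dvd_pow h3)
    omega
  · have := Nat.le_of_dvd (by norm_num) h3
    omega

end Fk

end Fermat.Agent.S40x.Diag.RefOrdInst
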