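/-
P-S44/S40, block C2/DIAG, leaf D-REFID (independent second, helper63).

The explicit level-four identity  `(θ x₄)⁶ = Δ · x₄⁵ · (x₄ - 16)²`  in `ℤ((q))`
(equivalently `Δ (x₄ - 16)² = x₄ (θ x₄ / x₄)⁶`), its reduction to any coefficient ring, and
over a field of characteristic `p` the consequence for the reference function of DIAG:
`(Δ^(p-1))⁻¹ = ((x - 16)² / x)^(p-1) * (((θ x / x)^(p-1))⁶)⁻¹`.

Proof over `ℤ`: `E₄ θx C4(x) = -E₆ x (x-16) A4(x)` (landed `ThetaX4.thetaL_x4`),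
`Δ j = E₄³`, `j x (x-16)⁴ = A4(x)³` (`jq_rel`), `E₄³ - E₆² = 1728 Δ`,
`A4³ - 1728 x (x-16)⁴ = C4²` (`N4_sub`); cancel in the domain `ℤ((q))`.
-/
import Mathlib
import Fermat.Agent.S40x.Thick.ThetaX4

set_option autoImplicit false

noncomputable section

namespace Fermat.Agent.S40x.Diag.RefIdB

open Polynomial ModularCurve
open Fermat.Agent.S23.IntSeries Fermat.Agent.S16.SD Fermat.Agent.S16.Two Fermat.Agent.S16.Two.QS
open Fermat.Agent.Gateway.AuxLevel Fermat.Agent.S40x.Thick.ModM Fermat.Agent.S40x.Thick.ThetaX4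

local notation "ι" => HahnSeries.ofPowerSeries ℤ ℤ

theorem iota_Delta_ne_zero : ι DeltaZ ≠ 0 := by
  intro h
  have h1 := congrArg (fun s : LaurentSeries ℤ => s.coeff ((1 : ℕ) : ℤ)) h
  simp only [HahnSeries.ofPowerSeries_apply_coeff, HahnSeries.coeff_zero] at h1
  rw [coeff_one_DeltaZ] at h1
  exact one_ne_zero h1

/-- `E₄³ x (x-16)⁴ = Δ A4(x)³`. -/
theorem e4_cube_mul : ι E4Z ^ 3 * (L4.x4 * (L4.x4 - 16) ^ 4) = ι DeltaZ * aeval L4.x4 A4 ^ 3 := by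
  have h1 := DeltaZ_mul_jq
  have h2 := jq_rel
  rw [aeval_D4, N4, map_pow] at h2
  rw [← h1, mul_assoc, h2]

/-- `E₆² x (x-16)⁴ = Δ C4(x)²`. -/
theorem e6_sq_mul : ι E6Z ^ 2 * (L4.x4 * (L4.x4 - 16) ^ 4) = ι DeltaZ * aeval L4.x4 C4 ^ 2 := by
  have h1 := e4_cube_mul
  have h2 : ι E4Z ^ 3 - ι E6Z ^ 2 = 1728 * ι DeltaZ := by
    have := congrArg ι E4Z_cube_sub_E6Z_sq
    rwa [map_sub, map_pow, map_pow, map_mul, map_ofNat] at this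
  have h3 : aeval L4.x4 N4 - 1728 * aeval L4.x4 D4 = aeval L4.x4 C4 ^ 2 := by
    have := congrArg (aeval L4.x4) N4_sub
    rwa [map_sub, map_mul, map_pow, map_ofNat] at this
  rw [aeval_D4, N4, map_pow] at h3
  linear_combination h1 - (L4.x4 * (L4.x4 - 16) ^ 4) * h2 + ι DeltaZ * h3

theorem aeval_C4_ne_zero : aeval L4.x4 C4 ≠ 0 := by
  intro h
  have h1 := e6_sq_mul
  rw [h, zero_pow (by norm_num), mul_zero] at h1
  have h3 : L4.x4 * (L4.x4 - 16) ^ 4 ≠ 0 :=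
    mul_ne_zero L4.x4_ne_zero (pow_ne_zero _ L4.x4_sub_ne_zero)
  have h6 : ι E6Z = 0 := by
    rcases mul_eq_zero.1 h1 with h4 | h4
    · exact pow_eq_zero_iff (by norm_num) |>.1 h4
    · exact absurd h4 h3
  have h7 := congrArg (fun s : LaurentSeries ℤ => s.coeff ((0 : ℕ) : ℤ)) h6
  simp only [HahnSeries.ofPowerSeries_apply_coeff, HahnSeries.coeff_zero] at h7
  rw [coeff_E6Z, if_pos rfl] at h7
  exact one_ne_zero h7

/-- **D-REFID over `ℤ`**: `(θ x₄)⁶ = Δ · x₄⁵ · (x₄ - 16)²`. -/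
theorem thetaL_x4_pow_six :
    thetaL L4.x4 ^ 6 = ι DeltaZ * L4.x4 ^ 5 * (L4.x4 - 16) ^ 2 := by
  have ha := thetaL_x4
  have h1 := e4_cube_mul
  have h2 := e6_sq_mul
  have hne : ι DeltaZ ^ 2 * aeval L4.x4 A4 ^ 6 * aeval L4.x4 C4 ^ 6 *
      (L4.x4 * (L4.x4 - 16) ^ 4) ≠ 0 :=
    mul_ne_zero (mul_ne_zero (mul_ne_zero (pow_ne_zero _ iota_Delta_ne_zero)
      (pow_ne_zero _ aeval_A4_ne_zero)) (pow_ne_zero _ aeval_C4_ne_zero))
      (mul_ne_zero L4.x4_ne_zero (pow_ne_zero _ L4.x4_sub_ne_zero))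
  apply mul_left_cancel₀ hne
  set e4 := ι E4Z
  set e6 := ι E6Z
  set d := ι DeltaZ
  set x := L4.x4
  set A := aeval L4.x4 A4
  set Cc := aeval L4.x4 C4
  set T := thetaL L4.x4
  -- (a)^6 : e4^6 T^6 C^6 = e6^6 x^6 (x-16)^6 A^6
  have ha6 : e4 ^ 6 * T ^ 6 * Cc ^ 6 = e6 ^ 6 * x ^ 6 * (x - 16) ^ 6 * A ^ 6 := by
    have : (e4 * T * Cc) ^ 6 = (-(e6 * x * (x - 16) * A)) ^ 6 := by rw [ha]
    calc e4 ^ 6 * T ^ 6 * Cc ^ 6 = (e4 * T * Cc) ^ 6 := by ring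
      _ = (-(e6 * x * (x - 16) * A)) ^ 6 := this
      _ = e6 ^ 6 * x ^ 6 * (x - 16) ^ 6 * A ^ 6 := by ring
  have h1sq : e4 ^ 6 * (x * (x - 16) ^ 4) ^ 2 = d ^ 2 * A ^ 6 := by
    calc e4 ^ 6 * (x * (x - 16) ^ 4) ^ 2 = (e4 ^ 3 * (x * (x - 16) ^ 4)) ^ 2 := by ring
      _ = (d * A ^ 3) ^ 2 := by rw [h1]
      _ = d ^ 2 * A ^ 6 := by ring
  have h2cu : e6 ^ 6 * (x * (x - 16) ^ 4) ^ 3 = d ^ 3 * Cc ^ 6 := by
    calc e6 ^ 6 * (x * (x - 16) ^ 4) ^ 3 = (e6 ^ 2 * (x * (x - 16) ^ 4)) ^ 3 := by ring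
      _ = (d * Cc ^ 2) ^ 3 := by rw [h2]
      _ = d ^ 3 * Cc ^ 6 := by ring
  linear_combination (x * (x - 16) ^ 4) ^ 3 * ha6 - (T ^ 6 * Cc ^ 6 * (x * (x - 16) ^ 4)) * h1sq +
    (x ^ 6 * (x - 16) ^ 6 * A ^ 6) * h2cu

section ModP

variable (K : Type*) [CommRing K]

/-- **D-REFID over any coefficient ring**: `(θ x)⁶ = Δ · x⁵ · (x - 16)²`. -/
theorem thetaL_xK_pow_six :
    thetaL (xK K) ^ 6 = iK K (Dq K) * xK K ^ 5 * (xK K - 16) ^ 2 := by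
  have h := congrArg (cK K) thetaL_x4_pow_six
  rw [map_pow, map_mul, map_mul, map_pow, map_pow, map_sub, cK_thetaL, cK_ofPowerSeries,
    cK_ofNat] at h
  exact h

end ModP

section Field

variable (K : Type*) [Field K]

/-- `Δ = (θ x / x)⁶ · x / (x - 16)²` over a field. -/
theorem Dq_eq :
    iK K (Dq K) = (thetaL (xK K) / xK K) ^ 6 * (xK K / (xK K - 16) ^ 2) := by
  have hx : xK K ≠ 0 := xK_ne_zero K
  have hx16 : xK K - 16 ≠ 0 := xK_sub_ne_zero K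
  have h := thetaL_xK_pow_six K
  field_simp
  linear_combination -h

/-- **The reference function of DIAG**: `(Δ^(p-1))⁻¹ = ((x-16)²/x)^(p-1) · (Rb⁶)⁻¹` with
`Rb = (θ x / x)^(p-1)`. -/
theorem ref_eq (n : ℕ) :
    ((iK K (Dq K)) ^ n)⁻¹ =
      ((xK K - 16) ^ 2 / xK K) ^ n * (((thetaL (xK K) / xK K) ^ n) ^ 6)⁻¹ := by
  have hx : xK K ≠ 0 := xK_ne_zero K
  have hx16 : xK K - 16 ≠ 0 := xK_sub_ne_zero K
  rw [Dq_eq K, mul_pow, mul_inv, ← pow_mul, ← pow_mul, mul_comm 6 n, mul_comm, ← inv_pow,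
    inv_div]

end Field

end Fermat.Agent.S40x.Diag.RefIdB
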