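import Mathlib
import Fermat.Agent.S40x.Diag.RefId

set_option autoImplicit false

/-!
# S40x / Diag / RefIdUb : the seam D-REFID -> D-REFORD

(helper67; asked by helper43, message 24455.)  With `Ub := (Δ̄^n)⁻¹`, `Rb := (θx̄/x̄)^n` in `k((q))`:

* `ub_mul` : `Ub * (x̄^n * Rb^6) = ((x̄ - 16)²)^n`   (the hypothesis `hUb` of
  `Diag/RefOrd.ord_Ub_of_thick`, with `t = x̄`, `c = 16`);
* `rb_rel` : `B(x̄) (θx̄)^n = (x̄ (x̄-16) A4(x̄))^n  →  B(x̄) * Rb = ((x̄-16) A4(x̄))^n`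
  (the hypothesis `hRbdef`, `Den = B`, `Num = ((X-16) A4)^n`).
-/

namespace Fermat.Agent.S40x.Diag.RefIdUb

open Polynomial ModularCurve
open Fermat.Agent.S16.SD Fermat.Agent.S16.Two
open Fermat.Agent.S40x.Thick.ModM Fermat.Agent.S40x.Thick.ThetaX4 Fermat.Agent.S40x.Diag.RefId

noncomputable section

variable (k : Type*) [Field k]

/-- `Ub * (x̄^n * Rb^6) = ((x̄ - 16)²)^n` with `Ub = (Δ̄^n)⁻¹`, `Rb = (θx̄/x̄)^n`. -/
theorem ub_mul (n : ℕ) :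
    (iK k (Dq k) ^ n)⁻¹ * (xK k ^ n * ((thetaL (xK k) / xK k) ^ n) ^ 6) =
      ((xK k - 16) ^ 2) ^ n := by
  have h := delta_pow_xK k n
  have hD := pow_ne_zero n (iK_Dq_ne_zero' k)
  have hx := pow_ne_zero n (xK_ne_zero k)
  rw [div_pow, ← pow_mul, mul_comm 2 n, pow_mul]
  field_simp
  linear_combination -h

/-- `B(x̄) * Rb = ((x̄-16) A4(x̄))^n` from `B(x̄) (θx̄)^n = (x̄ (x̄-16) A4(x̄))^n`. -/
theorem rb_rel (n : ℕ) {Bx : LaurentSeries k}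
    (hB : Bx * thetaL (xK k) ^ n = (xK k * (xK k - 16) * aeval (xK k) A4) ^ n) :
    Bx * (thetaL (xK k) / xK k) ^ n = ((xK k - 16) * aeval (xK k) A4) ^ n := by
  have hx := pow_ne_zero n (xK_ne_zero k)
  rw [div_pow, mul_div_assoc', hB, mul_assoc, mul_pow (xK k)]
  field_simp

end

end Fermat.Agent.S40x.Diag.RefIdUb
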