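import Mathlib
import Fermat.Agent.S40x.Diag.RefIdUb
import Fermat.Agent.S40x.Diag.RefQ
import Fermat.Agent.S40x.Thick.RatOrdersT9
import Fermat.Agent.S40x.Thick.Haupt4kCount

set_option autoImplicit false

/-!
# S40x / Diag / RefIdUbFk : the reference identities INSIDE the function field `Fk k M`

(helper67; seam D-REFID -> D-REFORD, instance half.)  `Diag/RefIdUb` gives, in `k((q))`,
`Ub * (x̄^n * Rb^6) = ((x̄ - 16)²)^n` and `B(x̄) * Rb = ((x̄-16) A4(x̄))^n` for `Ub = (Δ̄^n)⁻¹`,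
`Rb = (θx̄/x̄)^n`.  Here the same identities are stated for ELEMENTS of an intermediate field
`E ≤ k((q))` (e.g. `E = Fk k M = modularFunctionFieldFullC k M`), in the exact shape of the
hypotheses `hden0`, `hRbdef`, `hUb` of `Diag/RefOrd.ord_Ub_of_thick` and `Diag/RefOrdNode`:

* `exists_Rb` : for `t Ub : E` with `(t : k((q))) = x̄`, `(Ub : k((q))) = (Δ̄^n)⁻¹` and a polynomial
  `Den ≠ 0` with `Den(x̄) (θx̄)^n = (x̄ (x̄-16) A4(x̄))^n` there is `Rb : E` with
  `aeval t Den ≠ 0`, `aeval t Den * Rb = aeval t (numRb k n)`,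
  `Ub * (t^n * Rb^6) = ((t - 16)²)^n`;
* `exists_Rb_Fk` : the instance `E = Fk k M`, `Ub = RefQ.UbarF k p hp2 M`, `n = p - 1`.
-/

namespace Fermat.Agent.S40x.Diag.RefIdUbFk

open Polynomial ModularCurve
open Fermat.Agent.S16.SD Fermat.Agent.S16.Two
open Fermat.Agent.S40x.Thick.ModM Fermat.Agent.S40x.Thick.ThetaX4
open Fermat.Agent.S40x.Thick.RatOrdersT9 (numRb)
open Fermat.Agent.Gateway.AuxLevel.L4 (x4k)

noncomputable section

variable (k : Type) [Field k]

/-- `aeval x̄ A4 = x̄² + 224 x̄ + 256` for the integer polynomial `A4`. -/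
theorem aeval_A4_K (x : LaurentSeries k) : aeval x A4 = x ^ 2 + 224 * x + 256 := by
  simp only [A4, map_add, map_mul, map_pow, aeval_X, map_ofNat]

/-- the numerator `numRb k n = ((X - 16) (X² + 224 X + 256))^n` evaluated at a series. -/
theorem aeval_numRb (x : LaurentSeries k) (n : ℕ) :
    aeval x (numRb k n) = ((x - 16) * aeval x A4) ^ n := by
  rw [aeval_A4_K, numRb]
  simp only [map_pow, map_mul, map_sub, map_add, aeval_X, map_ofNat]

/-- `eval₂ C = aeval` on `k((q))`. -/
theorem eval₂_C_eq_aeval (x : LaurentSeries k) (P : k[X]) :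
    P.eval₂ (HahnSeries.C : k →+* LaurentSeries k) x = aeval x P := by
  rw [aeval_def]
  congr 1
  exact RingHom.ext fun c => Fermat.Agent.S28.C_eq_algebraMap_laurent c

variable {k}

/-- **the reference identities inside an intermediate field** `E ≤ k((q))`. -/
theorem exists_Rb {E : IntermediateField k (LaurentSeries k)} (n : ℕ) {t Ub : E}
    (ht : (t : LaurentSeries k) = x4k k) (hUb : (Ub : LaurentSeries k) = (iK k (Dq k) ^ n)⁻¹)
    {Den : k[X]} (hDen : Den ≠ 0)
    (hB : Den.eval₂ (HahnSeries.C : k →+* LaurentSeries k) (xK k) * thetaL (xK k) ^ n =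
      (xK k * (xK k - 16) * aeval (xK k) A4) ^ n) :
    ∃ Rb : E, aeval t Den ≠ 0 ∧ aeval t Den * Rb = aeval t (numRb k n) ∧
      Ub * (t ^ n * Rb ^ 6) = ((t - algebraMap k E 16) ^ 2) ^ n := by
  have hx : xK k = x4k k := rfl
  -- coercion of `aeval t P`
  have hco : ∀ P : k[X], ((aeval t P : E) : LaurentSeries k) = aeval (xK k) P := by
    intro P
    rw [hx, ← ht]
    exact (Polynomial.aeval_algebraMap_apply (LaurentSeries k) t P).symm
  have hden0' : aeval (xK k) Den ≠ 0 := by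
    rw [hx, Ne, Fermat.Agent.S40x.Thick.Haupt4k.aeval_x4k_eq_zero_iff]
    exact hDen
  have hden0 : aeval t Den ≠ 0 := by
    intro h
    apply hden0'
    rw [← hco, h]
    rfl
  refine ⟨aeval t (numRb k n) / aeval t Den, hden0, mul_div_cancel₀ _ hden0, ?_⟩
  -- the value of `Rb` in `k((q))`
  have hrb := RefIdUb.rb_rel k n (Bx := aeval (xK k) Den) (by rw [← eval₂_C_eq_aeval]; exact hB)
  have hRb : ((aeval t (numRb k n) / aeval t Den : E) : LaurentSeries k) =
      (thetaL (xK k) / xK k) ^ n := by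
    have h1 : ((aeval t (numRb k n) / aeval t Den : E) : LaurentSeries k) =
        aeval (xK k) (numRb k n) / aeval (xK k) Den := by
      rw [← hco, ← hco]
      rfl
    rw [h1, aeval_numRb, ← hrb, mul_div_cancel_left₀ _ hden0']
  -- compare in `k((q))`
  apply Subtype.ext
  have h16 : ((algebraMap k E 16 : E) : LaurentSeries k) = 16 := by
    have : ((algebraMap k E 16 : E) : LaurentSeries k) = algebraMap k (LaurentSeries k) 16 := rfl
    rw [this, map_ofNat]
  have hL : ((Ub * (t ^ n * (aeval t (numRb k n) / aeval t Den) ^ 6) : E) : LaurentSeries k) =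
      (Ub : LaurentSeries k) * ((t : LaurentSeries k) ^ n *
        ((aeval t (numRb k n) / aeval t Den : E) : LaurentSeries k) ^ 6) := rfl
  have hR : ((((t - algebraMap k E 16) ^ 2) ^ n : E) : LaurentSeries k) =
      (((t : LaurentSeries k) - ((algebraMap k E 16 : E) : LaurentSeries k)) ^ 2) ^ n := rfl
  rw [hL, hR, hRb, hUb, ht, h16, ← hx]
  exact RefIdUb.ub_mul k n

/-- **the instance `E = Fk k M`**, `Ub = Ū = Δ̄^(1-p)` (`RefQ.UbarF`), `n = p - 1`: the hypotheses
`hden0`, `hRbdef`, `hUb` of `Diag/RefOrd.ord_Ub_of_thick` / `Diag/RefOrdNode` (with `c = 16`,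
`Num = numRb k (p - 1)`, `Den` = the polynomial of `ThetaX4K.exists_denominator`). -/
theorem exists_Rb_Fk (p : ℕ) [Fact p.Prime] [CharP k p] (hp2 : p ≠ 2) (M : ℕ)
    {t : modularFunctionFieldFullC k M}
    (ht : (t : LaurentSeries k) = x4k k) {Den : k[X]} (hDen : Den ≠ 0)
    (hB : Den.eval₂ (HahnSeries.C : k →+* LaurentSeries k) (xK k) * thetaL (xK k) ^ (p - 1) =
      (xK k * (xK k - 16) * aeval (xK k) A4) ^ (p - 1)) :
    ∃ Rb : modularFunctionFieldFullC k M, aeval t Den ≠ 0 ∧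
      aeval t Den * Rb = aeval t (numRb k (p - 1)) ∧
      RefQ.UbarF k p hp2 M * (t ^ (p - 1) * Rb ^ 6) =
        ((t - algebraMap k (modularFunctionFieldFullC k M) 16) ^ 2) ^ (p - 1) :=
  exists_Rb (p - 1) ht (RefQ.UbarF_val k p hp2 M) hDen hB

end

end Fermat.Agent.S40x.Diag.RefIdUbFk
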