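/-
helper43 (P-S44, block C2/DIAG, leaf D-REFORD route D, seam to the node places of R1/C3):
**the reference orders at the node places**.

Composite of `Diag/RefOrd.ord_Ub_of_thick` (orders of `Ub` in terms of the roots of the denominator
`B` of the thickness function `δ = r(x̄)`) and `Diag/NodePole.not_isNonNode_iff_isRoot` (node places
= roots of `B`), in the GENERIC two-valuation chart (`Thick/PolesNodes`, `Thick/Assemble`):

* `ord_Ub_node` : at a place `P` of `κ₁` with uniformiser `x̄ - s`, `s ≠ 0, c`: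
  `P.ord Ub = 12` if `P` is a node place (`¬ Node/SmoothInst.IsNonNode₁ C P`, unfolded), `0`
  otherwise;
* `ordMod_Ub_of_node`, `ordMod_Ub_of_nonNode` : the same in the shape `href`, `href'` of
  `Diag/Abs.diag_zero` (`e₀ = 12`);
* `twelve_ne_zero` : `e₀ = 12 ≠ 0` in `ZMod p` for a prime `p ≥ 5`.
-/
import Fermat.Agent.S40x.Diag.NodePole
import Fermat.Agent.S40x.Diag.Abs

set_option autoImplicit false
set_option linter.unusedSectionVars false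
set_option linter.style.haveILetI false

noncomputable section

namespace Fermat.Agent.S40x.Diag.RefOrdNode

open AlgebraicCurve Polynomial
open Fermat.Agent.S34x Fermat.Agent.S34x.C0two Fermat.Agent.S34x.Lattice2
open Fermat.Agent.S33x.H1.InstC1 Fermat.Agent.S33x.H1.InstBBasic
open Fermat.Agent.S40x.Thick.PolesNodes Fermat.Agent.S40x.Thick.Assemble
open Fermat.Agent.S40x.Diag.Abs

variable {K : Type*} [Field K] {A : ValuationSubring K} {F : Type*} [Field F] [Algebra K F]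
  {O₁ O₂ : ValuationSubring F} {k κ₁ κ₂ : Type*} [Field k] [Field κ₁] [Field κ₂]
  [Algebra k κ₁] [Algebra k κ₂]
  (R₁ : Fermat.Agent.Gateway.C0.RedSetup A O₁ k κ₁)
  (R₂ : Fermat.Agent.Gateway.C0.RedSetup A O₂ k κ₂) (hπ : R₁.π = R₂.π)
  (C : ChartCoord (redSetupTwoVal R₁ R₂ hπ))

/-- **REF-ORD at the node places**: `ord_P Ub = 12` at the node places, `0` at the other places
with uniformiser `x̄ - s`, `s ≠ 0, c`. -/
theorem ord_Ub_node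
    -- the polynomial data of `Diag/RefOrd` (`δ = r(x̄)`, `A = r.num`, `B = r.denom`)
    (e m : ℕ) (c : k) (r : RatFunc k) (Num Den H : k[X]) (a b : ℕ) (hH : H ≠ 0)
    (hDen0 : Den.eval 0 ≠ 0) (hDenc : Den.eval c ≠ 0)
    (hNum0 : Num ≠ 0) (hNum : (X - Polynomial.C c) ^ m ∣ Num) (hdeg : Num.natDegree ≤ Den.natDegree)
    (hrel : (derivative r.num * r.denom - r.num * derivative r.denom) * Den =
      X ^ e * (Num - Den) * r.denom ^ 2)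
    (hden : r.denom ∣ X ^ a * (X - Polynomial.C c) ^ b * H)
    (hS : 2 * H.natDegree ≤ m) (hBsq : Squarefree r.denom)
    -- the place
    (P : Place k κ₁) {s : k}
    (hP : P.ord (xb R₁ R₂ hπ C - algebraMap k κ₁ s) = 1) (hs0 : s ≠ 0) (hsc : s ≠ c)
    -- the functions `Rb`, `Ub`
    {Rb Ub : κ₁} (hden0 : aeval (xb R₁ R₂ hπ C) Den ≠ 0)
    (hRbdef : aeval (xb R₁ R₂ hπ C) Den * Rb = aeval (xb R₁ R₂ hπ C) Num) (n : ℕ)
    (hUb : Ub * (xb R₁ R₂ hπ C ^ n * Rb ^ 6) = ((xb R₁ R₂ hπ C - algebraMap k κ₁ c) ^ 2) ^ n)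
    -- the thickness data of `Thick/Assemble`
    {u u' w : F} {ϖ : A} (hϖ : ϖ ≠ 0) (hu : u ∈ BooAlg C) (huw : u = ϖ • w) (hw : w ∈ O₁)
    (hu' : u' ∈ BooAlg C) (hg0 : rho₂ R₁ R₂ hπ C ⟨u', hu'⟩ = 0) (hΨ : w * u' ∈ BooAlg C)
    {E bE E' : BooAlg C} (hE : rho₂ R₁ R₂ hπ C E = 0) (hE' : rho₁ R₁ R₂ hπ C E' = 0)
    (hsum : E + bE * ⟨w * u', hΨ⟩ + E' = 1)
    -- `δ = r(x̄)`
    (ev : RatFunc k →+* κ₁)
    (hev : ∀ g : k[X], ev (algebraMap k[X] (RatFunc k) g) = aeval (xb R₁ R₂ hπ C) g)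
    (hr : R₁.res ⟨w, hw⟩ = ev r)
    [Decidable (∃ a : C.B₁, ((a, 0) : C.B₁ × C.B₂) ∈ C.BbarT ∧
      (a : κ₁) ∉ P.toValuationSubring.nonunits)] :
    P.ord Ub = if (∃ a : C.B₁, ((a, 0) : C.B₁ × C.B₂) ∈ C.BbarT ∧
      (a : κ₁) ∉ P.toValuationSubring.nonunits) then 0 else 12 := by
  classical
  have h1 := RefOrd.ord_Ub_of_thick e m c r.num r.denom Num Den H a b hH hDen0 hDenc hNum0 hNum
    hdeg hrel hden hS hBsq P hP hs0 hsc hden0 hRbdef n hUb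
  have h2 := NodePole.not_isNonNode_iff_isRoot R₁ R₂ hπ C P hP hϖ hu huw hw hu' hg0 hΨ hE hE'
    hsum ev hev r hr
  rw [h1]
  by_cases hN : ∃ a : C.B₁, ((a, 0) : C.B₁ × C.B₂) ∈ C.BbarT ∧
      (a : κ₁) ∉ P.toValuationSubring.nonunits
  · rw [if_pos hN, if_neg (fun hroot => (h2.mpr hroot) hN)]
  · rw [if_neg hN, if_pos (h2.mp hN)]

/-- `href` of `Diag/Abs.diag_zero`, `e₀ = 12`, `S` = node places. -/
theorem ordMod_Ub_of_node (p : ℕ)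
    (e m : ℕ) (c : k) (r : RatFunc k) (Num Den H : k[X]) (a b : ℕ) (hH : H ≠ 0)
    (hDen0 : Den.eval 0 ≠ 0) (hDenc : Den.eval c ≠ 0)
    (hNum0 : Num ≠ 0) (hNum : (X - Polynomial.C c) ^ m ∣ Num) (hdeg : Num.natDegree ≤ Den.natDegree)
    (hrel : (derivative r.num * r.denom - r.num * derivative r.denom) * Den =
      X ^ e * (Num - Den) * r.denom ^ 2)
    (hden : r.denom ∣ X ^ a * (X - Polynomial.C c) ^ b * H)
    (hS : 2 * H.natDegree ≤ m) (hBsq : Squarefree r.denom)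
    (P : Place k κ₁) {s : k}
    (hP : P.ord (xb R₁ R₂ hπ C - algebraMap k κ₁ s) = 1) (hs0 : s ≠ 0) (hsc : s ≠ c)
    {Rb Ub : κ₁} (hden0 : aeval (xb R₁ R₂ hπ C) Den ≠ 0)
    (hRbdef : aeval (xb R₁ R₂ hπ C) Den * Rb = aeval (xb R₁ R₂ hπ C) Num) (n : ℕ)
    (hUb : Ub * (xb R₁ R₂ hπ C ^ n * Rb ^ 6) = ((xb R₁ R₂ hπ C - algebraMap k κ₁ c) ^ 2) ^ n)
    {u u' w : F} {ϖ : A} (hϖ : ϖ ≠ 0) (hu : u ∈ BooAlg C) (huw : u = ϖ • w) (hw : w ∈ O₁)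
    (hu' : u' ∈ BooAlg C) (hg0 : rho₂ R₁ R₂ hπ C ⟨u', hu'⟩ = 0) (hΨ : w * u' ∈ BooAlg C)
    {E bE E' : BooAlg C} (hE : rho₂ R₁ R₂ hπ C E = 0) (hE' : rho₁ R₁ R₂ hπ C E' = 0)
    (hsum : E + bE * ⟨w * u', hΨ⟩ + E' = 1)
    (ev : RatFunc k →+* κ₁)
    (hev : ∀ g : k[X], ev (algebraMap k[X] (RatFunc k) g) = aeval (xb R₁ R₂ hπ C) g)
    (hr : R₁.res ⟨w, hw⟩ = ev r)
    (hnode : ¬ ∃ a : C.B₁, ((a, 0) : C.B₁ × C.B₂) ∈ C.BbarT ∧
      (a : κ₁) ∉ P.toValuationSubring.nonunits) :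
    ordMod p P Ub = 12 := by
  classical
  have h := ord_Ub_node R₁ R₂ hπ C e m c r Num Den H a b hH hDen0 hDenc hNum0 hNum hdeg hrel hden
    hS hBsq P hP hs0 hsc hden0 hRbdef n hUb hϖ hu huw hw hu' hg0 hΨ hE hE' hsum ev hev hr
  rw [if_neg hnode] at h
  rw [ordMod, h]
  norm_num

/-- `href'` of `Diag/Abs.diag_zero`, `S` = node places. -/
theorem ordMod_Ub_of_nonNode (p : ℕ)
    (e m : ℕ) (c : k) (r : RatFunc k) (Num Den H : k[X]) (a b : ℕ) (hH : H ≠ 0)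
    (hDen0 : Den.eval 0 ≠ 0) (hDenc : Den.eval c ≠ 0)
    (hNum0 : Num ≠ 0) (hNum : (X - Polynomial.C c) ^ m ∣ Num) (hdeg : Num.natDegree ≤ Den.natDegree)
    (hrel : (derivative r.num * r.denom - r.num * derivative r.denom) * Den =
      X ^ e * (Num - Den) * r.denom ^ 2)
    (hden : r.denom ∣ X ^ a * (X - Polynomial.C c) ^ b * H)
    (hS : 2 * H.natDegree ≤ m) (hBsq : Squarefree r.denom)
    (P : Place k κ₁) {s : k}
    (hP : P.ord (xb R₁ R₂ hπ C - algebraMap k κ₁ s) = 1) (hs0 : s ≠ 0) (hsc : s ≠ c)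
    {Rb Ub : κ₁} (hden0 : aeval (xb R₁ R₂ hπ C) Den ≠ 0)
    (hRbdef : aeval (xb R₁ R₂ hπ C) Den * Rb = aeval (xb R₁ R₂ hπ C) Num) (n : ℕ)
    (hUb : Ub * (xb R₁ R₂ hπ C ^ n * Rb ^ 6) = ((xb R₁ R₂ hπ C - algebraMap k κ₁ c) ^ 2) ^ n)
    {u u' w : F} {ϖ : A} (hϖ : ϖ ≠ 0) (hu : u ∈ BooAlg C) (huw : u = ϖ • w) (hw : w ∈ O₁)
    (hu' : u' ∈ BooAlg C) (hg0 : rho₂ R₁ R₂ hπ C ⟨u', hu'⟩ = 0) (hΨ : w * u' ∈ BooAlg C)
    {E bE E' : BooAlg C} (hE : rho₂ R₁ R₂ hπ C E = 0) (hE' : rho₁ R₁ R₂ hπ C E' = 0)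
    (hsum : E + bE * ⟨w * u', hΨ⟩ + E' = 1)
    (ev : RatFunc k →+* κ₁)
    (hev : ∀ g : k[X], ev (algebraMap k[X] (RatFunc k) g) = aeval (xb R₁ R₂ hπ C) g)
    (hr : R₁.res ⟨w, hw⟩ = ev r)
    (hnon : ∃ a : C.B₁, ((a, 0) : C.B₁ × C.B₂) ∈ C.BbarT ∧
      (a : κ₁) ∉ P.toValuationSubring.nonunits) :
    ordMod p P Ub = 0 := by
  classical
  have h := ord_Ub_node R₁ R₂ hπ C e m c r Num Den H a b hH hDen0 hDenc hNum0 hNum hdeg hrel hden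
    hS hBsq P hP hs0 hsc hden0 hRbdef n hUb hϖ hu huw hw hu' hg0 hΨ hE hE' hsum ev hev hr
  rw [if_pos hnon] at h
  rw [ordMod, h]
  norm_num

/-- `he₀` of `Diag/Abs.diag_zero`: `12 ≠ 0` in `ZMod p` for a prime `p ≥ 5`. -/
theorem twelve_ne_zero (p : ℕ) [Fact p.Prime] (hp5 : 5 ≤ p) : (12 : ZMod p) ≠ 0 := by
  have hp : p.Prime := Fact.out
  intro h
  have h1 : ((12 : ℕ) : ZMod p) = 0 := by exact_mod_cast h
  rw [ZMod.natCast_eq_zero_iff] at h1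
  have h2 : p ∣ 2 ^ 2 * 3 := by norm_num; exact h1
  rcases (Nat.Prime.dvd_mul hp).mp h2 with h3 | h3
  · have := (Nat.prime_dvd_prime_iff_eq hp Nat.prime_two).mp (hp.dvd_of_dvd_pow h3)
    omega
  · have := (Nat.prime_dvd_prime_iff_eq hp Nat.prime_three).mp h3
    omega

end Fermat.Agent.S40x.Diag.RefOrdNode
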