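/-
helper43 (P-S44, block C2/DIAG, leaf D-REFORD route D): **the reference block of DIAG in final
shape, in the generic two-valuation chart**.

Composite of `Diag/RefOrdNode` (orders of `Ub` at node / non-node places with uniformiser `x̄ - s`),
`Diag/NodeNonCusp` (node places lie over the roots of the denominator of `δ`, hence are
non-cuspidal) and `Diag/NonCuspValue` (the value of `x̄` at a non-cuspidal place is `≠ 0, c`),
with the three place-level inputs of block C2 as hypotheses: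

* `hval`  : at a place where `x̄` is regular, `x̄` has a value `s` (`DerivPlace.exists_ord_sub_pos`);
* `hunr`  : (C2-UNR) at a non-cuspidal place with `x̄(P) = s`, `x̄ - s` is a uniformiser
  (`HurwitzEqFour.unramified_off_cusps_four`);
* `hreg`  : `x̄` is regular at the non-cuspidal places (`HurwitzEqFour.pole_of_pole_four`).

Non-cuspidal: `NC P := 0 ≤ ord_P j̄`, `j̄ * D(x̄) = N(x̄)`, `D = X^aj (X - c)^bj`.  Node places:
`S := {P | x̄ ∈ O_P ∧ ¬ SmoothInst.IsNonNode₁ C P}` (unfolded).  Results: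

* `noncusp_of_node` : `hSnc`, the node places are non-cuspidal;
* `ordMod_Ub_of_node` / `ordMod_Ub_of_nonNode` : `href` / `href'` of `Diag/Abs.diag_zero`
  (`e₀ = 12`) at EVERY non-cuspidal place, no further place hypothesis.
-/
import Fermat.Agent.S40x.Diag.RefOrdNode
import Fermat.Agent.S40x.Diag.NonCuspValue

set_option autoImplicit false
set_option linter.unusedSectionVars false
set_option linter.style.haveILetI false

noncomputable section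

namespace Fermat.Agent.S40x.Diag.RefOrdChart

open AlgebraicCurve Polynomial
open Fermat.Agent.S34x Fermat.Agent.S34x.C0two Fermat.Agent.S34x.Lattice2
open Fermat.Agent.S33x.H1.InstC1 Fermat.Agent.S33x.H1.InstBBasic
open Fermat.Agent.S40x.Thick.PolesNodes Fermat.Agent.S40x.Thick.Assemble
open Fermat.Agent.S40x.Diag.Abs

variable {K : Type*} [Field K] {A : ValuationSubring K} {F : Type*} [Field F] [Algebra K F]
  {O₁ O₂ : ValuationSubring F} {k κ₁ κ₂ : Type*} [Field k] [Field κ₁] [Field κ₂]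
  [Algebra k κ₁] [Algebra k κ₂]
  (R₁ : Fermat.Agent.Gateway.C0.RedSetup A O₁ k κ₁)
  (R₂ : Fermat.Agent.Gateway.C0.RedSetup A O₂ k κ₂) (hπ : R₁.π = R₂.π)
  (C : ChartCoord (redSetupTwoVal R₁ R₂ hπ))
  -- the polynomial data of `Diag/RefOrd` (`δ = r(x̄)`, `A = r.num`, `B = r.denom ∣ H`)
  (e m : ℕ) (c : k) (r : RatFunc k) (Num Den H : k[X]) (a b : ℕ) (hH : H ≠ 0)
  (hDen0 : Den.eval 0 ≠ 0) (hDenc : Den.eval c ≠ 0)
  (hNum0 : Num ≠ 0) (hNum : (X - Polynomial.C c) ^ m ∣ Num)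
  (hdeg : Num.natDegree ≤ Den.natDegree)
  (hrel : (derivative r.num * r.denom - r.num * derivative r.denom) * Den =
    X ^ e * (Num - Den) * r.denom ^ 2)
  (hden : r.denom ∣ X ^ a * (X - Polynomial.C c) ^ b * H)
  (hS : 2 * H.natDegree ≤ m) (hBsq : Squarefree r.denom) (hc : c ≠ 0) (hBH : r.denom ∣ H)
  -- the functions `Rb`, `Ub`
  {Rb Ub : κ₁} (hden0 : aeval (xb R₁ R₂ hπ C) Den ≠ 0)
  (hRbdef : aeval (xb R₁ R₂ hπ C) Den * Rb = aeval (xb R₁ R₂ hπ C) Num) (n : ℕ)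
  (hUb : Ub * (xb R₁ R₂ hπ C ^ n * Rb ^ 6) = ((xb R₁ R₂ hπ C - algebraMap k κ₁ c) ^ 2) ^ n)
  -- the thickness data of `Thick/Assemble`
  {u u' w : F} {ϖ : A} (hϖ : ϖ ≠ 0) (hu : u ∈ BooAlg C) (huw : u = ϖ • w) (hw : w ∈ O₁)
  (hu' : u' ∈ BooAlg C) (hg0 : rho₂ R₁ R₂ hπ C ⟨u', hu'⟩ = 0) (hΨ : w * u' ∈ BooAlg C)
  {E bE E' : BooAlg C} (hE : rho₂ R₁ R₂ hπ C E = 0) (hE' : rho₁ R₁ R₂ hπ C E' = 0)
  (hsum : E + bE * ⟨w * u', hΨ⟩ + E' = 1)
  -- `δ = r(x̄)`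
  (ev : RatFunc k →+* κ₁)
  (hev : ∀ g : k[X], ev (algebraMap k[X] (RatFunc k) g) = aeval (xb R₁ R₂ hπ C) g)
  (hr : R₁.res ⟨w, hw⟩ = ev r)
  -- `j̄ = Nj(x̄) / (x̄^aj (x̄ - c)^bj)`
  {jb : κ₁} {Nj : k[X]} {aj bj : ℕ} (haj : aj ≠ 0) (hbj : bj ≠ 0)
  (hj : jb * aeval (xb R₁ R₂ hπ C) (X ^ aj * (X - Polynomial.C c) ^ bj : k[X]) =
    aeval (xb R₁ R₂ hπ C) Nj)
  (hNj0 : Nj.eval 0 ≠ 0) (hNjc : Nj.eval c ≠ 0)
  (hDj0 : aeval (xb R₁ R₂ hπ C) (X ^ aj * (X - Polynomial.C c) ^ bj : k[X]) ≠ 0)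
  -- the place-level inputs of block C2
  (hval : ∀ P : Place k κ₁, xb R₁ R₂ hπ C ∈ P.toValuationSubring →
    ∃ s : k, 0 < P.ord (xb R₁ R₂ hπ C - algebraMap k κ₁ s))
  (hunr : ∀ (P : Place k κ₁) (s : k), 0 ≤ P.ord jb →
    0 < P.ord (xb R₁ R₂ hπ C - algebraMap k κ₁ s) →
    P.ord (xb R₁ R₂ hπ C - algebraMap k κ₁ s) = 1)
  (hreg : ∀ P : Place k κ₁, 0 ≤ P.ord jb → xb R₁ R₂ hπ C ∈ P.toValuationSubring)

include hH hDen0 hDenc hNum0 hNum hdeg hrel hden hS hc hBH hw hu' hg0 hΨ hE hE' hsum hev hr hj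
  hval in
/-- **`hSnc`**: the node places are non-cuspidal. -/
theorem noncusp_of_node (P : Place k κ₁) (hT : xb R₁ R₂ hπ C ∈ P.toValuationSubring)
    (hnode : ¬ ∃ a : C.B₁, ((a, 0) : C.B₁ × C.B₂) ∈ C.BbarT ∧
      (a : κ₁) ∉ P.toValuationSubring.nonunits) : 0 ≤ P.ord jb := by
  obtain ⟨s, hpos⟩ := hval P hT
  obtain ⟨-, hs0, hsc⟩ := NodeNonCusp.ne_of_node R₁ R₂ hπ C P hpos hw hu' hg0 hΨ hE hE' hsum ev hev
    r hr hnode e m c Num Den H a b hH hDen0 hDenc hNum0 hNum hdeg hrel hden hS hc hBH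
  refine NodeNonCusp.ord_quot_nonneg P hpos hj ?_
  rw [eval_mul, eval_pow, eval_pow, eval_X, eval_sub, eval_X, eval_C]
  exact mul_ne_zero (pow_ne_zero _ hs0) (pow_ne_zero _ (sub_ne_zero.mpr hsc))

include hH hDen0 hDenc hNum0 hNum hdeg hrel hden hS hBsq hc hBH hden0 hRbdef hUb hϖ hu huw hw hu'
  hg0 hΨ hE hE' hsum hev hr hval hunr hreg in
/-- **`href`** of `Diag/Abs.diag_zero`: `ord_P Ub ≡ 12` at the non-cuspidal node places. -/
theorem ordMod_Ub_of_node (p : ℕ) (P : Place k κ₁) (hNC : 0 ≤ P.ord jb)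
    (hnode : ¬ ∃ a : C.B₁, ((a, 0) : C.B₁ × C.B₂) ∈ C.BbarT ∧
      (a : κ₁) ∉ P.toValuationSubring.nonunits) : ordMod p P Ub = 12 := by
  obtain ⟨s, hpos⟩ := hval P (hreg P hNC)
  have hP := hunr P s hNC hpos
  obtain ⟨-, hs0, hsc⟩ := NodeNonCusp.ne_of_node R₁ R₂ hπ C P hpos hw hu' hg0 hΨ hE hE' hsum ev hev
    r hr hnode e m c Num Den H a b hH hDen0 hDenc hNum0 hNum hdeg hrel hden hS hc hBH
  exact RefOrdNode.ordMod_Ub_of_node R₁ R₂ hπ C p e m c r Num Den H a b hH hDen0 hDenc hNum0 hNum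
    hdeg hrel hden hS hBsq P hP hs0 hsc hden0 hRbdef n hUb hϖ hu huw hw hu' hg0 hΨ hE hE' hsum ev
    hev hr hnode

include hH hDen0 hDenc hNum0 hNum hdeg hrel hden hS hBsq hden0 hRbdef hUb hϖ hu huw hw hu'
  hg0 hΨ hE hE' hsum hev hr haj hbj hj hNj0 hNjc hDj0 hval hunr hreg in
/-- **`href'`** of `Diag/Abs.diag_zero`: `ord_P Ub ≡ 0` at the non-cuspidal non-node places. -/
theorem ordMod_Ub_of_nonNode (p : ℕ) (P : Place k κ₁) (hNC : 0 ≤ P.ord jb)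
    (hnon : ∃ a : C.B₁, ((a, 0) : C.B₁ × C.B₂) ∈ C.BbarT ∧
      (a : κ₁) ∉ P.toValuationSubring.nonunits) : ordMod p P Ub = 0 := by
  obtain ⟨s, hpos⟩ := hval P (hreg P hNC)
  have hP := hunr P s hNC hpos
  obtain ⟨hs0, hsc⟩ := NonCuspValue.ne_of_ord_nonneg P hpos haj hbj hj hNj0 hNjc hDj0 hNC
  exact RefOrdNode.ordMod_Ub_of_nonNode R₁ R₂ hπ C p e m c r Num Den H a b hH hDen0 hDenc hNum0
    hNum hdeg hrel hden hS hBsq P hP hs0 hsc hden0 hRbdef n hUb hϖ hu huw hw hu' hg0 hΨ hE hE' hsum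
    ev hev hr hnon

end Fermat.Agent.S40x.Diag.RefOrdChart
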