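import Fermat.Agent.S40x.Diag.Block
import Fermat.Agent.S40x.Diag.HABDeg

/-!
# P-S44, block DIAG (G3): the closed proposition `Block.StableFacts` (helper1)

`Diag/Block.StableFacts` (helper71: Hecke stability of the lattice `Λ = {φ | p ∣ ord_P φ on NC}` for
every prime `ℓ ∤ M₀ p`, at `k = ResidueField B`, `B` a place of `ℚ̄` over `p`) is the landed
`Diag/HABDeg.hAB_deg` at `L := ℚ̄`, `A := B`, `π := residue B`, `M := M₀`, `l := ℓ`
(`Block.NCset` and `CuspFun.NC` are the same set `{P | 0 ≤ P.ord j̄}`).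
Nothing new is proved here.
-/

set_option autoImplicit false
set_option linter.style.haveILetI false
set_option linter.unusedSectionVars false

noncomputable section

namespace Fermat.Agent.S40x.Diag.StableDeg

open ModularCurve AlgebraicCurve IsLocalRing
open Fermat.Agent.S34x.Inst
open Fermat.Agent.S40x.Geo.Vocab

local notation "Qb" => AlgebraicClosure ℚ

/-- **`StableFacts`** (F3 of the DIAG block): closed, no hypotheses. -/
theorem stableFacts_deg : Block.StableFacts := by
  intro p M₀ _ _ hp _ hpM _ B hB ℓ _ hℓ hℓN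
  haveI : Fact p.Prime := ⟨hp⟩
  haveI : IsAlgClosed (ResidueField B) := FinalBase.isAlgClosed_residueField B
  haveI : CharP (ResidueField B) p := FinalBase.charP_residueField B hB
  have hℓM : ¬ ℓ ∣ M₀ := fun h => hℓN (Dvd.dvd.mul_right h p)
  have hℓp : ¬ p ∣ ℓ := fun h =>
    hℓN (((Nat.prime_dvd_prime_iff_eq hp hℓ).mp h) ▸ dvd_mul_left p M₀)
  have hpMℓ : ¬ p ∣ M₀ * ℓ := fun h => (hp.dvd_mul.mp h).elim hpM hℓp
  exact HABDeg.hAB_deg B (residue B) p M₀ ℓ (FinalBase.residue_surjective B) hpM hpMℓ hℓ hℓM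

end Fermat.Agent.S40x.Diag.StableDeg
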