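import Fermat.Agent.S40x.Diag.Block
import Fermat.Agent.S40x.Diag.DegCInst

/-!
# P-S44 (C2 / DIAG): the closed fact `(F3) StableFacts` of `Diag/Block` (helper89)

`stableFacts : Block.StableFacts`: Hecke stability of the lattice
`Λ = {φ ∈ (Fk k M₀)ˣ | p ∣ ord_P φ at every non-cuspidal place}` at `k = ResidueField B`, for every
prime `ℓ ∤ M₀ p`.  It is `DegCInst.hAB_Fk` (claims (A) + (B) at the degeneracy maps of `Diag/DegC`,
all hypotheses discharged) at `L = ℚ̄`, `A = B`, `π = residue B`.
-/

set_option autoImplicit false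
set_option linter.unusedSectionVars false
set_option linter.unusedVariables false
set_option linter.style.haveILetI false

noncomputable section

namespace Fermat.Agent.S40x.Diag.StableInstC

open ModularCurve AlgebraicCurve IsLocalRing
open Fermat.Agent.Gateway.GoodRed.ConjFamily
open Fermat.Agent.S34x.Inst
open Fermat.Agent.S40x.C2.DlogHecke
open Fermat.Agent.S40x.Geo.Vocab
open Fermat.Agent.S40x.Diag.Block

local notation "Qb" => AlgebraicClosure ℚ

/-- **(F3)** of `Diag/Block`. -/
theorem stableFacts : StableFacts := by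
  intro p M₀ _ _ hp hp5 hpM h4 B hB ℓ _ hℓ hℓN φ hφ hdiv
  haveI : Fact p.Prime := ⟨hp⟩
  haveI : IsAlgClosed (ResidueField B) := FinalBase.isAlgClosed_residueField B
  haveI : CharP (ResidueField B) p := FinalBase.charP_residueField B hB
  have hℓM : ¬ ℓ ∣ M₀ := fun h => hℓN (h.mul_right p)
  have hpℓ : p ≠ ℓ := fun h => hℓN (h ▸ dvd_mul_left p M₀)
  have hpMℓ : ¬ p ∣ M₀ * ℓ := by
    intro h
    rcases hp.dvd_mul.1 h with h1 | h1
    · exact hpM h1
    · exact hpℓ ((Nat.prime_dvd_prime_iff_eq hp hℓ).mp h1)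
  exact DegCInst.hAB_Fk B (residue B) p M₀ ℓ (FinalBase.residue_surjective B) hpM hpMℓ hℓ hℓM
    φ hφ hdiv

end Fermat.Agent.S40x.Diag.StableInstC
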